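import Fermat.Agent.LT.Theta.Setup

/-!
# Strong approximation for elements, and the traces at infinity
-/

set_option autoImplicit false

noncomputable section

open IsDedekindDomain NumberField WithZero

namespace FermatAgent.LT.Theta

namespace Approx

variable {L : Type*} [Field L] [NumberField L]

/-- An integer small at finitely many places. -/
lemma exists_small (S : Finset (HeightOneSpectrum (𝓞 L))) (N : ℕ) :
    ∃ D : 𝓞 L, D ≠ 0 ∧ ∀ v ∈ S, v.valuation L (algebraMap (𝓞 L) L D) ≤ exp (-(N : ℤ)) := by
  classical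
  choose p hp hp0 using fun v : HeightOneSpectrum (𝓞 L) =>
    Submodule.exists_mem_ne_zero_of_ne_bot v.ne_bot
  refine ⟨∏ v ∈ S, p v ^ N, Finset.prod_ne_zero_iff.2 fun v _ => pow_ne_zero _ (hp0 v),
    fun v hv => ?_⟩
  rw [← Finset.mul_prod_erase S (fun v => p v ^ N) hv, map_mul, map_mul, map_pow, map_pow]
  refine (mul_le_of_le_one_right zero_le (v.valuation_le_one _)).trans ?_
  have h := Place.v_le_exp_neg_one v ((v.valuation_lt_one_iff_mem (K := L) (p v)).2 (hp v))
  refine (pow_le_pow_left₀ zero_le h N).trans (le_of_eq ?_)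
  rw [← exp_nsmul]; simp

/-- Strong approximation. -/
theorem exists_approx (S : Finset (HeightOneSpectrum (𝓞 L))) (a : HeightOneSpectrum (𝓞 L) → L)
    (N : ℕ) : ∃ x : L, (∀ v ∈ S, v.valuation L (x - a v) ≤ exp (-(N : ℤ))) ∧
      ∀ v ∉ S, v.valuation L x ≤ 1 := by
  classical
  obtain ⟨D, hD0, hD⟩ := exists_small S N
  have hDL : algebraMap (𝓞 L) L D ≠ 0 := by simpa using hD0
  choose b hb using fun v => LocalChar.exists_part v (a v / algebraMap (𝓞 L) L D)
  refine ⟨algebraMap (𝓞 L) L D * ∑ v ∈ S, b v, fun v hv => ?_, fun v hv => ?_⟩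
  · have e : algebraMap (𝓞 L) L D * ∑ w ∈ S, b w - a v =
        algebraMap (𝓞 L) L D * ((b v - a v / algebraMap (𝓞 L) L D) + ∑ w ∈ S.erase v, b w) := by
      rw [← Finset.add_sum_erase S b hv]; field_simp; ring
    rw [e, map_mul]
    refine (mul_le_of_le_one_right zero_le ((Valuation.map_add _ _ _).trans (max_le ?_ ?_))).trans
      (hD v hv)
    · rw [Valuation.map_sub_swap]; exact (hb v).1
    · exact Valuation.map_sum_le _ fun w hw => (hb w).2 v (Finset.ne_of_mem_erase hw).symm
  · rw [map_mul]
    exact mul_le_one' (v.valuation_le_one _)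
      (Valuation.map_sum_le _ fun w hw => (hb w).2 v fun e => hv (e ▸ hw))

open Classical in
/-- The trace in terms of the infinite places of a totally complex field. -/
theorem trace_eq_sum_places [IsTotallyComplex L] (a : L) :
    ((Algebra.trace ℚ L a : ℚ) : ℂ) = ∑ w : InfinitePlace L,
    ((2 * (w.embedding a).re : ℝ) : ℂ) := by
  have h : ((Algebra.trace ℚ L a : ℚ) : ℂ) = ∑ σ : L →ₐ[ℚ] ℂ, σ a := by
    rw [← trace_eq_sum_embeddings ℂ (K := ℚ) (L := L) (x := a), eq_ratCast]
  rw [h, ← Equiv.sum_comp (RingHom.equivRatAlgHom (R := L) (S := ℂ)) fun σ => σ a]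
  rw [← Finset.sum_fiberwise Finset.univ InfinitePlace.mk]
  refine Finset.sum_congr rfl fun w _ => ?_
  have hne : ComplexEmbedding.conjugate w.embedding ≠ w.embedding := fun e =>
    InfinitePlace.not_isReal_iff_isComplex.2 (IsTotallyComplex.isComplex w)
      ⟨w.embedding, e, InfinitePlace.mk_embedding w⟩
  have hfil : (Finset.univ.filter fun φ : L →+* ℂ => InfinitePlace.mk φ = w) =
      {w.embedding, ComplexEmbedding.conjugate w.embedding} := by
    ext φ
    simp only [Finset.mem_filter, Finset.mem_univ, true_and, Finset.mem_insert,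
      Finset.mem_singleton]
    constructor
    · intro e
      subst e
      rcases InfinitePlace.embedding_mk_eq φ with h1 | h1
      · exact Or.inl h1.symm
      · right; rw [h1]; exact (star_involutive.eq_iff).1 rfl
    · rintro (rfl | rfl)
      · exact InfinitePlace.mk_embedding w
      · rw [InfinitePlace.mk_conjugate_eq, InfinitePlace.mk_embedding]
  rw [hfil, Finset.sum_pair hne.symm]
  show w.embedding a + (starRingEnd ℂ) (w.embedding a) = _
  rw [Complex.add_conj]

end Approx

end FermatAgent.LT.Theta
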