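import Mathlib

/-!
# Integration of Schwartz-Bruhat functions along a chain of lattices

An abelian group with a chain of subgroups `L k` (`k ∈ ℤ`), exhaustive, each of index `Q` in the
previous one, plays the role of a non-archimedean vector space with its compact open subgroups.
-/

set_option autoImplicit false

noncomputable section

open scoped Pointwise

namespace FermatAgent.LT.Theta

/-- An exhaustive chain of subgroups with constant index. -/
structure LatticeChain (A : Type*) [AddCommGroup A] where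
  /-- the subgroups -/
  L : ℤ → AddSubgroup A
  /-- the index of a step -/
  Q : ℕ
  anti : ∀ k, L (k + 1) ≤ L k
  index : ∀ k, (L (k + 1)).relIndex (L k) = Q
  Q_pos : 0 < Q
  exhaust : ∀ a, ∃ k, a ∈ L k

namespace LatticeChain

variable {A : Type*} [AddCommGroup A] (C : LatticeChain A)

/-- The chain decreases. -/
lemma le_of_le {m n : ℤ} (h : m ≤ n) : C.L n ≤ C.L m :=
  antitone_int_of_succ_le (f := C.L) C.anti h

/-- The indices along the chain. -/
lemma relIndex_add (m : ℤ) (j : ℕ) : (C.L (m + j)).relIndex (C.L m) = C.Q ^ j := by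
  induction j with
  | zero => simp
  | succ j ih =>
    rw [Nat.cast_succ, ← add_assoc,
      ← AddSubgroup.relIndex_mul_relIndex _ (C.L (m + j)) _ (C.anti _) (C.le_of_le (by omega)),
      C.index, ih, pow_succ']

/-- The indices are finite. -/
lemma relIndex_ne_zero {m n : ℤ} (h : m ≤ n) : (C.L n).relIndex (C.L m) ≠ 0 := by
  obtain ⟨j, rfl⟩ : ∃ j : ℕ, n = m + j := ⟨(n - m).toNat, by omega⟩
  rw [C.relIndex_add]; exact pow_ne_zero _ C.Q_pos.ne'

/-- The step index is nonzero. -/
lemma Q_ne_zero : (C.Q : ℂ) ≠ 0 := Nat.cast_ne_zero.2 C.Q_pos.ne'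

/-- `f` is constant modulo `L n`. -/
def IsPeriodic (n : ℤ) (f : A → ℂ) : Prop := ∀ x, ∀ a ∈ C.L n, f (x + a) = f x

/-- `f` vanishes outside `L m`. -/
def IsSupported (m : ℤ) (f : A → ℂ) : Prop := ∀ x, x ∉ C.L m → f x = 0

variable {C}

/-- Periodicity is monotone. -/
lemma IsPeriodic.mono {f : A → ℂ} {n n' : ℤ} (h : C.IsPeriodic n f) (hn : n ≤ n') :
    C.IsPeriodic n' f := fun x a ha => h x a (C.le_of_le hn ha)

/-- Support is monotone. -/
lemma IsSupported.mono {f : A → ℂ} {m m' : ℤ} (h : C.IsSupported m f) (hm : m' ≤ m) :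
    C.IsSupported m' f := fun x hx => h x fun h' => hx (C.le_of_le hm h')

/-- Periodic functions agree on congruent points. -/
lemma IsPeriodic.eq_of_sub_mem {f : A → ℂ} {n : ℤ} (h : C.IsPeriodic n f) {x y : A}
    (hxy : y - x ∈ C.L n) : f y = f x := by
  rw [← h x _ hxy, add_sub_cancel]

variable (C)

/-- Schwartz-Bruhat functions. -/
def schwartz : Submodule ℂ (A → ℂ) where
  carrier := {f | ∃ m n : ℤ, C.IsPeriodic n f ∧ C.IsSupported m f}
  zero_mem' := ⟨0, 0, fun _ _ _ => rfl, fun _ _ => rfl⟩
  add_mem' := by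
    rintro f g ⟨m, n, hf, hf'⟩ ⟨m', n', hg, hg'⟩
    refine ⟨min m m', max n n', fun x a ha => ?_, fun x hx => ?_⟩
    · simp [(hf.mono (le_max_left n n')) x a ha, (hg.mono (le_max_right n n')) x a ha]
    · simp [(hf'.mono (min_le_left m m')) x hx, (hg'.mono (min_le_right m m')) x hx]
  smul_mem' := by
    rintro c f ⟨m, n, hf, hf'⟩
    exact ⟨m, n, fun x a ha => by simp [hf x a ha], fun x hx => by simp [hf' x hx]⟩

variable {C}

/-- Periodic supported functions are Schwartz. -/
lemma mem_schwartz {f : A → ℂ} {m n : ℤ} (h : C.IsPeriodic n f) (h' : C.IsSupported m f) :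
    f ∈ C.schwartz := ⟨m, n, h, h'⟩

variable (C)

/-- The Riemann sum at level `n`. -/
def sumAt (n : ℤ) (f : A → ℂ) : ℂ :=
  ((C.Q : ℂ) ^ n)⁻¹ * ∑ᶠ c : A ⧸ C.L n, f c.out

variable {C}

/-- Periodic functions at representatives. -/
lemma IsPeriodic.apply_out {f : A → ℂ} {n : ℤ} (h : C.IsPeriodic n f) (x : A) :
    f (QuotientAddGroup.mk x : A ⧸ C.L n).out = f x := by
  refine h.eq_of_sub_mem ?_
  rw [sub_eq_neg_add, ← QuotientAddGroup.eq, QuotientAddGroup.out_eq']

/-- Images of a lattice are among finitely many classes. -/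
lemma image_mk_subset_range (m n : ℤ) :
    (QuotientAddGroup.mk : A → A ⧸ C.L n) '' (C.L m : Set A) ⊆ Set.range
      fun c : C.L m ⧸ (C.L n).addSubgroupOf (C.L m) =>
        (QuotientAddGroup.mk (c.out : A) : A ⧸ C.L n) := by
  rintro _ ⟨x, hx, rfl⟩
  refine ⟨QuotientAddGroup.mk ⟨x, hx⟩, ?_⟩
  rw [QuotientAddGroup.eq]
  have := QuotientAddGroup.eq.1
    (QuotientAddGroup.out_eq' (QuotientAddGroup.mk (⟨x, hx⟩ : C.L m) :
      C.L m ⧸ (C.L n).addSubgroupOf (C.L m)))
  simpa [AddSubgroup.mem_addSubgroupOf] using this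

/-- A lattice has finitely many classes in a smaller one. -/
lemma finite_image_mk {m n : ℤ} (h : m ≤ n) :
    ((QuotientAddGroup.mk : A → A ⧸ C.L n) '' (C.L m : Set A)).Finite := by
  have : Finite (C.L m ⧸ (C.L n).addSubgroupOf (C.L m)) :=
    Nat.finite_of_card_ne_zero (C.relIndex_ne_zero h)
  exact (Set.finite_range _).subset (C.image_mk_subset_range m n)

/-- Supported functions meet finitely many classes. -/
lemma finite_support_out {f : A → ℂ} {m n : ℤ} (hm : C.IsSupported m f) :
    (Function.support fun c : A ⧸ C.L n => f c.out).Finite := by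
  refine Set.Finite.subset (C.finite_image_mk (m := min m n) (n := n) (min_le_right _ _)) ?_
  intro c hc
  refine ⟨c.out, ?_, QuotientAddGroup.out_eq' c⟩
  by_contra h
  exact hc ((hm.mono (min_le_left m n)) _ h)

lemma sumAt_succ {f : A → ℂ} {m n : ℤ} (hn : C.IsPeriodic n f) (hm : C.IsSupported m f) :
    C.sumAt (n + 1) f = C.sumAt n f := by
  classical
  let e : A ⧸ C.L (n + 1) ≃ (A ⧸ C.L n) × (C.L n ⧸ (C.L (n + 1)).addSubgroupOf (C.L n)) :=
    AddSubgroup.quotientEquivProdOfLE (C.anti n)
  have hfin : Finite (C.L n ⧸ (C.L (n + 1)).addSubgroupOf (C.L n)) :=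
    Nat.finite_of_card_ne_zero ((C.index n).trans_ne C.Q_pos.ne')
  have := Fintype.ofFinite (C.L n ⧸ (C.L (n + 1)).addSubgroupOf (C.L n))
  have hcard : Fintype.card (C.L n ⧸ (C.L (n + 1)).addSubgroupOf (C.L n)) = C.Q := by
    rw [← Nat.card_eq_fintype_card]; exact C.index n
  have key : ∀ c : A ⧸ C.L (n + 1), f c.out = f (e c).1.out := by
    intro c
    induction c using QuotientAddGroup.induction_on with
    | _ x =>
      rw [(hn.mono (by omega : n ≤ n + 1)).apply_out]
      exact (hn.apply_out x).symm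
  have hsum : ∑ᶠ c : A ⧸ C.L (n + 1), f c.out =
      ∑ᶠ p : (A ⧸ C.L n) × (C.L n ⧸ (C.L (n + 1)).addSubgroupOf (C.L n)), f p.1.out :=
    finsum_eq_of_bijective e e.bijective key
  rw [sumAt, sumAt, hsum, finsum_curry (fun p : (A ⧸ C.L n) ×
    (C.L n ⧸ (C.L (n + 1)).addSubgroupOf (C.L n)) => f p.1.out) ?_]
  · simp only [finsum_eq_sum_of_fintype, Finset.sum_const, Finset.card_univ, hcard, nsmul_eq_mul]
    rw [← mul_finsum, zpow_add₀ C.Q_ne_zero, zpow_one, mul_inv,
      mul_assoc, ← mul_assoc (C.Q : ℂ)⁻¹, inv_mul_cancel₀ C.Q_ne_zero, one_mul]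
  · refine Set.Finite.subset (((finite_support_out (n := n) hm)).prod Set.finite_univ) ?_
    exact fun p hp => ⟨hp, trivial⟩

lemma sumAt_eq_of_le {f : A → ℂ} {m n n' : ℤ} (hn : C.IsPeriodic n f) (hm : C.IsSupported m f)
    (h : n ≤ n') : C.sumAt n' f = C.sumAt n f := by
  obtain ⟨j, rfl⟩ : ∃ j : ℕ, n' = n + j := ⟨(n' - n).toNat, by omega⟩
  induction j with
  | zero => simp
  | succ j ih =>
    rw [Nat.cast_succ, ← add_assoc, sumAt_succ (hn.mono (by omega)) hm, ih (by omega)]

variable (C)

open Classical in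
/-- The integral, normalised so that `L 0` has volume one. -/
def integ (f : A → ℂ) : ℂ :=
  if h : ∃ m n : ℤ, C.IsPeriodic n f ∧ C.IsSupported m f then C.sumAt h.choose_spec.choose f
  else 0

variable {C}

/-- The integral as a finite sum. -/
lemma integ_eq {f : A → ℂ} {m n : ℤ} (hn : C.IsPeriodic n f) (hm : C.IsSupported m f) :
    C.integ f = C.sumAt n f := by
  have h : ∃ m n : ℤ, C.IsPeriodic n f ∧ C.IsSupported m f := ⟨m, n, hn, hm⟩
  rw [integ, dif_pos h]
  obtain ⟨hn', hm'⟩ := h.choose_spec.choose_spec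
  set n' := h.choose_spec.choose
  rw [← sumAt_eq_of_le hn' hm' (le_max_left n' n), ← sumAt_eq_of_le hn hm (le_max_right n' n)]

/-- The integral is additive. -/
lemma integ_add {f g : A → ℂ} (hf : f ∈ C.schwartz) (hg : g ∈ C.schwartz) :
    C.integ (f + g) = C.integ f + C.integ g := by
  obtain ⟨m, n, hn, hm⟩ := hf
  obtain ⟨m', n', hn', hm'⟩ := hg
  have a := hn.mono (le_max_left n n')
  have b := hn'.mono (le_max_right n n')
  have c := hm.mono (min_le_left m m')
  have d := hm'.mono (min_le_right m m')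
  rw [integ_eq a c, integ_eq b d, integ_eq (f := f + g) (m := min m m') (n := max n n')
    (fun x t ht => by simp [a x t ht, b x t ht]) (fun x hx => by simp [c x hx, d x hx])]
  simp only [sumAt, Pi.add_apply]
  rw [finsum_add_distrib (finite_support_out c) (finite_support_out d), mul_add]

/-- The integral is homogeneous. -/
lemma integ_smul {f : A → ℂ} (hf : f ∈ C.schwartz) (r : ℂ) :
    C.integ (fun x => r * f x) = r * C.integ f := by
  obtain ⟨m, n, hn, hm⟩ := hf
  rw [integ_eq hn hm, integ_eq (m := m) (n := n) (f := fun x => r * f x)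
    (fun x t ht => by simp [hn x t ht]) (fun x hx => by simp [hm x hx])]
  simp only [sumAt]
  rw [← mul_finsum, mul_left_comm]

/-- The integral of zero. -/
lemma integ_zero : C.integ (fun _ => (0 : ℂ)) = 0 := by
  rw [integ_eq (f := fun _ => (0 : ℂ)) (m := 0) (n := 0) (fun _ _ _ => rfl) (fun _ _ => rfl)]
  simp [sumAt]

/-- The integral commutes with finite sums. -/
lemma integ_sum {ι : Type*} (s : Finset ι) (F : ι → A → ℂ) (hF : ∀ i ∈ s, F i ∈ C.schwartz) :
    C.integ (fun x => ∑ i ∈ s, F i x) = ∑ i ∈ s, C.integ (F i) := by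
  classical
  induction s using Finset.induction_on with
  | empty =>
    simpa using integ_zero
  | insert a s ha ih =>
    rw [Finset.sum_insert ha, ← ih fun i hi => hF i (Finset.mem_insert_of_mem hi),
      ← integ_add (hF a (Finset.mem_insert_self a s))]
    · refine congrArg C.integ (funext fun x => ?_)
      simp [Finset.sum_insert ha]
    · have : (fun x => ∑ i ∈ s, F i x) = ∑ i ∈ s, F i := by ext; simp
      rw [this]; exact sum_mem fun i hi => hF i (Finset.mem_insert_of_mem hi)

/-- The integral is translation invariant. -/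
lemma integ_comp_add {f : A → ℂ} (hf : f ∈ C.schwartz) (a : A) :
    C.integ (fun x => f (x + a)) = C.integ f := by
  obtain ⟨m, n, hn, hm⟩ := hf
  obtain ⟨k, hk⟩ := C.exhaust a
  have hn' : C.IsPeriodic n (fun x => f (x + a)) := fun x t ht => by
    show f (x + t + a) = f (x + a)
    rw [add_right_comm]; exact hn _ t ht
  have hm' : C.IsSupported (min m k) (fun x => f (x + a)) := fun x hx => by
    refine (hm.mono (min_le_left m k)) _ fun h => hx ?_
    simpa using sub_mem h (C.le_of_le (min_le_right m k) hk)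
  rw [integ_eq hn hm, integ_eq hn' hm', sumAt, sumAt]
  refine congrArg _ (finsum_eq_of_bijective (fun c => c + (QuotientAddGroup.mk a : A ⧸ C.L n))
    (Equiv.addRight _).bijective fun c => ?_)
  induction c using QuotientAddGroup.induction_on with
  | _ x => rw [hn'.apply_out, ← QuotientAddGroup.mk_add, hn.apply_out]

/-- Fubini. -/
lemma integ_swap {F : A → A → ℂ} {m n : ℤ} (h1 : ∀ y, C.IsPeriodic n fun x => F x y)
    (h2 : ∀ x, C.IsPeriodic n (F x)) (h3 : ∀ x y, x ∉ C.L m ∨ y ∉ C.L m → F x y = 0) :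
    C.integ (fun x => C.integ (F x)) = C.integ fun y => C.integ fun x => F x y := by
  classical
  have s1 : ∀ y, C.IsSupported m fun x => F x y := fun y x hx => h3 x y (Or.inl hx)
  have s2 : ∀ x, C.IsSupported m (F x) := fun x y hy => h3 x y (Or.inr hy)
  set k := min m n
  set T := (C.finite_image_mk (m := k) (n := n) (min_le_right _ _)).toFinset with hT
  have hsum : ∀ g : A → ℂ, C.IsPeriodic n g → C.IsSupported m g →
      C.integ g = ((C.Q : ℂ) ^ n)⁻¹ * ∑ c ∈ T, g c.out := by
    intro g hg hg'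
    rw [integ_eq hg hg', sumAt, finsum_eq_sum_of_support_subset _ (s := T) ?_]
    intro c hc
    refine Finset.mem_coe.2 ((Set.Finite.mem_toFinset _).2 ⟨c.out, ?_, QuotientAddGroup.out_eq' c⟩)
    by_contra h
    exact hc ((hg'.mono (min_le_left m n)) _ h)
  have e1 : ∀ x, C.integ (F x) = ((C.Q : ℂ) ^ n)⁻¹ * ∑ c ∈ T, F x c.out := fun x =>
    hsum _ (h2 x) (s2 x)
  have e2 : ∀ y, C.integ (fun x => F x y) = ((C.Q : ℂ) ^ n)⁻¹ * ∑ c ∈ T, F c.out y := fun y =>
    hsum _ (h1 y) (s1 y)
  rw [hsum _ (fun x a ha => by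
    rw [e1, e1]; congr 1; exact Finset.sum_congr rfl fun c _ => h1 _ x a ha)
      (fun x hx => by rw [e1]; simp [h3 x _ (Or.inl hx)]),
    hsum _ (fun y a ha => by
      rw [e2, e2]; congr 1; exact Finset.sum_congr rfl fun c _ => h2 _ y a ha)
      (fun y hy => by rw [e2]; simp [h3 _ y (Or.inr hy)])]
  simp only [e1, e2, Finset.mul_sum]
  exact Finset.sum_comm

variable (C)

/-- The indicator of `L k`. -/
def ind (k : ℤ) : A → ℂ := (C.L k : Set A).indicator fun _ => 1

variable {C}

/-- Indicators are periodic. -/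
lemma ind_periodic {k n : ℤ} (h : k ≤ n) : C.IsPeriodic n (C.ind k) := fun x a ha => by
  have ha' := C.le_of_le h ha
  by_cases hx : x ∈ C.L k
  · simp [ind, hx, add_mem hx ha']
  · have : x + a ∉ C.L k := fun h' => hx (by simpa using sub_mem h' ha')
    simp [ind, hx, this]

/-- Indicators are supported. -/
lemma ind_supported (k : ℤ) : C.IsSupported k (C.ind k) := fun x hx => by simp [ind, hx]

/-- Indicators are Schwartz. -/
lemma ind_mem_schwartz (k : ℤ) : C.ind k ∈ C.schwartz :=
  mem_schwartz (C.ind_periodic le_rfl) (C.ind_supported k)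

/-- The integral of an indicator. -/
lemma integ_ind (k : ℤ) : C.integ (C.ind k) = ((C.Q : ℂ) ^ k)⁻¹ := by
  rw [integ_eq (C.ind_periodic le_rfl) (C.ind_supported k), sumAt]
  rw [finsum_eq_single _ ((QuotientAddGroup.mk 0 : A ⧸ C.L k))]
  · rw [(C.ind_periodic le_rfl).apply_out]; simp [ind]
  · intro c hc
    induction c using QuotientAddGroup.induction_on with
    | _ x =>
      rw [(C.ind_periodic le_rfl).apply_out]
      refine (C.ind_supported k) x fun hx => hc ?_
      rw [QuotientAddGroup.eq]; simpa using hx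

/-- A translation invariant linear functional is a multiple of the integral. -/
lemma eq_mul_integ (J : (A → ℂ) → ℂ)
    (hadd : ∀ f g, f ∈ C.schwartz → g ∈ C.schwartz → J (f + g) = J f + J g)
    (hsmul : ∀ f (r : ℂ), f ∈ C.schwartz → J (fun x => r * f x) = r * J f)
    (htr : ∀ f a, f ∈ C.schwartz → J (fun x => f (x + a)) = J f) {f : A → ℂ}
    (hf : f ∈ C.schwartz) : J f = J (C.ind 0) * C.integ f := by
  classical
  have hJ0 : J 0 = 0 := by
    have h := hsmul 0 0 (zero_mem _)
    simp only [zero_mul] at h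
    exact h
  have dec : ∀ (g : A → ℂ) (m n : ℤ), C.IsPeriodic n g → C.IsSupported m g →
      J g = (∑ᶠ c : A ⧸ C.L n, g c.out) * J (C.ind n) := by
    intro g m n hn hm
    set T := (finite_support_out (n := n) hm).toFinset
    have hg : g = ∑ c ∈ T, fun x => g c.out * C.ind n (x + -c.out) := by
      funext x
      rw [Finset.sum_apply, Finset.sum_eq_single (QuotientAddGroup.mk x : A ⧸ C.L n)]
      · rw [hn.apply_out]
        have : x + -(QuotientAddGroup.mk x : A ⧸ C.L n).out ∈ C.L n := by
          rw [add_comm]; exact QuotientAddGroup.eq.1 (QuotientAddGroup.out_eq' _)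
        simp [ind, this]
      · intro c _ hc
        have : x + -c.out ∉ C.L n := fun h => hc (by
          rw [← QuotientAddGroup.out_eq' c, QuotientAddGroup.eq, add_comm]; exact h)
        simp [ind, this]
      · intro h
        simp only [T, Set.Finite.mem_toFinset, Function.mem_support, not_not] at h
        rw [h, zero_mul]
    have hmem : ∀ (c : A) (r : ℂ), (fun x => r * C.ind n (x + -c)) ∈ C.schwartz := by
      intro c r
      obtain ⟨j, hj⟩ := C.exhaust c
      refine mem_schwartz (m := min n j) (n := n) (fun x a ha => ?_) fun x hx => ?_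
      · show r * C.ind n (x + a + -c) = _
        rw [add_right_comm, (C.ind_periodic le_rfl) _ a ha]
      · show r * C.ind n (x + -c) = 0
        have : x + -c ∉ C.L n := fun h => hx (by
          simpa using add_mem (C.le_of_le (min_le_left n j) h) (C.le_of_le (min_le_right n j) hj))
        simp [ind, this]
    have hlin : ∀ s : Finset (A ⧸ C.L n),
        J (∑ c ∈ s, fun x => g c.out * C.ind n (x + -c.out)) =
          ∑ c ∈ s, g c.out * J (C.ind n) := by
      intro s
      induction s using Finset.induction_on with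
      | empty => simpa using hJ0
      | insert a s ha ih =>
        rw [Finset.sum_insert ha, Finset.sum_insert ha,
          hadd _ _ (hmem _ _) (sum_mem fun c _ => hmem _ _), ih]
        congr 1
        have hm1 : (fun x => C.ind n (x + -a.out)) ∈ C.schwartz := by
          simpa using hmem a.out 1
        rw [hsmul _ _ hm1, htr _ _ (C.ind_mem_schwartz n)]
    conv_lhs => rw [hg]
    rw [hlin, finsum_eq_sum _ (finite_support_out hm), Finset.sum_mul]
  obtain ⟨m, n, hn, hm⟩ := hf
  set N := max n 0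
  have e0 : J (C.ind 0) = (C.Q : ℂ) ^ N * J (C.ind N) := by
    rw [dec _ 0 N (C.ind_periodic (le_max_right n 0)) (C.ind_supported 0)]
    congr 1
    have h := integ_ind (C := C) 0
    rw [integ_eq (C.ind_periodic (le_max_right n 0)) (C.ind_supported 0), sumAt, zpow_zero,
      inv_one] at h
    rwa [inv_mul_eq_one₀ (zpow_ne_zero _ C.Q_ne_zero), eq_comm] at h
  rw [dec f m N (hn.mono (le_max_left n 0)) hm, e0,
    integ_eq (hn.mono (le_max_left n 0)) hm, sumAt]
  have hQ := zpow_ne_zero (max n 0) C.Q_ne_zero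
  simp only [N]
  field_simp

/-- An automorphism respecting the topology of the chain. -/
def IsBounded (C : LatticeChain A) (e : A ≃+ A) : Prop :=
  (∀ k, ∃ j, ∀ x ∈ C.L j, e x ∈ C.L k) ∧ ∀ k, ∃ j, ∀ x, e x ∈ C.L k → x ∈ C.L j

/-- Bounded automorphisms preserve Schwartz functions. -/
lemma comp_mem_schwartz {e : A ≃+ A} (he : C.IsBounded e) {f : A → ℂ} (hf : f ∈ C.schwartz) :
    (fun x => f (e x)) ∈ C.schwartz := by
  obtain ⟨m, n, hn, hm⟩ := hf
  obtain ⟨j, hj⟩ := he.1 n
  obtain ⟨i, hi⟩ := he.2 m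
  exact mem_schwartz (fun x a ha => by show f (e (x + a)) = _; rw [map_add]; exact hn _ _ (hj a ha))
    (fun x hx => hm _ fun h => hx (hi x h))

variable (C)

/-- The modulus of an automorphism. -/
def modulus (e : A ≃+ A) : ℂ := C.integ fun x => C.ind 0 (e x)

variable {C}

/-- The integral under a bounded automorphism. -/
lemma integ_comp {e : A ≃+ A} (he : C.IsBounded e) {f : A → ℂ} (hf : f ∈ C.schwartz) :
    C.integ (fun x => f (e x)) = C.modulus e * C.integ f := by
  refine eq_mul_integ (J := fun g => C.integ fun x => g (e x)) ?_ ?_ ?_ hf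
  · exact fun f g hf hg => integ_add (comp_mem_schwartz he hf) (comp_mem_schwartz he hg)
  · exact fun f r hf => integ_smul (comp_mem_schwartz he hf) r
  · intro f a hf
    have := integ_comp_add (comp_mem_schwartz he hf) (e.symm a)
    simpa using this

/-- The modulus is positive. -/
lemma modulus_pos {e : A ≃+ A} (he : C.IsBounded e) :
    ∃ r : ℝ, 0 < r ∧ C.modulus e = r := by
  classical
  obtain ⟨j, hj⟩ := he.1 0
  obtain ⟨i, hi⟩ := he.2 0
  have hn : C.IsPeriodic j fun x => C.ind 0 (e x) := fun x a ha => by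
    show C.ind 0 (e (x + a)) = _
    rw [map_add]; exact (C.ind_periodic le_rfl) _ _ (hj a ha)
  have hm : C.IsSupported i fun x => C.ind 0 (e x) := fun x hx =>
    (C.ind_supported 0) _ fun h => hx (hi x h)
  set T := (finite_support_out (n := j) hm).toFinset
  have h1 : ∀ c ∈ T, C.ind 0 (e c.out) = 1 := fun c hc => by
    simp only [T, Set.Finite.mem_toFinset, Function.mem_support] at hc
    by_cases h : e c.out ∈ C.L 0
    · simp [ind, h]
    · simp [ind, h] at hc
  have h0 : (QuotientAddGroup.mk (0 : A) : A ⧸ C.L j) ∈ T := by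
    simp only [T, Set.Finite.mem_toFinset, Function.mem_support]
    rw [hn.apply_out]
    simp [ind]
  refine ⟨((C.Q : ℝ) ^ j)⁻¹ * (T.card : ℝ), ?_, ?_⟩
  · have : (0 : ℝ) < C.Q := Nat.cast_pos.2 C.Q_pos
    have : (0 : ℝ) < T.card := Nat.cast_pos.2 (Finset.card_pos.2 ⟨_, h0⟩)
    positivity
  · rw [modulus, integ_eq hn hm, sumAt, finsum_eq_sum _ (finite_support_out hm),
      Finset.sum_congr rfl h1]
    simp [T]

/-- A character which is not identically one on `L k` integrates to zero over `L k`. -/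
lemma integ_char_eq_zero {k n : ℤ} {χ : A → ℂ} (hmul : ∀ x y, χ (x + y) = χ x * χ y)
    (hn : ∀ a ∈ C.L n, χ a = 1) {a : A} (ha : a ∈ C.L k) (hχ : χ a ≠ 1) :
    C.integ (fun x => χ x * C.ind k x) = 0 := by
  set g := fun x => χ x * C.ind k x
  have hg : g ∈ C.schwartz := by
    refine mem_schwartz (m := k) (n := max n k) (fun x b hb => ?_) fun x hx => ?_
    · show χ (x + b) * C.ind k (x + b) = _
      rw [hmul, hn b (C.le_of_le (le_max_left n k) hb), mul_one,
        (C.ind_periodic (le_max_right n k)) x b hb]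
    · show χ x * C.ind k x = 0
      rw [C.ind_supported k x hx, mul_zero]
  have h := integ_comp_add hg a
  have e : (fun x => g (x + a)) = fun x => χ a * g x := by
    funext x
    show χ (x + a) * C.ind k (x + a) = χ a * (χ x * C.ind k x)
    rw [hmul, (C.ind_periodic le_rfl) x a ha]; ring
  rw [e, integ_smul hg] at h
  by_contra h0
  exact hχ (mul_right_cancel₀ h0 (by rw [h, one_mul]))

end LatticeChain

end FermatAgent.LT.Theta
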