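import Fermat.Agent.LT.Theta.TameDatum
import Fermat.Agent.LT.Whit.Lift
import Fermat.Agent.LT.Whit.Tame3

/-!
# The theta series on `PGL₂` over `L` with tame special places

The character `θ` of the ideles of `M`, tame at the special places, induces a nonzero form with
the radial eigenvalues of the height, bounded and left invariant if there is a special place.
Its Hecke eigenvalue at an inert place is `0`, at a split place `√q (θ_v ϖ + θ_v ϖ̄)`, and at a
special place it is a cusp form of depth zero (`isTameCusp_phi`). This is what the descent uses.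
-/

set_option autoImplicit false

noncomputable section

open IsDedekindDomain NumberField Filter MeasureTheory
open scoped MatrixGroups ContDiff

namespace FermatAgent.LT.Theta

open LocQuad ThetaDatum LT2.Theta.ThetaCore LT2.Theta.ThetaCore.Vec

variable {L : Type*} [Field L] [NumberField L] [IsTotallyComplex L] {M : Type*} [Field M]
  [Algebra L M] [Algebra.IsQuadraticExtension L M]

namespace ThetaDatum

variable (Θ : ThetaDatum L M)

omit [IsTotallyComplex L] in
include Θ in
lemma twist_of_nonempty (hS : Θ.S.Nonempty) : Θ.IsTwisted := by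
  obtain ⟨v, hv⟩ := hS
  obtain ⟨h, -, hN, hne⟩ := Θ.norm_one v hv
  exact ⟨v, h, hN, hne⟩

/-- **Automorphy**: the form is invariant under `PGL₂(L)`. -/
theorem phi_smul (hS : Θ.S.Nonempty) (g : G2 L) (x : Space Θ.lvl) : Θ.phi (g • x) = Θ.phi x :=
  Θ.base.phi_smul (Θ.twist_of_nonempty hS) g x

/-- The form is bounded on the whole adelic space. -/
theorem exists_bound_phi (hS : Θ.S.Nonempty) : ∃ B : ℝ, ∀ x : Space Θ.lvl, ‖Θ.phi x‖ ≤ B :=
  Θ.base.exists_bound_phi (Θ.twist_of_nonempty hS)

/-- **The radial eigenvalues**: the operator of a radial kernel at an infinite place acts by the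
eigenvalue it has on the height `t`. -/
theorem radialOp_phi_hT (w : InfinitePlace L) {k : ℝ → ℝ} (hk : Continuous k)
    (hks : HasCompactSupport k) (x : Space Θ.lvl) :
    radialOp w (fun p q => k (H3.coshDist p q)) Θ.phi x = Whit.hT k * Θ.phi x :=
  Θ.base.radialOp_phi_hT w hk hks x

/-- The form is measurable. -/
theorem measurable_phi : Measurable Θ.phi := Θ.base.measurable_phi

/-- The form is not identically zero. -/
theorem exists_phi_ne_zero : ∃ x : Space Θ.lvl, Θ.phi x ≠ 0 := Θ.base.exists_phi_ne_zero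

/-- **The Hecke eigenvalue at an inert place** outside `S` is zero. -/
theorem heckeOp_phi_inert {v : HeightOneSpectrum (𝓞 L)} (hv : v ∉ Θ.S)
    (hi : Place.IsInert L M v) (x : Space Θ.lvl) : heckeOp v Θ.phi x = 0 :=
  Θ.base.heckeOp_phi_inert hv hi x

/-- **The Hecke eigenvalue at a split place**: at `v ∉ S` with a prime `ϖ` above it, `T_v` acts by
`√q (θ_v ϖ + θ_v ϖ̄)`. -/
theorem heckeOp_phi_split {v : HeightOneSpectrum (𝓞 L)} (hv : v ∉ Θ.S) {ϖ : M}
    (h : IsSplitPrime (Θ.loc v) ϖ) (x : Space Θ.lvl) :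
    heckeOp v Θ.phi x = (√(Place.qv v : ℝ) : ℂ) *
      (Θ.θ v ϖ + Θ.θ v (Quad.conj L M ϖ)) * Θ.phi x :=
  Θ.base.heckeOp_phi_split hv h x

/-- At a special place the sum over the residual translations vanishes. -/
theorem phi_sum_residues {v : HeightOneSpectrum (𝓞 L)} (hv : v ∈ Θ.S) (P : InfPts L)
    (a : Whit.adelGrp L) :
    ∑ b ∈ Whit.residues v, Θ.phi (P, Whit.cls Θ.lvl (a * Whit.atV v (Whit.nB b))) = 0 := by
  classical
  let R : L → GL (Fin 2) L := fun b => upper 1 b 1 one_ne_zero one_ne_zero
  have e : ∀ b : L, (Whit.nB b : G2 L) = Matrix.ProjGenLinGroup.mk (R b) := fun b => rfl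
  simp only [e]
  rw [Θ.base.phi_local_sum (Whit.residues v) R v 0 (fun g α => ?_), zero_mul]
  rw [zero_mul]
  obtain ⟨J, hT, hlev⟩ := Θ.exists_isTame hv
  simp only [Θ.base.wLoc_eq v α.ne_zero, ← mul_assoc,
    Θ.base.vec₀_mem hv,
    ← hlev]
  have hR := Whit.isResidues v
  have hle1 : ∀ b ∈ Whit.residues v, v.valuation L (b + 1) ≤ 1 := fun b hb =>
    (Valuation.map_add _ _ _).trans (max_le (hR.le_one b hb) (map_one _).le)
  choose f hf hfu using fun b : Whit.residues v => hR.exists_mem _ (hle1 b b.2)
  let f' : Whit.residues v → Whit.residues v := fun b => ⟨f b, hf b⟩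
  have hinj : Function.Injective f' := fun b b' h => by
    refine Subtype.ext (hR.unique _ b.2 _ b'.2 ?_)
    have e : f b = f b' := congrArg Subtype.val h
    rw [show (b : L) - b' = ((b : L) + 1 - f b) - ((b' : L) + 1 - f b') by rw [e]; ring]
    exact lt_of_le_of_lt (Valuation.map_sub _ _ _) (max_lt (hfu b) (hfu b'))
  rw [← Finset.sum_coe_sort (Whit.residues v)]
  refine hT.sum_whit_eq_zero (fun b : Whit.residues v => R b)
    (fun b i j => ?_) (fun b => ?_) (Equiv.ofBijective f' (Finite.injective_iff_bijective.1 hinj))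
    (fun b => ⟨R ((b : L) + 1 - f b), fun i j => ?_, ?_, ?_, ?_, ?_, ?_⟩) _
  · fin_cases i <;> fin_cases j <;> simp [R, upper_val]
    exact hR.le_one _ b.2
  · simp [R, upper_val, Matrix.det_fin_two]
  · fin_cases i <;> fin_cases j <;> simp [R, upper_val]
    exact (hfu b).le
  · simp [R, upper_val, Matrix.det_fin_two]
  · simp [R, upper_val]; exact hfu b
  · simp [R, upper_val]
  · simp [R, upper_val]
  · refine Units.ext ?_
    simp only [R, Units.val_mul, upper_val, Equiv.ofBijective_apply, f']
    ext i j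
    fin_cases i <;> fin_cases j <;> simp [Matrix.mul_apply, Fin.sum_univ_two]

/-- **Depth zero cuspidality at the special places**: the lifted form is invariant under the
normaliser of the non-split torus and killed by the sums over residual translations. -/
theorem isTameCusp_phi {v : HeightOneSpectrum (𝓞 L)} (hv : v ∈ Θ.S) :
    Whit.IsTameCusp v (Whit.liftF Θ.lvl Θ.phi) where
  inv δ hδ y a := by
    obtain ⟨k, ⟨hkK, hs⟩, rfl⟩ := hδ
    have hD := Whit.exists_isTorusMod_iff.1 hs
    have hk : ∀ u ∈ Θ.lvl.loc v, (Matrix.ProjGenLinGroup.mk k : G2 L)⁻¹ * u *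
        Matrix.ProjGenLinGroup.mk k ∈ Θ.lvl.loc v :=
      fun u hu => Whit.ofFinset_loc_conj Θ.S ⟨k, hkK, rfl⟩ hu
    have h := Θ.phi_rightMul_torus hv hkK hD hk (y, Whit.cls Θ.lvl a)
    rw [rightMul_cls] at h
    exact h
  sum_zero y a := Θ.phi_sum_residues hv y a

end ThetaDatum

end FermatAgent.LT.Theta
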