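import Fermat.Agent.LT.Theta.PlaceCases

/-!
# Places of a quadratic extension, adelic matrices and finite ideles
-/

set_option autoImplicit false

noncomputable section

open IsDedekindDomain NumberField WithZero Filter
open scoped MatrixGroups

namespace FermatAgent.LT.Theta

variable (L M : Type*) [Field L] [NumberField L] [Field M] [Algebra L M]
  [Algebra.IsQuadraticExtension L M]

namespace Place

/-- The place stays prime and unramified: small norm forces divisibility by a uniformiser. -/
def IsInert (v : HeightOneSpectrum (𝓞 L)) : Prop :=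
  ∀ x ∈ Quad.lattice L M v, v.valuation L (Algebra.norm L x) < 1 →
    (unif v)⁻¹ • x ∈ Quad.lattice L M v

end Place

variable {L M}

namespace Quad

/-- Elements are integral at almost all places. -/
lemma eventually_mem_lattice (x : M) :
    ∀ᶠ v : HeightOneSpectrum (𝓞 L) in cofinite, x ∈ lattice L M v :=
  ((eventually_valuation_le_one (Algebra.trace L M x)).and
    (eventually_valuation_le_one (Algebra.norm L x))).mono fun _ h => mem_lattice_of h.1 h.2

/-- Nonzero elements are units at almost all places. -/
lemma eventually_unit {x : M} (hx : x ≠ 0) : ∀ᶠ v : HeightOneSpectrum (𝓞 L) in cofinite,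
    x ∈ lattice L M v ∧ v.valuation L (Algebra.norm L x) = 1 :=
  (eventually_mem_lattice x).and (eventually_valuation_eq_one (Algebra.norm_ne_zero_iff.2 hx))

end Quad

/-- A family of matrices, almost all integral. -/
def IsAdelic (g : HeightOneSpectrum (𝓞 L) → GL (Fin 2) L) : Prop :=
  ∀ᶠ v in cofinite, g v ∈ locGL v

/-- Constant families are adelic. -/
lemma isAdelic_const (g : GL (Fin 2) L) : IsAdelic fun _ : HeightOneSpectrum (𝓞 L) => g :=
  eventually_mem_locGL g

/-- Adelic families multiply. -/
lemma IsAdelic.mul {g g' : HeightOneSpectrum (𝓞 L) → GL (Fin 2) L} (h : IsAdelic g)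
    (h' : IsAdelic g') : IsAdelic fun v => g v * g' v :=
  (h.and h').mono fun v hv => (locGL v).mul_mem hv.1 hv.2

variable (L) in
/-- A finite idele of `M`: units of `M`, almost all integral units. -/
def IsIdele (h : HeightOneSpectrum (𝓞 L) → Mˣ) : Prop :=
  ∀ᶠ v : HeightOneSpectrum (𝓞 L) in cofinite,
    ((h v : M) ∈ Quad.lattice L M v ∧ v.valuation L (Algebra.norm L (h v : M)) = 1)

end FermatAgent.LT.Theta
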