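import Fermat.Agent.LT.Theta.Rep

/-!
# The sign character is unique
-/

set_option autoImplicit false

noncomputable section

open IsDedekindDomain NumberField WithZero Filter
open scoped MatrixGroups

namespace FermatAgent.LT.Theta

namespace LocQuad

variable {F M : Type*} [Field F] [Field M] [Algebra F M] {D : LocQuad F M} {χ : F →* ℂ}
  {θ : M →* ℂ}

/-- The sign character is unique. -/
lemma IsSignChar.unique {χ' : F →* ℂ} (h : D.IsSignChar χ) (h' : D.IsSignChar χ') {a : F}
    (ha : a ≠ 0) : χ a = χ' a := by
  have e := (h.G_mul 1 a one_ne_zero ha).symm.trans (h'.G_mul 1 a one_ne_zero ha)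
  exact mul_right_cancel₀ (inv_ne_zero (Complex.ofReal_ne_zero.2 (D.absv_pos ha).ne'))
    (mul_right_cancel₀ (D.G_ne_zero one_ne_zero) e)

end LocQuad

end FermatAgent.LT.Theta
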