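import Fermat.Agent.LT.Theta.Spherical

/-!
# Hecke eigenvalues of the spherical Whittaker function

The sum of the spherical vector over the neighbours of the base coset vanishes at an inert place
and is `q √q` times the sum of its translates by `ϖ⁻¹`, `ϖ̄⁻¹` at a split one; hence the eigenvalues
`0` and `√q (θ ϖ⁻¹ + θ ϖ̄⁻¹)` of the Whittaker function.
-/

set_option autoImplicit false

noncomputable section

open WithZero Matrix
open scoped MatrixGroups

namespace FermatAgent.LT.Theta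

namespace LocQuad

variable {F M : Type*} [Field F] [Field M] [Algebra F M] {D : LocQuad F M} {χ : F →* ℂ}
  {θ : M →* ℂ} {U : Subgroup Mˣ}

/-- The transform is additive. -/
lemma ft_add {c : F} {f f' : M → ℂ} (hf : f ∈ D.chain.schwartz) (hf' : f' ∈ D.chain.schwartz)
    (t : M) : D.ft c (fun x => f x + f' x) t = D.ft c f t + D.ft c f' t := by
  simp only [ft, add_mul]
  exact LatticeChain.integ_add (D.ftIntegrand_mem hf t) (D.ftIntegrand_mem hf' t)

/-- The representation is additive. -/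
lemma wAct_add {f f' : M → F → ℂ} (hf : D.Nice f) (hf' : D.Nice f') (g : GL (Fin 2) F) :
    Agree (D.wAct χ g (fun x u => f x u + f' x u))
      (fun x u => D.wAct χ g f x u + D.wAct χ g f' x u) := by
  intro x u hu
  unfold wAct
  split_ifs with hc
  · simp only [opN, opD]; ring
  · simp only [opN, opD, opW]
    set u' := g.val.det / g.val 1 0 * g.val 1 0 * u
    have hu' : u' ≠ 0 := mul_ne_zero (mul_ne_zero
      (div_ne_zero (GeneralLinearGroup.det_ne_zero g) hc) hc) hu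
    have h1 : (fun y => D.ψ (g.val 1 1 / g.val 1 0 * u' * D.N y) * (f y u' + f' y u')) =
        fun y => D.ψ (g.val 1 1 / g.val 1 0 * u' * D.N y) * f y u' +
          D.ψ (g.val 1 1 / g.val 1 0 * u' * D.N y) * f' y u' := by
      funext y; ring
    rw [h1, ft_add (f := fun y => D.ψ (g.val 1 1 / g.val 1 0 * u' * D.N y) * f y u')
      (f' := fun y => D.ψ (g.val 1 1 / g.val 1 0 * u' * D.N y) * f' y u')
      (nice_opN hf _ u' hu') (nice_opN hf' _ u' hu')]
    ring

/-- The representation is homogeneous. -/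
lemma wAct_smul {f : M → F → ℂ} (hf : D.Nice f) (r : ℂ) (g : GL (Fin 2) F) :
    Agree (D.wAct χ g (fun x u => r * f x u)) (fun x u => r * D.wAct χ g f x u) := by
  intro x u hu
  unfold wAct
  split_ifs with hc
  · simp only [opN, opD]; ring
  · simp only [opN, opD, opW]
    set u' := g.val.det / g.val 1 0 * g.val 1 0 * u
    have hu' : u' ≠ 0 := mul_ne_zero (mul_ne_zero
      (div_ne_zero (GeneralLinearGroup.det_ne_zero g) hc) hc) hu
    have h1 : (fun y => D.ψ (g.val 1 1 / g.val 1 0 * u' * D.N y) * (r * f y u')) =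
        fun y => r * (D.ψ (g.val 1 1 / g.val 1 0 * u' * D.N y) * f y u') := by
      funext y; ring
    rw [h1, D.ft_smul (f := fun y => D.ψ (g.val 1 1 / g.val 1 0 * u' * D.N y) * f y u')
      (nice_opN hf _ u' hu')]
    ring

/-- Zero is a test function. -/
lemma isTest_zero : D.IsTest (fun _ _ => (0 : ℂ)) :=
  ⟨0, 0, 0, fun _ _ _ => rfl, fun _ _ => ⟨fun _ _ _ => rfl, fun _ _ => rfl⟩⟩

/-- The functional of zero. -/
lemma whit_zero : D.whit θ U (fun _ _ => (0 : ℂ)) = 0 := by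
  simp [whit, whitTerm]

/-- The functional is additive. -/
lemma whit_sum {ι : Type*} (s : Finset ι) (hU : D.IsTorusLevel θ U) (f : ι → M → F → ℂ)
    (hf : ∀ i ∈ s, D.IsTest (f i)) :
    D.whit θ U (fun x u => ∑ i ∈ s, f i x u) = ∑ i ∈ s, D.whit θ U (f i) := by
  classical
  simp only [whit]
  rw [← finsum_sum_comm _ _ fun i hi => finite_support_whit hU (hf i hi)]
  refine finsum_congr fun c => ?_
  simp only [whitTerm, Finset.mul_sum]

lemma nice_sum {ι : Type*} (s : Finset ι) (f : ι → M → F → ℂ) (hf : ∀ i ∈ s, D.Nice (f i)) :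
    D.Nice (fun x u => ∑ i ∈ s, f i x u) := by
  intro u hu
  have : (fun x => ∑ i ∈ s, f i x u) = ∑ i ∈ s, fun x => f i x u := by ext; simp
  rw [this]
  exact sum_mem fun i hi => hf i hi u hu

/-- The representation commutes with sums. -/
lemma wAct_sum {ι : Type*} (s : Finset ι) (f : ι → M → F → ℂ) (hf : ∀ i ∈ s, D.Nice (f i))
    (g : GL (Fin 2) F) :
    Agree (D.wAct χ g (fun x u => ∑ i ∈ s, f i x u))
      (fun x u => ∑ i ∈ s, D.wAct χ g (f i) x u) := by
  classical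
  induction s using Finset.induction_on with
  | empty =>
    intro x u hu
    have h := wAct_smul (χ := χ) (isTest_zero (D := D)).nice (0 : ℂ) g x u hu
    simpa using h
  | insert a s ha ih =>
    intro x u hu
    simp only [Finset.sum_insert ha]
    show _ = _
    rw [wAct_add (hf a (Finset.mem_insert_self a s))
      (nice_sum s f fun i hi => hf i (Finset.mem_insert_of_mem hi)) g x u hu]
    beta_reduce
    rw [ih (fun i hi => hf i (Finset.mem_insert_of_mem hi)) x u hu]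

/-- A split place: a prime element over the place and its conjugate. -/
structure IsSplitPrime (D : LocQuad F M) (ϖ : M) : Prop where
  mem : ϖ ∈ D.O
  v_N : D.v (D.N ϖ) = exp (-1 : ℤ)
  cover : ∀ x ∈ D.O, D.v (D.N x) < 1 → ϖ⁻¹ * x ∈ D.O ∨ (D.σ ϖ)⁻¹ * x ∈ D.O
  inter : ∀ x, ϖ⁻¹ * x ∈ D.O → (D.σ ϖ)⁻¹ * x ∈ D.O → x ∈ D.lat 1

/-- A split prime is nonzero. -/
lemma IsSplitPrime.ne_zero {ϖ : M} (h : IsSplitPrime D ϖ) : ϖ ≠ 0 := fun e => by
  have := h.v_N
  rw [e, D.N_eq_zero.2 rfl, map_zero] at this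
  exact exp_ne_zero this.symm

lemma IsSplitPrime.inv_mul_mem {ϖ : M} (h : IsSplitPrime D ϖ) {x : M} (hx : x ∈ D.lat 1) :
    ϖ⁻¹ * x ∈ D.O ∧ (D.σ ϖ)⁻¹ * x ∈ D.O := by
  have key : ∀ w : M, w ∈ D.O → D.v (D.N w) = exp (-1 : ℤ) → w⁻¹ * x ∈ D.O := by
    intro w hw hwN
    have hw0 : w ≠ 0 := fun e => by
      rw [e, D.N_eq_zero.2 rfl, map_zero] at hwN; exact exp_ne_zero hwN.symm
    have e : w⁻¹ * x = (D.π * (D.N w)⁻¹) • (D.σ w * (D.π⁻¹ • x)) := by
      rw [Algebra.smul_def, Algebra.smul_def, map_mul, map_inv₀, map_inv₀, D.N_spec]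
      have := (map_ne_zero_iff _ (algebraMap F M).injective).2 D.π_ne_zero
      have := (map_ne_zero_iff _ D.σ.injective).2 hw0
      field_simp
    rw [e]
    refine D.smul_mem _ _ (by rw [map_mul, map_inv₀, D.v_π, hwN, mul_inv_cancel₀ exp_ne_zero]) ?_
    refine D.mul_mem _ _ (D.σ_mem _ hw) ?_
    rwa [mem_lat, _root_.zpow_neg_one] at hx
  exact ⟨key ϖ h.mem h.v_N, key _ (D.σ_mem _ h.mem) (by rw [D.N_σ]; exact h.v_N)⟩

variable {ε : ℂ} {hε : ε ≠ 0}

lemma opH_inv_sph {ϖ : M} (hN : D.v (D.N ϖ) = exp (-1 : ℤ)) (x : M) (u : F)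
    [Decidable (ϖ⁻¹ * x ∈ D.O)] [Decidable (D.v u = exp (D.d + 1))] :
    D.opH ϖ⁻¹ D.sph x u =
      if D.v u = exp (D.d + 1) then (if ϖ⁻¹ * x ∈ D.O then 1 else 0) else 0 := by
  classical
  have hv : D.v (u / D.N ϖ⁻¹) = exp D.d ↔ D.v u = exp (D.d + 1) := by
    rw [N_inv, map_div₀, map_inv₀, hN, div_inv_eq_mul]
    refine ⟨fun h => ?_, fun h => by rw [h, ← exp_add]; congr 1; ring⟩
    rw [show D.v u = D.v u * exp (-1) * exp (1 : ℤ) by rw [mul_assoc, ← exp_add]; simp, h,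
      ← exp_add]
  simp only [opH, sph, hv, ind_zero_eq]

/-- The sum over the neighbours of the identity coset applied to the spherical vector. -/
def heckeVec (D : LocQuad F M) (χ : F →* ℂ) (T : Finset F) : M → F → ℂ :=
  fun x u => (∑ t ∈ T, D.opN t (D.opD χ D.π 1 D.sph) x u) + D.opD χ 1 D.π D.sph x u

/-- At an inert place the Hecke operator kills the spherical vector. -/
theorem heckeVec_inert (hfield : ∀ x ∈ D.O, D.v (D.N x) < 1 → x ∈ D.lat 1)
    (hε1 : ε = -1) {T : Finset F} (hT : D.IsResidueSystem T) :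
    D.heckeVec (D.unrChar ε hε) T = fun _ _ => 0 := by
  classical
  funext x u
  rw [heckeVec, hecke_sph (by rw [hε1]; norm_num) hT]
  by_cases hu : D.v u = exp (D.d + 1)
  swap
  · simp only [if_neg hu, mul_zero]
  by_cases hx1 : x ∈ D.lat 1
  · have hx : x ∈ D.O := by rw [← D.lat_zero]; exact D.lat_mono (by omega) hx1
    have hN : D.v (D.N x) < 1 := (D.v_N_le hx1).trans_lt (by
      rw [← exp_zero, exp_lt_exp]; norm_num)
    simp [hu, hx1, hx, hN, hε1]
  · have : ¬(x ∈ D.O ∧ D.v (D.N x) < 1) := fun h => hx1 (hfield x h.1 h.2)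
    simp [hu, hx1, this]

/-- At a split place the Hecke operator gives the two translates. -/
theorem heckeVec_split {ϖ : M} (h : IsSplitPrime D ϖ) (hε1 : ε = 1) {T : Finset F}
    (hT : D.IsResidueSystem T) :
    D.heckeVec (D.unrChar ε hε) T = fun x u => (D.q : ℂ) * (√(D.q : ℝ) : ℂ) *
      (D.opH ϖ⁻¹ D.sph x u + D.opH (D.σ ϖ)⁻¹ D.sph x u) := by
  classical
  funext x u
  have hN' : D.v (D.N (D.σ ϖ)) = exp (-1 : ℤ) := by rw [D.N_σ]; exact h.v_N
  rw [heckeVec, hecke_sph (by rw [hε1]; norm_num) hT, opH_inv_sph h.v_N, opH_inv_sph hN']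
  by_cases hu : D.v u = exp (D.d + 1)
  swap
  · simp only [if_neg hu, add_zero, mul_zero]
  have hback : ∀ w : M, w ∈ D.O → D.v (D.N w) = exp (-1 : ℤ) → w⁻¹ * x ∈ D.O →
      x ∈ D.O ∧ D.v (D.N x) < 1 := by
    intro w hw hwN hm
    have hw0 : w ≠ 0 := fun e => by
      rw [e, D.N_eq_zero.2 rfl, map_zero] at hwN; exact exp_ne_zero hwN.symm
    have e : x = w * (w⁻¹ * x) := by rw [← mul_assoc, mul_inv_cancel₀ hw0, one_mul]
    rw [e]
    refine ⟨D.mul_mem _ _ hw hm, ?_⟩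
    rw [D.N_mul, map_mul, hwN]
    exact (mul_le_of_le_one_right zero_le (D.N_mem _ hm)).trans_lt (by
      rw [← exp_zero, exp_lt_exp]; norm_num)
  have h2 : x ∈ D.lat 1 ↔ ϖ⁻¹ * x ∈ D.O ∧ (D.σ ϖ)⁻¹ * x ∈ D.O :=
    ⟨h.inv_mul_mem, fun hh => h.inter x hh.1 hh.2⟩
  have h1 : (x ∈ D.O ∧ D.v (D.N x) < 1) ↔ ϖ⁻¹ * x ∈ D.O ∨ (D.σ ϖ)⁻¹ * x ∈ D.O :=
    ⟨fun hh => h.cover x hh.1 hh.2,
      fun hh => hh.elim (hback ϖ h.mem h.v_N) (hback _ (D.σ_mem _ h.mem) hN')⟩
  simp only [hu, if_true, h1, h2, hε1]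
  by_cases a : ϖ⁻¹ * x ∈ D.O <;> by_cases b : (D.σ ϖ)⁻¹ * x ∈ D.O <;> simp [a, b]

variable (hU : D.IsTorusLevel θ U) (hχ : D.IsSignChar χ) (hsph : D.IsInv U D.sph)

include hU hχ in
/-- Hecke sums as values at the Hecke vector. -/
lemma whit_heckeVec (T : Finset F) (g : GL (Fin 2) F) :
    (∑ t ∈ T, D.whit θ U (D.wAct χ (g * upper D.π t 1 D.π_ne_zero one_ne_zero) D.sph)) +
      D.whit θ U (D.wAct χ (g * upper 1 0 D.π one_ne_zero D.π_ne_zero) D.sph) =
    D.whit θ U (D.wAct χ g (D.heckeVec χ T)) := by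
  have hn := (isTest_sph (D := D)).nice
  have hN : ∀ t ∈ T, D.IsTest (D.opN t (D.opD χ D.π 1 D.sph)) := fun t _ =>
    ((isTest_sph (D := D)).opD D.π_ne_zero one_ne_zero).opN t
  have hD2 : D.IsTest (D.opD χ 1 D.π D.sph) := (isTest_sph (D := D)).opD one_ne_zero D.π_ne_zero
  have e1 : ∀ t, D.whit θ U (D.wAct χ (g * upper D.π t 1 D.π_ne_zero one_ne_zero) D.sph) =
      D.whit θ U (D.wAct χ g (D.opN t (D.opD χ D.π 1 D.sph))) := fun t =>
    whit_congr ((wAct_mul hχ g _ hn).trans (Agree.wAct (fun x u _ => by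
      rw [wAct_upper, div_one]) g))
  have e2 : D.whit θ U (D.wAct χ (g * upper 1 0 D.π one_ne_zero D.π_ne_zero) D.sph) =
      D.whit θ U (D.wAct χ g (D.opD χ 1 D.π D.sph)) :=
    whit_congr ((wAct_mul hχ g _ hn).trans (Agree.wAct (fun x u _ => by
      rw [wAct_upper, zero_div, opN_zero]) g))
  have hs : D.IsTest (fun x u => D.wAct χ g (D.opD χ 1 D.π D.sph) x u) := hD2.wAct g
  rw [Finset.sum_congr rfl fun t _ => e1 t, e2,
    ← whit_sum T hU _ fun t ht => (hN t ht).wAct g]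
  have hrhs : D.whit θ U (D.wAct χ g (D.heckeVec χ T)) = D.whit θ U
      (fun x u => (∑ t ∈ T, D.wAct χ g (D.opN t (D.opD χ D.π 1 D.sph)) x u) +
        D.wAct χ g (D.opD χ 1 D.π D.sph) x u) := by
    refine whit_congr ((wAct_add (nice_sum T _ fun t ht => (hN t ht).nice) hD2.nice g).trans ?_)
    intro x u hu
    show _ + _ = _ + _
    rw [wAct_sum T _ (fun t ht => (hN t ht).nice) g x u hu]
  rw [hrhs]
  simp only [whit]
  rw [← finsum_add_distrib ?_ (finite_support_whit hU hs)]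
  · refine finsum_congr fun c => ?_
    simp only [whitTerm]; ring
  · refine (Set.Finite.biUnion T.finite_toSet
      fun t ht => finite_support_whit hU ((hN t ht).wAct (χ := χ) g)).subset fun c hc => ?_
    simp only [Set.mem_iUnion, Finset.mem_coe, exists_prop]
    by_contra hcon
    push Not at hcon
    refine hc ?_
    simp only [whitTerm, Finset.mul_sum]
    refine Finset.sum_eq_zero fun t ht => ?_
    have := hcon t ht
    rw [Function.notMem_support] at this
    simpa only [whitTerm] using this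

include hU hsph in
/-- The eigenvalue at a split place. -/
theorem whit_hecke_split {ϖ : M} (h : IsSplitPrime D ϖ) (hε1 : ε = 1)
    {T : Finset F} (hT : D.IsResidueSystem T)
    (g : GL (Fin 2) F) :
    D.whit θ U (D.wAct (D.unrChar ε hε) g (D.heckeVec (D.unrChar ε hε) T)) =
      (√(D.q : ℝ) : ℂ) * (θ ϖ⁻¹ + θ (D.σ ϖ)⁻¹) *
        D.whit θ U (D.wAct (D.unrChar ε hε) g D.sph) := by
  rw [heckeVec_split h hε1 hT]
  have hw0 : ϖ⁻¹ ≠ 0 := inv_ne_zero h.ne_zero
  have hw1 : (D.σ ϖ)⁻¹ ≠ 0 := inv_ne_zero ((map_ne_zero_iff _ D.σ.injective).2 h.ne_zero)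
  have hn := (isTest_sph (D := D)).nice
  set K : ℂ := (D.q : ℂ) * (√(D.q : ℝ) : ℂ)
  set g' := D.wAct (D.unrChar ε hε) g D.sph
  have key : Agree (D.wAct (D.unrChar ε hε) g
      (fun x u => K * (D.opH ϖ⁻¹ D.sph x u + D.opH (D.σ ϖ)⁻¹ D.sph x u)))
      (fun x u => K * (D.opH ϖ⁻¹ g' x u + D.opH (D.σ ϖ)⁻¹ g' x u)) := by
    intro x u hu
    have hadd : D.Nice (fun x u => D.opH ϖ⁻¹ D.sph x u + D.opH (D.σ ϖ)⁻¹ D.sph x u) :=
      fun u hu => add_mem (nice_opH hw0 hn u hu) (nice_opH hw1 hn u hu)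
    rw [wAct_smul hadd K g x u hu]
    beta_reduce
    rw [wAct_add (nice_opH hw0 hn) (nice_opH hw1 hn) g x u hu]
    beta_reduce
    rw [← opH_wAct hw0 g hn x u hu, ← opH_wAct hw1 g hn x u hu]
  rw [whit_congr key, whit_smul]
  have ht : D.IsTest g' := (isTest_sph (D := D)).wAct g
  have hinv : D.IsInv U g' := hsph.wAct hn g
  have hsupp : ∀ (w : M), w ≠ 0 →
      (Function.support fun c : Mˣ ⧸ U => D.whitTerm θ (D.opH w g') c.out).Finite := by
    intro w hw
    refine finite_support_whit hU ?_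
    obtain ⟨a, m, n, ha, hh⟩ := ht
    obtain ⟨i, hi⟩ := D.exists_mem_lat w
    obtain ⟨j, hj⟩ := D.exists_mem_lat w⁻¹
    have hNw : D.N w ≠ 0 := fun e => hw (D.N_eq_zero.1 e)
    obtain ⟨b, hb⟩ := D.exists_v_eq hNw
    refine ⟨a + b, m + j, n - i, fun x u hu => ?_, fun u hu => ⟨fun x c hc => ?_, fun x hx => ?_⟩⟩
    · refine ha _ _ fun e => hu ?_
      rw [map_div₀, hb, div_eq_iff exp_ne_zero] at e
      rw [e, ← exp_add]
    · show g' (w * (x + c)) _ = g' (w * x) _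
      rw [mul_add]
      exact (hh _ (div_ne_zero hu hNw)).1 _ _ (show w * c ∈ D.lat n by
        have := D.mul_mem_lat hi hc; rwa [add_sub_cancel] at this)
    · refine (hh _ (div_ne_zero hu hNw)).2 _ fun hm => hx ?_
      have := D.mul_mem_lat hj hm
      rwa [← mul_assoc, inv_mul_cancel₀ hw, one_mul, add_comm] at this
  have hsum : D.whit θ U (fun x u => D.opH ϖ⁻¹ g' x u + D.opH (D.σ ϖ)⁻¹ g' x u) =
      D.whit θ U (D.opH ϖ⁻¹ g') + D.whit θ U (D.opH (D.σ ϖ)⁻¹ g') := by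
    rw [whit, whit, whit, ← finsum_add_distrib (hsupp _ hw0) (hsupp _ hw1)]
    refine finsum_congr fun c => ?_
    simp only [whitTerm]; ring
  rw [hsum, show ϖ⁻¹ = ((Units.mk0 ϖ⁻¹ hw0 : Mˣ) : M) from rfl,
    show (D.σ ϖ)⁻¹ = ((Units.mk0 (D.σ ϖ)⁻¹ hw1 : Mˣ) : M) from rfl, whit_opH hU hinv,
    whit_opH hU hinv]
  simp only [Units.val_mk0, N_inv, D.N_σ, D.absv_inv, D.absv_exp h.v_N]
  have hq : (D.q : ℂ) ≠ 0 := Nat.cast_ne_zero.2 (zero_lt_one.trans D.one_lt_q).ne'
  simp only [K]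
  push_cast
  field_simp

/-- The Whittaker function at the conductor. -/
theorem whit_diag_sph (hU' : U = D.latUnits) (hθ : ∀ h ∈ D.latUnits, θ (h : M) = 1) {a : F}
    (ha : D.v a = exp D.d) (hχ1 : χ 1 = 1) :
    D.whit θ U (D.wAct χ (upper a 0 1 (fun e => exp_ne_zero (by rw [← ha, e, map_zero]))
      one_ne_zero) D.sph) = (√(D.absv a) : ℂ)⁻¹ := by
  classical
  subst hU'
  have ha0 : a ≠ 0 := fun e => exp_ne_zero (by rw [← ha, e, map_zero])
  rw [wAct_upper, zero_div, opN_zero]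
  have key : ∀ h : Mˣ, D.whitTerm θ (D.opD χ a 1 D.sph) h ≠ 0 → h ∈ D.latUnits := by
    intro h hh
    simp only [whitTerm, opD, sph, inv_one, one_smul, mul_one] at hh
    have hv : D.v (a * (D.N (h : M))⁻¹) = exp D.d := by
      by_contra hv; rw [if_neg hv] at hh; simp at hh
    have hx : (h : M) ∈ D.O := by
      by_contra hx; simp [hv, ind_zero_eq, hx] at hh
    have hN : D.v (D.N (h : M)) = 1 := by
      rw [map_mul, map_inv₀, ha] at hv
      have := mul_left_cancel₀ exp_ne_zero (hv.trans (mul_one (exp D.d)).symm)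
      exact inv_eq_one.1 this
    refine ⟨hx, ?_⟩
    rw [Units.val_inv_eq_inv_val]
    have e : (h : M)⁻¹ = (D.N (h : M))⁻¹ • D.σ (h : M) := by
      rw [Algebra.smul_def, map_inv₀, D.N_spec, mul_inv, mul_assoc,
        inv_mul_cancel₀ ((map_ne_zero_iff _ D.σ.injective).2 h.ne_zero), mul_one]
    rw [e]
    exact D.smul_mem _ _ (by rw [map_inv₀, hN, inv_one]) (D.σ_mem _ hx)
  rw [whit, finsum_eq_single _ (1 : Mˣ ⧸ D.latUnits)]
  · have h1 : (1 : Mˣ ⧸ D.latUnits).out ∈ D.latUnits := by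
      have := QuotientGroup.eq.1 (show (QuotientGroup.mk (1 : Mˣ) : Mˣ ⧸ D.latUnits) =
        QuotientGroup.mk (1 : Mˣ ⧸ D.latUnits).out from (QuotientGroup.out_eq' _).symm)
      simpa using this
    have hN := v_N_latUnits h1
    simp only [whitTerm, opD, sph, inv_one, one_smul, mul_one]
    rw [if_pos (by rw [map_mul, map_inv₀, hN, inv_one, mul_one, ha]), hθ _ h1,
      D.absv_exp (show D.v (D.N _) = exp 0 by rw [exp_zero]; exact hN),
      ind_zero_eq, if_pos h1.1]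
    simp [hχ1]
  · intro c hc
    by_contra hne
    refine hc ?_
    rw [← QuotientGroup.out_eq' c, ← QuotientGroup.mk_one, QuotientGroup.eq]
    simpa using inv_mem (key _ hne)

end LocQuad

end FermatAgent.LT.Theta
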