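import Fermat.Agent.LT.Theta.PlaceData

/-!
# Unramified, split, inert and tamely ramified places

Sorts the places of a quadratic extension by the local data `locQuad`. Unramified places are
unimodular (`isUnimodular`), since units there are norms modulo the place, and each is inert or
has a split prime element (`inert_or_split`). A ramified place whose residue field has three
elements satisfies `IsRamified3` with an anti-invariant uniformiser (`isRamified3`).
-/

set_option autoImplicit false

noncomputable section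

open IsDedekindDomain NumberField WithZero

namespace FermatAgent.LT.Theta

namespace Place

open LocQuad

variable {L : Type*} [Field L] [NumberField L] {v : HeightOneSpectrum (𝓞 L)}
  {M : Type*} [Field M] [Algebra L M] [Algebra.IsQuadraticExtension L M]

lemma v_le_one_of_sq {a : L} (h : v.valuation L (a ^ 2) < 1) : v.valuation L a < 1 := by
  rw [map_pow] at h
  by_contra hc
  exact not_lt.2 (one_le_pow₀ (not_lt.1 hc)) h



lemma mk_eq_iff (r s : 𝓞 L) :
    Ideal.Quotient.mk v.asIdeal r = Ideal.Quotient.mk v.asIdeal s ↔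
      v.valuation L (algebraMap (𝓞 L) L r - algebraMap (𝓞 L) L s) < 1 := by
  rw [Ideal.Quotient.eq, ← map_sub, v.valuation_lt_one_iff_mem]

/-- Units at `v` are norms modulo `v` at unramified places. -/
lemma exists_norm_congr (hu : Quad.IsUnr L M v) {u : L} (hv : v.valuation L u = 1) :
    ∃ h ∈ Quad.lattice L M v, v.valuation L (u - Algebra.norm L h) < 1 := by
  classical
  have : Fintype (𝓞 L ⧸ v.asIdeal) := Fintype.ofFinite _
  let : Field (𝓞 L ⧸ v.asIdeal) := Ideal.Quotient.field _
  obtain ⟨θ, hθ, hN⟩ := hu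
  set π := Ideal.Quotient.mk v.asIdeal
  obtain ⟨ru, hru⟩ := exists_int_sub_lt v hv.le
  by_cases h2 : v.valuation L (2 : L) < 1
  · have hchar : ringChar (𝓞 L ⧸ v.asIdeal) = 2 := by
      have h20 : ((2 : ℕ) : 𝓞 L ⧸ v.asIdeal) = 0 := by
        rw [← map_natCast π, ← map_zero π, mk_eq_iff, map_natCast, map_zero, sub_zero]
        exact_mod_cast h2
      exact (CharP.ringChar_of_prime_eq_zero Nat.prime_two h20)
    obtain ⟨s, hs⟩ := FiniteField.isSquare_of_char_two hchar (π ru)
    obtain ⟨a, rfl⟩ := Ideal.Quotient.mk_surjective s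
    refine ⟨algebraMap L M (algebraMap (𝓞 L) L a),
      Quad.algebraMap_mem_lattice (v.valuation_le_one a), ?_⟩
    rw [Algebra.norm_algebraMap, Algebra.IsQuadraticExtension.finrank_eq_two]
    rw [← map_mul, mk_eq_iff, map_mul, ← pow_two] at hs
    rw [show u - algebraMap (𝓞 L) L a ^ 2 = (u - algebraMap (𝓞 L) L ru) +
      (algebraMap (𝓞 L) L ru - algebraMap (𝓞 L) L a ^ 2) by ring]
    exact Valuation.map_add_lt _ hru hs
  · have hv2 : v.valuation L (2 : L) = 1 := by
      refine le_antisymm ?_ (not_lt.1 h2)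
      simpa [map_ofNat] using v.valuation_le_one (2 : 𝓞 L)
    set δ := Quad.conj L M θ - θ with hδ
    set c := Algebra.norm L δ / 4 with hc
    have hv4 : v.valuation L (4 : L) = 1 := by
      rw [show (4 : L) = 2 * 2 by norm_num, map_mul, hv2, one_mul]
    have hcv : v.valuation L c = 1 := by rw [hc, map_div₀, hN, hv4, div_one]
    obtain ⟨rc, hrc⟩ := exists_int_sub_lt v hcv.le
    have hcne : π rc ≠ 0 := fun h => by
      rw [← map_zero π, mk_eq_iff, map_zero, sub_zero] at h
      have := Valuation.map_add_lt (v.valuation L) hrc h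
      rw [sub_add_cancel, hcv] at this
      exact lt_irrefl _ this
    have hodd : Fintype.card (𝓞 L ⧸ v.asIdeal) % 2 = 1 := by
      refine FiniteField.odd_card_of_char_ne_two fun hchar => h2 ?_
      have h20 : π ((2 : ℕ) : 𝓞 L) = π 0 := by
        rw [map_natCast, map_zero]
        have := ringChar.of_eq hchar
        exact CharP.cast_eq_zero _ 2
      rw [mk_eq_iff, map_natCast, map_zero, sub_zero] at h20
      exact_mod_cast h20
    obtain ⟨a, b, hab⟩ := FiniteField.exists_root_sum_quadratic
      (f := Polynomial.X ^ 2) (g := Polynomial.C (π rc) * Polynomial.X ^ 2 - Polynomial.C (π ru))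
      (Polynomial.degree_X_pow 2) (by
        rw [Polynomial.degree_sub_eq_left_of_degree_lt, Polynomial.degree_C_mul_X_pow 2 hcne]
        · rfl
        · rw [Polynomial.degree_C_mul_X_pow 2 hcne]
          exact lt_of_le_of_lt Polynomial.degree_C_le (by decide)) hodd
    obtain ⟨a, rfl⟩ := Ideal.Quotient.mk_surjective a
    obtain ⟨b, rfl⟩ := Ideal.Quotient.mk_surjective b
    simp only [Polynomial.eval_pow, Polynomial.eval_X, Polynomial.eval_sub, Polynomial.eval_mul,
      Polynomial.eval_C, ← add_sub_assoc, sub_eq_zero] at hab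
    replace hab : π (a ^ 2 + rc * b ^ 2) = π ru := by
      rw [map_add, map_mul, map_pow, map_pow]; exact hab
    rw [mk_eq_iff] at hab
    simp only [map_add, map_mul, map_pow] at hab
    set A := algebraMap (𝓞 L) L a
    set B := algebraMap (𝓞 L) L b
    have hhalf : v.valuation L (B / 2) ≤ 1 := by
      rw [map_div₀, hv2, div_one]; exact v.valuation_le_one b
    refine ⟨algebraMap L M A + (B / 2) • δ, add_mem (Quad.algebraMap_mem_lattice
      (v.valuation_le_one a)) (Quad.smul_mem_lattice hhalf (sub_mem (Quad.conj_mem_lattice hθ) hθ)),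
      ?_⟩
    have e : Algebra.norm L (algebraMap L M A + (B / 2) • δ) = A ^ 2 + c * B ^ 2 := by
      apply (algebraMap L M).injective
      rw [Quad.norm_spec, map_add, map_smul, AlgEquiv.commutes, map_add, map_pow, map_mul, hc,
        map_div₀, Quad.norm_spec, map_pow, map_ofNat, Algebra.smul_def, Algebra.smul_def,
        map_div₀, map_ofNat, hδ, map_sub, Quad.conj_conj]
      have : (2 : M) ≠ 0 := by
        rw [← map_ofNat (algebraMap L M) 2]
        exact (map_ne_zero_iff _ (algebraMap L M).injective).2 two_ne_zero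
      have : (4 : M) ≠ 0 := by
        rw [← map_ofNat (algebraMap L M) 4]
        exact (map_ne_zero_iff _ (algebraMap L M).injective).2 (by norm_num)
      field_simp
      ring
    rw [e, show u - (A ^ 2 + c * B ^ 2) = (u - algebraMap (𝓞 L) L ru) -
      ((A ^ 2 + algebraMap (𝓞 L) L rc * B ^ 2 - algebraMap (𝓞 L) L ru) +
        (c - algebraMap (𝓞 L) L rc) * B ^ 2) by ring]
    refine lt_of_le_of_lt (Valuation.map_sub _ _ _) (max_lt hru (Valuation.map_add_lt _ hab ?_))
    rw [map_mul, map_pow]
    exact (mul_le_of_le_one_right zero_le (pow_le_one₀ zero_le (v.valuation_le_one b))).trans_lt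
      hrc

/-- Unramified places are unimodular. -/
theorem isUnimodular (hu : Quad.IsUnr L M v) : (locQuad v M).IsUnimodular :=
  ⟨e_eq_zero hu, fun _ hv => exists_norm_congr hu hv⟩

/-- Membership in the first lattice. -/
lemma mem_lat_one_iff {x : M} :
    x ∈ (locQuad v M).lat 1 ↔ (unif v)⁻¹ • x ∈ Quad.lattice L M v := by
  rw [mem_lat, zpow_neg_one]; rfl

/-- At an unramified place small norm and trace characterise `π O`. -/
lemma mem_lat_one (hu : Quad.IsUnr L M v) {x : M}
    (hx : x ∈ Quad.lattice L M v) (hN : v.valuation L (Algebra.norm L x) < 1)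
    (hT : v.valuation L (Algebra.trace L M x) < 1) : x ∈ (locQuad v M).lat 1 := by
  obtain ⟨θ, hθ, hNθ⟩ := hu
  obtain ⟨a, b, ha, hb, rfl⟩ := (Quad.isGen_of_unit hθ hNθ).2 x hx
  set δ := Quad.conj L M θ - θ with hδ
  set x := algebraMap L M a + b • θ with hxdef
  have e : b ^ 2 * Algebra.norm L δ =
      4 * Algebra.norm L x - Algebra.trace L M x ^ 2 := by
    apply (algebraMap L M).injective
    rw [map_mul, map_pow, map_sub (algebraMap L M), map_mul, map_pow, map_ofNat, Quad.norm_spec,
      Quad.norm_spec, Quad.trace_spec, hxdef, map_add, map_smul, AlgEquiv.commutes, hδ,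
      map_sub, Quad.conj_conj,
      Algebra.smul_def, Algebra.smul_def]
    ring
  have hb' : v.valuation L b < 1 := by
    refine v_le_one_of_sq ?_
    have h4 : v.valuation L (4 : L) ≤ 1 := by
      simpa [map_ofNat] using v.valuation_le_one (4 : 𝓞 L)
    have : v.valuation L (b ^ 2 * Algebra.norm L δ) < 1 := by
      rw [e]
      refine lt_of_le_of_lt (Valuation.map_sub _ _ _) (max_lt ?_ ?_)
      · rw [map_mul]; exact (mul_le_of_le_one_left zero_le h4).trans_lt hN
      · rw [map_pow]; exact pow_lt_one₀ zero_le hT two_ne_zero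
    rwa [map_mul, hNθ, mul_one] at this
  have ha' : v.valuation L a < 1 := by
    refine v_le_one_of_sq ?_
    have e2 : a ^ 2 = Algebra.norm L x - b *
        (a * Algebra.trace L M θ + b * Algebra.norm L θ) := by
      apply (algebraMap L M).injective
      rw [map_sub (algebraMap L M), map_mul (algebraMap L M), map_add (algebraMap L M),
        map_mul (algebraMap L M), map_mul (algebraMap L M), map_pow, Quad.norm_spec, Quad.norm_spec,
        Quad.trace_spec, hxdef, map_add, map_smul, AlgEquiv.commutes, Algebra.smul_def,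
        Algebra.smul_def]
      ring
    rw [e2]
    refine lt_of_le_of_lt (Valuation.map_sub _ _ _) (max_lt hN ?_)
    rw [map_mul]
    refine
      (mul_le_of_le_one_right zero_le ((Valuation.map_add _ _ _).trans (max_le ?_ ?_))).trans_lt
      hb' <;> rw [map_mul]
    · exact mul_le_one' ha (Quad.v_trace_le hθ)
    · exact mul_le_one' hb (Quad.v_norm_le hθ)
  rw [mem_lat_one_iff, hxdef, smul_add, smul_smul, Algebra.smul_def, ← map_mul]
  have key : ∀ c : L, v.valuation L c < 1 → v.valuation L ((unif v)⁻¹ * c) ≤ 1 := fun c hc => by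
    rw [map_mul, map_inv₀, v_unif]
    calc (exp (-1 : ℤ))⁻¹ * v.valuation L c ≤ (exp (-1 : ℤ))⁻¹ * exp (-1 : ℤ) := by
          have := v_le_exp_neg_one v hc
          gcongr
      _ = 1 := inv_mul_cancel₀ exp_ne_zero
  exact add_mem (Quad.algebraMap_mem_lattice (key a ha'))
    (Quad.smul_mem_lattice (key b hb') hθ)

/-- An unramified place is either inert or has a split prime element. -/
theorem inert_or_split (hu : Quad.IsUnr L M v) :
    (∀ x ∈ (locQuad v M).O, (locQuad v M).v ((locQuad v M).N x) < 1 → x ∈ (locQuad v M).lat 1) ∨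
      ∃ ϖ : M, IsSplitPrime (locQuad v M) ϖ ∧ v.valuation L (Algebra.trace L M ϖ) = 1 := by
  by_cases hf : ∀ x ∈ (locQuad v M).O, (locQuad v M).v ((locQuad v M).N x) < 1 →
      x ∈ (locQuad v M).lat 1
  · exact Or.inl hf
  push Not at hf
  obtain ⟨x₀, hx₀, hN₀, hn₀⟩ := hf
  have hT₀ : v.valuation L (Algebra.trace L M x₀) = 1 := by
    refine le_antisymm (Quad.v_trace_le hx₀) (not_lt.1 fun hlt => hn₀ ?_)
    exact mem_lat_one hu hx₀ hN₀ hlt
  obtain ⟨ϖ, hϖ, hϖN, hϖT⟩ : ∃ ϖ : M, ϖ ∈ Quad.lattice L M v ∧
      v.valuation L (Algebra.norm L ϖ) = exp (-1 : ℤ) ∧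
      v.valuation L (Algebra.trace L M ϖ) = 1 := by
    rcases (v_le_exp_neg_one v hN₀).lt_or_eq with hlt | heq
    · refine ⟨x₀ + algebraMap L M (unif v), add_mem hx₀ (Quad.algebraMap_mem_lattice ?_), ?_, ?_⟩
      · rw [v_unif, ← exp_zero, exp_le_exp]; norm_num
      · have e : Algebra.norm L (x₀ + algebraMap L M (unif v)) =
            unif v * Algebra.trace L M x₀ + (Algebra.norm L x₀ + unif v ^ 2) := by
          apply (algebraMap L M).injective
          rw [Quad.norm_spec, map_add, map_add, map_add, map_mul, map_pow, Quad.norm_spec,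
            Quad.trace_spec, AlgEquiv.commutes]
          ring
        rw [e, Valuation.map_add_eq_of_lt_left _ ?_]
        · rw [map_mul, v_unif, hT₀, mul_one]
        · rw [map_mul, v_unif, hT₀, mul_one]
          refine Valuation.map_add_lt _ hlt ?_
          rw [map_pow, v_unif, pow_two, ← exp_add, exp_lt_exp]
          norm_num
      · rw [map_add, Algebra.trace_algebraMap, Algebra.IsQuadraticExtension.finrank_eq_two,
          Valuation.map_add_eq_of_lt_left _ ?_]
        · exact hT₀
        · rw [hT₀, two_smul]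
          have : v.valuation L (unif v) < 1 := by
            rw [v_unif, ← exp_zero, exp_lt_exp]; norm_num
          exact Valuation.map_add_lt _ this this
    · exact ⟨x₀, hx₀, heq, hT₀⟩
  have hϖ0 : ϖ ≠ 0 := fun e => by
    rw [e, Algebra.norm_zero, map_zero] at hϖN
    exact exp_ne_zero hϖN.symm
  have hN0 : Algebra.norm L ϖ ≠ 0 := fun e => by
    rw [e, map_zero] at hϖN
    exact exp_ne_zero hϖN.symm
  have hσ0 : Quad.conj L M ϖ ≠ 0 := (map_ne_zero_iff _ (Quad.conj L M).injective).2 hϖ0
  have hsc : v.valuation L (unif v / Algebra.norm L ϖ) ≤ 1 := by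
    rw [map_div₀, v_unif, hϖN, div_self exp_ne_zero]
  refine Or.inr ⟨ϖ, ⟨hϖ, hϖN, fun x hx hNx => ?_, fun x ha hb => ?_⟩, hϖT⟩
  · replace hx : x ∈ Quad.lattice L M v := hx
    have hdiv : ∀ w : M, w ≠ 0 → Algebra.norm L w = Algebra.norm L ϖ →
        Quad.conj L M w * x ∈ (locQuad v M).lat 1 → w⁻¹ * x ∈ (locQuad v M).O := by
      intro w hw hwN hm
      rw [mem_lat_one_iff] at hm
      show w⁻¹ * x ∈ Quad.lattice L M v
      have e : w⁻¹ * x =
          (unif v / Algebra.norm L ϖ) • ((unif v)⁻¹ • (Quad.conj L M w * x)) := by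
        rw [smul_smul, div_mul_eq_mul_div, mul_inv_cancel₀ (unif_ne_zero v), one_div, ← hwN,
          Algebra.smul_def, map_inv₀, Quad.norm_spec]
        have := (map_ne_zero_iff _ (Quad.conj L M).injective).2 hw
        field_simp
      rw [e]
      exact Quad.smul_mem_lattice hsc hm
    set s₁ := Algebra.trace L M (Quad.conj L M ϖ * x)
    set s₂ := Algebra.trace L M (ϖ * x)
    have hprod : v.valuation L (s₁ * s₂) < 1 := by
      have e : s₁ * s₂ = Algebra.norm L ϖ * (Algebra.trace L M (x ^ 2)) +
          Algebra.norm L x * Algebra.trace L M (ϖ ^ 2) := by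
        apply (algebraMap L M).injective
        rw [map_mul, map_add, map_mul, map_mul, Quad.trace_spec, Quad.trace_spec, Quad.trace_spec,
          Quad.trace_spec, Quad.norm_spec, Quad.norm_spec, map_mul, map_mul, map_pow, map_pow,
          Quad.conj_conj]
        ring
      rw [e]
      refine Valuation.map_add_lt _ ?_ ?_ <;> rw [map_mul]
      · rw [hϖN]
        exact (mul_le_of_le_one_right zero_le (Quad.v_trace_le (pow_mem hx 2))).trans_lt (by
          rw [← exp_zero, exp_lt_exp]; norm_num)
      · exact (mul_le_of_le_one_right zero_le (Quad.v_trace_le (pow_mem hϖ 2))).trans_lt hNx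
    have hsmall : ∀ w : M, w ∈ Quad.lattice L M v → Algebra.norm L w = Algebra.norm L ϖ →
        v.valuation L (Algebra.norm L (w * x)) < 1 := fun w _ hwN => by
      rw [map_mul, map_mul, hwN, hϖN]
      exact (mul_le_of_le_one_right zero_le (Quad.v_norm_le hx)).trans_lt (by
        rw [← exp_zero, exp_lt_exp]; norm_num)
    have hNσ : Algebra.norm L (Quad.conj L M ϖ) = Algebra.norm L ϖ := by
      apply (algebraMap L M).injective
      rw [Quad.norm_spec, Quad.norm_spec, Quad.conj_conj, mul_comm]
    rcases lt_or_ge (v.valuation L s₁) 1 with h1 | h1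
    · exact Or.inl (hdiv ϖ hϖ0 rfl (mem_lat_one hu (mul_mem (Quad.conj_mem_lattice hϖ) hx)
        (hsmall _ (Quad.conj_mem_lattice hϖ) hNσ) h1))
    · refine Or.inr (hdiv _ hσ0 hNσ ?_)
      show Quad.conj L M (Quad.conj L M ϖ) * x ∈ _
      rw [Quad.conj_conj]
      refine mem_lat_one hu (mul_mem hϖ hx) (hsmall _ hϖ rfl) ?_
      by_contra h2
      push Not at h2
      rw [map_mul] at hprod
      exact not_lt.2 (one_le_mul h1 h2) hprod
  · rw [mem_lat_one_iff]
    have hπN : v.valuation L ((unif v)⁻¹ * Algebra.norm L ϖ / Algebra.trace L M ϖ) ≤ 1 := by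
      rw [map_div₀, map_mul, map_inv₀, v_unif, hϖN, hϖT, inv_mul_cancel₀ exp_ne_zero, div_one]
    have hT0 : Algebra.trace L M ϖ ≠ 0 := fun e => by simp [e] at hϖT
    have e : (unif v)⁻¹ • x = ((unif v)⁻¹ * Algebra.norm L ϖ / Algebra.trace L M ϖ) •
        (ϖ⁻¹ * x + (Quad.conj L M ϖ)⁻¹ * x) := by
      have := (map_ne_zero_iff _ (algebraMap L M).injective).2 hT0
      rw [Quad.trace_spec] at this
      rw [Algebra.smul_def, Algebra.smul_def, map_div₀, map_mul, Quad.norm_spec, Quad.trace_spec]
      field_simp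
      ring
    rw [e]
    exact Quad.smul_mem_lattice hπN (add_mem ha hb)

/-- With three residues the residues are `0, 1, -1`. -/
lemma residue_three (hq : qv v = 3) (h2 : v.valuation L 2 = 1) {u : L}
    (hu : v.valuation L u ≤ 1) :
    v.valuation L u < 1 ∨ v.valuation L (u - 1) < 1 ∨ v.valuation L (u + 1) < 1 := by
  classical
  obtain ⟨hcard, -, -, hsur⟩ := residues_spec v
  obtain ⟨t0, ht0, h0⟩ := hsur 0 (by simp)
  obtain ⟨t1, ht1, h1⟩ := hsur 1 (by simp)
  obtain ⟨t2, ht2, hm⟩ := hsur (-1) (by simp)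
  obtain ⟨t, ht, htu⟩ := hsur u hu
  have sub : ∀ {a b c : L}, v.valuation L (a - b) < 1 → v.valuation L (c - b) < 1 →
      v.valuation L (a - c) < 1 := fun {a b c} ha hb => by
    rw [show a - c = (a - b) - (c - b) by ring]
    exact lt_of_le_of_lt (Valuation.map_sub _ _ _) (max_lt ha hb)
  have d01 : t0 ≠ t1 := fun e => by simpa using sub (c := (1 : L)) h0 (e ▸ h1)
  have d02 : t0 ≠ t2 := fun e => by simpa using sub (c := (-1 : L)) h0 (e ▸ hm)
  have d12 : t1 ≠ t2 := fun e => by
    have := sub (c := (-1 : L)) h1 (e ▸ hm)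
    rw [show (1 : L) - -1 = 2 by norm_num, h2] at this
    exact lt_irrefl _ this
  have hs : residues v = {t0, t1, t2} := (Finset.eq_of_subset_of_card_le (fun x hx => by
    simp only [Finset.mem_insert, Finset.mem_singleton] at hx
    rcases hx with rfl | rfl | rfl <;> assumption) (by
      rw [hcard, hq, Finset.card_eq_three.2 ⟨t0, t1, t2, d01, d02, d12, rfl⟩])).symm
  rw [hs] at ht
  simp only [Finset.mem_insert, Finset.mem_singleton] at ht
  rcases ht with rfl | rfl | rfl
  · left; simpa using sub htu h0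
  · right; left; exact sub htu h1
  · right; right; simpa using sub htu hm

/-- The tamely ramified case with three residues. -/
theorem isRamified3 (h2 : v.valuation L 2 = 1) (hq : qv v = 3) (h3 : v.valuation L 3 < 1)
    (hr : ¬Quad.IsUnr L M v) :
    ∃ ϖ : M, IsRamified3 (locQuad v M) ϖ ∧ Quad.conj L M ϖ = -ϖ := by
  obtain ⟨ϖ, hϖ, hσ, hN, hg⟩ := Quad.exists_anti_uniformizer (v_unif v) h2 hr
  have hN0 : Algebra.norm L ϖ ≠ 0 := fun e => exp_ne_zero (by rw [← hN, e, map_zero])
  have hϖ0 : ϖ ≠ 0 := fun e => hN0 (by rw [e, Algebra.norm_zero])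
  have h20 : (2 : M) ≠ 0 := by
    rw [← map_ofNat (algebraMap L M) 2]
    exact (map_ne_zero_iff _ (algebraMap L M).injective).2 two_ne_zero
  refine ⟨ϖ, ⟨hN, hϖ, h3, fun x hx => ?_, fun x hx => ?_, fun x hx y hy => ?_⟩, hσ⟩
  · obtain ⟨a, b, ha, hb, rfl⟩ := hg.2 x hx
    obtain ⟨t, ht, hta⟩ : ∃ t : ℤ, (t = 0 ∨ t = 1 ∨ t = -1) ∧ v.valuation L (a - t) < 1 := by
      rcases residue_three hq h2 ha with h' | h' | h'
      · exact ⟨0, Or.inl rfl, by simpa using h'⟩
      · exact ⟨1, Or.inr (Or.inl rfl), by simpa using h'⟩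
      · exact ⟨-1, Or.inr (Or.inr rfl), by simpa using h'⟩
    refine ⟨t, ht, algebraMap L M b + (-(a - t) / Algebra.norm L ϖ) • ϖ, ?_, ?_⟩
    · refine (Quad.lattice L M v).add_mem (Quad.algebraMap_mem_lattice hb)
        (Quad.smul_mem_lattice ?_ hϖ)
      rw [map_div₀, Valuation.map_neg, hN, div_le_iff₀ exp_pos, one_mul]
      exact v_le_exp_neg_one v hta
    · rw [Algebra.smul_def, Algebra.smul_def, map_div₀, map_neg, map_sub, Quad.norm_spec, hσ]
      field_simp
      ring
  · have h1 := hx 1 (one_mem (Quad.lattice L M v))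
    have h2' := hx ϖ hϖ
    refine ⟨ϖ * x, ?_, rfl⟩
    show ϖ * x ∈ Quad.lattice L M v
    have e1 : (locQuad v M).B x 1 = Algebra.trace L M x := by
      show Algebra.trace L M (x * Quad.conj L M 1) = _; simp
    have e2 : (locQuad v M).B x ϖ = -Algebra.trace L M (x * ϖ) := by
      show Algebra.trace L M (x * Quad.conj L M ϖ) = _; simp [hσ]
    rw [e1] at h1
    rw [e2, Valuation.map_neg] at h2'
    have e : ϖ * x = algebraMap L M (Algebra.trace L M (x * ϖ) / 2) +
        (Algebra.trace L M x / 2) • ϖ := by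
      rw [Algebra.smul_def, map_div₀, map_div₀, Quad.trace_spec, Quad.trace_spec, map_ofNat,
        map_mul, hσ]
      field_simp
      ring
    rw [e]
    exact add_mem (Quad.algebraMap_mem_lattice (by rw [map_div₀, h2, div_one]; exact h2'))
      (Quad.smul_mem_lattice (by rw [map_div₀, h2, div_one]; exact h1) hϖ)
  · obtain ⟨a, b, ha, hb, e⟩ := hg.2 _
      (mul_mem hx (Quad.conj_mem_lattice hy) : x * Quad.conj L M y ∈ Quad.lattice L M v)
    show v.valuation L (Algebra.trace L M (ϖ⁻¹ * x * Quad.conj L M y)) ≤ 1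
    have e' : Algebra.trace L M (ϖ⁻¹ * x * Quad.conj L M y) = 2 * b := by
      apply (algebraMap L M).injective
      rw [mul_assoc, e, Quad.trace_spec, map_mul, map_inv₀, map_add, map_smul,
        AlgEquiv.commutes, hσ, Algebra.smul_def, Algebra.smul_def, map_mul (algebraMap L M),
        map_ofNat (algebraMap L M)]
      field_simp
      ring
    rw [e', map_mul, h2, one_mul]
    exact hb

end Place

end FermatAgent.LT.Theta
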