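import Fermat.Agent.LT.Base.Poisson

/-!
# Poisson summation for continuous functions of rapid decay
-/

set_option autoImplicit false

noncomputable section

open MeasureTheory UnitAddTorus
open scoped Real

namespace FermatAgent.LT.Theta.PoissonD

open FermatAgent.LT.Poisson (intVec intVec_apply summable_one_add_norm_rpow
  exists_equivIco mFourier_neg_coe pairwise_disjoint_cubes iUnion_cubes)

variable {d : Type*} [Fintype d]

/-- A continuous function of rapid decay. -/
structure Decay (d : Type*) [Fintype d] where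
  /-- the function -/
  toFun : EuclideanSpace ℝ d → ℂ
  cont : Continuous toFun
  decay : ∀ k : ℕ, ∃ C : ℝ, 0 ≤ C ∧ ∀ x, ‖toFun x‖ ≤ C * (1 + ‖x‖) ^ (-(k : ℝ))

instance : CoeFun (Decay d) fun _ => EuclideanSpace ℝ d → ℂ := ⟨Decay.toFun⟩

lemma Decay.integrable (f : Decay d) : Integrable (f : EuclideanSpace ℝ d → ℂ) := by
  obtain ⟨C, _, hb⟩ := f.decay (Fintype.card d + 1)
  refine ((integrable_one_add_norm (r := ((Fintype.card d + 1 : ℕ) : ℝ)) ?_).const_mul C).mono'
    f.cont.aestronglyMeasurable (ae_of_all _ fun x => hb x)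
  rw [finrank_euclideanSpace]
  exact_mod_cast Nat.lt_succ_self _

/-- The Fourier integral at an integer vector. -/
def intCoeff (f : EuclideanSpace ℝ d → ℂ) (k : d → ℤ) : ℂ :=
  ∫ x : d → ℝ, mFourier (-k) (fun i => (x i : UnitAddCircle)) * f (WithLp.toLp 2 x)

variable (f : Decay d)

/-- Translates sum. -/
lemma summable_restrict (x : (EuclideanSpace ℝ d)) : Summable fun n => f (x + intVec n) := by
  obtain ⟨C, hC, hb⟩ := f.decay (Fintype.card d + 1)
  refine Summable.of_norm_bounded
    (g := fun n => C * (1 + ‖x‖) ^ (Fintype.card d + 1) *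
      (1 + ‖intVec n‖) ^ (-((Fintype.card d + 1 : ℕ) : ℝ)))
    ((summable_one_add_norm_rpow (by simp)).mul_left _) fun n => (hb _).trans ?_
  rw [mul_assoc]
  refine mul_le_mul_of_nonneg_left ?_ hC
  rw [Real.rpow_neg (by positivity), Real.rpow_neg (by positivity), Real.rpow_natCast,
    Real.rpow_natCast, ← div_eq_mul_inv, inv_eq_one_div, div_le_div_iff₀ (by positivity)
    (by positivity), one_mul, ← mul_pow]
  gcongr
  have : ‖intVec n‖ ≤ ‖x + intVec n‖ + ‖x‖ := by
    simpa using norm_sub_le (x + intVec n) x
  nlinarith [norm_nonneg x, norm_nonneg (x + intVec n)]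

/-- The periodisation on `d → ℝ`. -/
def periodise (x : d → ℝ) : ℂ := ∑' n : d → ℤ, f (WithLp.toLp 2 x + intVec n)

lemma periodise_add_int (x : d → ℝ) (m : d → ℤ) :
    periodise f (fun i => x i + m i) = periodise f x := by
  unfold periodise
  rw [← (Equiv.addLeft m).tsum_eq (fun n => f (WithLp.toLp 2 x + intVec n))]
  refine tsum_congr fun n => congrArg f ?_
  ext i
  simp [add_assoc]

lemma continuous_periodise : Continuous (periodise f) := by
  have : ∀ R : ℝ, ContinuousOn (periodise f)
      {x | ‖(WithLp.toLp 2 x : (EuclideanSpace ℝ d))‖ ≤ R} := by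
    intro R
    obtain ⟨C, hC, hb⟩ := f.decay (Fintype.card d + 1)
    refine continuousOn_tsum (u := fun n => C * (1 + R) ^ (Fintype.card d + 1) *
        (1 + ‖intVec n‖) ^ (-((Fintype.card d + 1 : ℕ) : ℝ)))
      (fun n => (f.cont.comp (((PiLp.continuous_toLp 2 _)).add continuous_const)).continuousOn)
      ((summable_one_add_norm_rpow (by simp)).mul_left _) fun n x hx => (hb _).trans ?_
    have hR : 0 ≤ R := (norm_nonneg _).trans hx
    rw [mul_assoc]
    refine mul_le_mul_of_nonneg_left ?_ hC
    rw [Real.rpow_neg (by positivity), Real.rpow_neg (by positivity), Real.rpow_natCast,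
      Real.rpow_natCast, ← div_eq_mul_inv, inv_eq_one_div, div_le_div_iff₀ (by positivity)
      (by positivity), one_mul, ← mul_pow]
    gcongr
    simp only [Set.mem_ofPred_eq] at hx
    have : ‖intVec n‖ ≤ ‖WithLp.toLp 2 x + intVec n‖ +
        ‖(WithLp.toLp 2 x : (EuclideanSpace ℝ d))‖ := by
      simpa using norm_sub_le (WithLp.toLp 2 x + intVec n) (WithLp.toLp 2 x : (EuclideanSpace ℝ d))
    nlinarith [norm_nonneg (WithLp.toLp 2 x + intVec n)]
  rw [continuous_iff_continuousAt]
  intro x
  refine (this (‖(WithLp.toLp 2 x : (EuclideanSpace ℝ d))‖ + 1)).continuousAt ?_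
  have hc : Continuous fun y : d → ℝ => ‖(WithLp.toLp 2 y : (EuclideanSpace ℝ d))‖ :=
    (PiLp.continuous_toLp 2 _).norm
  exact Filter.mem_of_superset (hc.continuousAt.preimage_mem_nhds (Iio_mem_nhds (lt_add_one _)))
    fun y hy => by simp only [Set.mem_preimage, Set.mem_Iio] at hy; exact hy.le

/-- The periodisation as a function on the torus. -/
def torusFun : C(UnitAddTorus d, ℂ) where
  toFun z := periodise f fun i => (AddCircle.equivIco 1 0 (z i)).1
  continuous_toFun := by
    have hq : IsOpenQuotientMap fun (x : d → ℝ) (i : d) => (x i : UnitAddCircle) :=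
      IsOpenQuotientMap.piMap fun _ => QuotientAddGroup.isOpenQuotientMap_mk
    rw [← hq.continuous_comp_iff]
    refine (continuous_periodise f).congr fun x => ?_
    have : ∀ i, ∃ m : ℤ, x i = (AddCircle.equivIco 1 0 (x i : UnitAddCircle)).1 + m :=
      fun i => exists_equivIco (x i)
    choose m hm using this
    simp only [Function.comp]
    conv_lhs => rw [funext hm]
    exact periodise_add_int f _ m

lemma torusFun_coe (x : d → ℝ) : torusFun f (fun i => (x i : UnitAddCircle)) = periodise f x := by
  have : ∀ i, ∃ m : ℤ, x i = (AddCircle.equivIco 1 0 (x i : UnitAddCircle)).1 + m :=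
    fun i => exists_equivIco (x i)
  choose m hm using this
  show periodise f _ = _
  conv_rhs => rw [funext hm]
  exact (periodise_add_int f _ m).symm

lemma fourierCoeff_torusFun (k : d → ℤ) :
    mFourierCoeff (torusFun f) k = intCoeff (f : _ → ℂ) k := by
  rw [mFourierCoeff_eq_integral (torusFun f) k 0]
  simp only [Pi.zero_apply, zero_add, torusFun_coe]
  set e : (d → ℝ) → ℂ := fun x => mFourier (-k) fun i => (x i : UnitAddCircle) with he
  have hec : Continuous e := by
    rw [he]
    exact (map_continuous _).comp (continuous_pi fun i =>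
      continuous_quotient_mk'.comp (continuous_apply i))
  have he1 : ∀ x, ‖e x‖ = 1 := fun x => by
    rw [he]; dsimp only; rw [mFourier_neg_coe, Complex.norm_exp]; simp
  have heper : ∀ (x : d → ℝ) (n : d → ℤ), e (fun i => x i + n i) = e x := fun x n => by
    rw [he]; dsimp only
    congr 1
    funext i
    simp
  set g : (d → ℝ) → ℂ := fun x => e x * f (WithLp.toLp 2 x) with hg
  have hgi : Integrable g := by
    have : Integrable fun x : d → ℝ => f (WithLp.toLp 2 x) :=
      ((PiLp.volume_preserving_toLp d).integrable_comp_emb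
        (MeasurableEquiv.toLp 2 (d → ℝ)).measurableEmbedding).mpr f.integrable
    exact this.bdd_mul hec.aestronglyMeasurable (c := 1) (ae_of_all _ fun x => (he1 x).le)
  have hshift : ∀ n : d → ℤ, MeasurePreserving (fun x : d → ℝ => fun i => x i + n i) :=
    fun n => measurePreserving_add_right volume (fun i => (n i : ℝ))
  have hcube : MeasurableSet {x : d → ℝ | ∀ i, x i ∈ Set.Ioc (0 : ℝ) 1} :=
    MeasurableSet.univ_pi' fun i => measurableSet_Ioc
  have hpiece : ∀ n : d → ℤ,
      ∫ x in {x : d → ℝ | ∀ i, x i ∈ Set.Ioc (0 : ℝ) 1}, g (fun i => x i + n i) =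
      ∫ x in {x : d → ℝ | ∀ i, x i ∈ Set.Ioc (n i : ℝ) (n i + 1)}, g x := fun n => by
    rw [← (hshift n).setIntegral_preimage_emb (measurableEmbedding_addRight _) g
      {x | ∀ i, x i ∈ Set.Ioc (n i : ℝ) (n i + 1)}]
    congr 2
    ext x
    simp
    exact forall_congr' fun i => and_congr Iff.rfl ⟨fun h => by linarith, fun h => by linarith⟩
  have hptw : ∀ x : d → ℝ, mFourier (-k) (fun i => (x i : UnitAddCircle)) • periodise f x =
      ∑' n : d → ℤ, g (fun i => x i + n i) := fun x => by
    rw [smul_eq_mul, periodise, ← tsum_mul_left]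
    refine tsum_congr fun n => ?_
    simp only [hg, heper]
    rfl
  simp only [hptw]
  have hsum : HasSum (fun n : d → ℤ =>
      ∫ x in {x : d → ℝ | ∀ i, x i ∈ Set.Ioc (n i : ℝ) (n i + 1)}, g x) (∫ x, g x) := by
    have := hasSum_integral_iUnion (μ := volume) (f := g)
      (fun n : d → ℤ => MeasurableSet.univ_pi' fun i => measurableSet_Ioc)
      pairwise_disjoint_cubes hgi.integrableOn
    rwa [iUnion_cubes, setIntegral_univ] at this
  have hnorm : Summable fun n : d → ℤ =>
      ∫ x in {x : d → ℝ | ∀ i, x i ∈ Set.Ioc (0 : ℝ) 1}, ‖g (fun i => x i + n i)‖ := by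
    have := (hasSum_integral_iUnion (μ := volume) (f := fun x => ‖g x‖)
      (fun n : d → ℤ => MeasurableSet.univ_pi' fun i => measurableSet_Ioc)
      pairwise_disjoint_cubes hgi.norm.integrableOn).summable
    refine this.congr fun n => ?_
    rw [← (hshift n).setIntegral_preimage_emb (measurableEmbedding_addRight _) (fun x => ‖g x‖)
      {x | ∀ i, x i ∈ Set.Ioc (n i : ℝ) (n i + 1)}]
    congr 2
    ext x
    simp
    exact forall_congr' fun i => and_congr Iff.rfl ⟨fun h => by linarith, fun h => by linarith⟩
  rw [← integral_tsum_of_summable_integral_norm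
    (F := fun (n : d → ℤ) (x : d → ℝ) => g fun i => x i + n i)
    (fun n => (((hshift n).integrable_comp_emb (measurableEmbedding_addRight _)).mpr
      hgi).integrableOn) hnorm, tsum_congr hpiece, hsum.tsum_eq]
  rfl

/-- **Poisson summation** for a continuous function of rapid decay whose Fourier integrals at
integer vectors are summable. -/
theorem tsum_eq_tsum_intCoeff (hs : Summable (intCoeff (f : EuclideanSpace ℝ d → ℂ)))
    (x : EuclideanSpace ℝ d) :
    ∑' n : d → ℤ, f.toFun (x + intVec n) =
      ∑' n : d → ℤ, intCoeff (f : EuclideanSpace ℝ d → ℂ) n *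
        mFourier n (fun i => (x i : UnitAddCircle)) := by
  have hs' : Summable (mFourierCoeff (torusFun f)) := by
    rw [funext (fourierCoeff_torusFun f)]; exact hs
  have h := hasSum_mFourier_series_apply_of_summable hs' fun i => (x i : UnitAddCircle)
  have e : torusFun f (fun i => (x i : UnitAddCircle)) = ∑' n : d → ℤ, f.toFun (x + intVec n) :=
    torusFun_coe f _
  rw [← e, ← h.tsum_eq]
  simp [fourierCoeff_torusFun, smul_eq_mul]

end FermatAgent.LT.Theta.PoissonD
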