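import Mathlib

/-!
# The Gaussian attached to a point of hyperbolic space and its Fourier transform

For the norm pairing of `ℂ × ℂ` the Fourier transform of the Gaussian of a point is the Gaussian of
the inverted point: the Weil representation at a complex place on its lowest vector.
-/

set_option autoImplicit false

noncomputable section

open MeasureTheory Complex
open scoped Real InnerProductSpace ComplexConjugate

namespace FermatAgent.LT.Theta

instance : (volume : Measure (ℂ × ℂ)).IsAddHaarMeasure :=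
  inferInstanceAs (((volume : Measure ℂ).prod (volume : Measure ℂ)).IsAddHaarMeasure)

namespace Arch

/-- The additive character of `ℂ`. -/
def ψC (w : ℂ) : ℂ := cexp (-(4 * π * w.re : ℝ) * I)

/-- The character is additive. -/
lemma ψC_add (w w' : ℂ) : ψC (w + w') = ψC w * ψC w' := by
  rw [ψC, ψC, ψC, ← Complex.exp_add, add_re]; push_cast; ring_nf

/-- The character is unitary. -/
lemma norm_ψC (w : ℂ) : ‖ψC w‖ = 1 := by
  rw [ψC, neg_mul, ← neg_mul, Complex.norm_exp]; simp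

/-- The character is continuous. -/
lemma continuous_ψC : Continuous ψC := by
  unfold ψC; fun_prop

/-- The character at zero. -/
lemma ψC_zero : ψC 0 = 1 := by simp [ψC]

lemma inner_eq_re (a b : ℂ) : ⟪a, b⟫_ℝ = (conj a * b).re := by
  simp [Complex.inner, mul_comm]

/-- The transform of a planar Gaussian. -/
lemma integral_gauss_line {b : ℝ} (hb : 0 < b) (c : ℂ) :
    ∫ x : ℂ, (Real.exp (-b * ‖x‖ ^ 2) : ℂ) * ψC (c * x) =
      ((π / b) * Real.exp (-(4 * π ^ 2 * ‖c‖ ^ 2) / b) : ℝ) := by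
  have h := GaussianFourier.integral_cexp_neg_mul_sq_norm_add (V := ℂ) (b := (b : ℂ))
    (by simpa using hb) (-(4 * π : ℝ) * I) (conj c)
  rw [Complex.finrank_real_complex] at h
  have e : ∀ x : ℂ, (Real.exp (-b * ‖x‖ ^ 2) : ℂ) * ψC (c * x) =
      cexp (-(b : ℂ) * (‖x‖ : ℂ) ^ 2 + -(4 * π : ℝ) * I * (⟪conj c, x⟫_ℝ : ℂ)) := fun x => by
    rw [ψC, inner_eq_re, Complex.conj_conj, Complex.ofReal_exp, ← Complex.exp_add]
    push_cast
    ring_nf
  simp only [e]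
  rw [h]
  rw [show ((2 : ℕ) : ℂ) / 2 = 1 by norm_num, cpow_one, Complex.norm_conj]
  push_cast
  congr 2
  field_simp
  ring_nf
  rw [I_sq]
  ring

/-- The shifted line integral: real and imaginary linear terms. -/
lemma integral_gauss_line_shift {b : ℝ} (hb : 0 < b) (a c : ℂ) :
    ∫ x : ℂ, (Real.exp (-b * ‖x - a‖ ^ 2) : ℂ) * ψC (c * x) =
      ψC (c * a) * ((π / b) * Real.exp (-(4 * π ^ 2 * ‖c‖ ^ 2) / b) : ℝ) := by
  rw [← integral_gauss_line hb c, ← integral_const_mul,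
    ← integral_sub_right_eq_self (fun x : ℂ => ψC (c * a) * (((Real.exp (-b * ‖x‖ ^ 2)) : ℂ) *
      ψC (c * x))) a]
  refine integral_congr_ae (Filter.Eventually.of_forall fun x => ?_)
  show _ = ψC (c * a) * (_ * ψC (c * (x - a)))
  rw [mul_left_comm, ← ψC_add]
  ring_nf

/-- The Gaussian of the point `(z, t)` with torus parameter `ρ` and scale `u`. -/
def gauss (z : ℂ) (t ρ : ℝ) (u : ℂ) (x : ℂ × ℂ) : ℂ :=
  (Real.exp (-(2 * π * t * ‖u‖) * (ρ * ‖x.1‖ ^ 2 + ρ⁻¹ * ‖x.2‖ ^ 2)) : ℂ) *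
    ψC (z * u * (x.1 * x.2))

/-- The Gaussian is continuous. -/
lemma continuous_gauss (z : ℂ) (t ρ : ℝ) (u : ℂ) : Continuous (gauss z t ρ u) := by
  unfold gauss ψC; fun_prop

/-- The absolute value of the Gaussian. -/
lemma norm_gauss (z : ℂ) (t ρ : ℝ) (u : ℂ) (x : ℂ × ℂ) :
    ‖gauss z t ρ u x‖ =
      Real.exp (-(2 * π * t * ‖u‖ * ρ) * ‖x.1‖ ^ 2) *
        Real.exp (-(2 * π * t * ‖u‖ * ρ⁻¹) * ‖x.2‖ ^ 2) := by
  rw [gauss, norm_mul, norm_ψC, mul_one, Complex.norm_real,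
    Real.norm_of_nonneg (Real.exp_pos _).le, ← Real.exp_add]
  ring_nf

variable {z : ℂ} {t ρ : ℝ} {u : ℂ}

/-- Planar Gaussians are integrable. -/
lemma integrable_gauss_line {b : ℝ} (hb : 0 < b) :
    Integrable fun x : ℂ => Real.exp (-b * ‖x‖ ^ 2) := by
  have h := (GaussianFourier.integrable_cexp_neg_mul_sq_norm_add (V := ℂ) (b := (b : ℂ))
    (by simpa using hb) 0 0).norm
  refine h.congr (Filter.Eventually.of_forall fun x => ?_)
  simp [Complex.norm_exp, ← Complex.ofReal_pow]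

lemma integrable_gauss_pair (ht : 0 < t) (hρ : 0 < ρ) (hu : u ≠ 0) :
    Integrable fun x : ℂ × ℂ => ‖gauss z t ρ u x‖ := by
  simp only [norm_gauss]
  have : 0 < ‖u‖ := norm_pos_iff.2 hu
  exact (integrable_gauss_line (by positivity)).mul_prod (integrable_gauss_line (by positivity))

/-- The Fourier transform of the Gaussian is the Gaussian of the inverted point. -/
theorem fourier_gauss (ht : 0 < t) (hρ : 0 < ρ) (hu : u ≠ 0) (y : ℂ × ℂ) :
    ∫ x : ℂ × ℂ, gauss z t ρ u x * ψC (-(u * (x.1 * y.2 + x.2 * y.1))) =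
      ((4 * ‖u‖ ^ 2 * (‖z‖ ^ 2 + t ^ 2))⁻¹ : ℝ) *
        gauss (-conj z / ((‖z‖ ^ 2 + t ^ 2 : ℝ) : ℂ)) (t / (‖z‖ ^ 2 + t ^ 2)) ρ u y := by
  set f : ℂ × ℂ → ℂ := fun x => gauss z t ρ u x * ψC (-(u * (x.1 * y.2 + x.2 * y.1)))
  have hf : Integrable f := by
    refine (integrable_gauss_pair (z := z) ht hρ hu).mono' ?_
      (Filter.Eventually.of_forall fun x => ?_)
    · exact ((continuous_gauss z t ρ u).mul (continuous_ψC.comp (by fun_prop))).aestronglyMeasurable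
    · simp [f, norm_ψC]
  rw [Measure.volume_eq_prod, integral_prod f (by rwa [← Measure.volume_eq_prod])]
  have hu' : 0 < ‖u‖ := norm_pos_iff.2 hu
  set S : ℝ := ‖z‖ ^ 2 + t ^ 2 with hS
  have hS0 : 0 < S := by positivity
  have hSne : (S : ℂ) ≠ 0 := by exact_mod_cast hS0.ne'
  set b : ℝ := 2 * π * t * ‖u‖ * ρ⁻¹ with hb
  have hb0 : 0 < b := by positivity
  set b' : ℝ := 2 * π * ‖u‖ * ρ * S / t with hb'
  have hb'0 : 0 < b' := by positivity
  set a : ℂ := conj z * y.1 / (S : ℂ) with ha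
  have key : ∀ x1 : ℂ, 2 * π * t * ‖u‖ * ρ * ‖x1‖ ^ 2 + 4 * π ^ 2 * ‖u * (z * x1 - y.1)‖ ^ 2 / b =
      b' * ‖x1 - a‖ ^ 2 + 2 * π * (t / S) * ‖u‖ * ρ * ‖y.1‖ ^ 2 := by
    intro x1
    have e : 4 * π ^ 2 * ‖u * (z * x1 - y.1)‖ ^ 2 / b =
        2 * π * ‖u‖ * ρ / t * ‖z * x1 - y.1‖ ^ 2 := by
      rw [norm_mul, mul_pow, hb]; field_simp; ring
    rw [e, hb']
    have e2 : t ^ 2 * ‖x1‖ ^ 2 + ‖z * x1 - y.1‖ ^ 2 =
        S * ‖x1 - a‖ ^ 2 + t ^ 2 / S * ‖y.1‖ ^ 2 := by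
      have ea : (S : ℂ) * x1 - conj z * y.1 = (S : ℂ) * (x1 - a) := by
        rw [ha]; field_simp
      have h1 : ‖(S : ℂ) * x1 - conj z * y.1‖ ^ 2 = S ^ 2 * ‖x1 - a‖ ^ 2 := by
        rw [ea, norm_mul, Complex.norm_real, Real.norm_of_nonneg hS0.le, mul_pow]
      have h2 : ‖(S : ℂ) * x1 - conj z * y.1‖ ^ 2 + t ^ 2 * ‖y.1‖ ^ 2 =
          S * (t ^ 2 * ‖x1‖ ^ 2 + ‖z * x1 - y.1‖ ^ 2) := by
        simp only [hS, ← Complex.normSq_eq_norm_sq, Complex.normSq_apply, sub_re, sub_im, mul_re,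
          mul_im, ofReal_re, ofReal_im, conj_re, conj_im]
        ring
      rw [h1] at h2
      field_simp
      linarith
    have ht0 := ht.ne'
    calc _ = 2 * π * ‖u‖ * ρ / t * (t ^ 2 * ‖x1‖ ^ 2 + ‖z * x1 - y.1‖ ^ 2) := by
          field_simp
      _ = _ := by rw [e2]; field_simp
  have inner : ∀ x1 : ℂ, ∫ x2 : ℂ, f (x1, x2) =
      ((π / b : ℝ) : ℂ) * (Real.exp (-(2 * π * (t / S) * ‖u‖ * ρ * ‖y.1‖ ^ 2)) : ℂ) *
        ((Real.exp (-b' * ‖x1 - a‖ ^ 2) : ℂ) * ψC (-(u * y.2) * x1)) := by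
    intro x1
    have e : ∀ x2 : ℂ, f (x1, x2) =
        ((Real.exp (-(2 * π * t * ‖u‖ * ρ * ‖x1‖ ^ 2)) : ℂ) * ψC (-(u * y.2) * x1)) *
          ((Real.exp (-b * ‖x2‖ ^ 2) : ℂ) * ψC (u * (z * x1 - y.1) * x2)) := by
      intro x2
      simp only [f, gauss]
      rw [mul_assoc, ← ψC_add]
      conv_rhs => rw [mul_mul_mul_comm, ← ψC_add, ← Complex.ofReal_mul, ← Real.exp_add]
      congr 2
      · congr 1; rw [hb]; ring
      · ring
    simp only [e]
    rw [integral_const_mul, integral_gauss_line hb0]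
    have hk : Real.exp (-(2 * π * t * ‖u‖ * ρ * ‖x1‖ ^ 2)) *
        (π / b * Real.exp (-(4 * π ^ 2 * ‖u * (z * x1 - y.1)‖ ^ 2) / b)) =
        π / b * Real.exp (-(2 * π * (t / S) * ‖u‖ * ρ * ‖y.1‖ ^ 2)) *
          Real.exp (-b' * ‖x1 - a‖ ^ 2) := by
      rw [mul_left_comm (Real.exp _) (π / b), ← Real.exp_add, mul_assoc (π / b), ← Real.exp_add]
      congr 2
      have := key x1
      rw [neg_div]
      linarith
    rw [mul_right_comm, ← Complex.ofReal_mul, hk]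
    push_cast
    ring
  simp only [inner]
  rw [integral_const_mul, integral_gauss_line_shift hb'0, gauss]
  have e1 : ψC (-(u * y.2) * a) = ψC (-conj z / (S : ℂ) * u * (y.1 * y.2)) := by
    congr 1; rw [ha]; ring
  have hk : π / b * Real.exp (-(2 * π * (t / S) * ‖u‖ * ρ * ‖y.1‖ ^ 2)) *
      (π / b' * Real.exp (-(4 * π ^ 2 * ‖-(u * y.2)‖ ^ 2) / b')) =
      (4 * ‖u‖ ^ 2 * S)⁻¹ *
        Real.exp (-(2 * π * (t / S) * ‖u‖) * (ρ * ‖y.1‖ ^ 2 + ρ⁻¹ * ‖y.2‖ ^ 2)) := by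
    rw [mul_mul_mul_comm (π / b), ← mul_assoc, mul_assoc _ (Real.exp _) (Real.exp _),
      ← Real.exp_add]
    congr 1
    · rw [hb, hb']; field_simp; ring
    · congr 1
      rw [norm_neg, norm_mul, hb']
      field_simp
      ring
  rw [e1, ← mul_assoc (_ * _), mul_right_comm, ← Complex.ofReal_mul, ← Complex.ofReal_mul, hk]
  push_cast
  ring

end Arch

end FermatAgent.LT.Theta
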