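import Fermat.Agent.LT.Theta.Coord
import Fermat.Agent.LT.Theta.GaussFT
import Fermat.Agent.LT.Theta.PoissonDecay

/-!
# The Gaussian at infinity, its decay and its Fourier coefficients on lattices
-/

set_option autoImplicit false

noncomputable section

open IsDedekindDomain NumberField MeasureTheory
open scoped Real MatrixGroups ComplexConjugate

namespace FermatAgent.LT.Theta

namespace Arch

open Coord PoissonD

variable {L : Type*} [Field L] [NumberField L]

instance : (volume : Measure (InfV L)).IsAddHaarMeasure :=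
  Measure.pi.isAddHaarMeasure fun _ : InfinitePlace L => (volume : Measure (ℂ × ℂ))

/-- The Weyl matrix over `ℂ`. -/
def wC : GL (Fin 2) ℂ :=
  Matrix.GeneralLinearGroup.mkOfDetNeZero !![0, -1; 1, 0] (by simp [Matrix.det_fin_two])

/-- Inversion of a family of points. -/
def wPt (P : InfPts L) : InfPts L := fun w => wC • P w

lemma wC_smul_t (p : H3) : (wC • p).t = p.t / (‖p.z‖ ^ 2 + p.t ^ 2) := by
  rw [H3.t_smul]
  simp [wC, Matrix.GeneralLinearGroup.mkOfDetNeZero, H3.den, Matrix.det_fin_two,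
    Complex.normSq_eq_norm_sq]

lemma wC_smul_z (p : H3) : (wC • p).z = -conj p.z / ((‖p.z‖ ^ 2 + p.t ^ 2 : ℝ) : ℂ) := by
  show (H3.act wC p).z = _
  simp [H3.act, wC, Matrix.GeneralLinearGroup.mkOfDetNeZero, H3.den, Complex.normSq_eq_norm_sq]

/-- The Gaussian at infinity. -/
def gw (P : InfPts L) (ρ : InfinitePlace L → ℝ) (u : L) (X : InfV L) : ℂ :=
  ∏ w, ((P w).t : ℂ) * gauss (P w).z (P w).t (ρ w) (w.embedding u) (X w)

/-- The Fourier kernel at infinity. -/
def kerInf (u : L) (Z X : InfV L) : ℂ :=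
  ∏ w : InfinitePlace L, ψC (-(w.embedding u * ((X w).1 * (Z w).2 + (X w).2 * (Z w).1)))

/-- The constant of the Fourier transform. -/
def Kinf (u : L) : ℂ := ∏ w : InfinitePlace L, (((4 * ‖w.embedding u‖ ^ 2)⁻¹ : ℝ) : ℂ)

/-- The phase as a real linear form. -/
def phase (u : L) (Z : InfV L) : InfV L →ₗ[ℝ] ℝ where
  toFun X := ∑ w : InfinitePlace L,
    2 * (w.embedding u * ((X w).1 * (Z w).2 + (X w).2 * (Z w).1)).re
  map_add' X Y := by
    rw [← Finset.sum_add_distrib]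
    refine Finset.sum_congr rfl fun w _ => ?_
    rw [← mul_add, ← Complex.add_re]
    simp only [Pi.add_apply, Prod.fst_add, Prod.snd_add]
    ring_nf
  map_smul' c X := by
    rw [RingHom.id_apply, smul_eq_mul, Finset.mul_sum]
    refine Finset.sum_congr rfl fun w _ => ?_
    simp only [Pi.smul_apply, Prod.smul_fst, Prod.smul_snd, Complex.real_smul]
    rw [show w.embedding u * ((c : ℂ) * (X w).1 * (Z w).2 + (c : ℂ) * (X w).2 * (Z w).1) =
      (c : ℂ) * (w.embedding u * ((X w).1 * (Z w).2 + (X w).2 * (Z w).1)) by ring,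
      Complex.re_ofReal_mul]
    ring

/-- The phase in coordinates. -/
lemma phase_apply (u : L) (Z X : InfV L) : phase u Z X = ∑ w : InfinitePlace L,
    2 * (w.embedding u * ((X w).1 * (Z w).2 + (X w).2 * (Z w).1)).re := rfl

/-- The kernel at infinity is an exponential. -/
lemma kerInf_eq (u : L) (Z X : InfV L) :
    kerInf u Z X = Complex.exp (2 * π * Complex.I * (phase u Z X : ℝ)) := by
  rw [phase_apply]
  push_cast
  rw [kerInf, Finset.mul_sum, Complex.exp_sum]
  refine Finset.prod_congr rfl fun w _ => ?_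
  rw [ψC, Complex.neg_re]
  push_cast
  ring_nf

/-- The absolute value of the Gaussian. -/
lemma norm_gw (P : InfPts L) (ρ : InfinitePlace L → ℝ) (u : L) (X : InfV L) :
    ‖gw P ρ u X‖ = ∏ w, (P w).t *
      (Real.exp (-(2 * π * (P w).t * ‖w.embedding u‖ * ρ w) * ‖(X w).1‖ ^ 2) *
        Real.exp (-(2 * π * (P w).t * ‖w.embedding u‖ * (ρ w)⁻¹) * ‖(X w).2‖ ^ 2)) := by
  rw [gw, norm_prod]
  refine Finset.prod_congr rfl fun w _ => ?_
  rw [norm_mul, norm_gauss, Complex.norm_real, Real.norm_of_nonneg (P w).t_pos.le]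

lemma continuous_gw (P : InfPts L) (ρ : InfinitePlace L → ℝ) (u : L) :
    Continuous (gw P ρ u) :=
  continuous_finsetProd _ fun w _ =>
    continuous_const.mul ((continuous_gauss _ _ _ _).comp (continuous_apply w))

lemma exp_neg_sq_le {m : ℝ} (hm : 0 < m) (k : ℕ) {r : ℝ} (hr : 0 ≤ r) :
    Real.exp (-m * r ^ 2) ≤
      k.factorial * Real.exp (1 + 1 / (4 * m)) * (1 + r) ^ (-(k : ℝ)) := by
  rw [Real.rpow_neg (by linarith), Real.rpow_natCast, ← div_eq_mul_inv,
    le_div_iff₀ (by positivity)]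
  have h1 : (1 + r) ^ k / k.factorial ≤ Real.exp (1 + r) :=
    Real.pow_div_factorial_le_exp (1 + r) (by linarith) k
  rw [div_le_iff₀ (by positivity)] at h1
  calc Real.exp (-m * r ^ 2) * (1 + r) ^ k
      ≤ Real.exp (-m * r ^ 2) * (Real.exp (1 + r) * k.factorial) :=
        mul_le_mul_of_nonneg_left h1 (Real.exp_pos _).le
    _ = k.factorial * Real.exp (-m * r ^ 2 + (1 + r)) := by
        rw [Real.exp_add (-m * r ^ 2) (1 + r)]; ring
    _ ≤ k.factorial * Real.exp (1 + 1 / (4 * m)) := by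
        refine mul_le_mul_of_nonneg_left (Real.exp_le_exp.2 ?_) (Nat.cast_nonneg _)
        have : r - m * r ^ 2 ≤ 1 / (4 * m) := by
          rw [le_div_iff₀ (by positivity)]
          nlinarith [sq_nonneg (2 * m * r - 1)]
        linarith

/-- The Gaussian at infinity decays rapidly. -/
theorem gw_decay (P : InfPts L) {ρ : InfinitePlace L → ℝ} (hρ : ∀ w, 0 < ρ w) {u : L}
    (hu : u ≠ 0) (k : ℕ) :
    ∃ C : ℝ, 0 ≤ C ∧ ∀ X, ‖gw P ρ u X‖ ≤ C * (1 + ‖X‖) ^ (-(k : ℝ)) := by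
  classical
  let a : InfinitePlace L → ℝ := fun w =>
    min (2 * π * (P w).t * ‖w.embedding u‖ * ρ w) (2 * π * (P w).t * ‖w.embedding u‖ * (ρ w)⁻¹)
  have ha : ∀ w, 0 < a w := fun w => by
    have : 0 < ‖w.embedding u‖ := norm_pos_iff.2 ((map_ne_zero _).2 hu)
    have := (P w).t_pos
    have := hρ w
    exact lt_min (by positivity) (by positivity)
  obtain ⟨m, hm, hma⟩ : ∃ m : ℝ, 0 < m ∧ ∀ w, m ≤ a w := by
    refine ⟨Finset.univ.inf' Finset.univ_nonempty a, (Finset.lt_inf'_iff _).2 fun w _ => ha w,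
      fun w => Finset.inf'_le a (Finset.mem_univ w)⟩
  set T := ∏ w, (P w).t
  have hT : 0 ≤ T := Finset.prod_nonneg fun w _ => (P w).t_pos.le
  refine ⟨T * (k.factorial * Real.exp (1 + 1 / (4 * m))), by positivity, fun X => ?_⟩
  have key : ∏ w : InfinitePlace L,
      (Real.exp (-(2 * π * (P w).t * ‖w.embedding u‖ * ρ w) * ‖(X w).1‖ ^ 2) *
        Real.exp (-(2 * π * (P w).t * ‖w.embedding u‖ * (ρ w)⁻¹) * ‖(X w).2‖ ^ 2)) ≤
      Real.exp (-m * ‖X‖ ^ 2) := by
    simp only [← Real.exp_add, ← Real.exp_sum]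
    refine Real.exp_le_exp.2 ?_
    obtain ⟨w₀, hw₀⟩ : ∃ w₀, ‖X‖ ≤ ‖X w₀‖ := by
      obtain ⟨w₀, -, h⟩ := Finset.exists_max_image Finset.univ (fun w => ‖X w‖) Finset.univ_nonempty
      exact ⟨w₀, (pi_norm_le_iff_of_nonneg (norm_nonneg _)).2 fun w => h w (Finset.mem_univ w)⟩
    have hterm : ∀ w, -(2 * π * (P w).t * ‖w.embedding u‖ * ρ w) * ‖(X w).1‖ ^ 2 +
        -(2 * π * (P w).t * ‖w.embedding u‖ * (ρ w)⁻¹) * ‖(X w).2‖ ^ 2 ≤ -m * ‖X w‖ ^ 2 := by
      intro w
      have h1 : m ≤ 2 * π * (P w).t * ‖w.embedding u‖ * ρ w := (hma w).trans (min_le_left _ _)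
      have h2 : m ≤ 2 * π * (P w).t * ‖w.embedding u‖ * (ρ w)⁻¹ := (hma w).trans (min_le_right _ _)
      have h3 : ‖X w‖ ^ 2 ≤ ‖(X w).1‖ ^ 2 + ‖(X w).2‖ ^ 2 := by
        rw [Prod.norm_def]
        rcases max_cases ‖(X w).1‖ ‖(X w).2‖ with ⟨e, -⟩ | ⟨e, -⟩ <;> rw [e] <;>
          nlinarith [norm_nonneg (X w).1, norm_nonneg (X w).2]
      nlinarith [sq_nonneg ‖(X w).1‖, sq_nonneg ‖(X w).2‖]
    refine (Finset.sum_le_sum fun w _ => hterm w).trans ?_
    rw [← Finset.mul_sum]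
    have h1 : ‖X w₀‖ ^ 2 ≤ ∑ w, ‖X w‖ ^ 2 :=
      Finset.single_le_sum (f := fun w => ‖X w‖ ^ 2) (fun w _ => sq_nonneg _) (Finset.mem_univ w₀)
    nlinarith [norm_nonneg X, pow_le_pow_left₀ (norm_nonneg X) hw₀ 2]
  rw [norm_gw, Finset.prod_mul_distrib, mul_assoc T]
  exact mul_le_mul_of_nonneg_left (key.trans (exp_neg_sq_le hm k (norm_nonneg X))) hT

/-- The Fourier transform at infinity. -/
theorem fourier_gw (P : InfPts L) {ρ : InfinitePlace L → ℝ} (hρ : ∀ w, 0 < ρ w) {u : L}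
    (hu : u ≠ 0) (Z : InfV L) :
    ∫ X, gw P ρ u X * kerInf u Z X = Kinf u * gw (wPt P) ρ u Z := by
  have hterm : ∀ w : InfinitePlace L,
      ∫ x : ℂ × ℂ, ((P w).t : ℂ) * gauss (P w).z (P w).t (ρ w) (w.embedding u) x *
        ψC (-(w.embedding u * (x.1 * (Z w).2 + x.2 * (Z w).1))) =
      (((4 * ‖w.embedding u‖ ^ 2)⁻¹ : ℝ) : ℂ) *
        (((wPt P w).t : ℂ) * gauss (wPt P w).z (wPt P w).t (ρ w) (w.embedding u) (Z w)) := by
    intro w
    simp only [mul_assoc ((P w).t : ℂ)]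
    rw [integral_const_mul, fourier_gauss (P w).t_pos (hρ w) ((map_ne_zero _).2 hu),
      show (wPt P w).z = _ from wC_smul_z (P w), show (wPt P w).t = _ from wC_smul_t (P w)]
    push_cast
    field_simp
  rw [Kinf, gw, ← Finset.prod_mul_distrib]
  simp only [gw, kerInf, ← Finset.prod_mul_distrib]
  rw [← Finset.prod_congr rfl fun w _ => hterm w]
  exact integral_fintype_prod_eq_prod (E := fun _ : InfinitePlace L => ℂ × ℂ)
    (μ := fun _ : InfinitePlace L => (volume : Measure (ℂ × ℂ)))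
    (fun w x => ((P w).t : ℂ) * gauss (P w).z (P w).t (ρ w) (w.embedding u) x *
      ψC (-(w.embedding u * (x.1 * (Z w).2 + x.2 * (Z w).1))))

variable [IsTotallyComplex L] {M : Type*} [Field M] [Algebra L M]
  [Algebra.IsQuadraticExtension L M]

/-- The phase on embedded elements. -/
lemma phase_ιM (u : L) (x ζ : M) :
    (phase u (ιM (L := L) ζ) (ιM (L := L) x) : ℂ) =
      ((Algebra.trace ℚ L (u * Algebra.trace L M (x * Quad.conj L M ζ)) : ℚ) : ℂ) := by
  rw [Approx.trace_eq_sum_places, phase_apply]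
  push_cast
  refine Finset.sum_congr rfl fun w _ => ?_
  rw [map_mul, emb_B]

/-- Coordinates in a scaled lattice, as a continuous linear equivalence. -/
def coordEquiv {κ : L} (hκ : κ ≠ 0) : (Idx L → ℝ) ≃L[ℝ] InfV L :=
  (latBasis M hκ).equivFun.symm.toContinuousLinearEquiv

/-- The lattice coordinates. -/
lemma coordEquiv_apply {κ : L} (hκ : κ ≠ 0) (y : Idx L → ℝ) :
    coordEquiv (M := M) hκ y = ∑ j, y j • latBasis M hκ j :=
  (latBasis M hκ).equivFun_symm_apply y

/-- The Gaussian restricted to a lattice, translated. -/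
def latDecay (P : InfPts L) {ρ : InfinitePlace L → ℝ} (hρ : ∀ w, 0 < ρ w) {u : L} (hu : u ≠ 0)
    {κ : L} (hκ : κ ≠ 0) : Decay (Idx L) where
  toFun y := gw P ρ u (coordEquiv (M := M) hκ (WithLp.ofLp y))
  cont := (continuous_gw P ρ u).comp
    ((coordEquiv (M := M) hκ).continuous.comp (PiLp.continuous_ofLp 2 _))
  decay k := by
    obtain ⟨C, hC, hb⟩ := gw_decay P hρ hu k
    let e : EuclideanSpace ℝ (Idx L) ≃L[ℝ] InfV L :=
      (PiLp.continuousLinearEquiv 2 ℝ fun _ : Idx L => ℝ).trans (coordEquiv (M := M) hκ)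
    set c := ‖(e.symm : InfV L →L[ℝ] EuclideanSpace ℝ (Idx L))‖ + 1
    have hc : 1 ≤ c := le_add_of_nonneg_left (norm_nonneg _)
    refine ⟨C * c ^ k, by positivity, fun y => (hb _).trans ?_⟩
    rw [mul_assoc]
    refine mul_le_mul_of_nonneg_left ?_ hC
    show (1 + ‖e y‖) ^ (-(k : ℝ)) ≤ _
    have hy : ‖y‖ ≤ c * ‖e y‖ := by
      calc ‖y‖ = ‖e.symm (e y)‖ := by rw [e.symm_apply_apply]
        _ ≤ ‖(e.symm : InfV L →L[ℝ] EuclideanSpace ℝ (Idx L))‖ * ‖e y‖ :=
            (e.symm : InfV L →L[ℝ] EuclideanSpace ℝ (Idx L)).le_opNorm (e y)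
        _ ≤ c * ‖e y‖ := by
            have := norm_nonneg (e y)
            nlinarith
    rw [Real.rpow_neg (by positivity), Real.rpow_neg (by positivity), Real.rpow_natCast,
      Real.rpow_natCast, ← div_eq_mul_inv, le_div_iff₀ (by positivity),
      inv_mul_le_iff₀ (by positivity), ← mul_pow]
    refine pow_le_pow_left₀ (by positivity) ?_ k
    nlinarith [norm_nonneg (e y)]

variable (M) in
/-- The constant of the change of variables. -/
lemma exists_jacobian {κ : L} (hκ : κ ≠ 0) : ∃ c : ℝ, ∀ g : InfV L → ℂ,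
    ∫ y : Idx L → ℝ, g (coordEquiv (M := M) hκ y) = (c : ℂ) * ∫ X, g X := by
  classical
  set e := coordEquiv (M := M) hκ
  have : Measure.IsAddHaarMeasure (Measure.map e (volume : Measure (Idx L → ℝ))) :=
    e.isAddHaarMeasure_map _
  refine ⟨((Measure.map e (volume : Measure (Idx L → ℝ))).addHaarScalarFactor volume : NNReal),
    fun g => ?_⟩
  have h1 : ∫ X, g X ∂(Measure.map e (volume : Measure (Idx L → ℝ))) = ∫ y, g (e y) :=
    integral_map_equiv e.toHomeomorph.toMeasurableEquiv g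
  rw [← h1]
  conv_lhs => rw [Measure.isAddLeftInvariant_eq_smul (Measure.map e (volume : Measure (Idx L → ℝ)))
    (volume : Measure (InfV L))]
  rw [integral_smul_nnreal_measure, NNReal.smul_def, Complex.real_smul]

end Arch

end FermatAgent.LT.Theta
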