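import Fermat.Agent.LT.Theta.GaussFT
import Fermat.Agent.LT.Base.PointKer
import Fermat.Agent.LT.Base.Siegel

/-!
# The Whittaker function of the theta series at an infinite place

`winf (z, t) = J t · t · ψ z`, with the radial part `J` an integral of an exponential profile, is an
eigenfunction of every radial kernel (`radial_winf`): it is a superposition of the functions
`wfun`, and the eigenvalue is read off at the base point.
-/

set_option autoImplicit false

noncomputable section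

open MeasureTheory Complex Filter
open scoped Real ComplexConjugate MatrixGroups Topology

namespace FermatAgent.LT.Theta

namespace ArchW

open Arch

/-- The cut-off. -/
def bump (r : ℝ) : ℝ := if 1 ≤ r ∧ r ≤ 2 then 1 else 0

lemma bump_nonneg (r : ℝ) : 0 ≤ bump r := by rw [bump]; split_ifs <;> norm_num

/-- The modulus of the norm. -/
def nm (h : ℂ × ℂ) : ℝ := ‖h.1‖ * ‖h.2‖

/-- The ratio of the moduli. -/
def rho (h : ℂ × ℂ) : ℝ := ‖h.1‖ / ‖h.2‖

/-- The weight of the cut-off. -/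
def wgt (s : ℝ) (h : ℂ × ℂ) : ℝ := bump (s / nm h) / (s * nm h)

lemma nm_nonneg (h : ℂ × ℂ) : 0 ≤ nm h := mul_nonneg (norm_nonneg _) (norm_nonneg _)

lemma wgt_eq_zero {s : ℝ} {h : ℂ × ℂ} (hh : nm h = 0) : wgt s h = 0 := by
  simp [wgt, hh]

lemma wgt_nonneg {s : ℝ} (hs : 0 ≤ s) (h : ℂ × ℂ) : 0 ≤ wgt s h :=
  div_nonneg (bump_nonneg _) (mul_nonneg hs (nm_nonneg h))

/-- The exponential profile. -/
def prof (t : ℝ) (h : ℂ × ℂ) : ℝ := Real.exp (-(2 * π * t) * (rho h + (rho h)⁻¹))

lemma prof_pos (t : ℝ) (h : ℂ × ℂ) : 0 < prof t h := Real.exp_pos _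

lemma measurable_wgt (s : ℝ) : Measurable (wgt s) := by
  have hn : Measurable nm := (measurable_fst.norm).mul measurable_snd.norm
  exact (Measurable.ite ((measurableSet_le measurable_const (measurable_const.div hn)).inter
    (measurableSet_le (measurable_const.div hn) measurable_const)) measurable_const
    measurable_const).div (measurable_const.mul hn)

lemma measurable_prof (t : ℝ) : Measurable (prof t) := by
  have hr : Measurable rho := measurable_fst.norm.div measurable_snd.norm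
  exact Real.measurable_exp.comp (measurable_const.mul (hr.add hr.inv))

lemma measurable_rho : Measurable rho := measurable_fst.norm.div measurable_snd.norm

lemma nm_smul {R : ℝ} (h : ℂ × ℂ) : nm (R • h) = R ^ 2 * nm h := by
  simp [nm]
  rw [← sq_abs R]; ring

lemma rho_smul {R : ℝ} (hR : R ≠ 0) (h : ℂ × ℂ) : rho (R • h) = rho h := by
  simp [rho, mul_div_mul_left _ _ (abs_ne_zero.2 hR)]

/-- The integrand at height `t`. -/
def jk (t : ℝ) (h : ℂ × ℂ) : ℝ := wgt 1 h * prof t h

lemma jk_nonneg (t : ℝ) (h : ℂ × ℂ) : 0 ≤ jk t h :=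
  mul_nonneg (wgt_nonneg zero_le_one h) (prof_pos t h).le

lemma measurable_jk (t : ℝ) : Measurable (jk t) := (measurable_wgt 1).mul (measurable_prof t)

/-- The profile is dominated by Gaussians. -/
lemma jk_le {t t₀ : ℝ} (h₀ : 0 < t₀) (ht : t₀ ≤ t) (h : ℂ × ℂ) :
    jk t h ≤ 2 * Real.exp (-(2 * π * t)) *
      (Real.exp (-(π * t₀) * ‖h.1‖ ^ 2) * Real.exp (-(π * t₀) * ‖h.2‖ ^ 2)) := by
  by_cases hb : 1 ≤ 1 / nm h ∧ 1 / nm h ≤ 2
  swap
  · rw [jk, wgt, bump, if_neg hb, zero_div, zero_mul]; positivity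
  have hn : 0 < nm h := by
    rcases (nm_nonneg h).lt_or_eq with h' | h'
    · exact h'
    · rw [← h', div_zero] at hb; linarith [hb.1]
  have hn1 : nm h ≤ 1 := by rw [le_div_iff₀ hn] at hb; linarith [hb.1]
  have h2 : 0 < ‖h.2‖ := lt_of_le_of_ne (norm_nonneg _) fun e => by
    simp [nm, ← e] at hn
  have h1 : 0 < ‖h.1‖ := lt_of_le_of_ne (norm_nonneg _) fun e => by
    simp [nm, ← e] at hn
  have hr : 0 < rho h := div_pos h1 h2
  have hA : 2 ≤ rho h + (rho h)⁻¹ := by
    have := mul_inv_cancel₀ hr.ne'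
    nlinarith [sq_nonneg (rho h - 1), inv_pos.2 hr]
  have hB : ‖h.1‖ ^ 2 + ‖h.2‖ ^ 2 ≤ rho h + (rho h)⁻¹ := by
    have e : rho h + (rho h)⁻¹ = (‖h.1‖ ^ 2 + ‖h.2‖ ^ 2) / nm h := by
      rw [rho, nm, inv_div, div_add_div _ _ h2.ne' h1.ne']
      ring_nf
    rw [e, le_div_iff₀ hn]
    exact mul_le_of_le_one_right (by positivity) hn1
  have hw : wgt 1 h ≤ 2 := by
    rw [wgt, bump, if_pos hb, one_mul]
    exact hb.2
  rw [jk, mul_assoc, ← Real.exp_add, ← Real.exp_add]
  refine mul_le_mul hw (Real.exp_le_exp.2 ?_) (Real.exp_pos _).le zero_le_two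
  nlinarith [mul_le_mul_of_nonneg_left hA (mul_nonneg Real.pi_pos.le (h₀.le.trans ht)),
    mul_le_mul ht hB (by positivity) (h₀.le.trans ht), Real.pi_pos]

lemma integrable_gauss₂ {b : ℝ} (hb : 0 < b) :
    Integrable fun h : ℂ × ℂ => Real.exp (-b * ‖h.1‖ ^ 2) * Real.exp (-b * ‖h.2‖ ^ 2) :=
  (integrable_gauss_line hb).mul_prod (integrable_gauss_line hb)

lemma integral_gauss₂ {b : ℝ} (hb : 0 < b) :
    ∫ h : ℂ × ℂ, Real.exp (-b * ‖h.1‖ ^ 2) * Real.exp (-b * ‖h.2‖ ^ 2) = (π / b) ^ 2 := by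
  have h1 : ∫ x : ℂ, Real.exp (-b * ‖x‖ ^ 2) = π / b := by
    have h := integral_gauss_line hb 0
    simp only [zero_mul, ψC_zero, mul_one, norm_zero] at h
    rw [integral_complex_ofReal, Complex.ofReal_inj] at h
    rw [h]; simp
  rw [show (volume : Measure (ℂ × ℂ)) = (volume : Measure ℂ).prod volume from rfl,
    integral_prod_mul (fun x : ℂ => Real.exp (-b * ‖x‖ ^ 2))
      (fun x : ℂ => Real.exp (-b * ‖x‖ ^ 2)), h1, pow_two]

lemma integrable_jk {t : ℝ} (ht : 0 < t) : Integrable (jk t) :=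
  ((integrable_gauss₂ (mul_pos Real.pi_pos ht)).const_mul (2 * Real.exp (-(2 * π * t)))).mono'
    (measurable_jk t).aestronglyMeasurable (ae_of_all _ fun h => by
      rw [Real.norm_of_nonneg (jk_nonneg t h)]
      exact jk_le ht le_rfl h)

/-- The radial part. -/
def J (t : ℝ) : ℝ := ∫ h, jk t h

lemma J_nonneg (t : ℝ) : 0 ≤ J t := integral_nonneg (jk_nonneg t)

lemma J_le {t : ℝ} (ht : 0 < t) : J t ≤ 2 * Real.exp (-(2 * π * t)) / t ^ 2 := by
  have h := integral_mono (integrable_jk ht)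
    ((integrable_gauss₂ (mul_pos Real.pi_pos ht)).const_mul (2 * Real.exp (-(2 * π * t))))
    (fun h => jk_le ht le_rfl h)
  rw [integral_const_mul, integral_gauss₂ (mul_pos Real.pi_pos ht)] at h
  refine h.trans (le_of_eq ?_)
  field_simp

/-- The integral is positive. -/
lemma J_pos {t : ℝ} (ht : 0 < t) : 0 < J t := by
  rw [J, integral_pos_iff_support_of_nonneg (jk_nonneg t) (integrable_jk ht)]
  have hn : Continuous nm := continuous_fst.norm.mul continuous_snd.norm
  refine lt_of_lt_of_le ((isOpen_Ioo.preimage hn).measure_pos volume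
    ⟨((1 : ℂ), ((3 / 4 : ℝ) : ℂ)), show (1 / 2 : ℝ) < nm _ ∧ nm _ < 1 by
      simp only [nm, norm_one, one_mul, Complex.norm_real]; norm_num⟩) (measure_mono ?_)
  intro h (hh : 1 / 2 < nm h ∧ nm h < 1)
  have hn0 : 0 < nm h := by linarith [hh.1]
  refine (mul_pos ?_ (prof_pos t h)).ne'
  have hb : 1 ≤ 1 / nm h ∧ 1 / nm h ≤ 2 :=
    ⟨by rw [le_div_iff₀ hn0]; linarith [hh.2], by rw [div_le_iff₀ hn0]; linarith [hh.1]⟩
  rw [wgt, bump, if_pos hb, one_mul]
  positivity

lemma continuousAt_J {t : ℝ} (ht : 0 < t) : ContinuousAt J t := by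
  refine continuousAt_of_dominated (F := fun t h => jk t h)
    (bound := fun h => 2 * (Real.exp (-(π * (t / 2)) * ‖h.1‖ ^ 2) *
      Real.exp (-(π * (t / 2)) * ‖h.2‖ ^ 2)))
    (Eventually.of_forall fun s => (measurable_jk s).aestronglyMeasurable) ?_
    ((integrable_gauss₂ (by positivity)).const_mul 2) ?_
  · filter_upwards [Ioi_mem_nhds (show t / 2 < t by linarith)] with s hs
    refine ae_of_all _ fun h => ?_
    rw [Real.norm_of_nonneg (jk_nonneg s h)]
    refine (jk_le (half_pos ht) (le_of_lt hs) h).trans ?_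
    refine mul_le_mul_of_nonneg_right ?_ (by positivity)
    refine mul_le_of_le_one_right zero_le_two (Real.exp_le_one_iff.2 ?_)
    simp only [Set.mem_Ioi] at hs
    nlinarith [Real.pi_pos]
  · refine ae_of_all _ fun h => ?_
    show ContinuousAt (fun s => wgt 1 h * Real.exp (-(2 * π * s) * (rho h + (rho h)⁻¹))) t
    fun_prop

/-- The integrand of the Whittaker function with cut-off scale `s`. -/
def kinf (s : ℝ) (p : H3) (h : ℂ × ℂ) : ℂ :=
  ((wgt s h * prof p.t h : ℝ) : ℂ) * ((p.t : ℂ) * ψC p.z)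

/-- The Whittaker function. -/
def winf (p : H3) : ℂ := (J p.t : ℂ) * ((p.t : ℂ) * ψC p.z)

lemma norm_winf (p : H3) : ‖winf p‖ = p.t * J p.t := by
  rw [winf, norm_mul, norm_mul, norm_ψC, Complex.norm_real, Complex.norm_real,
    Real.norm_of_nonneg (J_nonneg _), Real.norm_of_nonneg p.t_pos.le, mul_one, mul_comm]

/-- The Whittaker function decays. -/
lemma norm_winf_le (p : H3) : ‖winf p‖ ≤ 2 * Real.exp (-(2 * π * p.t)) / p.t := by
  rw [norm_winf]
  have := p.t_pos
  refine (mul_le_mul_of_nonneg_left (J_le this) this.le).trans (le_of_eq ?_)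
  field_simp

/-- The Whittaker function is continuous. -/
lemma continuous_winf : Continuous winf := by
  have hJ : Continuous fun p : H3 => J p.t := continuous_iff_continuousAt.2 fun p =>
    ContinuousAt.comp (g := J) (continuousAt_J p.t_pos) H3.continuous_t.continuousAt
  exact (Complex.continuous_ofReal.comp hJ).mul
    ((Complex.continuous_ofReal.comp H3.continuous_t).mul (continuous_ψC.comp H3.continuous_z))

lemma wgt_smul {s : ℝ} (hs : 0 < s) (h : ℂ × ℂ) :
    wgt s (√s • h) = (s ^ 2)⁻¹ * wgt 1 h := by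
  simp only [wgt, nm_smul, Real.sq_sqrt hs.le, one_mul]
  rw [show s / (s * nm h) = 1 / nm h by field_simp]
  field_simp

/-- The kernel is measurable. -/
lemma measurable_kinf (s : ℝ) (p : H3) : Measurable (kinf s p) :=
  (Complex.measurable_ofReal.comp ((measurable_wgt s).mul (measurable_prof p.t))).mul_const _

lemma integrable_wgt_prof {s t : ℝ} (hs : 0 < s) (ht : 0 < t) :
    Integrable (fun h => wgt s h * prof t h) ∧ ∫ h, wgt s h * prof t h = J t := by
  have hR : √s ≠ 0 := (Real.sqrt_pos.2 hs).ne'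
  have hR4 : (√s) ^ 4 = s ^ 2 := by
    rw [show (4 : ℕ) = 2 * 2 from rfl, pow_mul, Real.sq_sqrt hs.le]
  have e : (fun h : ℂ × ℂ => wgt s (√s • h) * prof t (√s • h)) =
      fun h => (s ^ 2)⁻¹ * jk t h := funext fun h => by
    rw [wgt_smul hs, jk, prof, prof, rho_smul hR]; ring
  refine ⟨?_, ?_⟩
  · rw [← integrable_comp_smul_iff volume _ hR, e]
    exact (integrable_jk ht).const_mul _
  · have h := Measure.integral_comp_smul (volume : Measure (ℂ × ℂ))
      (fun h => wgt s h * prof t h) (√s)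
    rw [e, integral_const_mul, Module.finrank_prod, Complex.finrank_real_complex, smul_eq_mul] at h
    norm_num [hR4] at h
    rcases h with h | h
    · exact h.symm
    · exact absurd h hs.ne'

/-- The kernel integrates to the Whittaker function. -/
lemma integral_kinf {s : ℝ} (hs : 0 < s) (p : H3) : ∫ h, kinf s p h = winf p := by
  simp only [kinf]
  rw [integral_mul_const, integral_complex_ofReal, (integrable_wgt_prof hs p.t_pos).2]
  rfl

/-- The absolute kernel integrates to the absolute value. -/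
lemma integral_norm_kinf {s : ℝ} (hs : 0 < s) (p : H3) : ∫ h, ‖kinf s p h‖ = ‖winf p‖ := by
  have e : (fun h => ‖kinf s p h‖) = fun h => (wgt s h * prof p.t h) * p.t := funext fun h => by
    rw [kinf, norm_mul, norm_mul, norm_ψC, Complex.norm_real, Complex.norm_real,
      Real.norm_of_nonneg (mul_nonneg (wgt_nonneg hs.le h) (prof_pos _ h).le),
      Real.norm_of_nonneg p.t_pos.le, mul_one]
  rw [e, integral_mul_const, (integrable_wgt_prof hs p.t_pos).2, norm_winf, mul_comm]

/-- The kernel is integrable. -/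
lemma integrable_kinf {s : ℝ} (hs : 0 < s) (p : H3) : Integrable (kinf s p) :=
  (integrable_wgt_prof hs p.t_pos).1.ofReal.mul_const _

/-! ### The eigenfunction property -/

/-- The function whose superposition gives the Whittaker function. -/
def wfun (τ r : ℝ) (q : H3) : ℂ :=
  ((τ * q.t * Real.exp (-(2 * π * τ * q.t) * (r + r⁻¹)) : ℝ) : ℂ) * ψC ((τ : ℂ) * q.z)

variable {k0 : ℝ → ℝ}

/-- The kernel at the base point. -/
def ker (k0 : ℝ → ℝ) (q : H3) : ℝ := k0 (H3.coshDist H3.base q)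

/-- A radial kernel is continuous, integrable and boxed. -/
lemma ker_data (hk : Continuous k0) (hks : HasCompactSupport k0) :
    Continuous (ker k0) ∧ Integrable (ker k0) H3.vol ∧ ∃ T : ℝ, 1 ≤ T ∧
      ∀ q, ker k0 q ≠ 0 → ‖q.z‖ ≤ T ∧ q.t ≤ T ∧ T⁻¹ ≤ q.t := by
  have hc : Continuous (ker k0) := hk.comp (H3.continuous_coshDist _)
  obtain ⟨R, hR⟩ : ∃ R : ℝ, ∀ x, k0 x ≠ 0 → x ≤ R := by
    obtain ⟨R, hR⟩ := hks.bddAbove
    exact ⟨R, fun x hx => hR (subset_closure hx)⟩
  set R' := max R 1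
  have hT : ∀ q, ker k0 q ≠ 0 → ‖q.z‖ ≤ (2 * R' + 2) ^ 2 ∧ q.t ≤ (2 * R' + 2) ^ 2 ∧
      ((2 * R' + 2) ^ 2)⁻¹ ≤ q.t := by
    intro q hq
    obtain ⟨h1, h2, h3⟩ := H3.coord_bounds_of_coshDist ((hR _ hq).trans (le_max_left R 1))
    simp only [H3.base, mul_one, one_mul, zero_sub, Complex.normSq_neg] at h1 h2 h3
    rw [Complex.normSq_eq_norm_sq] at h3
    have hR1 : 1 ≤ R' := le_max_right _ _
    have hqt := q.t_pos
    refine ⟨?_, ?_, ?_⟩
    · nlinarith [norm_nonneg q.z, sq_nonneg (‖q.z‖ - (2 * R' + 2))]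
    · nlinarith
    · rw [inv_le_iff_one_le_mul₀ (by positivity)]
      nlinarith
  refine ⟨hc, ?_, _, by nlinarith [le_max_right R 1], hT⟩
  obtain ⟨C, hC⟩ := hks.exists_bound_of_continuous hk
  set T := (2 * R' + 2) ^ 2
  have hm : MeasurableSet {p : H3 | ‖p.z‖ ≤ T ∧ T⁻¹ ≤ p.t} :=
    ((isClosed_le H3.continuous_z.norm continuous_const).inter
      (isClosed_le continuous_const H3.continuous_t)).measurableSet
  have hTpos : 0 < T := by positivity
  refine Integrable.mono' (g := {p : H3 | ‖p.z‖ ≤ T ∧ T⁻¹ ≤ p.t}.indicator fun _ => C)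
    ((integrable_indicator_iff hm).2
      (integrableOn_const (H3.vol_box_lt_top T (inv_pos.2 hTpos)).ne)) hc.aestronglyMeasurable ?_
  refine ae_of_all _ fun q => ?_
  by_cases hq : ker k0 q = 0
  · rw [hq, norm_zero]
    exact Set.indicator_nonneg (fun _ _ => (norm_nonneg _).trans (hC 0)) q
  · rw [Set.indicator_of_mem (show q ∈ {p : H3 | ‖p.z‖ ≤ T ∧ T⁻¹ ≤ p.t} from
      ⟨(hT q hq).1, (hT q hq).2.2⟩)]
    exact hC _

lemma line_eq {τ r : ℝ} (hτ : 0 < τ) (hr : 0 < r) (z : ℂ) {t : ℝ} (ht : 0 < t) :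
    ∫ d : ℂ, (Real.exp (-(2 * π * r * τ) * (‖d - z‖ ^ 2 + t ^ 2) / t) : ℂ) * ψC ((τ : ℂ) * d) =
      ((t / (2 * r * τ) * Real.exp (-(2 * π * τ * t) * (r + r⁻¹)) : ℝ) : ℂ) *
        ψC ((τ : ℂ) * z) := by
  have e : ∀ d : ℂ, (Real.exp (-(2 * π * r * τ) * (‖d - z‖ ^ 2 + t ^ 2) / t) : ℂ) *
      ψC ((τ : ℂ) * d) = (Real.exp (-(2 * π * r * τ * t)) : ℂ) *
        ((Real.exp (-(2 * π * r * τ / t) * ‖d - z‖ ^ 2) : ℂ) * ψC ((τ : ℂ) * d)) := fun d => by
    rw [← mul_assoc, ← Complex.ofReal_mul, ← Real.exp_add]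
    congr 3
    field_simp
    ring
  simp only [e]
  rw [integral_const_mul, integral_gauss_line_shift (by positivity) z (τ : ℂ),
    Complex.norm_real, Real.norm_of_nonneg hτ.le]
  rw [show -(2 * π * τ * t) * (r + r⁻¹) =
    -(2 * π * r * τ * t) + -(4 * π ^ 2 * τ ^ 2) / (2 * π * r * τ / t) by field_simp; ring,
    Real.exp_add]
  push_cast
  field_simp

/-- A rotation about the base point. -/
def rot (d : ℂ) : GL (Fin 2) ℂ :=
  Matrix.GeneralLinearGroup.mkOfDetNeZero !![conj d, 1; -1, d] (by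
    rw [Matrix.det_fin_two_of, ← Complex.normSq_eq_conj_mul_self]
    intro h
    have := congrArg Complex.re h
    simp at this
    linarith [Complex.normSq_nonneg d])

lemma rot_val (d : ℂ) : (rot d).val = !![conj d, 1; -1, d] := rfl

lemma rot_smul_base (d : ℂ) : rot d • H3.base = H3.base := by
  rw [H3.smul_def]
  have hn : (0 : ℝ) < 1 + Complex.normSq d := by linarith [Complex.normSq_nonneg d]
  refine H3.ext ?_ ?_
  · simp only [H3.act, H3.den, H3.base, rot_val]
    simp
  · simp only [H3.act, H3.den, H3.base, rot_val]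
    simp [Matrix.det_fin_two_of, ← Complex.normSq_eq_conj_mul_self]
    rw [← Complex.ofReal_one, ← Complex.ofReal_add, Complex.norm_real,
      Real.norm_of_nonneg (by linarith [Complex.normSq_nonneg d])]
    have : Complex.normSq d + 1 ≠ 0 := by linarith
    field_simp

lemma rot_smul_t (d : ℂ) (q : H3) :
    (rot d • q).t = (1 + ‖d‖ ^ 2) * q.t / (‖d - q.z‖ ^ 2 + q.t ^ 2) := by
  rw [H3.t_smul, H3.den, rot_val]
  simp [Matrix.det_fin_two_of, ← Complex.normSq_eq_conj_mul_self]
  rw [← Complex.ofReal_one, ← Complex.ofReal_add, Complex.norm_real,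
    Real.norm_of_nonneg (by linarith [Complex.normSq_nonneg d]), Complex.normSq_eq_norm_sq,
    Complex.normSq_eq_norm_sq, neg_add_eq_sub]
  ring_nf

/-- The identity at the base point. -/
theorem base_eigen (hk : Continuous k0) (hks : HasCompactSupport k0) {τ r : ℝ} (hτ : 0 < τ)
    (hr : 0 < r) :
    ∫ q, (ker k0 q : ℂ) * wfun τ r q ∂H3.vol =
      ∫ q, (ker k0 q : ℂ) *
        ((τ * q.t * Real.exp (-(2 * π * τ) * (r / q.t + (r / q.t)⁻¹)) : ℝ) : ℂ) ∂H3.vol := by
  obtain ⟨hc, hint, T, hT1, hT⟩ := ker_data hk hks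
  have hT0 : 0 < T := zero_lt_one.trans_le hT1
  let G : H3 → ℂ → ℂ := fun q d => (ker k0 q : ℂ) *
    ((Real.exp (-(2 * π * r * τ) * (‖d - q.z‖ ^ 2 + q.t ^ 2) / q.t) : ℂ) * ψC ((τ : ℂ) * d))
  have hGm : Continuous (Function.uncurry G) := by
    have hz : Continuous fun x : H3 × ℂ => x.1.z := H3.continuous_z.comp continuous_fst
    have ht : Continuous fun x : H3 × ℂ => x.1.t := H3.continuous_t.comp continuous_fst
    refine (Complex.continuous_ofReal.comp (hc.comp continuous_fst)).mul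
      ((Complex.continuous_ofReal.comp (Real.continuous_exp.comp ?_)).mul
        (continuous_ψC.comp (continuous_const.mul continuous_snd)))
    exact Continuous.div (continuous_const.mul (((continuous_snd.sub hz).norm.pow 2).add
      (ht.pow 2))) ht fun x => x.1.t_pos.ne'
  set b := π * r * τ / T
  have hb : 0 < b := by positivity
  have hGint : Integrable (Function.uncurry G) (H3.vol.prod volume) := by
    refine Integrable.mono' (g := fun x : H3 × ℂ => (|ker k0 x.1| * Real.exp (2 * b * T ^ 2)) *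
      Real.exp (-b * ‖x.2‖ ^ 2)) ((hint.abs.mul_const _).mul_prod (integrable_gauss_line hb))
      hGm.aestronglyMeasurable (ae_of_all _ fun ⟨q, d⟩ => ?_)
    simp only [Function.uncurry, G, norm_mul, norm_ψC, mul_one, Complex.norm_real,
      Real.norm_eq_abs, Real.abs_exp]
    rw [mul_assoc |ker k0 q| (Real.exp _), ← Real.exp_add]
    by_cases hq : ker k0 q = 0
    · simp [hq]
    obtain ⟨hz, ht, -⟩ := hT q hq
    refine mul_le_mul_of_nonneg_left (Real.exp_le_exp.2 ?_) (abs_nonneg _)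
    have hd : ‖d‖ ^ 2 ≤ 2 * ‖d - q.z‖ ^ 2 + 2 * T ^ 2 := by
      have := norm_le_norm_add_norm_sub' d q.z
      nlinarith [norm_nonneg (d - q.z), norm_nonneg q.z, norm_nonneg d,
        sq_nonneg (‖d - q.z‖ - T)]
    have h1 : 2 * π * r * τ * (‖d - q.z‖ ^ 2 + q.t ^ 2) / q.t ≥
        2 * b * ‖d - q.z‖ ^ 2 := by
      rw [ge_iff_le, le_div_iff₀ q.t_pos]
      calc 2 * b * ‖d - q.z‖ ^ 2 * q.t ≤ 2 * b * ‖d - q.z‖ ^ 2 * T := by gcongr
        _ = 2 * π * r * τ * ‖d - q.z‖ ^ 2 := by simp only [b]; field_simp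
        _ ≤ _ := by
          refine mul_le_mul_of_nonneg_left ?_ (by positivity)
          linarith [sq_nonneg q.t]
    rw [neg_mul, neg_div]
    nlinarith
  set K := ((2 * r * τ ^ 2 : ℝ) : ℂ)
  have hl : ∀ q : H3, (ker k0 q : ℂ) * wfun τ r q = K * ∫ d, G q d := fun q => by
    simp only [G, K, wfun]
    rw [integral_const_mul, line_eq hτ hr q.z q.t_pos]
    have : (r : ℂ) ≠ 0 := Complex.ofReal_ne_zero.2 hr.ne'
    have : (τ : ℂ) ≠ 0 := Complex.ofReal_ne_zero.2 hτ.ne'
    push_cast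
    field_simp
  have hrot : ∀ d : ℂ, ∫ q, G q d ∂H3.vol = ∫ q, (ker k0 q : ℂ) *
      ((Real.exp (-(2 * π * r * τ) * (‖d‖ ^ 2 + 1) / q.t) : ℂ) * ψC ((τ : ℂ) * d)) ∂H3.vol := by
    intro d
    conv_rhs => rw [← integral_smul_eq_self _ (g := rot d)]
    refine integral_congr_ae (ae_of_all _ fun q => ?_)
    simp only [G, ker]
    have e : H3.coshDist H3.base (rot d • q) = H3.coshDist H3.base q := by
      conv_lhs => rw [← rot_smul_base d]
      exact H3.coshDist_smul _ _ _
    rw [e, rot_smul_t]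
    congr 3
    have := q.t_pos
    have h1 : (0 : ℝ) < 1 + ‖d‖ ^ 2 := by positivity
    have h2 : 0 < ‖d - q.z‖ ^ 2 + q.t ^ 2 := by positivity
    rw [add_comm (‖d‖ ^ 2) 1]
    field_simp
  simp only [hl]
  rw [integral_const_mul, integral_integral_swap hGint]
  simp only [hrot]
  rw [← integral_integral_swap (f := fun (q : H3) (d : ℂ) => (ker k0 q : ℂ) *
    ((Real.exp (-(2 * π * r * τ) * (‖d‖ ^ 2 + 1) / q.t) : ℂ) * ψC ((τ : ℂ) * d))) ?_,
    ← integral_const_mul]
  · refine integral_congr_ae (ae_of_all _ fun q => ?_)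
    beta_reduce
    rw [integral_const_mul]
    have hq := q.t_pos
    have e : ∀ d : ℂ, (Real.exp (-(2 * π * r * τ) * (‖d‖ ^ 2 + 1) / q.t) : ℂ) =
        (Real.exp (-(2 * π * (r / q.t) * τ) * (‖d - 0‖ ^ 2 + 1 ^ 2) / 1) : ℂ) := fun d => by
      congr 2
      rw [sub_zero]
      field_simp
    simp only [e]
    rw [line_eq hτ (div_pos hr hq) 0 one_pos, mul_zero, ψC_zero, mul_one]
    have : (r : ℂ) ≠ 0 := Complex.ofReal_ne_zero.2 hr.ne'
    have : (τ : ℂ) ≠ 0 := Complex.ofReal_ne_zero.2 hτ.ne'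
    simp only [K]
    push_cast
    field_simp
  · refine Integrable.mono' (g := fun x : H3 × ℂ => |ker k0 x.1| * Real.exp (-b * ‖x.2‖ ^ 2))
      (hint.abs.mul_prod (integrable_gauss_line hb)) ?_ (ae_of_all _ fun ⟨q, d⟩ => ?_)
    · refine Continuous.aestronglyMeasurable ?_
      refine (Complex.continuous_ofReal.comp (hc.comp continuous_fst)).mul
        ((Complex.continuous_ofReal.comp (Real.continuous_exp.comp ?_)).mul
          (continuous_ψC.comp (continuous_const.mul continuous_snd)))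
      exact Continuous.div (continuous_const.mul ((continuous_snd.norm.pow 2).add continuous_const))
        (H3.continuous_t.comp continuous_fst) fun x => x.1.t_pos.ne'
    simp only [Function.uncurry, norm_mul, norm_ψC, mul_one, Complex.norm_real, Real.norm_eq_abs,
      Real.abs_exp]
    by_cases hq : ker k0 q = 0
    · simp [hq]
    obtain ⟨-, ht, -⟩ := hT q hq
    refine mul_le_mul_of_nonneg_left (Real.exp_le_exp.2 ?_) (abs_nonneg _)
    rw [neg_mul, neg_div, neg_mul, neg_le_neg_iff, le_div_iff₀ q.t_pos]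
    calc b * ‖d‖ ^ 2 * q.t ≤ b * ‖d‖ ^ 2 * T := by gcongr
      _ = π * r * τ * ‖d‖ ^ 2 := by simp only [b]; field_simp
      _ ≤ _ := by nlinarith [mul_pos (mul_pos Real.pi_pos hr) hτ, sq_nonneg ‖d‖]

lemma integral_comp_scale {G : ℂ × ℂ → ℂ} {a b : ℝ}
    (hG : Integrable G) (hG' : Integrable fun h : ℂ × ℂ => G (a • h.1, b • h.2)) :
    ∫ h : ℂ × ℂ, G (a • h.1, b • h.2) = ((|(a ^ 2)⁻¹| * |(b ^ 2)⁻¹| : ℝ) : ℂ) * ∫ h, G h := by
  have e : (volume : Measure (ℂ × ℂ)) = (volume : Measure ℂ).prod volume := rfl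
  rw [e] at hG hG' ⊢
  rw [integral_prod _ hG', integral_prod _ hG]
  rw [integral_congr_ae (ae_of_all _ fun x : ℂ =>
    Measure.integral_comp_smul (volume : Measure ℂ) (fun y => G (a • x, y)) b)]
  rw [integral_smul, Measure.integral_comp_smul (volume : Measure ℂ) (fun x => ∫ y, G (x, y)),
    Complex.finrank_real_complex, Complex.real_smul, Complex.real_smul]
  push_cast
  ring

/-- The eigenvalue of a radial kernel. -/
def eigVal (k0 : ℝ → ℝ) : ℂ := ∫ q, ((k0 (H3.coshDist H3.base q) * q.t : ℝ) : ℂ) ∂H3.vol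

/-- The kernel of the superposition is integrable on the product. -/
private lemma integrable_wfun_kernel (hk : Continuous k0) (hks : HasCompactSupport k0) {τ : ℝ}
    (hτ : 0 < τ) :
    Integrable (Function.uncurry fun (q : H3) (h : ℂ × ℂ) =>
      ((wgt 1 h : ℝ) : ℂ) * ((ker k0 q : ℂ) * wfun τ (rho h) q)) (H3.vol.prod volume) := by
  obtain ⟨hc, hint, T, hT1, hT⟩ := ker_data hk hks
  have hT0 : 0 < T := zero_lt_one.trans_le hT1
  let b := π * τ / T
  have hb : 0 < b := by positivity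
  refine Integrable.mono' (g := fun x : H3 × (ℂ × ℂ) => (|ker k0 x.1| * (τ * T * 2)) *
    (Real.exp (-b * ‖x.2.1‖ ^ 2) * Real.exp (-b * ‖x.2.2‖ ^ 2)))
    ((hint.abs.mul_const _).mul_prod (integrable_gauss₂ hb)) ?_ (ae_of_all _ fun ⟨q, h⟩ => ?_)
  · refine (Measurable.mul (Complex.measurable_ofReal.comp ((measurable_wgt 1).comp measurable_snd))
      ((Complex.measurable_ofReal.comp
        (hc.measurable.comp measurable_fst)).mul ?_)).aestronglyMeasurable
    simp only [wfun]
    have hr := measurable_rho.comp (measurable_snd : Measurable fun x : H3 × (ℂ × ℂ) => x.2)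
    have ht : Measurable fun x : H3 × (ℂ × ℂ) => x.1.t :=
      H3.continuous_t.measurable.comp measurable_fst
    exact (Complex.measurable_ofReal.comp ((measurable_const.mul ht).mul (Real.measurable_exp.comp
      ((measurable_const.mul ht).neg.mul (hr.add hr.inv))))).mul
      (continuous_ψC.measurable.comp (measurable_const.mul
        (H3.continuous_z.measurable.comp measurable_fst)))
  simp only [Function.uncurry, wfun, norm_mul, norm_ψC, mul_one, Complex.norm_real,
    Real.norm_eq_abs, Real.abs_exp]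
  by_cases hq : ker k0 q = 0
  · simp [hq]
  obtain ⟨-, ht, ht'⟩ := hT q hq
  have hjk := jk_le (t := τ * q.t) (t₀ := τ / T) (by positivity)
    (by rw [div_eq_mul_inv]; gcongr) h
  rw [jk, prof] at hjk
  rw [abs_of_nonneg (wgt_nonneg zero_le_one h), abs_of_pos hτ, abs_of_pos q.t_pos]
  have hexp : Real.exp (-(2 * π * (τ * q.t))) ≤ 1 :=
    Real.exp_le_one_iff.2 (by nlinarith [Real.pi_pos, mul_pos hτ q.t_pos])
  calc wgt 1 h * (|ker k0 q| * (τ * q.t * Real.exp (-(2 * π * τ * q.t) * (rho h + (rho h)⁻¹))))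
      = |ker k0 q| * (τ * q.t) *
        (wgt 1 h * Real.exp (-(2 * π * (τ * q.t)) * (rho h + (rho h)⁻¹))) := by
        ring_nf
    _ ≤ |ker k0 q| * (τ * T) * (2 * 1 *
        (Real.exp (-(π * (τ / T)) * ‖h.1‖ ^ 2) * Real.exp (-(π * (τ / T)) * ‖h.2‖ ^ 2))) := by
        refine mul_le_mul (by gcongr) (hjk.trans (by gcongr)) ?_ (by positivity)
        exact mul_nonneg (wgt_nonneg zero_le_one h) (Real.exp_pos _).le
    _ = _ := by simp only [b]; ring_nf

/-- The kernel of the superposition after a rotation is integrable on the product. -/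
private lemma integrable_rotated_kernel (hk : Continuous k0) (hks : HasCompactSupport k0) {τ : ℝ}
    (hτ : 0 < τ) :
    Integrable (Function.uncurry fun (q : H3) (h : ℂ × ℂ) => ((wgt 1 h : ℝ) : ℂ) * ((ker k0 q : ℂ) *
      ((τ * q.t * Real.exp (-(2 * π * τ) * (rho h / q.t + (rho h / q.t)⁻¹)) : ℝ) : ℂ)))
      (H3.vol.prod volume) := by
  obtain ⟨hc, hint, T, hT1, hT⟩ := ker_data hk hks
  have hT0 : 0 < T := zero_lt_one.trans_le hT1
  let b := π * τ / T
  have hb : 0 < b := by positivity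
  refine Integrable.mono' (g := fun x : H3 × (ℂ × ℂ) => (|ker k0 x.1| * (τ * T * 2)) *
    (Real.exp (-b * ‖x.2.1‖ ^ 2) * Real.exp (-b * ‖x.2.2‖ ^ 2)))
    ((hint.abs.mul_const _).mul_prod (integrable_gauss₂ hb)) ?_ (ae_of_all _ fun ⟨q, h⟩ => ?_)
  · have hr : Measurable fun x : H3 × (ℂ × ℂ) => rho x.2 / x.1.t :=
      (measurable_rho.comp measurable_snd).div (H3.continuous_t.measurable.comp measurable_fst)
    exact ((Complex.measurable_ofReal.comp ((measurable_wgt 1).comp measurable_snd)).mul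
      ((Complex.measurable_ofReal.comp (hc.measurable.comp measurable_fst)).mul
        (Complex.measurable_ofReal.comp ((measurable_const.mul (H3.continuous_t.measurable.comp
          measurable_fst)).mul (Real.measurable_exp.comp
            (measurable_const.mul (hr.add hr.inv))))))).aestronglyMeasurable
  simp only [Function.uncurry, norm_mul, Complex.norm_real, Real.norm_eq_abs, Real.abs_exp]
  by_cases hq : ker k0 q = 0
  · simp [hq]
  obtain ⟨-, ht, ht'⟩ := hT q hq
  have hq0 := q.t_pos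
  have hjk := jk_le (t := τ / T) (t₀ := τ / T) (by positivity) le_rfl h
  rw [jk, prof] at hjk
  rw [abs_of_nonneg (wgt_nonneg zero_le_one h), abs_of_pos hτ, abs_of_pos hq0]
  have hr0 : 0 ≤ rho h := div_nonneg (norm_nonneg _) (norm_nonneg _)
  have hexp : Real.exp (-(2 * π * τ) * (rho h / q.t + (rho h / q.t)⁻¹)) ≤
      Real.exp (-(2 * π * (τ / T)) * (rho h + (rho h)⁻¹)) := by
    refine Real.exp_le_exp.2 ?_
    have hA : rho h / T ≤ rho h / q.t := by gcongr
    have hB : (rho h)⁻¹ / T ≤ (rho h / q.t)⁻¹ := by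
      rw [inv_div, div_eq_mul_inv, div_eq_mul_inv, mul_comm]
      gcongr
    have := mul_le_mul_of_nonneg_left (add_le_add hA hB) (mul_nonneg Real.pi_pos.le hτ.le)
    rw [show -(2 * π * (τ / T)) * (rho h + (rho h)⁻¹) =
      -(2 * (π * τ * (rho h / T + (rho h)⁻¹ / T))) by ring]
    nlinarith
  calc wgt 1 h * (|ker k0 q| * (τ * q.t *
        Real.exp (-(2 * π * τ) * (rho h / q.t + (rho h / q.t)⁻¹))))
      = |ker k0 q| * (τ * q.t) *
        (wgt 1 h * Real.exp (-(2 * π * τ) * (rho h / q.t + (rho h / q.t)⁻¹))) := by ring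
    _ ≤ |ker k0 q| * (τ * T) * (2 * 1 *
        (Real.exp (-(π * (τ / T)) * ‖h.1‖ ^ 2) * Real.exp (-(π * (τ / T)) * ‖h.2‖ ^ 2))) := by
        refine mul_le_mul (by gcongr) (((mul_le_mul_of_nonneg_left hexp
          (wgt_nonneg zero_le_one h))).trans (hjk.trans ?_)) ?_ (by positivity)
        · refine mul_le_mul_of_nonneg_right (mul_le_mul_of_nonneg_left ?_ zero_le_two)
            (by positivity)
          exact Real.exp_le_one_iff.2 (by
            have : 0 < τ / T := by positivity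
            nlinarith [Real.pi_pos])
        · exact mul_nonneg (wgt_nonneg zero_le_one h) (Real.exp_pos _).le
    _ = _ := by simp only [b]; ring_nf

/-- The inner integral, by scaling the two coordinates inversely. -/
private lemma integral_rotated_kernel {τ : ℝ} (hτ : 0 < τ) (q : H3) :
    ∫ h : ℂ × ℂ, ((wgt 1 h : ℝ) : ℂ) * ((ker k0 q : ℂ) *
      ((τ * q.t * Real.exp (-(2 * π * τ) * (rho h / q.t + (rho h / q.t)⁻¹)) : ℝ) : ℂ)) =
      ((ker k0 q * q.t : ℝ) : ℂ) * ((J τ : ℂ) * (τ : ℂ)) := by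
  have hq := q.t_pos
  have hs : 0 < √q.t := Real.sqrt_pos.2 hq
  let G : ℂ × ℂ → ℂ := fun h => ((jk τ h : ℝ) : ℂ)
  have hGe : ∀ h : ℂ × ℂ, G ((√q.t)⁻¹ • h.1, √q.t • h.2) = ((wgt 1 h *
      Real.exp (-(2 * π * τ) * (rho h / q.t + (rho h / q.t)⁻¹)) : ℝ) : ℂ) := by
    intro h
    have hn : nm ((√q.t)⁻¹ • h.1, √q.t • h.2) = nm h := by
      simp [nm, abs_of_pos hs]
      field_simp
    have hr : rho ((√q.t)⁻¹ • h.1, √q.t • h.2) = rho h / q.t := by
      simp [rho, abs_of_pos hs]
      rw [div_div]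
      field_simp
      rw [Real.sq_sqrt hq.le]
      ring
    simp only [G, jk, prof, hr, wgt, hn]
  have hG : Integrable G := (integrable_jk hτ).ofReal
  have hG' : Integrable fun h : ℂ × ℂ => G ((√q.t)⁻¹ • h.1, √q.t • h.2) := by
    simp only [hGe]
    have hmin : 0 < τ * min q.t q.t⁻¹ := mul_pos hτ (lt_min hq (inv_pos.2 hq))
    refine ((integrable_jk hmin).mono' ?_ (ae_of_all _ fun h => ?_)).ofReal
    · exact ((measurable_wgt 1).mul (Real.measurable_exp.comp (measurable_const.mul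
        ((measurable_rho.div_const _).add (measurable_rho.div_const _).inv)))).aestronglyMeasurable
    show ‖wgt 1 h * Real.exp _‖ ≤ _
    rw [Real.norm_of_nonneg (mul_nonneg (wgt_nonneg zero_le_one h) (Real.exp_pos _).le), jk, prof]
    refine mul_le_mul_of_nonneg_left (Real.exp_le_exp.2 ?_) (wgt_nonneg zero_le_one h)
    have hr0 : 0 ≤ rho h := div_nonneg (norm_nonneg _) (norm_nonneg _)
    rw [inv_div, div_eq_mul_inv, div_eq_mul_inv]
    nlinarith [mul_le_mul_of_nonneg_left (min_le_right q.t q.t⁻¹)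
        (mul_nonneg (mul_nonneg Real.pi_pos.le hτ.le) hr0),
      mul_le_mul_of_nonneg_left (min_le_left q.t q.t⁻¹)
        (mul_nonneg (mul_nonneg Real.pi_pos.le hτ.le) (inv_nonneg.2 hr0))]
  have h := integral_comp_scale hG hG'
  simp only [hGe] at h
  rw [show |(((√q.t)⁻¹) ^ 2)⁻¹| * |((√q.t) ^ 2)⁻¹| = 1 by
    rw [inv_pow, inv_inv, Real.sq_sqrt hq.le, abs_of_pos hq, abs_of_pos (inv_pos.2 hq),
      mul_inv_cancel₀ hq.ne'], Complex.ofReal_one, one_mul] at h
  rw [J, ← integral_complex_ofReal, ← h, ← integral_mul_const, ← integral_const_mul]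
  refine integral_congr_ae (ae_of_all _ fun h => ?_)
  push_cast
  ring

/-- The Whittaker function is an eigenfunction of the radial kernels. -/
theorem radial_winf (hk : Continuous k0) (hks : HasCompactSupport k0) (p : H3) :
    ∫ q, (k0 (H3.coshDist p q) : ℂ) * winf q ∂H3.vol = eigVal k0 * winf p := by
  set τ := p.t
  have hτ : 0 < τ := p.t_pos
  obtain ⟨g, hg, hgv⟩ := H3.exists_smul_base p
  have hgq : ∀ q : H3, (g • q).z = p.z + (τ : ℂ) * q.z ∧ (g • q).t = τ * q.t := by
    intro q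
    refine ⟨?_, ?_⟩
    · show (H3.act g q).z = _
      simp only [H3.act, H3.den, hgv]
      simp [τ, add_comm]
    · rw [H3.t_smul, H3.den, hgv]
      simp [Matrix.det_fin_two_of, τ, abs_of_pos p.t_pos]
  rw [← integral_smul_eq_self _ (g := g)]
  have e1 : ∀ q : H3, (k0 (H3.coshDist p (g • q)) : ℂ) * winf (g • q) = ψC p.z *
      ∫ h, ((wgt 1 h : ℝ) : ℂ) * ((ker k0 q : ℂ) * wfun τ (rho h) q) := by
    intro q
    obtain ⟨hz, ht⟩ := hgq q
    have hd : H3.coshDist p (g • q) = H3.coshDist H3.base q := by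
      conv_lhs => rw [← hg]
      exact H3.coshDist_smul _ _ _
    rw [hd, winf, hz, ht, ψC_add, J, ← integral_complex_ofReal, ← integral_mul_const,
      ← integral_const_mul, ← integral_const_mul]
    refine integral_congr_ae (ae_of_all _ fun h => ?_)
    simp only [jk, prof, wfun, ker]
    push_cast
    ring_nf
  simp only [e1]
  rw [integral_const_mul]
  rw [integral_integral_swap (integrable_wfun_kernel hk hks hτ)]
  have e2 : ∀ h : ℂ × ℂ, ∫ q, ((wgt 1 h : ℝ) : ℂ) * ((ker k0 q : ℂ) * wfun τ (rho h) q) ∂H3.vol =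
      ∫ q, ((wgt 1 h : ℝ) : ℂ) * ((ker k0 q : ℂ) *
        ((τ * q.t * Real.exp (-(2 * π * τ) * (rho h / q.t + (rho h / q.t)⁻¹)) : ℝ) : ℂ))
        ∂H3.vol := by
    intro h
    by_cases hn : nm h = 0
    · simp [wgt_eq_zero hn]
    have hr : 0 < rho h := by
      rw [nm, mul_eq_zero, not_or] at hn
      exact div_pos (lt_of_le_of_ne (norm_nonneg _) (Ne.symm hn.1))
        (lt_of_le_of_ne (norm_nonneg _) (Ne.symm hn.2))
    rw [integral_const_mul, integral_const_mul, base_eigen hk hks hτ hr]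
  simp only [e2]
  rw [← integral_integral_swap (f := fun (q : H3) (h : ℂ × ℂ) => ((wgt 1 h : ℝ) : ℂ) *
    ((ker k0 q : ℂ) * ((τ * q.t * Real.exp (-(2 * π * τ) * (rho h / q.t + (rho h / q.t)⁻¹)) : ℝ) :
      ℂ))) (integrable_rotated_kernel hk hks hτ)]
  simp only [integral_rotated_kernel hτ, integral_mul_const]
  simp only [eigVal, winf, ker]
  ring

end ArchW

end FermatAgent.LT.Theta
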