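import Fermat.Agent.LT.Theta.Fourier

/-!
# The Weil representation of `GL₂` attached to a quadratic extension, at one place

Operators act on functions of `(x, u)` with `x : M` and `u : F`, `u ≠ 0`.
-/

set_option autoImplicit false

noncomputable section

open WithZero Matrix
open scoped MatrixGroups

namespace FermatAgent.LT.Theta

namespace LocQuad

variable {F M : Type*} [Field F] [Field M] [Algebra F M] (D : LocQuad F M)

/-- `χ` is the sign by which the Gauss sum transforms under scaling. -/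
structure IsSignChar (χ : F →* ℂ) : Prop where
  mul_self : ∀ a, a ≠ 0 → χ a * χ a = 1
  G_mul : ∀ c a, c ≠ 0 → a ≠ 0 → D.G (c * a) = χ a * ((D.absv a : ℝ) : ℂ)⁻¹ * D.G c

/-- Schwartz-Bruhat in the first variable. -/
def Nice (f : M → F → ℂ) : Prop := ∀ u, u ≠ 0 → (fun x => f x u) ∈ D.chain.schwartz

/-- The upper unipotent operator. -/
def opN (b : F) (f : M → F → ℂ) : M → F → ℂ := fun x u => D.ψ (b * u * D.N x) * f x u

/-- The diagonal operator. -/
def opD (χ : F →* ℂ) (a e : F) (f : M → F → ℂ) : M → F → ℂ :=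
  fun x u => χ e * ((√(D.absv (a * e ^ 3)) : ℝ) : ℂ)⁻¹ * f (e⁻¹ • x) (a * e * u)

/-- The Weyl operator. -/
def opW (f : M → F → ℂ) : M → F → ℂ :=
  fun x u => (D.G u)⁻¹ * D.ft u (fun y => f y u) x

variable {D} {χ : F →* ℂ}

/-- Unipotent operators add. -/
lemma opN_add (b b' : F) (f : M → F → ℂ) : D.opN b (D.opN b' f) = D.opN (b + b') f := by
  funext x u
  simp only [opN, add_mul, D.ψ_add]
  ring

/-- The zero unipotent operator. -/
lemma opN_zero (f : M → F → ℂ) : D.opN 0 f = f := by
  funext x u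
  simp [opN, D.ψ_zero]

lemma sqrt_absv_mul (a b : F) : √(D.absv (a * b)) = √(D.absv a) * √(D.absv b) := by
  rw [D.absv_mul, Real.sqrt_mul]
  by_cases ha : a = 0
  · simp [ha, D.absv_zero]
  · exact (D.absv_pos ha).le

/-- Diagonal operators multiply. -/
lemma opD_mul (a e a' e' : F) (f : M → F → ℂ) :
    D.opD χ a e (D.opD χ a' e' f) = D.opD χ (a * a') (e * e') f := by
  funext x u
  simp only [opD, map_mul, smul_smul]
  rw [show a * a' * (e * e') ^ 3 = a * e ^ 3 * (a' * e' ^ 3) by ring,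
    sqrt_absv_mul (D := D) (a * e ^ 3) (a' * e' ^ 3),
    show a' * e' * (a * e * u) = a * a' * (e * e') * u by ring, mul_inv_rev e e']
  push_cast
  rw [mul_inv]
  ring

/-- The trivial diagonal operator. -/
lemma opD_one (f : M → F → ℂ) : D.opD χ 1 1 f = f := by
  funext x u
  simp [opD, D.absv_one]

/-- Diagonal operators normalise unipotent ones. -/
lemma opD_opN {a e : F} (he : e ≠ 0) (b : F) (f : M → F → ℂ) :
    D.opD χ a e (D.opN b f) = D.opN (a * b / e) (D.opD χ a e f) := by
  funext x u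
  simp only [opD, opN, D.N_smul]
  rw [show b * (a * e * u) * (e⁻¹ ^ 2 * D.N x) = a * b / e * u * D.N x by field_simp]
  ring

/-- Unipotent operators preserve niceness. -/
lemma nice_opN {f : M → F → ℂ} (hf : D.Nice f) (b : F) : D.Nice (D.opN b f) := by
  intro u hu
  obtain ⟨m, n, hn, hm⟩ := hf u hu
  obtain ⟨a, ha⟩ := D.exists_v_le (b * u)
  set n' := max (max n (a - D.d - m)) ((a - D.d).toNat : ℤ)
  have l1 : n ≤ n' := (le_max_left _ _).trans (le_max_left _ _)
  have l2 : a - D.d - m ≤ n' := (le_max_right _ _).trans (le_max_left _ _)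
  have l3 : ((a - D.d).toNat : ℤ) ≤ n' := le_max_right _ _
  exact LatticeChain.mem_schwartz (D.phase_mul_periodic ha (hn.mono l1) hm (by omega) (by omega))
    (m := m) fun x hx => by simp [opN, hm x hx]

lemma nice_opD {f : M → F → ℂ} (hf : D.Nice f) {a e : F} (ha : a ≠ 0) (he : e ≠ 0) :
    D.Nice (D.opD χ a e f) := by
  intro u hu
  have hh : algebraMap F M e⁻¹ ≠ 0 :=
    (map_ne_zero_iff _ (algebraMap F M).injective).2 (inv_ne_zero he)
  have h := LatticeChain.comp_mem_schwartz (D.isBounded_mulEquiv hh)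
    (hf (a * e * u) (mul_ne_zero (mul_ne_zero ha he) hu))
  have e' : (fun x => D.opD χ a e f x u) = (χ e * ((√(D.absv (a * e ^ 3)) : ℝ) : ℂ)⁻¹) •
      fun x => f (mulEquiv (algebraMap F M e⁻¹) hh x) (a * e * u) := by
    funext x
    simp [opD, Algebra.smul_def]
  rw [e']
  exact Submodule.smul_mem _ _ h

/-- The Weyl operator preserves niceness. -/
lemma nice_opW {f : M → F → ℂ} (hf : D.Nice f) : D.Nice (D.opW f) := fun u hu => by
  have := D.chain.schwartz.smul_mem (D.G u)⁻¹ (D.ft_mem hu (hf u hu))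
  exact this

variable (hχ : D.IsSignChar χ)

include hχ in
/-- Sign characters do not vanish. -/
lemma χ_ne_zero {a : F} (ha : a ≠ 0) : χ a ≠ 0 := fun h => by
  simpa [h] using hχ.mul_self a ha

include hχ in
lemma G_neg {u : F} (hu : u ≠ 0) : D.G (-u) = χ (-1) * D.G u := by
  have := hχ.G_mul u (-1) hu (neg_ne_zero.2 one_ne_zero)
  simpa [D.absv_neg, D.absv_one] using this

include hχ in
lemma opW_opW {f : M → F → ℂ} (hf : D.Nice f) {u : F} (hu : u ≠ 0) (x : M) :
    D.opW (D.opW f) x u = D.opD χ (-1) (-1) f x u := by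
  have hG := D.G_ne_zero hu
  show (D.G u)⁻¹ * D.ft u (fun y => (D.G u)⁻¹ * D.ft u (fun z => f z u) y) x = _
  rw [D.ft_smul (D.ft_mem hu (hf u hu)), D.ft_ft hu (hf u hu), G_neg hχ hu]
  simp only [opD]
  rw [show (-1 : F) * (-1) ^ 3 = 1 by ring, D.absv_one, Real.sqrt_one,
    show (-1 : F) * -1 * u = u by ring, inv_neg_one, neg_one_smul]
  field_simp
  push_cast
  ring

include hχ in
lemma opW_opD {f : M → F → ℂ} (hf : D.Nice f) {a e : F} (ha : a ≠ 0) (he : e ≠ 0) {u : F}
    (hu : u ≠ 0) (x : M) : D.opW (D.opD χ a e f) x u = D.opD χ e a (D.opW f) x u := by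
  have hae : a * e ≠ 0 := mul_ne_zero ha he
  have hh : algebraMap F M e⁻¹ ≠ 0 :=
    (map_ne_zero_iff _ (algebraMap F M).injective).2 (inv_ne_zero he)
  have hs := hf (a * e * u) (mul_ne_zero hae hu)
  set g : M → ℂ := fun z => f z (a * e * u) * D.ψ (-((u * e) * D.B z x))
  have hg : g ∈ D.chain.schwartz := D.ftIntegrand_mem hs x
  set K := χ e * ((√(D.absv (a * e ^ 3)) : ℝ) : ℂ)⁻¹
  have e1 : D.ft u (fun y => D.opD χ a e f y u) x =
      K * (((D.absv e : ℝ) : ℂ) ^ 2 * D.chain.integ g) := by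
    have h2 := D.integ_comp_mul hh hg
    have h3 : (((D.absv (D.N (algebraMap F M e⁻¹)) : ℝ) : ℂ))⁻¹ = ((D.absv e : ℝ) : ℂ) ^ 2 := by
      rw [D.N_algebraMap, pow_two, D.absv_mul, D.absv_inv]
      push_cast
      rw [mul_inv, inv_inv, pow_two]
    rw [← h3, ← h2, ← LatticeChain.integ_smul (f := fun y => g (algebraMap F M e⁻¹ * y))
      (LatticeChain.comp_mem_schwartz (D.isBounded_mulEquiv hh) hg)]
    refine congrArg _ (funext fun y => ?_)
    show χ e * _ * f (e⁻¹ • y) (a * e * u) * D.ψ (-(u * D.B y x)) =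
      K * (f (algebraMap F M e⁻¹ * y) (a * e * u) *
        D.ψ (-(u * e * D.B (algebraMap F M e⁻¹ * y) x)))
    rw [← Algebra.smul_def, D.B_smul_left, show u * e * (e⁻¹ * D.B y x) = u * D.B y x by
      field_simp]
    simp only [K]
    ring
  have e2 : D.ft (e * a * u) (fun y => f y (e * a * u)) (a⁻¹ • x) = D.chain.integ g := by
    refine congrArg _ (funext fun y => ?_)
    show f y (e * a * u) * D.ψ (-(e * a * u * D.B y (a⁻¹ • x))) = g y
    rw [D.B_smul_right, show e * a * u * (a⁻¹ * D.B y x) = u * e * D.B y x by field_simp,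
      mul_comm e a]
  show (D.G u)⁻¹ * D.ft u (fun y => D.opD χ a e f y u) x =
    χ a * ((√(D.absv (e * a ^ 3)) : ℝ) : ℂ)⁻¹ *
      ((D.G (e * a * u))⁻¹ * D.ft (e * a * u) (fun y => f y (e * a * u)) (a⁻¹ • x))
  rw [e1, e2, mul_comm e a, show a * e * u = u * (a * e) by ring,
    hχ.G_mul u (a * e) hu hae, map_mul]
  simp only [K]
  have hG := D.G_ne_zero hu
  have hA := D.absv_pos ha
  have hE := D.absv_pos he
  have e3 : √(D.absv (a * e ^ 3)) = √(D.absv a) * √(D.absv e) * D.absv e := by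
    rw [show a * e ^ 3 = a * (e * (e * e)) by ring, sqrt_absv_mul, sqrt_absv_mul, D.absv_mul,
      Real.sqrt_mul_self hE.le]; ring
  have e4 : √(D.absv (e * a ^ 3)) = √(D.absv e) * √(D.absv a) * D.absv a := by
    rw [show e * a ^ 3 = e * (a * (a * a)) by ring, sqrt_absv_mul, sqrt_absv_mul, D.absv_mul,
      Real.sqrt_mul_self hA.le]; ring
  have hca := χ_ne_zero hχ ha
  have hce := χ_ne_zero hχ he
  have hsa : ((√(D.absv a) : ℝ) : ℂ) ≠ 0 := Complex.ofReal_ne_zero.2 (Real.sqrt_pos.2 hA).ne'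
  have hse : ((√(D.absv e) : ℝ) : ℂ) ≠ 0 := Complex.ofReal_ne_zero.2 (Real.sqrt_pos.2 hE).ne'
  have hA' : ((D.absv a : ℝ) : ℂ) ≠ 0 := Complex.ofReal_ne_zero.2 hA.ne'
  have hE' : ((D.absv e : ℝ) : ℂ) ≠ 0 := Complex.ofReal_ne_zero.2 hE.ne'
  have hee := hχ.mul_self e he
  rw [e3, e4, D.absv_mul]
  push_cast
  field_simp
  linear_combination (D.chain.integ g) * hee

variable (D) in
/-- The integrand of the double integral in the braid relation. -/
private def braidKer (k : ℤ) (y u : F) (t : M) (g : M → ℂ) (x z : M) : ℂ :=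
  D.chain.ind k x * D.ψ (y * u * D.N x) * (g z * D.ψ (-(u * D.B z x))) * D.ψ (-(u * D.B x t))

/-- The order of integration in the braid relation may be changed. -/
private lemma integ_braidKer_swap {y u : F} {a b i k m n : ℤ} (ha : D.v u = exp a)
    (hb : D.v y = exp b) {t : M} (hi : t ∈ D.lat i) {g : M → ℂ} (hn : D.chain.IsPeriodic n g)
    (hm : D.chain.IsSupported m g) :
    D.chain.integ (fun x => D.chain.integ (D.braidKer k y u t g x)) =
      D.chain.integ fun z => D.chain.integ fun x => D.braidKer k y u t g x z := by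
  have hvyu : D.v (y * u) ≤ exp (a + b) := by rw [map_mul, ha, hb, ← exp_add, add_comm]
  obtain ⟨N, l1, l2, l3, l4, l5, l6, l7⟩ : ∃ N, n ≤ N ∧ k ≤ N ∧ a - D.d - k ≤ N ∧
      a - D.d - m ≤ N ∧ a - D.d - i ≤ N ∧ a + b - D.d - k ≤ N ∧ ((a + b - D.d).toNat : ℤ) ≤ N :=
    ⟨max (max (max n k) (max (a - D.d - k) (a - D.d - m)))
      (max (a - D.d - i) (max (a + b - D.d - k) ((a + b - D.d).toNat : ℤ))),
      le_max_of_le_left (le_max_of_le_left (le_max_left _ _)),
      le_max_of_le_left (le_max_of_le_left (le_max_right _ _)),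
      le_max_of_le_left (le_max_of_le_right (le_max_left _ _)),
      le_max_of_le_left (le_max_of_le_right (le_max_right _ _)),
      le_max_of_le_right (le_max_left _ _),
      le_max_of_le_right (le_max_of_le_right (le_max_left _ _)),
      le_max_of_le_right (le_max_of_le_right (le_max_right _ _))⟩
  have hneg : ∀ {p w : M} {q r : ℤ}, p ∈ D.lat q → w ∈ D.lat r → a ≤ D.d + q + r →
      D.ψ (-(u * D.B p w)) = 1 := fun hp hw h => by
    have := D.ψ_B_eq_one (c := -u) (a := a) (by rw [Valuation.map_neg, ha]) hp hw h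
    rwa [neg_mul] at this
  refine LatticeChain.integ_swap (C := D.chain) (F := D.braidKer k y u t g) (n := N) (m := min k m)
    (fun z x c hc => ?_) (fun x z c hc => ?_) ?_
  · show D.chain.ind k (x + c) * D.ψ (y * u * D.N (x + c)) *
      (g z * D.ψ (-(u * D.B z (x + c)))) * D.ψ (-(u * D.B (x + c) t)) = _
    rw [LatticeChain.ind_periodic (by omega) x c hc]
    by_cases hx : x ∈ D.lat k
    · rw [D.N_add, mul_add (y * u), mul_add (y * u), D.ψ_add, D.ψ_add,
        D.ψ_N_eq_one hvyu hc (by omega), D.ψ_B_eq_one hvyu hx hc (by omega), mul_one, mul_one,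
        D.B_add_left x c t, mul_add u (D.B x t), neg_add, D.ψ_add, hneg hc hi (by omega),
        mul_one]
      by_cases hz : z ∈ D.lat m
      · rw [D.B_add_right, mul_add, neg_add, D.ψ_add, hneg hz hc (by omega), mul_one]; rfl
      · simp [braidKer, hm z hz]
    · simp [braidKer, LatticeChain.ind_supported (C := D.chain) k x hx]
  · show D.chain.ind k x * D.ψ (y * u * D.N x) *
      (g (z + c) * D.ψ (-(u * D.B (z + c) x))) * D.ψ (-(u * D.B x t)) = _
    rw [hn.mono (n' := N) (by omega) z c hc]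
    by_cases hx : x ∈ D.lat k
    · rw [D.B_add_left, mul_add, neg_add, D.ψ_add, hneg hc hx (by omega), mul_one]; rfl
    · simp [braidKer, LatticeChain.ind_supported (C := D.chain) k x hx]
  · rintro x z (hx | hz)
    · simp [braidKer, LatticeChain.ind_supported (C := D.chain) k x
        fun h => hx (D.lat_mono (min_le_left k m) h)]
    · simp [braidKer, hm z fun h => hz (D.lat_mono (min_le_right k m) h)]

/-- Integrating in `z` gives the Fourier transform. -/
private lemma integ_braidKer_left {y u : F} {k : ℤ} (t : M) {g : M → ℂ}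
    (hg : g ∈ D.chain.schwartz) (hgs : D.chain.IsSupported k (D.ft u g)) (x : M) :
    D.chain.integ (D.braidKer k y u t g x) =
      D.ψ (y * u * D.N x) * D.ft u g x * D.ψ (-(u * D.B x t)) := by
  have : D.braidKer k y u t g x = fun z =>
      (D.chain.ind k x * D.ψ (y * u * D.N x) * D.ψ (-(u * D.B x t))) *
        (g z * D.ψ (-(u * D.B z x))) := by
    funext z; simp only [braidKer]; ring
  rw [this, LatticeChain.integ_smul (D.ftIntegrand_mem hg x)]
  show D.chain.ind k x * D.ψ (y * u * D.N x) * D.ψ (-(u * D.B x t)) * D.ft u g x = _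
  by_cases hx : x ∈ D.lat k
  · simp [LatticeChain.ind, chain, hx]; ring
  · simp [hgs x hx]

/-- Integrating in `x` gives a Gauss sum. -/
private lemma integ_braidKer_right {y u : F} (hy : y ≠ 0) (hu : u ≠ 0) {b i k m : ℤ}
    (hb : D.v y = exp b) (hk : k ≤ D.stab (y * u)) (hkm : k ≤ m + b) (hki : k ≤ i + b) {t : M}
    (hi : t ∈ D.lat i) {g : M → ℂ} (hm : D.chain.IsSupported m g) (z : M) :
    D.chain.integ (fun x => D.braidKer k y u t g x z) =
      D.G (y * u) * (g z * D.ψ (-(y * u * D.N (y⁻¹ • (z + t))))) := by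
  have hyu : y * u ≠ 0 := mul_ne_zero hy hu
  obtain ⟨a, ha⟩ := D.exists_v_eq hu
  have hvyu : D.v (y * u) ≤ exp (a + b) := by rw [map_mul, ha, hb, ← exp_add, add_comm]
  by_cases hz : z ∈ D.lat m
  · have hw : -(y⁻¹ • (z + t)) ∈ D.lat k := by
      refine neg_mem (D.lat_mono (n := min m i + b) (by omega) ?_)
      exact D.smul_mem_lat (n := b) (by rw [map_inv₀, hb, ← WithZero.exp_neg])
        (add_mem (D.lat_mono (min_le_left m i) hz) (D.lat_mono (min_le_right m i) hi))
    have : (fun x => D.braidKer k y u t g x z) = fun x => g z *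
        (D.chain.ind k x * D.ψ (y * u * D.N x + y * u * D.B x (-(y⁻¹ • (z + t))))) := by
      funext x
      simp only [braidKer]
      rw [D.ψ_add, D.B_neg_right, D.B_smul_right, D.B_add_right, D.B_comm x z,
        show y * u * -(y⁻¹ * (D.B z x + D.B x t)) = -(u * D.B z x) + -(u * D.B x t) by
          field_simp; ring, D.ψ_add]
      ring
    rw [this, LatticeChain.integ_smul, D.integ_phase_translate hyu hk hw, D.N_neg]
    · ring
    · obtain ⟨p, q, hp, hq⟩ := D.phase_mem_schwartz (y * u) (S := D.lat k) le_rfl le_rfl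
      set w := -(y⁻¹ • (z + t))
      refine LatticeChain.mem_schwartz (m := k) (n := max q (max k (a + b - D.d - k)))
        (fun x c hc => ?_) fun x hx => by
          simp [LatticeChain.ind_supported (C := D.chain) k x hx]
      have h1 := hp.mono (le_max_left q (max k (a + b - D.d - k))) x c hc
      show D.chain.ind k (x + c) * D.ψ (y * u * D.N (x + c) + y * u * D.B (x + c) w) =
        D.chain.ind k x * D.ψ (y * u * D.N x + y * u * D.B x w)
      rw [D.ψ_add, D.ψ_add, ← mul_assoc, ← mul_assoc]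
      refine congrArg₂ (· * ·) h1 ?_
      rw [D.B_add_left, mul_add, D.ψ_add, D.ψ_B_eq_one hvyu hc hw (by omega), mul_one]
  · simp only [braidKer, hm z hz, zero_mul, mul_zero]
    exact LatticeChain.integ_zero

/-- The left side of the braid relation as an integral. -/
private lemma opW_opN_opW_eq_integ {f : M → F → ℂ} (hf : D.Nice f) {y u : F} (hu : u ≠ 0) (t : M) :
    D.opW (D.opN y (D.opW f)) t u = (D.G u)⁻¹ * ((D.G u)⁻¹ * D.chain.integ
      (fun x => D.ψ (y * u * D.N x) * D.ft u (fun z => f z u) x * D.ψ (-(u * D.B x t)))) := by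
  set g := D.ft u (fun z => f z u)
  show (D.G u)⁻¹ * D.chain.integ
    (fun x => D.ψ (y * u * D.N x) * ((D.G u)⁻¹ * g x) * D.ψ (-(u * D.B x t))) = _
  rw [← LatticeChain.integ_smul (r := (D.G u)⁻¹)
    (f := fun x => D.ψ (y * u * D.N x) * g x * D.ψ (-(u * D.B x t)))]
  · refine congrArg _ (congrArg _ (funext fun x => ?_)); ring
  · exact D.ftIntegrand_mem (f := fun x => D.ψ (y * u * D.N x) * g x)
      (nice_opN (D := D) (f := fun x _ => g x) (fun w _ => D.ft_mem hu (hf u hu)) y u hu) t

/-- The remaining integral is the transform of `opN (-1 / y) f` at `y⁻¹ • t`. -/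
private lemma integ_braid_phase {f : M → F → ℂ} (hf : D.Nice f) {y u : F} (hy : y ≠ 0)
    (hu : u ≠ 0) (r : ℂ) (t : M) :
    D.chain.integ (fun z => r * (f z u * D.ψ (-(y * u * D.N (y⁻¹ • (z + t)))))) =
      r * (D.ψ (-1 / y * u * D.N t) * D.chain.integ
        (fun z => D.ψ (-1 / y * u * D.N z) * f z u * D.ψ (-(u * D.B z (y⁻¹ • t))))) := by
  have hmem := D.ftIntegrand_mem (c := u) (nice_opN hf (-1 / y) u hu) (y⁻¹ • t)
  have e : ∀ z, f z u * D.ψ (-(y * u * D.N (y⁻¹ • (z + t)))) = D.ψ (-1 / y * u * D.N t) *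
      (D.ψ (-1 / y * u * D.N z) * f z u * D.ψ (-(u * D.B z (y⁻¹ • t)))) := fun z => by
    simp only [D.N_smul, D.N_add, D.B_smul_right]
    rw [show -(y * u * (y⁻¹ ^ 2 * (D.N z + D.N t + D.B z t))) =
      -1 / y * u * D.N t + (-1 / y * u * D.N z + -(u * (y⁻¹ * D.B z t))) by field_simp; ring,
      D.ψ_add, D.ψ_add]
    ring
  simp only [e, ← mul_assoc r (D.ψ (-1 / y * u * D.N t))]
  exact LatticeChain.integ_smul
    (f := fun z => D.ψ (-1 / y * u * D.N z) * f z u * D.ψ (-(u * D.B z (y⁻¹ • t)))) hmem _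

/-- The braid relation, given the scaling of the Gauss sum at `y`. -/
lemma opW_opN_opW_of_G {f : M → F → ℂ} (hf : D.Nice f) {y : F} (hy : y ≠ 0) {u : F} (hu : u ≠ 0)
    (hG : D.G (u * y) = χ y * ((D.absv y : ℝ) : ℂ)⁻¹ * D.G u) (t : M) :
    D.opW (D.opN y (D.opW f)) t u =
      D.opN (-1 / y) (D.opD χ y⁻¹ y (D.opW (D.opN (-1 / y) f))) t u := by
  obtain ⟨m, n, hn, hm⟩ := hf u hu
  obtain ⟨i, hi⟩ := D.exists_mem_lat t
  obtain ⟨a, ha⟩ := D.exists_v_eq hu
  obtain ⟨b, hb⟩ := D.exists_v_eq hy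
  obtain ⟨k, hkb, hk1, -, -, -⟩ :=
    D.exists_small (y * u) (min (min (a - D.d - n - D.e) (m + b)) (i + b))
  have hgs : D.chain.IsSupported k (D.ft u fun z => f z u) :=
    (D.ft_supported ha hn hm).mono (by omega)
  have hsw := integ_braidKer_swap (k := k) ha hb hi hn hm
  simp only [integ_braidKer_left t (LatticeChain.mem_schwartz hn hm) hgs,
    integ_braidKer_right hy hu hb hk1 (m := m) (by omega) (i := i) (by omega) hi hm] at hsw
  rw [opW_opN_opW_eq_integ hf hu t, hsw, integ_braid_phase hf hy hu, mul_comm y u, hG]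
  show _ = D.ψ (-1 / y * u * D.N t) *
    (χ y * ((√(D.absv (y⁻¹ * y ^ 3)) : ℝ) : ℂ)⁻¹ * ((D.G (y⁻¹ * y * u))⁻¹ *
      D.chain.integ (fun z => D.ψ (-1 / y * (y⁻¹ * y * u) * D.N z) * f z (y⁻¹ * y * u) *
        D.ψ (-((y⁻¹ * y * u) * D.B z (y⁻¹ • t))))))
  rw [inv_mul_cancel₀ hy, one_mul, show y⁻¹ * y ^ 3 = y * y by field_simp, D.absv_mul,
    Real.sqrt_mul_self (D.absv_pos hy).le]
  have hGu := D.G_ne_zero hu
  field_simp

include hχ in
lemma opW_opN_opW {f : M → F → ℂ} (hf : D.Nice f) {y : F} (hy : y ≠ 0) {u : F} (hu : u ≠ 0)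
    (t : M) :
    D.opW (D.opN y (D.opW f)) t u =
      D.opN (-1 / y) (D.opD χ y⁻¹ y (D.opW (D.opN (-1 / y) f))) t u :=
  opW_opN_opW_of_G hf hy hu (hχ.G_mul u y hu hy) t

/-! ### The representation -/

variable (D χ)

open Classical in
/-- The action of a matrix, through the Bruhat decomposition. -/
def wAct (g : GL (Fin 2) F) (f : M → F → ℂ) : M → F → ℂ :=
  if g.val 1 0 = 0 then D.opN (g.val 0 1 / g.val 1 1) (D.opD χ (g.val 0 0) (g.val 1 1) f)
  else D.opN (g.val 0 0 / g.val 1 0)
    (D.opD χ (g.val.det / g.val 1 0) (g.val 1 0) (D.opW (D.opN (g.val 1 1 / g.val 1 0) f)))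

variable {D χ}

/-- Equality away from `u = 0`. -/
def Agree (f f' : M → F → ℂ) : Prop := ∀ x u, u ≠ 0 → f x u = f' x u

/-- Unipotent operators respect agreement. -/
lemma Agree.opN {f f' : M → F → ℂ} (h : Agree f f') (b : F) :
    Agree (D.opN b f) (D.opN b f') := fun x u hu => by simp [LocQuad.opN, h x u hu]

/-- Diagonal operators respect agreement. -/
lemma Agree.opD {f f' : M → F → ℂ} (h : Agree f f') {a e : F} (ha : a ≠ 0) (he : e ≠ 0) :
    Agree (D.opD χ a e f) (D.opD χ a e f') := fun x u hu => by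
  simp [LocQuad.opD, h _ _ (mul_ne_zero (mul_ne_zero ha he) hu)]

/-- The Weyl operator respects agreement. -/
lemma Agree.opW {f f' : M → F → ℂ} (h : Agree f f') : Agree (D.opW f) (D.opW f') :=
  fun x u hu => by
  show _ * D.ft u _ x = _ * D.ft u _ x
  rw [funext fun y => h y u hu]

/-- Triangular matrices have nonzero diagonal. -/
lemma diag_ne_zero {g : GL (Fin 2) F} (h : g.val 1 0 = 0) : g.val 0 0 ≠ 0 ∧ g.val 1 1 ≠ 0 := by
  have := GeneralLinearGroup.det_ne_zero g
  rw [Matrix.det_fin_two, h, mul_zero, sub_zero] at this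
  exact ⟨left_ne_zero_of_mul this, right_ne_zero_of_mul this⟩

/-- The representation respects agreement. -/
lemma Agree.wAct {f f' : M → F → ℂ} (h : Agree f f') (g : GL (Fin 2) F) :
    Agree (D.wAct χ g f) (D.wAct χ g f') := by
  unfold LocQuad.wAct
  split_ifs with hc
  · exact (h.opD (diag_ne_zero hc).1 (diag_ne_zero hc).2).opN _
  · exact (((h.opN _).opW).opD (div_ne_zero (GeneralLinearGroup.det_ne_zero g) hc) hc).opN _

/-- The representation preserves niceness. -/
lemma nice_wAct {f : M → F → ℂ} (hf : D.Nice f) (g : GL (Fin 2) F) : D.Nice (D.wAct χ g f) := by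
  unfold LocQuad.wAct
  split_ifs with hc
  · exact nice_opN (nice_opD hf (diag_ne_zero hc).1 (diag_ne_zero hc).2) _
  · exact nice_opN (nice_opD (nice_opW (nice_opN hf _))
      (div_ne_zero (GeneralLinearGroup.det_ne_zero g) hc) hc) _

/-- The upper triangular matrix `[[a, b], [0, e]]`. -/
def upper (a b e : F) (ha : a ≠ 0) (he : e ≠ 0) : GL (Fin 2) F :=
  Matrix.GeneralLinearGroup.mkOfDetNeZero !![a, b; 0, e]
    (by simp [Matrix.det_fin_two, ha, he])

/-- The Weyl matrix. -/
def wMat : GL (Fin 2) F :=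
  Matrix.GeneralLinearGroup.mkOfDetNeZero !![0, -1; 1, 0] (by simp [Matrix.det_fin_two])

lemma upper_val (a b e : F) (ha : a ≠ 0) (he : e ≠ 0) :
    (upper a b e ha he).val = !![a, b; 0, e] := rfl

/-- The matrix of the Weyl element. -/
lemma wMat_val : (wMat : GL (Fin 2) F).val = !![0, -1; 1, 0] := rfl

/-- The representation on triangular elements. -/
lemma wAct_upper (a b e : F) (ha : a ≠ 0) (he : e ≠ 0) (f : M → F → ℂ) :
    D.wAct χ (upper a b e ha he) f = D.opN (b / e) (D.opD χ a e f) := by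
  simp [wAct, upper_val]

/-- The representation on the Weyl element. -/
lemma wAct_wMat (f : M → F → ℂ) : D.wAct χ wMat f = D.opW f := by
  simp [wAct, wMat_val, opN_zero, opD_one, Matrix.det_fin_two]

/-- The representation at one. -/
lemma wAct_one (f : M → F → ℂ) : D.wAct χ 1 f = f := by
  simp [wAct, opN_zero, opD_one]

lemma wAct_of_eq_zero {g : GL (Fin 2) F} (f : M → F → ℂ) {a b c d : F}
    (hv : g.val = !![a, b; c, d]) (hc : c = 0) :
    D.wAct χ g f = D.opN (b / d) (D.opD χ a d f) := by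
  rw [wAct, if_pos (show g.val 1 0 = 0 by simp [hv, hc])]
  simp [hv]

lemma wAct_of_ne_zero {g : GL (Fin 2) F} (f : M → F → ℂ) {a b c d : F}
    (hv : g.val = !![a, b; c, d]) (hc : c ≠ 0) :
    D.wAct χ g f = D.opN (a / c) (D.opD χ (g.val.det / c) c (D.opW (D.opN (d / c) f))) := by
  rw [wAct, if_neg (show g.val 1 0 ≠ 0 by simp [hv, hc])]
  simp [hv]

/-- The representation after a triangular element. -/
lemma upper_mul (a b e : F) (ha : a ≠ 0) (he : e ≠ 0) (g : GL (Fin 2) F) (f : M → F → ℂ) :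
    D.wAct χ (upper a b e ha he * g) f = D.opN (b / e) (D.opD χ a e (D.wAct χ g f)) := by
  have hv : (upper a b e ha he * g).val =
      !![a * g.val 0 0 + b * g.val 1 0, a * g.val 0 1 + b * g.val 1 1;
         e * g.val 1 0, e * g.val 1 1] := by
    rw [Units.val_mul, upper_val]
    ext i j
    fin_cases i <;> fin_cases j <;> simp [Matrix.mul_apply, Fin.sum_univ_two]
  have hg : g.val = !![g.val 0 0, g.val 0 1; g.val 1 0, g.val 1 1] := Matrix.eta_fin_two g.val
  by_cases hc : g.val 1 0 = 0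
  · obtain ⟨h0, h1⟩ := diag_ne_zero hc
    rw [wAct_of_eq_zero f hv (by rw [hc, mul_zero]), wAct_of_eq_zero f hg hc,
      opD_opN he, opN_add, opD_mul, hc, mul_zero, add_zero]
    congr 2
    field_simp
    ring
  · have hd : (upper a b e ha he * g).val.det = a * e * g.val.det := by
      rw [Units.val_mul, Matrix.det_mul, upper_val, Matrix.det_fin_two_of]; ring
    rw [wAct_of_ne_zero f hv (mul_ne_zero he hc), wAct_of_ne_zero f hg hc, hd, opD_opN he,
      opN_add, opD_mul, show e * g.val 1 1 / (e * g.val 1 0) = g.val 1 1 / g.val 1 0 by field_simp]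
    congr 2
    · field_simp; ring
    · field_simp

include hχ in
lemma wMat_mul (g : GL (Fin 2) F) {f : M → F → ℂ} (hf : D.Nice f) :
    Agree (D.wAct χ (wMat * g) f) (D.opW (D.wAct χ g f)) := by
  intro x u hu
  have hv : (wMat * g).val = !![-g.val 1 0, -g.val 1 1; g.val 0 0, g.val 0 1] := by
    rw [Units.val_mul, wMat_val]
    ext i j
    fin_cases i <;> fin_cases j <;> simp [Matrix.mul_apply, Fin.sum_univ_two]
  have hd : (wMat * g).val.det = g.val.det := by
    rw [Units.val_mul, Matrix.det_mul, wMat_val, Matrix.det_fin_two_of]; ring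
  have hdet := Matrix.det_fin_two g.val
  have hg0 := GeneralLinearGroup.det_ne_zero g
  set a := g.val 0 0 with hadef
  set b := g.val 0 1 with hbdef
  set c := g.val 1 0 with hcdef
  set d := g.val 1 1 with hddef
  have hgv : g.val = !![a, b; c, d] := Matrix.eta_fin_two g.val
  set Δ := g.val.det with hΔdef
  by_cases hc : c = 0
  · obtain ⟨ha, he⟩ := diag_ne_zero hc
    rw [wAct_of_ne_zero f hv ha, wAct_of_eq_zero f hgv hc, hd, hc, neg_zero, zero_div, opN_zero]
    rw [show D.opN (b / d) (D.opD χ a d f) = D.opD χ a d (D.opN (b / a) f) by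
      rw [opD_opN he, mul_div_cancel₀ _ ha]]
    rw [opW_opD hχ (nice_opN hf _) ha he hu]
    congr 2
    rw [hdet, hc]; field_simp; simp [d, mul_div_assoc]; exact mul_div_cancel₀ _ ha
  · rw [wAct_of_ne_zero f hgv hc, ← hΔdef]
    have hp : Δ / c ≠ 0 := div_ne_zero hg0 hc
    have hf1 := nice_opN hf (d / c)
    by_cases ha : a = 0
    · rw [wAct_of_eq_zero f hv ha, ha, zero_div, opN_zero]
      have hb : b ≠ 0 := fun h => hg0 (by rw [hdet, ha, h]; ring)
      have h1 : D.opW (D.opD χ (Δ / c) c (D.opW (D.opN (d / c) f))) x u =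
          D.opD χ c (Δ / c) (D.opW (D.opW (D.opN (d / c) f))) x u :=
        opW_opD hχ (nice_opW hf1) hp hc hu x
      have h2 : Agree (D.opW (D.opW (D.opN (d / c) f))) (D.opD χ (-1) (-1) (D.opN (d / c) f)) :=
        fun z w hw => opW_opW hχ hf1 hw z
      rw [h1, (h2.opD hc hp) x u hu, opD_mul, opD_opN (mul_ne_zero hp (neg_ne_zero.2 one_ne_zero))]
      have e1 : Δ / c * -1 = b := by rw [hdet, ha]; field_simp; ring
      rw [e1, show c * -1 * (d / c) / b = -d / b by field_simp, mul_neg_one]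
    · rw [wAct_of_ne_zero f hv ha, hd]
      have hy : a / c ≠ 0 := div_ne_zero ha hc
      set y := a / c with hydef
      set p := Δ / c with hpdef
      set h := D.opN (d / c) f with hh
      have step1 : Agree (D.opD χ p c (D.opW h)) (D.opW (D.opD χ c p h)) :=
        fun z w hw => (opW_opD hχ hf1 hc hp hw z).symm
      rw [(step1.opN y).opW x u hu, opW_opN_opW hχ (nice_opD hf1 hc hp) hy hu]
      rw [hh, show D.opN (-1 / y) (D.opD χ c p (D.opN (d / c) f)) =
          D.opD χ c p (D.opN (d / c + (-1 / y) * p / c) f) by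
        rw [opD_opN hp, opN_add, opD_opN hp]
        congr 1
        field_simp
        ring]
      have step2 := fun (z : M) (w : F) (hw : w ≠ 0) =>
        opW_opD hχ (nice_opN hf (d / c + (-1 / y) * p / c)) hc hp hw z
      rw [((Agree.opD (f := D.opW (D.opD χ c p _)) step2 (inv_ne_zero hy) hy).opN (-1 / y)) x u hu,
        opD_mul]
      have e1 : -c / a = -1 / y := by rw [hydef]; field_simp
      have e2 : Δ / a = y⁻¹ * p := by rw [hydef, hpdef]; field_simp
      have e3 : a = y * c := by rw [hydef]; field_simp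
      have e4 : b / a = d / c + -1 / y * p / c := by
        rw [hydef, hpdef, hdet]; field_simp; ring
      rw [e1, e2, e4, ← e3]

/-- Every matrix is upper triangular or a product `upper * w * upper`. -/
lemma induction_wAct {P : GL (Fin 2) F → Prop} (h1 : P 1)
    (hu : ∀ a b e ha he g, P g → P (upper a b e ha he * g))
    (hw : ∀ g, P g → P (wMat * g)) (g : GL (Fin 2) F) : P g := by
  have hupper : ∀ a b e ha he, P (upper a b e ha he) := fun a b e ha he => by
    simpa using hu a b e ha he 1 h1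
  by_cases hc : g.val 1 0 = 0
  · obtain ⟨h0, h1'⟩ := diag_ne_zero hc
    have : g = upper (g.val 0 0) (g.val 0 1) (g.val 1 1) h0 h1' := by
      ext i j
      rw [upper_val]
      fin_cases i <;> fin_cases j <;> simp [hc]
    rw [this]; exact hupper _ _ _ _ _
  · have hd := GeneralLinearGroup.det_ne_zero g
    set p := g.val.det / g.val 1 0 with hp
    have hp0 : p ≠ 0 := div_ne_zero hd hc
    have : g = upper p (g.val 0 0) (g.val 1 0) hp0 hc *
        (wMat * upper 1 (g.val 1 1 / g.val 1 0) 1 one_ne_zero one_ne_zero) := by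
      ext i j
      rw [Units.val_mul, Units.val_mul, upper_val, wMat_val, upper_val]
      fin_cases i <;> fin_cases j <;>
        simp [Matrix.mul_apply, Fin.sum_univ_two, hp, Matrix.det_fin_two] <;> field_simp
      ring
    rw [this]
    exact hu _ _ _ _ _ _ (hw _ (hupper _ _ _ _ _))

include hχ in
/-- **The Weil representation**: `wAct` is multiplicative on Schwartz-Bruhat functions. -/
theorem wAct_mul (g g' : GL (Fin 2) F) {f : M → F → ℂ} (hf : D.Nice f) :
    Agree (D.wAct χ (g * g') f) (D.wAct χ g (D.wAct χ g' f)) := by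
  induction g using induction_wAct generalizing g' f with
  | h1 => intro x u _; rw [one_mul, wAct_one]
  | hu a b e ha he g ih =>
    intro x u hu
    rw [mul_assoc, upper_mul, upper_mul]
    exact ((ih g' hf).opD ha he).opN _ x u hu
  | hw g ih =>
    intro x u hu
    rw [mul_assoc, wMat_mul hχ _ hf x u hu, wMat_mul hχ _ (nice_wAct hf g') x u hu]
    exact (ih g' hf).opW x u hu

end LocQuad

end FermatAgent.LT.Theta
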