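import Fermat.Agent.LT.Theta.ArchSum
import Fermat.Agent.LT.Theta.Rep
import Fermat.Agent.LT.Base.Height

/-!
# The global action on the points at infinity
-/

set_option autoImplicit false

noncomputable section

open IsDedekindDomain NumberField WithZero Filter
open scoped MatrixGroups

namespace FermatAgent.LT.Theta

open LocQuad Coord Arch

namespace Arch

variable {L : Type*} [Field L]

/-- The action of a global matrix on the points at infinity. -/
def gPt (g : GL (Fin 2) L) (P : InfPts L) : InfPts L :=
  fun w => Matrix.GeneralLinearGroup.map w.embedding g • P w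

/-- The global action is multiplicative. -/
lemma gPt_mul (g g' : GL (Fin 2) L) (P : InfPts L) : gPt (g * g') P = gPt g (gPt g' P) := by
  funext w
  show Matrix.GeneralLinearGroup.map w.embedding (g * g') • P w = _
  rw [map_mul, mul_smul]; rfl

/-- The identity acts trivially. -/
lemma gPt_one (P : InfPts L) : gPt (1 : GL (Fin 2) L) P = P := by
  funext w
  show Matrix.GeneralLinearGroup.map w.embedding (1 : GL (Fin 2) L) • P w = _
  rw [map_one, one_smul]

/-- The Weyl element acts as the inversion. -/
lemma gPt_wMat [NumberField L] (P : InfPts L) : gPt LocQuad.wMat P = wPt P := by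
  funext w
  show Matrix.GeneralLinearGroup.map w.embedding LocQuad.wMat • P w = wC • P w
  congr 1
  refine Units.ext ?_
  ext i j
  fin_cases i <;> fin_cases j <;> simp [wC, wMat_val, Matrix.GeneralLinearGroup.mkOfDetNeZero,
    Matrix.GeneralLinearGroup.map_apply]

/-- The action of triangular elements. -/
lemma gPt_upper {a b e : L} (ha : a ≠ 0) (he : e ≠ 0) (P : InfPts L) (w : InfinitePlace L) :
    (gPt (upper a b e ha he) P w).z =
        (w.embedding a * (P w).z + w.embedding b) / w.embedding e ∧
      (gPt (upper a b e ha he) P w).t = ‖w.embedding a / w.embedding e‖ * (P w).t := by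
  have he' : w.embedding e ≠ 0 := (map_ne_zero _).2 he
  have hv : (Matrix.GeneralLinearGroup.map w.embedding (upper a b e ha he)).val =
      !![w.embedding a, w.embedding b; 0, w.embedding e] := by
    ext i j
    fin_cases i <;> fin_cases j <;> simp [upper_val, Matrix.GeneralLinearGroup.map_apply]
  refine ⟨?_, ?_⟩
  · show (H3.act _ (P w)).z = _
    simp only [H3.act, H3.den, hv]
    simp [Complex.normSq_eq_conj_mul_self]
    field_simp
    rw [mul_div_cancel_right₀ _ ((map_ne_zero _).2 he')]
  · show (H3.act _ (P w)).t = _
    simp only [H3.act, H3.den, hv]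
    simp [Matrix.det_fin_two, Complex.normSq_eq_norm_sq]
    field_simp

end Arch

end FermatAgent.LT.Theta
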