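import Fermat.Agent.LT.Theta.Approx
import Fermat.Agent.LT.Base.Lattice

/-!
# Coordinates on a quadratic extension: the anti-invariant generator, global lattices and the
infinite components
-/

set_option autoImplicit false

noncomputable section

open IsDedekindDomain NumberField WithZero Filter

namespace FermatAgent.LT.Theta

namespace Coord

variable (L M : Type*) [Field L] [NumberField L] [Field M] [Algebra L M]
  [Algebra.IsQuadraticExtension L M]

lemma exists_gen : ∃ θ : M, θ ≠ 0 ∧ Quad.conj L M θ = -θ ∧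
    ∀ v : HeightOneSpectrum (𝓞 L), θ ∈ Quad.lattice L M v := by
  obtain ⟨y, hy0, hy⟩ := Quad.exists_anti L M
  obtain ⟨r, s, hs, hrs⟩ := IsFractionRing.div_surjective (A := 𝓞 L) (Algebra.norm L y)
  have hs0 : algebraMap (𝓞 L) L s ≠ 0 := by simpa using nonZeroDivisors.ne_zero hs
  refine ⟨algebraMap (𝓞 L) L s • y, smul_ne_zero hs0 hy0, by rw [map_smul, hy, smul_neg],
    fun v => Quad.mem_lattice_of ?_ ?_⟩
  · have : Algebra.trace L M y = 0 :=
      (algebraMap L M).injective (by rw [Quad.trace_spec, hy, add_neg_cancel, map_zero])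
    simp [this]
  · rw [Algebra.smul_def, map_mul, Algebra.norm_algebraMap,
      Algebra.IsQuadraticExtension.finrank_eq_two, ← hrs,
      show algebraMap (𝓞 L) L s ^ 2 * (algebraMap (𝓞 L) L r / algebraMap (𝓞 L) L s) =
        algebraMap (𝓞 L) L (s * r) by rw [map_mul]; field_simp]
    exact v.valuation_le_one _

/-- An integral anti-invariant generator. -/
def gen : M := (exists_gen L M).choose

/-- The generator is nonzero. -/
lemma gen_ne_zero : gen L M ≠ 0 := (exists_gen L M).choose_spec.1

/-- The generator is anti-invariant. -/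
lemma conj_gen : Quad.conj L M (gen L M) = -gen L M := (exists_gen L M).choose_spec.2.1

/-- The generator is integral. -/
lemma gen_mem (v : HeightOneSpectrum (𝓞 L)) : gen L M ∈ Quad.lattice L M v :=
  (exists_gen L M).choose_spec.2.2 v

omit [Algebra.IsQuadraticExtension L M] in
include L in
lemma two_ne_zero_M : (2 : M) ≠ 0 := by
  rw [← map_ofNat (algebraMap L M) 2]
  exact (map_ne_zero_iff _ (algebraMap L M).injective).2 two_ne_zero

variable {L M}

/-- The first coordinate. -/
def ca (x : M) : L := Algebra.trace L M x / 2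

/-- The second coordinate. -/
def cb (x : M) : L := Algebra.trace L M (x / gen L M) / 2

/-- The coordinates decompose. -/
lemma decomp (x : M) : x = algebraMap L M (ca x) + (cb x : L) • gen L M := by
  have h2 := two_ne_zero_M L M
  have hg := gen_ne_zero L M
  rw [ca, cb, Algebra.smul_def, map_div₀, map_div₀, Quad.trace_spec, Quad.trace_spec, map_ofNat,
    map_div₀, conj_gen]
  field_simp
  ring

omit [NumberField L] [Algebra.IsQuadraticExtension L M] in
lemma ca_add (x y : M) : ca (L := L) (x + y) = ca x + ca y := by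
  rw [ca, ca, ca, map_add, add_div]

lemma cb_add (x y : M) : cb (L := L) (x + y) = cb x + cb y := by
  rw [cb, cb, cb, add_div, map_add, add_div]

omit [NumberField L] [Algebra.IsQuadraticExtension L M] in
/-- The first coordinate is linear. -/
lemma ca_smul (c : L) (x : M) : ca (c • x) = c * ca x := by
  rw [ca, ca, map_smul, smul_eq_mul, mul_div_assoc]

/-- The second coordinate is linear. -/
lemma cb_smul (c : L) (x : M) : cb (c • x) = c * cb x := by
  rw [cb, cb, Algebra.smul_def, mul_div_assoc, ← Algebra.smul_def, map_smul, smul_eq_mul,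
    mul_div_assoc]

lemma trace_gen : Algebra.trace L M (gen L M) = 0 :=
  (algebraMap L M).injective (by rw [Quad.trace_spec, conj_gen, add_neg_cancel, map_zero])

/-- The first coordinate of a combination. -/
lemma ca_mk (a b : L) : ca (algebraMap L M a + b • gen L M) = a := by
  rw [ca, map_add, map_smul, trace_gen, smul_zero, add_zero, Algebra.trace_algebraMap,
    Algebra.IsQuadraticExtension.finrank_eq_two, two_smul]
  ring

/-- The second coordinate of a combination. -/
lemma cb_mk (a b : L) : cb (algebraMap L M a + b • gen L M) = b := by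
  have hg := gen_ne_zero L M
  have h : Algebra.trace L M (algebraMap L M a / gen L M) = 0 :=
    (algebraMap L M).injective (by
      rw [Quad.trace_spec, map_div₀, AlgEquiv.commutes, conj_gen, div_neg, add_neg_cancel,
        map_zero])
  rw [cb, add_div, Algebra.smul_def, mul_div_assoc, div_self hg, mul_one, map_add, h, zero_add,
    Algebra.trace_algebraMap, Algebra.IsQuadraticExtension.finrank_eq_two, two_smul]
  ring

variable (L M) in
/-- The lattice `κ (A + A θ)` at `v`. -/
def cLat (v : HeightOneSpectrum (𝓞 L)) (κ : L) : AddSubgroup M where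
  carrier := {x | v.valuation L (ca x) ≤ v.valuation L κ ∧ v.valuation L (cb x) ≤ v.valuation L κ}
  zero_mem' := by simp [ca, cb]
  add_mem' := fun {x y} hx hy => by
    refine ⟨?_, ?_⟩
    · rw [ca_add]; exact (Valuation.map_add _ _ _).trans (max_le hx.1 hy.1)
    · rw [cb_add]; exact (Valuation.map_add _ _ _).trans (max_le hx.2 hy.2)
  neg_mem' := fun {x} hx => by
    have h1 := ca_smul (-1 : L) x
    have h2 := cb_smul (-1 : L) x
    rw [neg_one_smul] at h1 h2
    exact ⟨by rw [h1, neg_one_mul, Valuation.map_neg]; exact hx.1,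
      by rw [h2, neg_one_mul, Valuation.map_neg]; exact hx.2⟩

/-- Membership in a scaled lattice. -/
lemma mem_cLat {v : HeightOneSpectrum (𝓞 L)} {κ : L} {x : M} :
    x ∈ cLat L M v κ ↔
      v.valuation L (ca x) ≤ v.valuation L κ ∧ v.valuation L (cb x) ≤ v.valuation L κ := Iff.rfl

lemma mk_mem_cLat {v : HeightOneSpectrum (𝓞 L)} {κ a b : L}
    (ha : v.valuation L a ≤ v.valuation L κ) (hb : v.valuation L b ≤ v.valuation L κ) :
    algebraMap L M a + b • gen L M ∈ cLat L M v κ := by
  rw [mem_cLat, ca_mk, cb_mk]; exact ⟨ha, hb⟩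

/-- Scaled lattices are monotone. -/
lemma cLat_mono {v : HeightOneSpectrum (𝓞 L)} {κ κ' : L}
    (h : v.valuation L κ ≤ v.valuation L κ') : cLat L M v κ ≤ cLat L M v κ' :=
  fun _ hx => ⟨hx.1.trans h, hx.2.trans h⟩

/-- Scaled lattices depend only on the valuation. -/
lemma cLat_congr {v : HeightOneSpectrum (𝓞 L)} {κ κ' : L}
    (h : v.valuation L κ = v.valuation L κ') : cLat L M v κ = cLat L M v κ' :=
  le_antisymm (cLat_mono h.le) (cLat_mono h.ge)

variable (L M) in
/-- Good places: odd, with unit discriminant. -/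
def IsGood (v : HeightOneSpectrum (𝓞 L)) : Prop :=
  v.valuation L 2 = 1 ∧ v.valuation L (Algebra.norm L (gen L M)) = 1

variable (L M) in
/-- Almost all places are good. -/
lemma eventually_good : ∀ᶠ v : HeightOneSpectrum (𝓞 L) in cofinite, IsGood L M v :=
  (eventually_valuation_eq_one two_ne_zero).and
    (eventually_valuation_eq_one (Algebra.norm_ne_zero_iff.2 (gen_ne_zero L M)))

/-- The coordinate lattice lies in the maximal one. -/
lemma cLat_subset_lattice {v : HeightOneSpectrum (𝓞 L)} {x : M} (hx : x ∈ cLat L M v 1) :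
    x ∈ Quad.lattice L M v := by
  rw [mem_cLat, map_one] at hx
  rw [decomp (L := L) x]
  exact add_mem (Quad.algebraMap_mem_lattice hx.1) (Quad.smul_mem_lattice hx.2 (gen_mem L M v))

/-- At good places the coordinate lattice is maximal. -/
lemma cLat_one_eq {v : HeightOneSpectrum (𝓞 L)} (hv : IsGood L M v) {x : M} :
    x ∈ cLat L M v 1 ↔ x ∈ Quad.lattice L M v := by
  refine ⟨cLat_subset_lattice, fun hx => ?_⟩
  have ha : v.valuation L (ca x) ≤ 1 := by
    rw [ca, map_div₀, hv.1, div_one]; exact Quad.v_trace_le hx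
  rw [mem_cLat, map_one]
  refine ⟨ha, ?_⟩
  have h1 := Quad.v_norm_le (L := L) (v := v) (sub_mem hx (Quad.algebraMap_mem_lattice ha))
  nth_rewrite 1 [decomp (L := L) x] at h1
  rw [add_sub_cancel_left, Algebra.smul_def, map_mul, Algebra.norm_algebraMap,
    Algebra.IsQuadraticExtension.finrank_eq_two, map_mul, hv.2, mul_one, map_pow] at h1
  by_contra hc
  exact not_lt.2 h1 (one_lt_pow₀ (not_le.1 hc) two_ne_zero)

/-- Every lattice of the chain lies in a coordinate lattice. -/
lemma exists_lat_le (D : LocQuad L M) (v : HeightOneSpectrum (𝓞 L))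
    (hD : D.v = v.valuation L) (hTr : D.T = Algebra.trace L M) (m : ℤ) :
    ∃ k : ℤ, ∀ κ : L, exp k ≤ v.valuation L κ → D.lat m ≤ cLat L M v κ := by
  obtain ⟨i, hi⟩ := D.exists_mem_lat (gen L M)⁻¹
  obtain ⟨e, he⟩ : ∃ e : ℤ, (v.valuation L (2 : L))⁻¹ = exp e :=
    ⟨log ((v.valuation L (2 : L))⁻¹), (exp_log (by simp)).symm⟩
  refine ⟨max (-m) (-(m + i)) + e, fun κ hκ x hx => ?_⟩
  have hb : x / gen L M ∈ D.lat (m + i) := by rw [div_eq_mul_inv]; exact D.mul_mem_lat hx hi
  have key : ∀ (y : M) (j : ℤ), y ∈ D.lat j → v.valuation L (Algebra.trace L M y) ≤ exp (-j) := by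
    intro y j hy
    have h := D.v_B_le (i := j) (j := 0) hy (by rw [D.lat_zero]; exact D.one_mem)
    rw [LocQuad.B, map_one, mul_one, hD, hTr, add_zero] at h
    exact h
  refine ⟨?_, ?_⟩ <;> refine le_trans ?_ hκ
  · rw [ca, map_div₀, div_eq_mul_inv, he]
    calc _ ≤ exp (-m) * exp e := by have := key x m hx; gcongr
      _ ≤ _ := by rw [← exp_add, exp_le_exp]; omega
  · rw [cb, map_div₀, div_eq_mul_inv, he]
    calc _ ≤ exp (-(m + i)) * exp e := by have := key _ _ hb; gcongr
      _ ≤ _ := by rw [← exp_add, exp_le_exp]; omega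

/-- Small coordinate lattices lie in the lattices of the chain. -/
lemma cLat_le_lat (D : LocQuad L M) (v : HeightOneSpectrum (𝓞 L)) (hD : D.v = v.valuation L)
    (hO : gen L M ∈ D.O) {n : ℤ} {κ : L} (hκ : v.valuation L κ ≤ exp (-n)) :
    cLat L M v κ ≤ D.lat n := by
  intro x hx
  rw [decomp (L := L) x, Algebra.algebraMap_eq_smul_one]
  refine add_mem ?_ ?_
  · have := D.smul_mem_lat (n := n) (k := 0) (by rw [hD]; exact hx.1.trans hκ)
      (show (1 : M) ∈ D.lat 0 by rw [D.lat_zero]; exact D.one_mem)
    simpa using this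
  · have := D.smul_mem_lat (n := n) (k := 0) (by rw [hD]; exact hx.2.trans hκ)
      (show gen L M ∈ D.lat 0 by rw [D.lat_zero]; exact hO)
    simpa using this

/-- Strong approximation in `M`. -/
theorem exists_approx (S : Finset (HeightOneSpectrum (𝓞 L)))
    (x : HeightOneSpectrum (𝓞 L) → M) (κ : L) (hκ : κ ≠ 0) :
    ∃ ξ : M, (∀ v ∈ S, ξ - x v ∈ cLat L M v κ) ∧ ∀ v ∉ S, ξ ∈ cLat L M v 1 := by
  classical
  obtain ⟨N, hN⟩ : ∃ N : ℕ, ∀ v ∈ S, exp (-(N : ℤ)) ≤ v.valuation L κ := by
    refine ⟨S.sup fun v => (-log (v.valuation L κ)).toNat, fun v hv => ?_⟩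
    rw [← exp_log (x := v.valuation L κ) ((Valuation.ne_zero_iff _).2 hκ), exp_le_exp]
    have h1 := Finset.le_sup (f := fun v => (-log (v.valuation L κ)).toNat) hv
    have := Int.self_le_toNat (-log (v.valuation L κ))
    omega
  obtain ⟨a, ha, ha'⟩ := Approx.exists_approx S (fun v => ca (x v)) N
  obtain ⟨b, hb, hb'⟩ := Approx.exists_approx S (fun v => cb (x v)) N
  refine ⟨algebraMap L M a + b • gen L M, fun v hv => ?_, fun v hv => ?_⟩
  · have e : algebraMap L M a + b • gen L M - x v =
        algebraMap L M (a - ca (x v)) + (b - cb (x v)) • gen L M := by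
      conv_lhs => rw [decomp (L := L) (x v)]
      rw [map_sub, sub_smul]; ring
    rw [e]
    exact mk_mem_cLat ((ha v hv).trans (hN v hv)) ((hb v hv).trans (hN v hv))
  · exact mk_mem_cLat (by rw [map_one]; exact ha' v hv) (by rw [map_one]; exact hb' v hv)

omit [NumberField L] in
variable (L M) in
lemma exists_ext (w : InfinitePlace L) :
    ∃ τ : M →+* ℂ, τ.comp (algebraMap L M) = w.embedding := by
  let _ : Algebra L ℂ := w.embedding.toAlgebra
  let τ : M →ₐ[L] ℂ := IsAlgClosed.lift
  exact ⟨τ.toRingHom, RingHom.ext fun a => τ.commutes a⟩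

variable (L M) in
/-- An embedding of `M` above an infinite place. -/
def emb (w : InfinitePlace L) : M →+* ℂ := (exists_ext L M w).choose

omit [NumberField L] in
lemma emb_algebraMap (w : InfinitePlace L) (a : L) :
    emb L M w (algebraMap L M a) = w.embedding a :=
  RingHom.congr_fun (exists_ext L M w).choose_spec a

variable (L M) in
/-- The space at infinity. -/
abbrev InfV := InfinitePlace L → ℂ × ℂ

/-- The infinite components. -/
def ιM (x : M) : InfV L := fun w => (emb L M w x, emb L M w (Quad.conj L M x))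

/-- The embedding at infinity is additive. -/
lemma ιM_add (x y : M) : ιM (L := L) (x + y) = ιM x + ιM y := by
  funext w; simp [ιM]

lemma ιM_mk (a b : L) (w : InfinitePlace L) :
    ιM (algebraMap L M a + b • gen L M) w =
      (w.embedding a + w.embedding b * emb L M w (gen L M),
        w.embedding a - w.embedding b * emb L M w (gen L M)) := by
  simp only [ιM, map_add, AlgEquiv.commutes, conj_gen, Algebra.smul_def, map_mul,
    map_neg, emb_algebraMap, mul_neg, sub_eq_add_neg]

/-- Norms at infinity. -/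
lemma emb_norm (w : InfinitePlace L) (x : M) :
    w.embedding (Algebra.norm L x) = (ιM (L := L) x w).1 * (ιM (L := L) x w).2 := by
  rw [← emb_algebraMap (M := M), Quad.norm_spec, map_mul]; rfl

/-- The pairing at infinity. -/
lemma emb_B (w : InfinitePlace L) (x y : M) :
    w.embedding (Algebra.trace L M (x * Quad.conj L M y)) =
      (ιM (L := L) x w).1 * (ιM (L := L) y w).2 + (ιM (L := L) x w).2 * (ιM (L := L) y w).1 := by
  rw [← emb_algebraMap (M := M), Quad.trace_spec, map_add, map_mul, map_mul, map_mul,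
    Quad.conj_conj]
  rfl

lemma emb_gen_ne_zero (w : InfinitePlace L) : emb L M w (gen L M) ≠ 0 :=
  (map_ne_zero _).2 (gen_ne_zero L M)

variable [IsTotallyComplex L]

variable (M) in
/-- Coordinates at infinity, scaled by `κ`. -/
def scaleEquiv {κ : L} (hκ : κ ≠ 0) :
    ((InfinitePlace L → ℂ) × (InfinitePlace L → ℂ)) ≃ₗ[ℝ] InfV L where
  toFun p w := (w.embedding κ * (p.1 w + p.2 w * emb L M w (gen L M)),
    w.embedding κ * (p.1 w - p.2 w * emb L M w (gen L M)))
  map_add' p q := by funext w; simp; constructor <;> ring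
  map_smul' c p := by funext w; simp; constructor <;> ring
  invFun X := (fun w => ((X w).1 + (X w).2) / (2 * w.embedding κ),
    fun w => ((X w).1 - (X w).2) / (2 * (w.embedding κ * emb L M w (gen L M))))
  left_inv p := by
    have h1 : ∀ w : InfinitePlace L, w.embedding κ ≠ 0 := fun w => (map_ne_zero _).2 hκ
    refine Prod.ext (funext fun w => ?_) (funext fun w => ?_) <;>
      · have := h1 w
        have := emb_gen_ne_zero (M := M) w
        field_simp
        ring
  right_inv X := by
    funext w
    have : w.embedding κ ≠ 0 := (map_ne_zero _).2 hκ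
    have := emb_gen_ne_zero (M := M) w
    refine Prod.ext ?_ ?_ <;> · field_simp; ring

variable (L) in
/-- The index type of the basis at infinity. -/
abbrev Idx := Module.Free.ChooseBasisIndex ℤ (𝓞 L) ⊕ Module.Free.ChooseBasisIndex ℤ (𝓞 L)

variable (M) in
/-- The basis of a scaled lattice. -/
def latBasis {κ : L} (hκ : κ ≠ 0) : Module.Basis (Idx L) ℝ (InfV L) :=
  ((infBasis L).prod (infBasis L)).map (scaleEquiv M hκ)

/-- The lattice element with integer coordinates. -/
def latElt (κ : L) (k : Idx L → ℤ) : M :=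
  algebraMap L M (κ * ∑ i, (k (Sum.inl i) : L) * integralBasis L i) +
    (κ * ∑ i, (k (Sum.inr i) : L) * integralBasis L i) • gen L M

/-- Lattice elements at infinity. -/
lemma ιM_latElt {κ : L} (hκ : κ ≠ 0) (k : Idx L → ℤ) :
    ιM (L := L) (latElt (M := M) κ k) = ∑ j, (k j : ℝ) • latBasis M hκ j := by
  classical
  have e : ∀ j, latBasis M hκ j = scaleEquiv M hκ
      (((infBasis L).prod (infBasis L)) j) := fun j => Module.Basis.map_apply _ _ _
  simp only [e, ← map_smul, ← map_sum]
  funext w
  show _ = _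
  rw [latElt, ιM_mk]
  simp only [scaleEquiv, LinearEquiv.coe_mk, LinearMap.coe_mk, AddHom.coe_mk]
  simp only [Fintype.sum_sum_type, Prod.fst_add, Prod.snd_add, Prod.fst_sum, Prod.snd_sum,
    Prod.smul_fst, Prod.smul_snd, Module.Basis.prod_apply_inl_fst, Module.Basis.prod_apply_inl_snd,
    Module.Basis.prod_apply_inr_fst, Module.Basis.prod_apply_inr_snd, smul_zero,
    Finset.sum_const_zero, add_zero, zero_add, map_mul, map_sum, Finset.sum_apply, Pi.smul_apply,
    infBasis_apply, infEmb_apply, map_intCast, Complex.real_smul, Complex.ofReal_intCast]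
  refine Prod.ext ?_ ?_ <;> simp only <;> ring

omit [IsTotallyComplex L] in
/-- Lattice elements lie in the scaled lattices. -/
lemma latElt_mem {κ : L} (k : Idx L → ℤ) (v : HeightOneSpectrum (𝓞 L)) :
    latElt (M := M) κ k ∈ cLat L M v κ := by
  have key : ∀ f : Module.Free.ChooseBasisIndex ℤ (𝓞 L) → ℤ,
      v.valuation L (κ * ∑ i, (f i : L) * integralBasis L i) ≤ v.valuation L κ := by
    intro f
    rw [map_mul]
    refine mul_le_of_le_one_right zero_le (Valuation.map_sum_le _ fun i _ => ?_)
    rw [integralBasis_apply, ← map_intCast (algebraMap (𝓞 L) L), ← map_mul]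
    exact v.valuation_le_one _
  exact mk_mem_cLat (key _) (key _)

omit [IsTotallyComplex L] in
/-- The scaled lattices cut out the lattice elements. -/
lemma exists_latElt {κ : L} (hκ : κ ≠ 0) {x : M}
    (hx : ∀ v : HeightOneSpectrum (𝓞 L), x ∈ cLat L M v κ) :
    ∃ k : Idx L → ℤ, latElt (M := M) κ k = x := by
  classical
  have key : ∀ a : L, (∀ v : HeightOneSpectrum (𝓞 L), v.valuation L a ≤ v.valuation L κ) →
      ∃ f : Module.Free.ChooseBasisIndex ℤ (𝓞 L) → ℤ,
        κ * ∑ i, (f i : L) * integralBasis L i = a := by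
    intro a ha
    obtain ⟨y, hy⟩ := HeightOneSpectrum.mem_integers_of_valuation_le_one L (a / κ) fun v => by
      rw [map_div₀, div_le_iff₀ (zero_lt_iff.2 ((Valuation.ne_zero_iff _).2 hκ)), one_mul]
      exact ha v
    refine ⟨fun i => (RingOfIntegers.basis L).repr y i, ?_⟩
    have e : algebraMap (𝓞 L) L y =
        ∑ i, (((RingOfIntegers.basis L).repr y i : ℤ) : L) * integralBasis L i := by
      conv_lhs => rw [← (RingOfIntegers.basis L).sum_repr y]
      rw [map_sum]
      refine Finset.sum_congr rfl fun i _ => ?_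
      rw [integralBasis_apply, zsmul_eq_mul, map_mul, map_intCast]
    rw [← e, hy, mul_div_cancel₀ _ hκ]
  obtain ⟨f, hf⟩ := key (ca x) fun v => (hx v).1
  obtain ⟨g, hg⟩ := key (cb x) fun v => (hx v).2
  exact ⟨Sum.elim f g, by rw [latElt]; simp only [Sum.elim_inl, Sum.elim_inr, hf, hg, ← decomp]⟩

/-- Lattice coordinates are unique. -/
lemma latElt_injective {κ : L} (hκ : κ ≠ 0) :
    Function.Injective (latElt (M := M) κ : (Idx L → ℤ) → M) := by
  intro k k' h
  have h' := congrArg (ιM (L := L)) h
  rw [ιM_latElt hκ, ιM_latElt hκ] at h'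
  funext j
  have := congrArg (fun X => (latBasis M hκ).repr X j) h'
  simp only [Module.Basis.repr_sum_self] at this
  exact_mod_cast this

end Coord

end FermatAgent.LT.Theta
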