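import Fermat.Agent.LT.Theta.HeckeEigen

/-!
# Sums over restricted products and bounds for the Whittaker summands
-/

set_option autoImplicit false

noncomputable section

open IsDedekindDomain NumberField WithZero Filter
open scoped MatrixGroups

namespace FermatAgent.LT.Theta

/-! ### Restricted products -/

section Restricted

variable {ι : Type*} {β : ι → Type*} (e : ∀ i, β i) {R : Type*} [CommSemiring R]
  [TopologicalSpace R] [∀ i, DecidableEq (β i)]

open Classical in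
/-- A sum over a restricted product of a product function. -/
theorem hasSum_finprod_restricted (a : ∀ i, β i → R) (s : Finset ι)
    (hs : ∀ i, i ∉ s → ∀ b, a i b = if b = e i then 1 else 0)
    (hfin : ∀ i, (Function.support (a i)).Finite) :
    HasSum (fun c : {f : ∀ i, β i // ∀ᶠ i in cofinite, f i = e i} => ∏ᶠ i, a i (c.1 i))
      (∏ i ∈ s, ∑ᶠ b, a i b) := by
  set T := fun i => (hfin i).toFinset
  have hsum : ∀ i, ∑ᶠ b, a i b = ∑ b ∈ T i, a i b := fun i =>
    finsum_eq_sum_of_support_subset _ (by simp [T])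
  rw [Finset.prod_congr rfl fun i _ => hsum i, Finset.prod_sum]
  let ext : (∀ i ∈ s, β i) → {f : ∀ i, β i // ∀ᶠ i in cofinite, f i = e i} := fun p =>
    ⟨fun i => if h : i ∈ s then p i h else e i, by
      filter_upwards [s.finite_toSet.compl_mem_cofinite] with i hi
      rw [dif_neg (by simpa using hi)]⟩
  have hval : ∀ c : {f : ∀ i, β i // ∀ᶠ i in cofinite, f i = e i}, (∀ i, i ∉ s → c.1 i = e i) →
      ∏ᶠ i, a i (c.1 i) = ∏ i ∈ s, a i (c.1 i) := fun c hc =>
    finprod_eq_prod_of_mulSupport_subset _ fun i hi => by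
      by_contra hcon
      exact hi (show a i (c.1 i) = 1 by rw [hs i hcon, if_pos (hc i hcon)])
  have hinj : Function.Injective ext := fun p q h => by
    funext i hi
    have := congrFun (congrArg Subtype.val h) i
    simpa [ext, hi] using this
  have hzero : ∀ c, c ∉ (s.pi T).image ext → ∏ᶠ i, a i (c.1 i) = 0 := by
    intro c hc
    by_contra hne
    have hout : ∀ i, i ∉ s → c.1 i = e i := fun i hi => by
      by_contra h
      have h0 : a i (c.1 i) = 0 := by rw [hs i hi, if_neg h]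
      refine hne (finprod_eq_zero _ i h0 ?_)
      refine ((eventually_cofinite.1 c.2).union s.finite_toSet).subset fun j hj => ?_
      by_cases hjs : j ∈ s
      · exact Or.inr hjs
      · refine Or.inl fun hje => hj ?_
        show a j (c.1 j) = 1
        rw [hs j hjs, if_pos hje]
    refine hc (Finset.mem_image.2 ⟨fun i _ => c.1 i, Finset.mem_pi.2 fun i hi => ?_, ?_⟩)
    · simp only [T, Set.Finite.mem_toFinset, Function.mem_support]
      intro h0
      exact hne (by rw [hval c hout]; exact Finset.prod_eq_zero hi h0)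
    · refine Subtype.ext (funext fun i => ?_)
      by_cases hi : i ∈ s
      · simp [ext, hi]
      · simp [ext, hi, hout i hi]
  convert hasSum_sum_of_ne_finset_zero (s := (s.pi T).image ext) hzero using 1
  case convert_2 => infer_instance
  rw [Finset.sum_image fun p _ q _ h => hinj h]
  refine Finset.sum_congr rfl fun p _ => ?_
  rw [hval (ext p) fun i hi => by simp [ext, hi],
    ← Finset.prod_attach s (fun i => a i ((ext p).1 i))]
  refine Finset.prod_congr rfl fun i _ => ?_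
  simp [ext]

end Restricted

/-! ### Local bounds -/

namespace LatticeChain

variable {A : Type*} [AddCommGroup A] {C : LatticeChain A}

lemma ncard_image_mk_le {m n : ℤ} (h : m ≤ n) :
    ((QuotientAddGroup.mk : A → A ⧸ C.L n) '' (C.L m : Set A)).ncard ≤ C.Q ^ (n - m).toNat := by
  have hr := C.relIndex_add m (n - m).toNat
  rw [show m + ((n - m).toNat : ℤ) = n by omega] at hr
  have : Finite (C.L m ⧸ (C.L n).addSubgroupOf (C.L m)) :=
    Nat.finite_of_card_ne_zero (C.relIndex_ne_zero h)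
  refine (Set.ncard_le_ncard (C.image_mk_subset_range m n) (Set.finite_range _)).trans ?_
  rw [← Nat.card_coe_set_eq, ← hr]
  exact Finite.card_range_le _

end LatticeChain

namespace LocQuad

variable {F M : Type*} [Field F] [Field M] [Algebra F M] {D : LocQuad F M} {χ : F →* ℂ}
  {θ : M →* ℂ} {U : Subgroup Mˣ}

/-- The Whittaker term of a twist. -/
lemma whitTerm_opD {a : F} (f : M → F → ℂ) (h : Mˣ) :
    D.whitTerm θ (D.opD χ a 1 f) h = (θ (h : M))⁻¹ * ((D.absv (D.N (h : M)) : ℝ) : ℂ) *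
      (((√(D.absv a) : ℝ) : ℂ)⁻¹ * f (h : M) (a * (D.N (h : M))⁻¹)) := by
  simp [whitTerm, opD]

/-- The sum of absolute values of the summands of the Whittaker functional, twisted by a diagonal
matrix. -/
theorem sum_norm_whitTerm_le (hθ : ∀ x : M, x ≠ 0 → ‖θ x‖ = 1) {k : ℤ}
    (hk : ∀ h : Mˣ, (h : M) - 1 ∈ D.lat k → h ∈ U) {f : M → F → ℂ} {a m : ℤ}
    (hsl : D.Sliced a f) (hsupp : ∀ u, u ≠ 0 → D.chain.IsSupported m fun x => f x u) {B : ℝ}
    (hB : ∀ x u, u ≠ 0 → ‖f x u‖ ≤ B) {α : F} {i : ℤ} (hi : D.v α = exp i) :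
    (Function.support fun c : Mˣ ⧸ U => ‖D.whitTerm θ (D.opD χ α 1 f) c.out‖).Finite ∧
    ∑ᶠ c : Mˣ ⧸ U, ‖D.whitTerm θ (D.opD χ α 1 f) c.out‖ ≤
      if i ≤ a - 2 * m then
        (D.q : ℝ) ^ (2 * (max m (k + (a - i) - m) - m)) * (D.q : ℝ) ^ (i - a) * (√(D.absv α))⁻¹ * B
      else 0 := by
  classical
  have hB0 : 0 ≤ B := (norm_nonneg _).trans (hB 1 1 one_ne_zero)
  have hα : α ≠ 0 := fun e => exp_ne_zero (by rw [← hi, e, map_zero])
  set S := Function.support fun c : Mˣ ⧸ U => ‖D.whitTerm θ (D.opD χ α 1 f) c.out‖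
  have key : ∀ c ∈ S, (c.out : M) ∈ D.lat m ∧ D.v (D.N (c.out : M)) = exp (i - a) := by
    intro c hc
    rw [Function.mem_support, whitTerm_opD] at hc
    have hu : α * (D.N (c.out : M))⁻¹ ≠ 0 := mul_ne_zero hα (inv_ne_zero (N_unit_ne_zero c.out))
    refine ⟨?_, ?_⟩
    · by_contra hm
      exact hc (by simp [show f (c.out : M) _ = 0 from hsupp _ hu _ hm])
    · obtain ⟨j, hj⟩ := D.exists_v_eq (N_unit_ne_zero (D := D) c.out)
      by_contra hv
      refine hc ?_
      rw [hsl _ _ fun e => hv ?_]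
      · simp
      rw [map_mul, map_inv₀, hi, hj, ← WithZero.exp_neg, ← exp_add, exp_inj] at e
      rw [hj, exp_inj]
      omega
  set n := max m (k + (a - i) - m)
  have hmn : m ≤ n := le_max_left _ _
  have hinj : Set.InjOn (fun c : Mˣ ⧸ U => (QuotientAddGroup.mk (c.out : M) : M ⧸ D.lat n)) S :=
    injOn_mk_out hk (by omega) key
  have himg : (fun c : Mˣ ⧸ U => (QuotientAddGroup.mk (c.out : M) : M ⧸ D.lat n)) '' S ⊆
      (QuotientAddGroup.mk : M → M ⧸ D.lat n) '' (D.lat m : Set M) := by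
    rintro _ ⟨c, hc, rfl⟩
    exact ⟨_, (key c hc).1, rfl⟩
  have hSfin : S.Finite :=
    Set.Finite.of_finite_image ((D.chain.finite_image_mk (m := m) (n := n) hmn).subset himg) hinj
  refine ⟨hSfin, ?_⟩
  rw [finsum_eq_sum_of_support_subset _ (s := hSfin.toFinset) (by simp [S])]
  split_ifs with hi2
  · set K := (D.q : ℝ) ^ (i - a) * (√(D.absv α))⁻¹ * B
    have hterm : ∀ c ∈ hSfin.toFinset, ‖D.whitTerm θ (D.opD χ α 1 f) c.out‖ ≤ K := by
      intro c hc
      obtain ⟨-, hv⟩ := key c (hSfin.mem_toFinset.1 hc)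
      rw [whitTerm_opD, norm_mul, norm_mul, norm_mul, norm_inv, hθ _ c.out.ne_zero, inv_one,
        one_mul, Complex.norm_real, norm_inv, Complex.norm_real, D.absv_exp hv,
        Real.norm_of_nonneg (zpow_nonneg (Nat.cast_nonneg _) _),
        Real.norm_of_nonneg (Real.sqrt_nonneg _), ← mul_assoc]
      exact mul_le_mul_of_nonneg_left (hB _ _ (mul_ne_zero hα (inv_ne_zero (N_unit_ne_zero c.out))))
        (by positivity)
    refine (Finset.sum_le_card_nsmul _ _ K hterm).trans ?_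
    rw [nsmul_eq_mul, mul_assoc _ _ (√(D.absv α))⁻¹, mul_assoc _ _ B]
    refine mul_le_mul_of_nonneg_right ?_ (by positivity)
    have hcard : hSfin.toFinset.card ≤ (D.q ^ 2) ^ (n - m).toNat := by
      rw [← Set.ncard_eq_toFinset_card S hSfin, ← hinj.ncard_image]
      exact (Set.ncard_le_ncard himg (D.chain.finite_image_mk (m := m) (n := n) hmn)).trans
        (D.chain.ncard_image_mk_le hmn)
    rw [show (D.q : ℝ) ^ (2 * (n - m)) = (((D.q ^ 2) ^ (n - m).toNat : ℕ) : ℝ) by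
      rw [Nat.cast_pow, Nat.cast_pow, zpow_mul, ← zpow_natCast _ ((n - m).toNat),
        show ((n - m).toNat : ℤ) = n - m by omega]
      rfl]
    exact_mod_cast hcard
  · refine le_of_eq (Finset.sum_eq_zero fun c hc => ?_)
    exfalso
    obtain ⟨hm, hv⟩ := key c (hSfin.mem_toFinset.1 hc)
    have := D.v_N_le hm
    rw [hv, exp_le_exp] at this
    omega

/-- A uniform bound for all twists. -/
theorem exists_whit_bound (hθ : ∀ x : M, x ≠ 0 → ‖θ x‖ = 1) (hU : D.IsTorusLevel θ U)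
    {f : M → F → ℂ} (hf : D.IsTest f) {B : ℝ} (hB : ∀ x u, u ≠ 0 → ‖f x u‖ ≤ B) :
    ∃ C : ℝ, 0 ≤ C ∧ ∃ I : ℤ, ∀ α : F, α ≠ 0 →
      (exp I < D.v α → ∑ᶠ c : Mˣ ⧸ U, ‖D.whitTerm θ (D.opD χ α 1 f) c.out‖ = 0) ∧
      ∑ᶠ c : Mˣ ⧸ U, ‖D.whitTerm θ (D.opD χ α 1 f) c.out‖ ≤ C * D.absv α ^ (-4 : ℤ) := by
  obtain ⟨a, m, n, ha, h⟩ := hf
  obtain ⟨k, hk⟩ := hU.deep
  have hB0 : 0 ≤ B := (norm_nonneg _).trans (hB 1 1 one_ne_zero)
  set c₀ : ℕ := 6 * (k.natAbs + a.natAbs + 2 * m.natAbs) + 6 * (a - 2 * m).natAbs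
  refine ⟨2 * B * (D.q : ℝ) ^ c₀, by positivity, a - 2 * m, fun α hα => ?_⟩
  obtain ⟨i, hi⟩ := D.exists_v_eq hα
  obtain ⟨-, hle⟩ := sum_norm_whitTerm_le (χ := χ) hθ hk ha (fun u hu => (h u hu).2) hB hi
  have hnn : 0 ≤ ∑ᶠ c : Mˣ ⧸ U, ‖D.whitTerm θ (D.opD χ α 1 f) c.out‖ :=
    finsum_nonneg fun c => norm_nonneg _
  refine ⟨fun hlt => ?_, ?_⟩
  · rw [hi, exp_lt_exp] at hlt
    rw [if_neg (by omega)] at hle
    exact le_antisymm hle hnn
  · have hq1 : (1 : ℝ) ≤ D.q := by exact_mod_cast D.one_lt_q.le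
    have hq0 : (D.q : ℝ) ≠ 0 := by linarith
    refine hle.trans ?_
    rw [D.absv_exp hi, ← zpow_mul]
    split_ifs with hi2
    swap
    · positivity
    have hs : (√((D.q : ℝ) ^ i))⁻¹ ≤ 1 + (D.q : ℝ) ^ (-i) := by
      have hpos : (0 : ℝ) < (D.q : ℝ) ^ i := zpow_pos (by linarith) i
      rw [_root_.zpow_neg, ← Real.sqrt_inv]
      have h1 : (0 : ℝ) ≤ ((D.q : ℝ) ^ i)⁻¹ := inv_nonneg.2 hpos.le
      rw [Real.sqrt_le_iff]
      exact ⟨by linarith, by nlinarith⟩
    set N := max m (k + (a - i) - m) - m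
    have hN : N ≤ (k.natAbs + a.natAbs + 2 * m.natAbs : ℕ) + max 0 (-i) := by
      simp only [N]; omega
    have hE : ∀ j : ℤ, (j = 0 ∨ j = -i) → 2 * N + (i - a) + j ≤ (c₀ : ℤ) + -4 * i := by
      intro j hj
      have hIi : i ≤ a - 2 * m := hi2
      simp only [c₀]
      omega
    have hpow : ∀ j : ℤ, (j = 0 ∨ j = -i) → (D.q : ℝ) ^ (2 * N) * (D.q : ℝ) ^ (i - a) *
        (D.q : ℝ) ^ j ≤ (D.q : ℝ) ^ c₀ * (D.q : ℝ) ^ (i * -4) := by
      intro j hj
      rw [← zpow_natCast _ c₀, ← zpow_add₀ hq0, ← zpow_add₀ hq0, ← zpow_add₀ hq0]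
      refine zpow_le_zpow_right₀ hq1 ?_
      have := hE j hj
      omega
    have h0 := hpow 0 (Or.inl rfl)
    have h1 := hpow (-i) (Or.inr rfl)
    rw [zpow_zero, mul_one] at h0
    calc (D.q : ℝ) ^ (2 * N) * (D.q : ℝ) ^ (i - a) * (√((D.q : ℝ) ^ i))⁻¹ * B
        ≤ (D.q : ℝ) ^ (2 * N) * (D.q : ℝ) ^ (i - a) * (1 + (D.q : ℝ) ^ (-i)) * B := by gcongr
      _ ≤ _ := by
        rw [mul_add, mul_one, add_mul]
        nlinarith [mul_le_mul_of_nonneg_right h0 hB0, mul_le_mul_of_nonneg_right h1 hB0]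

end LocQuad

end FermatAgent.LT.Theta
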