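import Fermat.Agent.LT.Theta.Coord

/-!
# The dual of a scaled global lattice for the form `Tr (u B)`
-/

set_option autoImplicit false

noncomputable section

open IsDedekindDomain NumberField

namespace FermatAgent.LT.Theta

namespace Coord

variable {L M : Type*} [Field L] [NumberField L] [Field M] [Algebra L M]
  [Algebra.IsQuadraticExtension L M]

/-- The trace pairing `Tr (u B (x, ζ))`. -/
def pairing (u : L) (x ζ : M) : ℚ :=
  Algebra.trace ℚ L (u * Algebra.trace L M (x * Quad.conj L M ζ))

lemma trace_B_mk (a b c d : L) :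
    Algebra.trace L M ((algebraMap L M a + b • gen L M) *
      Quad.conj L M (algebraMap L M c + d • gen L M)) =
      2 * a * c + 2 * b * d * Algebra.norm L (gen L M) := by
  apply (algebraMap L M).injective
  simp only [Quad.trace_spec, map_add, map_mul, map_ofNat, Quad.norm_spec,
    AlgEquiv.commutes, conj_gen, Algebra.smul_def, map_neg]
  ring

variable (L) in
/-- The dual of the integral basis for the trace form. -/
def dualB : Module.Basis (Module.Free.ChooseBasisIndex ℤ (𝓞 L)) ℚ L :=
  (Algebra.traceForm ℚ L).dualBasis (traceForm_nondegenerate ℚ L) (integralBasis L)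

lemma trace_dualB (i j : Module.Free.ChooseBasisIndex ℤ (𝓞 L)) :
    Algebra.trace ℚ L (dualB L i * integralBasis L j) = if j = i then 1 else 0 := by
  classical
  rw [← Algebra.traceForm_apply]
  exact LinearMap.BilinForm.apply_dualBasis_left (traceForm_nondegenerate ℚ L) (integralBasis L) i j

lemma eq_sum_dualB (y : L) :
    y = ∑ i, Algebra.trace ℚ L (integralBasis L i * y) • dualB L i := by
  classical
  conv_lhs => rw [← (dualB L).sum_repr y]
  refine Finset.sum_congr rfl fun i _ => ?_
  congr 1
  rw [dualB, LinearMap.BilinForm.dualBasis_repr_apply, Algebra.traceForm_apply, mul_comm]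

lemma trace_sum_dualB (q : Module.Free.ChooseBasisIndex ℤ (𝓞 L) → ℚ)
    (j : Module.Free.ChooseBasisIndex ℤ (𝓞 L)) :
    Algebra.trace ℚ L (integralBasis L j * ∑ i, q i • dualB L i) = q j := by
  classical
  rw [Finset.mul_sum, map_sum, Finset.sum_eq_single j]
  · rw [mul_smul_comm, map_smul, mul_comm, trace_dualB, if_pos rfl, smul_eq_mul, mul_one]
  · intro i _ hij
    rw [mul_smul_comm, map_smul, mul_comm, trace_dualB, if_neg (Ne.symm hij), smul_zero]
  · simp

variable (M) in
/-- The point of the dual lattice with the given coordinates. -/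
def dualPt (u κ : L) (q : Idx L → ℚ) : M :=
  algebraMap L M (-(∑ i, q (Sum.inl i) • dualB L i) / (2 * u * κ)) +
    (-(∑ i, q (Sum.inr i) • dualB L i) / (2 * u * κ * Algebra.norm L (gen L M))) • gen L M

lemma norm_gen_ne_zero : Algebra.norm L (gen L M) ≠ 0 :=
  Algebra.norm_ne_zero_iff.2 (gen_ne_zero L M)

open Classical in
lemma pairing_latElt_single {u κ : L} (j : Idx L) (ζ : M) :
    pairing u (latElt (M := M) κ (Pi.single j 1)) ζ =
      Sum.elim (fun i => Algebra.trace ℚ L (integralBasis L i * (2 * u * κ * ca ζ)))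
        (fun i => Algebra.trace ℚ L
          (integralBasis L i * (2 * u * κ * Algebra.norm L (gen L M) * cb ζ))) j := by
  rw [pairing, latElt]
  nth_rewrite 1 [decomp (L := L) ζ]
  rw [trace_B_mk]
  rcases j with i | i
  · rw [Finset.sum_eq_single i (fun k _ hk => by simp [Pi.single_eq_of_ne, hk]) (by simp),
      Finset.sum_eq_zero (f := fun k => ((Pi.single (Sum.inl i) 1 : Idx L → ℤ) (Sum.inr k) : L) * _)
        (fun k _ => by simp)]
    simp only [Sum.elim_inl, Pi.single_eq_same, Int.cast_one, one_mul]
    congr 1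
    ring
  · rw [Finset.sum_eq_single (f := fun k =>
      ((Pi.single (Sum.inr i) 1 : Idx L → ℤ) (Sum.inr k) : L) * _)
        i (fun k _ hk => by simp [Pi.single_eq_of_ne, hk]) (by simp),
      Finset.sum_eq_zero (f := fun k => ((Pi.single (Sum.inr i) 1 : Idx L → ℤ) (Sum.inl k) : L) * _)
        (fun k _ => by simp)]
    simp only [Sum.elim_inr, Pi.single_eq_same, Int.cast_one, one_mul]
    congr 1
    ring

open Classical in
lemma pairing_latElt (u κ : L) (k : Idx L → ℤ) (ζ : M) :
    pairing u (latElt (M := M) κ k) ζ =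
      ∑ j, (k j : ℚ) * pairing u (latElt (M := M) κ (Pi.single j 1)) ζ := by
  rw [Finset.sum_congr rfl fun j _ => congrArg ((k j : ℚ) * ·)
    (pairing_latElt_single (u := u) (κ := κ) j ζ), pairing, latElt]
  nth_rewrite 1 [decomp (L := L) ζ]
  rw [trace_B_mk, Fintype.sum_sum_type, mul_add, map_add]
  simp only [Sum.elim_inl, Sum.elim_inr, Finset.mul_sum, Finset.sum_mul, map_sum]
  refine congrArg₂ (· + ·) (Finset.sum_congr rfl fun i _ => ?_)
    (Finset.sum_congr rfl fun i _ => ?_) <;>
    · conv_rhs => rw [← smul_eq_mul, ← map_smul, Algebra.smul_def, map_intCast]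
      congr 1
      ring

variable {u κ : L}

/-- The pairing with dual points. -/
lemma pairing_dualPt (hu : u ≠ 0) (hκ : κ ≠ 0) (k : Idx L → ℤ) (q : Idx L → ℚ) :
    pairing u (latElt (M := M) κ k) (dualPt M u κ q) = -∑ j, (k j : ℚ) * q j := by
  classical
  rw [pairing_latElt, ← Finset.sum_neg_distrib]
  refine Finset.sum_congr rfl fun j _ => ?_
  rw [← mul_neg]
  congr 1
  rw [pairing_latElt_single, dualPt, ca_mk, cb_mk]
  have := norm_gen_ne_zero (L := L) (M := M)
  rcases j with i | i
  · simp only [Sum.elim_inl]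
    rw [mul_div_cancel₀ _ (by simp [hu, hκ]), mul_neg, map_neg, trace_sum_dualB]
  · simp only [Sum.elim_inr]
    rw [mul_div_cancel₀ _ (by simp [hu, hκ, this]), mul_neg, map_neg, trace_sum_dualB]

/-- Dual points are distinct. -/
lemma dualPt_injective (hu : u ≠ 0) (hκ : κ ≠ 0) : Function.Injective (dualPt M u κ) := by
  classical
  intro q q' h
  funext j
  have h1 := pairing_dualPt (M := M) hu hκ (Pi.single j 1) q
  have h2 := pairing_dualPt (M := M) hu hκ (Pi.single j 1) q'
  rw [h, h2] at h1
  simpa [Pi.single_apply] using h1.symm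

open Classical in
/-- Every element is a dual point. -/
lemma eq_dualPt (hu : u ≠ 0) (hκ : κ ≠ 0) (ζ : M) :
    ζ = dualPt M u κ (fun j => -pairing u (latElt (M := M) κ (Pi.single j 1)) ζ) := by
  have := norm_gen_ne_zero (L := L) (M := M)
  rw [dualPt]
  simp only [pairing_latElt_single, Sum.elim_inl, Sum.elim_inr, neg_smul, Finset.sum_neg_distrib,
    neg_neg, ← eq_sum_dualB]
  rw [mul_div_assoc, mul_div_assoc]
  field_simp
  exact decomp ζ

end Coord

namespace Quad

variable {L M : Type*} [Field L] [NumberField L] [Field M] [Algebra L M]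
  [Algebra.IsQuadraticExtension L M]

/-- Traces of products of lattice elements are integral. -/
lemma v_trace_mul_le {v : HeightOneSpectrum (𝓞 L)} {x y : M} (hx : x ∈ lattice L M v)
    (hy : y ∈ lattice L M v) :
    v.valuation L (Algebra.trace L M (x * conj L M y)) ≤ 1 :=
  v_trace_le (mul_mem hx (conj_mem_lattice hy))

end Quad

end FermatAgent.LT.Theta
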