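import Fermat.Agent.LT.Theta.Coord
import Fermat.Agent.LT.Theta.ArchWhit
import Fermat.Agent.LT.Theta.PoissonDecay

/-!
# Summability over fractional lattices

For `c > 0` the function `exp (-c ∑ |α|_w)` is summable over the nonzero elements `α` of a
fractional lattice.
-/

set_option autoImplicit false

noncomputable section

open IsDedekindDomain NumberField MeasureTheory Filter
open scoped ENNReal MatrixGroups Real
open FermatAgent.LT.Poisson (intVec)

namespace FermatAgent.LT.Theta

open Coord Arch

variable {L M : Type*} [Field L] [NumberField L] [IsTotallyComplex L] [Field M] [Algebra L M]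
  [Algebra.IsQuadraticExtension L M]

/-! ### Summability over fractional lattices -/

/-- Exponentials decay faster than powers. -/
lemma exp_le_poly {c : ℝ} (hc : 0 < c) (k : ℕ) :
    ∃ K : ℝ, 0 ≤ K ∧ ∀ x : ℝ, 0 ≤ x → Real.exp (-c * x) ≤ K * (1 + x) ^ (-(k : ℝ)) := by
  refine ⟨k.factorial / c ^ k * Real.exp c, by positivity, fun x hx => ?_⟩
  rw [Real.rpow_neg (by linarith), Real.rpow_natCast, ← div_eq_mul_inv,
    le_div_iff₀ (by positivity)]
  have h1 : (c * (1 + x)) ^ k / k.factorial ≤ Real.exp (c * (1 + x)) :=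
    Real.pow_div_factorial_le_exp _ (by positivity) k
  rw [div_le_iff₀ (by positivity), mul_pow] at h1
  have h2 : Real.exp (-c * x) * Real.exp (c * (1 + x)) = Real.exp c := by
    rw [← Real.exp_add]; ring_nf
  rw [← mul_le_mul_iff_of_pos_left (show (0 : ℝ) < c ^ k / k.factorial by positivity)]
  calc c ^ k / k.factorial * (Real.exp (-c * x) * (1 + x) ^ k)
      = Real.exp (-c * x) * (c ^ k * (1 + x) ^ k) / k.factorial := by ring
    _ ≤ Real.exp (-c * x) * (Real.exp (c * (1 + x)) * k.factorial) / k.factorial := by gcongr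
    _ = Real.exp c := by rw [← mul_assoc, h2]; field_simp
    _ = _ := by field_simp

lemma summable_exp_ints {c : ℝ} (hc : 0 < c) :
    Summable fun y : 𝓞 L => Real.exp (-c * ∑ w : InfinitePlace L, w (y : L)) := by
  classical
  set d := Module.Free.ChooseBasisIndex ℤ (𝓞 L)
  let e : (InfinitePlace L → ℂ) ≃L[ℝ] EuclideanSpace ℝ d :=
    (infBasis L).equivFun.toContinuousLinearEquiv.trans
      (PiLp.continuousLinearEquiv 2 ℝ fun _ : d => ℝ).symm
  set K := ‖(e : (InfinitePlace L → ℂ) →L[ℝ] EuclideanSpace ℝ d)‖ + 1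
  have hK : 0 < K := add_pos_of_nonneg_of_pos (norm_nonneg _) one_pos
  obtain ⟨B, hB, hb⟩ := exp_le_poly (div_pos hc hK) (Fintype.card d + 1)
  have hdom := (FermatAgent.LT.Poisson.summable_one_add_norm_rpow (d := d)
    (k := Fintype.card d + 1) (Nat.lt_succ_self _)).mul_left B
  let g : 𝓞 L → (d → ℤ) := fun y => ((RingOfIntegers.basis L).repr y : d → ℤ)
  have hg : Function.Injective g := fun y y' h =>
    (RingOfIntegers.basis L).repr.injective (DFunLike.coe_injective h)
  refine Summable.of_nonneg_of_le (fun y => (Real.exp_pos _).le) (fun y => ?_)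
    (hdom.comp_injective hg)
  have he : e (infEmb L (y : L)) = intVec (g y) := by
    have h1 : infEmb L (y : L) = ∑ i, (g y i : ℝ) • infBasis L i := by
      conv_lhs => rw [← (RingOfIntegers.basis L).sum_repr y]
      rw [RingOfIntegers.coe_eq_algebraMap, map_sum, map_sum]
      refine Finset.sum_congr rfl fun i _ => ?_
      rw [zsmul_eq_mul, map_mul, map_mul, map_intCast, map_intCast, infBasis_apply,
        integralBasis_apply]
      funext w
      simp [g, Complex.real_smul]
    ext i
    show (infBasis L).equivFun (infEmb L (y : L)) i = (g y i : ℝ)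
    rw [h1, Module.Basis.equivFun_apply, Module.Basis.repr_sum_self]
  have hn : ‖intVec (g y)‖ ≤ K * ∑ w : InfinitePlace L, w (y : L) := by
    rw [← he]
    refine ((e : (InfinitePlace L → ℂ) →L[ℝ] EuclideanSpace ℝ d).le_opNorm _).trans ?_
    have hsum : ‖infEmb L (y : L)‖ ≤ ∑ w : InfinitePlace L, w (y : L) := by
      refine (pi_norm_le_iff_of_nonneg (Finset.sum_nonneg fun w _ => apply_nonneg w _)).2
        fun w => ?_
      rw [infEmb_apply, InfinitePlace.norm_embedding_eq]
      exact Finset.single_le_sum (f := fun w : InfinitePlace L => w (y : L))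
        (fun w _ => apply_nonneg w _) (Finset.mem_univ w)
    exact mul_le_mul (le_add_of_nonneg_right zero_le_one) hsum (norm_nonneg _) hK.le
  refine le_trans (Real.exp_le_exp.2 ?_) (hb _ (norm_nonneg _))
  rw [neg_mul, neg_mul, neg_le_neg_iff, div_mul_eq_mul_div, div_le_iff₀ hK]
  nlinarith

/-- Exponential sums over fractional lattices converge. -/
lemma summable_exp_lattice {c : ℝ} (hc : 0 < c) {D : L} (hD : D ≠ 0) :
    Summable ({α : Lˣ | ∀ v : HeightOneSpectrum (𝓞 L), v.valuation L (D * α) ≤ 1}.indicator
      fun α : Lˣ => Real.exp (-c * ∑ w : InfinitePlace L, w (α : L))) := by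
  classical
  set m := ∑ w : InfinitePlace L, w D
  have hm : 0 < m := Finset.sum_pos (fun w _ => InfinitePlace.pos_iff.2 hD) Finset.univ_nonempty
  set S := {α : Lˣ | ∀ v : HeightOneSpectrum (𝓞 L), v.valuation L (D * α) ≤ 1}
  refine (summable_subtype_iff_indicator (s := S)).1 ?_
  choose y hy using fun α : S => HeightOneSpectrum.mem_integers_of_valuation_le_one L _ α.2
  have hinj : Function.Injective y := fun a b h => by
    have := (hy a).symm.trans ((congrArg (algebraMap (𝓞 L) L) h).trans (hy b))
    exact Subtype.ext (Units.ext (mul_left_cancel₀ hD this))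
  refine Summable.of_nonneg_of_le (fun α => (Real.exp_pos _).le) (fun α => ?_)
    ((summable_exp_ints (L := L) (div_pos hc hm)).comp_injective hinj)
  simp only [Function.comp]
  refine Real.exp_le_exp.2 ?_
  rw [neg_mul, neg_mul, neg_le_neg_iff, div_mul_eq_mul_div, div_le_iff₀ hm, mul_assoc]
  refine mul_le_mul_of_nonneg_left ?_ hc.le
  rw [Finset.sum_mul]
  refine Finset.sum_le_sum fun w _ => ?_
  rw [show ((y α : 𝓞 L) : L) = D * ((α : Lˣ) : L) from hy α, map_mul, mul_comm]
  refine mul_le_mul_of_nonneg_left ?_ (apply_nonneg w _)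
  exact Finset.single_le_sum (f := fun w : InfinitePlace L => w D) (fun w _ => apply_nonneg w _)
    (Finset.mem_univ w)

end FermatAgent.LT.Theta
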