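import Fermat.Agent.LT.Theta.Setup
import Fermat.Agent.LT.Base.Siegel
import Fermat.Agent.LT.Whit.Hecke

/-!
# Representatives of adelic classes
-/

set_option autoImplicit false

noncomputable section

open IsDedekindDomain NumberField Filter
open scoped MatrixGroups Topology

namespace FermatAgent.LT.Theta

open LocQuad

variable {L : Type*} [Field L] [NumberField L]

open Classical in
/-- A representative, integral when possible. -/
def glRep (v : HeightOneSpectrum (𝓞 L)) (g : G2 L) : GL (Fin 2) L :=
  if h : g ∈ locK v then (Subgroup.mem_map.1 h).choose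
  else (Matrix.ProjGenLinGroup.mk_surjective g).choose

lemma mk_glRep (v : HeightOneSpectrum (𝓞 L)) (g : G2 L) :
    Matrix.ProjGenLinGroup.mk (glRep v g) = g := by
  unfold glRep
  split_ifs with h
  · exact (Subgroup.mem_map.1 h).choose_spec.2
  · exact (Matrix.ProjGenLinGroup.mk_surjective g).choose_spec

lemma glRep_mem {v : HeightOneSpectrum (𝓞 L)} {g : G2 L} (h : g ∈ locK v) :
    glRep v g ∈ locGL v := by
  unfold glRep
  rw [dif_pos h]
  exact (Subgroup.mem_map.1 h).choose_spec.1

/-- Representatives of an adelic element. -/
def adelRep (a : Whit.adelGrp L) (v : HeightOneSpectrum (𝓞 L)) : GL (Fin 2) L := glRep v (a.1 v)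

/-- The chosen representatives are adelic. -/
lemma isAdelic_adelRep (a : Whit.adelGrp L) : IsAdelic (adelRep a) :=
  Filter.Eventually.mono a.2 fun _ h => glRep_mem h

/-- The chosen representatives represent. -/
lemma mk_adelRep (a : Whit.adelGrp L) (v : HeightOneSpectrum (𝓞 L)) :
    Matrix.ProjGenLinGroup.mk (adelRep a v) = a.1 v := mk_glRep v _

end FermatAgent.LT.Theta
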