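import Fermat.Agent.LT.Theta.Gauss

/-!
# The Fourier transform for the norm pairing

The Fourier transform `ft c` for the pairing `ψ (-c B)` of a local quadratic algebra preserves
Schwartz functions (`ft_mem`), by tracking periods and supports. Opposite Gauss sums multiply
to an explicit value (`G_mul_G_neg`), so `G_ne_zero`, and Fourier inversion `ft_ft` follows.
-/

set_option autoImplicit false

noncomputable section

open WithZero

namespace FermatAgent.LT.Theta

namespace LatticeChain

variable {A : Type*} [AddCommGroup A] {C : LatticeChain A}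

/-- An indicator through zero has nonzero integral. -/
lemma integ_indicator_ne_zero {S : Set A} {m n : ℤ}
    (hn : C.IsPeriodic n (S.indicator fun _ => (1 : ℂ)))
    (hm : C.IsSupported m (S.indicator fun _ => (1 : ℂ))) (h0 : (0 : A) ∈ S) :
    C.integ (S.indicator fun _ => (1 : ℂ)) ≠ 0 := by
  classical
  set T := (finite_support_out (n := n) hm).toFinset
  have h1 : ∀ c ∈ T, S.indicator (fun _ => (1 : ℂ)) c.out = 1 := fun c hc => by
    simp only [T, Set.Finite.mem_toFinset, Function.mem_support] at hc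
    by_cases h : c.out ∈ S
    · simp [h]
    · simp [h] at hc
  have hT : (QuotientAddGroup.mk (0 : A) : A ⧸ C.L n) ∈ T := by
    simp only [T, Set.Finite.mem_toFinset, Function.mem_support]
    rw [hn.apply_out]; simp [h0]
  rw [integ_eq hn hm, sumAt, finsum_eq_sum _ (finite_support_out hm), Finset.sum_congr rfl h1]
  simp only [Finset.sum_const, nsmul_eq_mul, mul_one]
  exact mul_ne_zero (inv_ne_zero (zpow_ne_zero _ C.Q_ne_zero))
    (Nat.cast_ne_zero.2 (Finset.card_pos.2 ⟨_, hT⟩).ne')

end LatticeChain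

namespace LocQuad

variable {F M : Type*} [Field F] [Field M] [Algebra F M] (D : LocQuad F M)

/-- The absolute value is even. -/
lemma absv_neg (a : F) : D.absv (-a) = D.absv a := by simp [absv]

/-- The absolute value of an inverse. -/
lemma absv_inv (a : F) : D.absv a⁻¹ = (D.absv a)⁻¹ := by simp [absv]

/-- The absolute value of zero. -/
lemma absv_zero : D.absv 0 = 0 := by simp [absv]

/-- The Fourier transform for the pairing `ψ (-c B)`. -/
def ft (c : F) (f : M → ℂ) (t : M) : ℂ :=
  D.chain.integ fun x => f x * D.ψ (-(c * D.B x t))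

lemma ftIntegrand_periodic {c : F} {a : ℤ} (hc : D.v c ≤ exp a) {f : M → ℂ} {m n i : ℤ}
    (hn : D.chain.IsPeriodic n f) (hm : D.chain.IsSupported m f) {t : M} (ht : t ∈ D.lat i)
    {n' : ℤ} (h1 : n ≤ n') (h2 : a ≤ D.d + n' + i) :
    D.chain.IsPeriodic n' (fun x => f x * D.ψ (-(c * D.B x t))) ∧
      D.chain.IsSupported m (fun x => f x * D.ψ (-(c * D.B x t))) := by
  refine ⟨fun x b hb => ?_, fun x hx => by simp [hm x hx]⟩
  show f (x + b) * D.ψ (-(c * D.B (x + b) t)) = _
  rw [hn.mono h1 x b hb, D.B_add_left, mul_add, neg_add, D.ψ_add]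
  have := D.ψ_B_eq_one (c := -c) (a := a) (by rwa [Valuation.map_neg]) hb ht h2
  rw [neg_mul] at this
  rw [this, mul_one]

/-- The Fourier integrand is Schwartz. -/
lemma ftIntegrand_mem {c : F} {f : M → ℂ} (hf : f ∈ D.chain.schwartz) (t : M) :
    (fun x => f x * D.ψ (-(c * D.B x t))) ∈ D.chain.schwartz := by
  obtain ⟨m, n, hn, hm⟩ := hf
  obtain ⟨i, hi⟩ := D.exists_mem_lat t
  obtain ⟨a, ha⟩ := D.exists_v_le c
  obtain ⟨h1, h2⟩ := D.ftIntegrand_periodic ha hn hm hi (le_max_left n (a - D.d - i))
    (by have := le_max_right n (a - D.d - i); omega)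
  exact LatticeChain.mem_schwartz h1 h2

/-- The periodicity of a transform. -/
lemma ft_periodic {c : F} {a : ℤ} (hc : D.v c ≤ exp a) {f : M → ℂ} {m n : ℤ}
    (hm : D.chain.IsSupported m f) (h : a ≤ D.d + m + n) : D.chain.IsPeriodic n (D.ft c f) := by
  intro t b hb
  show D.chain.integ _ = D.chain.integ _
  refine congrArg _ (funext fun x => ?_)
  by_cases hx : x ∈ D.lat m
  · have := D.ψ_B_eq_one (c := -c) (a := a) (by rwa [Valuation.map_neg]) hx hb h
    rw [neg_mul] at this
    rw [D.B_add_right, mul_add, neg_add, D.ψ_add, this, mul_one]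
  · simp [hm x hx]

/-- The support of a transform. -/
lemma ft_supported {c : F} {a : ℤ} (hc : D.v c = exp a) {f : M → ℂ} {m n : ℤ}
    (hn : D.chain.IsPeriodic n f) (hm : D.chain.IsSupported m f) :
    D.chain.IsSupported (a - D.d - n - D.e) (D.ft c f) := by
  intro t ht
  obtain ⟨y, hy, hψ⟩ : ∃ y ∈ D.lat n, D.ψ (-c * D.B t y) ≠ 1 := by
    by_contra hcon
    push Not at hcon
    exact ht (D.mem_lat_of_orth (c := -c) (by rw [Valuation.map_neg, hc]) hcon)
  have hs := D.ftIntegrand_mem (c := c) (LatticeChain.mem_schwartz hn hm) t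
  have h := LatticeChain.integ_comp_add hs y
  have e : (fun x => f (x + y) * D.ψ (-(c * D.B (x + y) t))) =
      fun x => D.ψ (-c * D.B t y) * (f x * D.ψ (-(c * D.B x t))) := by
    funext x
    rw [hn x y hy, D.B_add_left, mul_add, neg_add, D.ψ_add, D.B_comm t y, neg_mul]
    ring
  rw [e, LatticeChain.integ_smul hs] at h
  by_contra h0
  exact hψ (mul_right_cancel₀ (show D.chain.integ (fun x => f x * D.ψ (-(c * D.B x t))) ≠ 0 from h0)
    (by rw [h, one_mul]))

/-- Transforms are Schwartz. -/
lemma ft_mem {c : F} (hc : c ≠ 0) {f : M → ℂ} (hf : f ∈ D.chain.schwartz) :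
    D.ft c f ∈ D.chain.schwartz := by
  obtain ⟨m, n, hn, hm⟩ := hf
  obtain ⟨a, ha⟩ := D.exists_v_eq hc
  exact LatticeChain.mem_schwartz
    (D.ft_periodic (n := a - D.d - m) ha.le hm (by omega)) (D.ft_supported ha hn hm)

/-- The transform is homogeneous. -/
lemma ft_smul {c : F} {f : M → ℂ} (hf : f ∈ D.chain.schwartz) (r : ℂ) (t : M) :
    D.ft c (fun x => r * f x) t = r * D.ft c f t := by
  simp only [ft, mul_assoc]
  exact LatticeChain.integ_smul (D.ftIntegrand_mem hf t) r

/-- The volume of a lattice times that of its dual. -/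
def dualVol (c : F) (k : ℤ) : ℂ :=
  ((D.chain.Q : ℂ) ^ k)⁻¹ * D.chain.integ ((D.orth c k).indicator fun _ => (1 : ℂ))

lemma dualVol_ne_zero {c : F} (hc : c ≠ 0) (k : ℤ) : D.dualVol c k ≠ 0 := by
  obtain ⟨a, ha⟩ := D.exists_v_eq hc
  refine mul_ne_zero (inv_ne_zero (zpow_ne_zero _ D.chain.Q_ne_zero))
    (LatticeChain.integ_indicator_ne_zero (D.orth_periodic (n := a - D.d - k) ha.le (by omega))
      (D.orth_supported ha k) fun y _ => ?_)
  rw [D.B_zero_left, mul_zero, D.ψ_zero]

/-- The product of opposite Gauss sums. -/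
lemma G_mul_G_neg {c : F} (hc : c ≠ 0) {k : ℤ} (hk : k ≤ D.stab c) (hk' : k ≤ D.stab (-c))
    (hk0 : k ≤ D.ordE c - D.d - k - D.e)
    (hk1 : D.ordE c ≤ D.d + 2 * (D.ordE c - D.d - k - D.e)) :
    D.G c * D.G (-c) = D.dualVol c k := by
  have ha := D.v_eq_exp_ordE hc
  set a := D.ordE c
  set fp := fun x => D.chain.ind k x * D.ψ (c * D.N x) with hfp
  have hfps : fp ∈ D.chain.schwartz := D.phase_mem_schwartz c (S := D.lat k) le_rfl le_rfl
  have hfns : (fun x => D.chain.ind k x * D.ψ (-c * D.N x)) ∈ D.chain.schwartz :=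
    D.phase_mem_schwartz (-c) (S := D.lat k) le_rfl le_rfl
  set n := max (max k (a - D.d - k)) ((a - D.d).toNat : ℤ) with hndef
  have hn1 : k ≤ n := (le_max_left _ _).trans (le_max_left _ _)
  have hn2 : a - D.d - k ≤ n := (le_max_right _ _).trans (le_max_left _ _)
  have hn3 : ((a - D.d).toNat : ℤ) ≤ n := le_max_right _ _
  have hfpp : D.chain.IsPeriodic n fp :=
    D.phase_periodic (S := D.lat k) ha.le (D.lat_mono hn1) le_rfl (by omega) (by omega)
  set F₂ := fun z y => fp z * (D.ψ (c * D.B y z) * D.chain.ind k y)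
  have eR : ∀ y, D.chain.integ (fun z => F₂ z y) =
      D.G c * (D.chain.ind k y * D.ψ (-c * D.N y)) := by
    intro y
    by_cases hy : y ∈ D.lat k
    · have hi : D.chain.ind k y = 1 := by simp [LatticeChain.ind, chain, hy]
      have e : (fun z => F₂ z y) =
          fun z => D.chain.ind k z * D.ψ (c * D.N z + c * D.B z y) := by
        funext z
        simp only [F₂, fp, hi, mul_one]
        rw [D.B_comm y z, D.ψ_add]; ring
      rw [e, D.integ_phase_translate hc hk hy, hi, neg_mul]; ring
    · simp only [F₂, LatticeChain.ind_supported (C := D.chain) k y hy, mul_zero, zero_mul]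
      exact LatticeChain.integ_zero
  have hsw := D.integ_mul_ψ_B ha hfpp (m := k) (fun z hz => by
      simp [fp, LatticeChain.ind_supported (C := D.chain) k z hz]) hn1 (by omega) (by omega)
    (LatticeChain.mem_schwartz (D.orth_periodic (n := a - D.d - k) ha.le (by omega))
      (D.orth_supported ha k)) fun z => ?_
  swap
  · by_cases hz : z ∈ D.orth c k
    · have hz' := D.mem_lat_of_orth ha hz
      simp [fp, LatticeChain.ind, chain, hz, D.lat_mono hk0 hz', D.ψ_N_eq_one ha.le hz' hk1]
    · simp [hz]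
  simp only [F₂] at eR
  simp only [eR] at hsw
  rw [LatticeChain.integ_smul hfns] at hsw
  rw [dualVol, ← hsw, ← D.gaussAt_eq_G (neg_ne_zero.2 hc) hk']
  rfl

/-- A level suitable for `G_mul_G_neg`. -/
lemma exists_small (c : F) (b : ℤ) :
    ∃ k, k ≤ b ∧ k ≤ D.stab c ∧ k ≤ D.stab (-c) ∧ k ≤ D.ordE c - D.d - k - D.e ∧
      D.ordE c ≤ D.d + 2 * (D.ordE c - D.d - k - D.e) := by
  set a := D.ordE c - D.d
  exact ⟨min (min b (min (D.stab c) (D.stab (-c)))) (-|a| - |(D.e : ℤ)| - |(D.e : ℤ)|),
    (min_le_left _ _).trans (min_le_left _ _),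
    (min_le_left _ _).trans ((min_le_right _ _).trans (min_le_left _ _)),
    (min_le_left _ _).trans ((min_le_right _ _).trans (min_le_right _ _)),
    by
      have := min_le_right (min b (min (D.stab c) (D.stab (-c))))
        (-|a| - |(D.e : ℤ)| - |(D.e : ℤ)|)
      have := neg_abs_le a
      have := le_abs_self a
      have := le_abs_self (D.e : ℤ)
      omega,
    by
      have := min_le_right (min b (min (D.stab c) (D.stab (-c))))
        (-|a| - |(D.e : ℤ)| - |(D.e : ℤ)|)
      have := neg_abs_le a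
      have := le_abs_self a
      have := le_abs_self (D.e : ℤ)
      omega⟩

/-- The Gauss sum is nonzero. -/
lemma G_ne_zero {c : F} (hc : c ≠ 0) : D.G c ≠ 0 := by
  obtain ⟨k, -, h1, h2, h3, h4⟩ := D.exists_small c 0
  intro h
  have := D.G_mul_G_neg hc h1 h2 h3 h4
  rw [h, zero_mul] at this
  exact D.dualVol_ne_zero hc k this.symm

/-- Fourier inversion. -/
lemma ft_ft {c : F} (hc : c ≠ 0) {f : M → ℂ} (hf : f ∈ D.chain.schwartz) (t : M) :
    D.ft c (D.ft c f) t = D.G c * D.G (-c) * f (-t) := by
  obtain ⟨m, n, hn, hm⟩ := hf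
  obtain ⟨a, ha⟩ := D.exists_v_eq hc
  have hae : D.ordE c = a := by rw [ordE, ha, log_exp]
  obtain ⟨i, hi⟩ := D.exists_mem_lat t
  set g := D.ft c f with hg
  obtain ⟨k, hkb, h1, h2, h3, h4⟩ :=
    D.exists_small c (min (a - D.d - n - D.e) (a - D.d - n - D.e))
  have hkn : k ≤ a - D.d - n - D.e := hkb.trans (min_le_left _ _)
  have hgp : D.chain.IsPeriodic (a - D.d - m) g := D.ft_periodic ha.le hm (by omega)
  have hgs : D.chain.IsSupported k g := (D.ft_supported ha hn hm).mono hkn
  set F₂ := fun x z => D.chain.ind k x * (f z * D.ψ (-(c * D.B z x))) * D.ψ (-(c * D.B x t))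
  set N := max (max (max n k) (a - D.d - k)) (max (a - D.d - m) (a - D.d - i)) with hN
  have l1 : n ≤ N := ((le_max_left _ _).trans (le_max_left _ _)).trans (le_max_left _ _)
  have l2 : k ≤ N := ((le_max_right _ _).trans (le_max_left _ _)).trans (le_max_left _ _)
  have l3 : a - D.d - k ≤ N := (le_max_right _ _).trans (le_max_left _ _)
  have l4 : a - D.d - m ≤ N := (le_max_left _ _).trans (le_max_right _ _)
  have l5 : a - D.d - i ≤ N := (le_max_right _ _).trans (le_max_right _ _)
  have hneg : ∀ {u w : M} {p r : ℤ}, u ∈ D.lat p → w ∈ D.lat r → a ≤ D.d + p + r →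
      D.ψ (-(c * D.B u w)) = 1 := fun hu hw h => by
    have := D.ψ_B_eq_one (c := -c) (a := a) (by rw [Valuation.map_neg, ha]) hu hw h
    rwa [neg_mul] at this
  have hsw := LatticeChain.integ_swap (C := D.chain) (F := F₂) (n := N) (m := min k m)
    (fun z x b hb => by
      show D.chain.ind k (x + b) * (f z * D.ψ (-(c * D.B z (x + b)))) *
        D.ψ (-(c * D.B (x + b) t)) = _
      rw [LatticeChain.ind_periodic l2 x b hb, D.B_add_left x b t, mul_add c (D.B x t), neg_add,
        D.ψ_add, hneg hb hi (by omega), mul_one]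
      by_cases hz : z ∈ D.lat m
      · rw [D.B_add_right, mul_add, neg_add, D.ψ_add, hneg hz hb (by omega), mul_one]
      · simp [F₂, hm z hz])
    (fun x z b hb => by
      show D.chain.ind k x * (f (z + b) * D.ψ (-(c * D.B (z + b) x))) * D.ψ (-(c * D.B x t)) = _
      rw [hn.mono l1 z b hb]
      by_cases hx : x ∈ D.lat k
      · rw [D.B_add_left, mul_add, neg_add, D.ψ_add, hneg hb hx (by omega), mul_one]
      · simp [F₂, LatticeChain.ind_supported (C := D.chain) k x hx])
    (by
      rintro x z (hx | hz)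
      · simp [F₂, LatticeChain.ind_supported (C := D.chain) k x
          fun h => hx (D.lat_mono (min_le_left k m) h)]
      · simp [F₂, hm z fun h => hz (D.lat_mono (min_le_right k m) h)])
  have eL : ∀ x, D.chain.integ (fun z => F₂ x z) = g x * D.ψ (-(c * D.B x t)) := by
    intro x
    have hs := D.ftIntegrand_mem (c := c) (LatticeChain.mem_schwartz hn hm) x
    have : (fun z => F₂ x z) = fun z =>
        (D.chain.ind k x * D.ψ (-(c * D.B x t))) * (f z * D.ψ (-(c * D.B z x))) := by
      funext z; simp only [F₂]; ring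
    rw [this, LatticeChain.integ_smul hs]
    show D.chain.ind k x * D.ψ (-(c * D.B x t)) * g x = _
    by_cases hx : x ∈ D.lat k
    · simp [LatticeChain.ind, chain, hx, mul_comm]
    · simp [hgs x hx]
  have eR : ∀ z, D.chain.integ (fun x => F₂ x z) =
      f z * (((D.chain.Q : ℂ) ^ k)⁻¹ * (D.orth c k).indicator (fun _ => (1 : ℂ)) (z + t)) := by
    intro z
    have : (fun x => F₂ x z) =
        fun x => f z * (D.ψ (c * D.B x (-(z + t))) * D.chain.ind k x) := by
      funext x
      simp only [F₂]
      rw [D.B_neg_right, D.B_add_right, D.B_comm x z, mul_neg, mul_add, neg_add, D.ψ_add]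
      ring
    rw [this, LatticeChain.integ_smul, D.integ_ψ_B ha]
    · congr 2
      have key : ∀ u : M, u ∈ D.orth c k → -u ∈ D.orth c k := fun u hu y hy => by
        rw [D.B_neg_left, mul_neg]
        have := D.ψ_neg_mul (c * D.B u y)
        rwa [hu y hy, mul_one] at this
      by_cases hz : z + t ∈ D.orth c k
      · rw [Set.indicator_of_mem hz, Set.indicator_of_mem (key _ hz)]
      · have : -(z + t) ∉ D.orth c k := fun h => hz (by rw [← neg_neg (z + t)]; exact key _ h)
        rw [Set.indicator_of_notMem hz, Set.indicator_of_notMem this]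
    · exact D.ψ_B_ind_mem_schwartz c _ _
  simp only [eL, eR] at hsw
  show D.chain.integ (fun x => g x * D.ψ (-(c * D.B x t))) = _
  rw [hsw, D.G_mul_G_neg hc h1 h2 h3 h4, dualVol]
  set o := (D.orth c k).indicator fun _ => (1 : ℂ) with ho
  have hop : D.chain.IsPeriodic (a - D.d - k) o := D.orth_periodic ha.le (by omega)
  have hom : D.chain.IsSupported (a - D.d - k - D.e) o := D.orth_supported ha k
  have hos : o ∈ D.chain.schwartz := LatticeChain.mem_schwartz hop hom
  have hsh : (fun z => o (z + t)) ∈ D.chain.schwartz := by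
    refine LatticeChain.mem_schwartz (m := min (a - D.d - k - D.e) i) (n := a - D.d - k)
      (fun z b hb => ?_) fun z hz => ?_
    · show o (z + b + t) = _
      rw [add_right_comm]; exact hop _ b hb
    · exact (hom.mono (min_le_left _ i)) _ fun h => hz (by
        simpa using sub_mem h (D.lat_mono (min_le_right (a - D.d - k - D.e) i) hi))
  have e : (fun z => f z * (((D.chain.Q : ℂ) ^ k)⁻¹ * o (z + t))) =
      fun z => (f (-t) * ((D.chain.Q : ℂ) ^ k)⁻¹) * o (z + t) := by
    funext z
    by_cases hz : z + t ∈ D.orth c k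
    · have hmem : z - -t ∈ D.lat n := by
        rw [sub_neg_eq_add]
        exact D.lat_mono (by omega) (D.mem_lat_of_orth ha hz)
      rw [hn.eq_of_sub_mem hmem]; ring
    · simp [o, hz]
  rw [e, LatticeChain.integ_smul hsh, LatticeChain.integ_comp_add hos]
  ring

end LocQuad

end FermatAgent.LT.Theta
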