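import Fermat.Agent.LT.Theta.LocQuad

/-!
# Gauss sums of the norm form and the Fourier transform

For a local quadratic algebra, computes the modulus of multiplication (`modulus_mul`) and the
lattices `orth` dual for `ψ (c B)`. The integrals `gaussAt` of `ψ (c N x)` over lattices become
constant below `stab c`, with value the Gauss sum `G` (`gaussAt_eq_G`, `integ_phase_eq_G`).
The behaviour of `G` under scaling by a norm is `G_mul_N`.
-/

set_option autoImplicit false

noncomputable section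

open WithZero

namespace FermatAgent.LT.Theta

namespace LatticeChain

variable {A : Type*} [AddCommGroup A] {C : LatticeChain A}

lemma IsBounded.trans {e₁ e₂ : A ≃+ A} (h₁ : C.IsBounded e₁) (h₂ : C.IsBounded e₂) :
    C.IsBounded (e₁.trans e₂) := by
  constructor
  · intro k
    obtain ⟨j, hj⟩ := h₂.1 k
    obtain ⟨i, hi⟩ := h₁.1 j
    exact ⟨i, fun x hx => hj _ (hi x hx)⟩
  · intro k
    obtain ⟨j, hj⟩ := h₂.2 k
    obtain ⟨i, hi⟩ := h₁.2 j
    exact ⟨i, fun x hx => hi x (hj _ hx)⟩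

lemma modulus_trans {e₁ e₂ : A ≃+ A} (h₁ : C.IsBounded e₁) (h₂ : C.IsBounded e₂) :
    C.modulus (e₁.trans e₂) = C.modulus e₁ * C.modulus e₂ :=
  integ_comp h₁ (comp_mem_schwartz h₂ (ind_mem_schwartz 0))

end LatticeChain

namespace LocQuad

variable {F M : Type*} [Field F] [Field M] [Algebra F M] (D : LocQuad F M)

/-- Every element lies in a lattice. -/
lemma exists_mem_lat (h : M) : ∃ a, h ∈ D.lat a := D.chain.exhaust h

/-- Multiplication by a nonzero element. -/
def mulEquiv (h : M) (hh : h ≠ 0) : M ≃+ M where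
  toFun x := h * x
  invFun x := h⁻¹ * x
  left_inv x := by simp [← mul_assoc, inv_mul_cancel₀ hh]
  right_inv x := by simp [← mul_assoc, mul_inv_cancel₀ hh]
  map_add' := mul_add h

@[simp] lemma mulEquiv_apply (h : M) (hh : h ≠ 0) (x : M) : mulEquiv h hh x = h * x := rfl

/-- Multiplication is bounded. -/
lemma isBounded_mulEquiv {h : M} (hh : h ≠ 0) : D.chain.IsBounded (mulEquiv h hh) := by
  obtain ⟨a, ha⟩ := D.exists_mem_lat h
  obtain ⟨b, hb⟩ := D.exists_mem_lat h⁻¹
  refine ⟨fun k => ⟨k - a, fun x hx => ?_⟩, fun k => ⟨k + b, fun x hx => ?_⟩⟩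
  · have := D.mul_mem_lat ha hx
    rwa [add_sub_cancel] at this
  · have := D.mul_mem_lat hb hx
    rwa [mulEquiv_apply, ← mul_assoc, inv_mul_cancel₀ hh, one_mul, add_comm] at this

lemma isBounded_σ : D.chain.IsBounded D.σ.toRingEquiv.toAddEquiv :=
  ⟨fun k => ⟨k, fun _ hx => D.σ_mem_lat.2 hx⟩, fun k => ⟨k, fun _ hx => D.σ_mem_lat.1 hx⟩⟩

lemma modulus_σ : D.chain.modulus D.σ.toRingEquiv.toAddEquiv = 1 := by
  have e : (fun x => D.chain.ind 0 (D.σ.toRingEquiv.toAddEquiv x)) = D.chain.ind 0 := by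
    funext x
    show (D.lat 0 : Set M).indicator (fun _ => (1 : ℂ)) (D.σ x) =
      (D.lat 0 : Set M).indicator (fun _ => (1 : ℂ)) x
    by_cases hx : x ∈ D.lat 0
    · simp [hx, D.σ_mem_lat.2 hx]
    · have : D.σ x ∉ D.lat 0 := fun h => hx (D.σ_mem_lat.1 h)
      simp [hx, this]
  rw [LatticeChain.modulus, e, LatticeChain.integ_ind]
  simp

/-- Scaling shifts lattices. -/
lemma mem_lat_smul {a : F} {n k : ℤ} {x : M} (ha : D.v a = exp (-n)) :
    a • x ∈ D.lat (k + n) ↔ x ∈ D.lat k := by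
  refine ⟨fun h => ?_, D.smul_mem_lat ha.le⟩
  have ha0 : a ≠ 0 := fun h => exp_ne_zero (a := -n) (by rw [← ha, h, map_zero])
  have hi : D.v a⁻¹ ≤ exp (-(-n)) := by rw [map_inv₀, ha, ← exp_neg]
  have := D.smul_mem_lat hi h
  rwa [smul_smul, inv_mul_cancel₀ ha0, one_smul, add_neg_cancel_right] at this

lemma modulus_scalar {a : F} (ha : a ≠ 0) (h : algebraMap F M a ≠ 0) :
    D.chain.modulus (mulEquiv (algebraMap F M a) h) = ((D.absv a : ℂ) ^ 2)⁻¹ := by
  obtain ⟨n, hn⟩ := D.exists_v_eq ha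
  have hn' : D.v a = exp (- -n) := by rwa [neg_neg]
  have e : (fun x => D.chain.ind 0 (mulEquiv (algebraMap F M a) h x)) = D.chain.ind n := by
    funext x
    have hiff := D.mem_lat_smul (n := -n) (k := n) (x := x) hn'
    rw [add_neg_cancel, Algebra.smul_def] at hiff
    show (D.lat 0 : Set M).indicator (fun _ => (1 : ℂ)) _ =
      (D.lat n : Set M).indicator (fun _ => (1 : ℂ)) x
    by_cases hx : x ∈ D.lat n
    · simp [hx, hiff.2 hx]
    · have : algebraMap F M a * x ∉ D.lat 0 := fun h' => hx (hiff.1 h')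
      simp [hx, this]
  rw [LatticeChain.modulus, e, LatticeChain.integ_ind, D.absv_exp hn]
  simp only [chain, Nat.cast_pow, Complex.ofReal_zpow, Complex.ofReal_natCast]
  rw [← zpow_natCast, ← zpow_natCast _ 2, ← zpow_mul, ← zpow_mul, mul_comm]

lemma modulus_mul {h : M} (hh : h ≠ 0) :
    D.chain.modulus (mulEquiv h hh) = ((D.absv (D.N h) : ℝ) : ℂ)⁻¹ := by
  have hN : D.N h ≠ 0 := fun e => hh (D.N_eq_zero.1 e)
  have hσ : D.σ h ≠ 0 := (map_ne_zero_iff _ D.σ.injective).2 hh
  have haN : algebraMap F M (D.N h) ≠ 0 := (map_ne_zero_iff _ (algebraMap F M).injective).2 hN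
  have hs := D.isBounded_σ
  have e1 : mulEquiv (D.σ h) hσ =
      (D.σ.toRingEquiv.toAddEquiv.trans (mulEquiv h hh)).trans D.σ.toRingEquiv.toAddEquiv := by
    refine AddEquiv.ext fun x => ?_
    show D.σ h * x = D.σ (h * D.σ x)
    rw [map_mul, D.σ_σ]
  have e2 : mulEquiv (algebraMap F M (D.N h)) haN =
      (mulEquiv h hh).trans (mulEquiv (D.σ h) hσ) := by
    refine AddEquiv.ext fun x => ?_
    show algebraMap F M (D.N h) * x = D.σ h * (h * x)
    rw [D.N_spec]; ring
  have m1 : D.chain.modulus (mulEquiv (D.σ h) hσ) = D.chain.modulus (mulEquiv h hh) := by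
    rw [e1, LatticeChain.modulus_trans (hs.trans (D.isBounded_mulEquiv hh)) hs,
      LatticeChain.modulus_trans hs (D.isBounded_mulEquiv hh), D.modulus_σ, one_mul, mul_one]
  have m2 := D.modulus_scalar hN haN
  rw [e2, LatticeChain.modulus_trans (D.isBounded_mulEquiv hh) (D.isBounded_mulEquiv hσ), m1,
    ← pow_two] at m2
  obtain ⟨r, hr, hr'⟩ := LatticeChain.modulus_pos (D.isBounded_mulEquiv hh)
  rw [hr'] at m2 ⊢
  have hp := D.absv_pos hN
  have : r ^ 2 = ((D.absv (D.N h)) ^ 2)⁻¹ := by exact_mod_cast m2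
  rw [← inv_pow] at this
  rw [(pow_left_inj₀ hr.le (inv_nonneg.2 hp.le) two_ne_zero).1 this, Complex.ofReal_inv]

/-- The integral under multiplication. -/
lemma integ_comp_mul {h : M} (hh : h ≠ 0) {f : M → ℂ} (hf : f ∈ D.chain.schwartz) :
    D.chain.integ (fun x => f (h * x)) =
      ((D.absv (D.N h) : ℝ) : ℂ)⁻¹ * D.chain.integ f := by
  rw [← D.modulus_mul hh, ← LatticeChain.integ_comp (D.isBounded_mulEquiv hh) hf]
  rfl

/-! ### Phases -/

lemma v_mul_le {c w : F} {a b : ℤ} (hc : D.v c ≤ exp a) (hw : D.v w ≤ exp b) :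
    D.v (c * w) ≤ exp (a + b) := by
  rw [map_mul, exp_add]; gcongr

/-- The character is trivial on small pairings. -/
lemma ψ_B_eq_one {c : F} {a i j : ℤ} (hc : D.v c ≤ exp a) {x y : M} (hx : x ∈ D.lat i)
    (hy : y ∈ D.lat j) (h : a ≤ D.d + i + j) : D.ψ (c * D.B x y) = 1 :=
  D.ψ_eq_one _ ((D.v_mul_le hc (D.v_B_le hx hy)).trans (exp_le_exp.2 (by omega)))

/-- The character is trivial on small norms. -/
lemma ψ_N_eq_one {c : F} {a j : ℤ} (hc : D.v c ≤ exp a) {x : M} (hx : x ∈ D.lat j)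
    (h : a ≤ D.d + 2 * j) : D.ψ (c * D.N x) = 1 :=
  D.ψ_eq_one _ ((D.v_mul_le hc (D.v_N_le hx)).trans (exp_le_exp.2 (by omega)))

/-- Phases preserve periodicity. -/
lemma phase_mul_periodic {c : F} {a : ℤ} (hc : D.v c ≤ exp a) {f : M → ℂ} {m n : ℤ}
    (hf : D.chain.IsPeriodic n f) (hm : D.chain.IsSupported m f) (h1 : a ≤ D.d + m + n)
    (h2 : a ≤ D.d + 2 * n) : D.chain.IsPeriodic n fun x => D.ψ (c * D.N x) * f x := by
  intro x b hb
  show D.ψ (c * D.N (x + b)) * f (x + b) = _
  rw [show f (x + b) = f x from hf x b hb]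
  by_cases hx : x ∈ D.lat m
  · rw [D.N_add, mul_add, mul_add, D.ψ_add, D.ψ_add, D.ψ_N_eq_one hc hb h2,
      D.ψ_B_eq_one hc hx hb (by omega), mul_one, mul_one]
  · simp [hm x hx]

/-- Phased indicators are periodic. -/
lemma phase_periodic {c : F} {a : ℤ} (hc : D.v c ≤ exp a) {S : AddSubgroup M} {m n : ℤ}
    (hS : D.lat n ≤ S) (hS' : S ≤ D.lat m) (h1 : a ≤ D.d + m + n) (h2 : a ≤ D.d + 2 * n) :
    D.chain.IsPeriodic n (fun x =>
      (S : Set M).indicator (fun _ => (1 : ℂ)) x * D.ψ (c * D.N x)) := by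
  intro x b hb
  show (S : Set M).indicator (fun _ => (1 : ℂ)) (x + b) * _ = _
  by_cases hx : x ∈ S
  · have : x + b ∈ S := add_mem hx (hS hb)
    rw [D.N_add, mul_add, mul_add, D.ψ_add, D.ψ_add, D.ψ_N_eq_one hc hb h2,
      D.ψ_B_eq_one hc (hS' hx) hb (by omega), mul_one, mul_one]
    simp [hx, this]
  · have : x + b ∉ S := fun h => hx (by simpa using sub_mem h (hS hb))
    simp [hx, this]

/-- Every element has bounded valuation. -/
lemma exists_v_le (c : F) : ∃ a, D.v c ≤ exp a := by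
  by_cases hc : c = 0
  · exact ⟨0, by simp [hc]⟩
  · obtain ⟨a, ha⟩ := D.exists_v_eq hc; exact ⟨a, ha.le⟩

/-- Phased indicators are Schwartz. -/
lemma phase_mem_schwartz (c : F) {S : AddSubgroup M} {j m : ℤ} (hS : D.lat j ≤ S)
    (hS' : S ≤ D.lat m) :
    (fun x => (S : Set M).indicator (fun _ => (1 : ℂ)) x * D.ψ (c * D.N x)) ∈ D.chain.schwartz := by
  obtain ⟨a, ha⟩ := D.exists_v_le c
  set n := max (max j (a - D.d - m)) ((a - D.d).toNat : ℤ) with hn
  have hn1 : j ≤ n := (le_max_left _ _).trans (le_max_left _ _)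
  have hn2 : a - D.d - m ≤ n := (le_max_right _ _).trans (le_max_left _ _)
  have hn3 : ((a - D.d).toNat : ℤ) ≤ n := le_max_right _ _
  exact LatticeChain.mem_schwartz
    (D.phase_periodic ha ((D.lat_mono hn1).trans hS) hS' (by omega) (by omega)) (m := m)
    fun x hx => by simp [show x ∉ S from fun h => hx (hS' h)]

/-! ### The dual lattice -/

/-- The lattice dual to `π ^ k • O` for the pairing `ψ (c * B)`. -/
def orth (c : F) (k : ℤ) : Set M := {z | ∀ y ∈ D.lat k, D.ψ (c * D.B z y) = 1}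

/-- Orthogonal lattices are periodic. -/
lemma orth_periodic {c : F} {a : ℤ} (hc : D.v c ≤ exp a) {k n : ℤ} (h : a ≤ D.d + n + k) :
    D.chain.IsPeriodic n ((D.orth c k).indicator fun _ => (1 : ℂ)) := by
  have key : ∀ x, ∀ b ∈ D.lat n, x ∈ D.orth c k → x + b ∈ D.orth c k := fun x b hb hx y hy => by
    rw [D.B_add_left, mul_add, D.ψ_add, hx y hy, D.ψ_B_eq_one hc hb hy h, mul_one]
  intro x b hb
  by_cases hx : x ∈ D.orth c k
  · simp [hx, key x b hb hx]
  · have : x + b ∉ D.orth c k := fun h' => hx (by simpa using key _ _ (neg_mem hb) h')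
    simp [hx, this]

/-- Orthogonal lattices are supported. -/
lemma orth_supported {c : F} {a : ℤ} (hc : D.v c = exp a) (k : ℤ) :
    D.chain.IsSupported (a - D.d - k - D.e) ((D.orth c k).indicator fun _ => (1 : ℂ)) :=
  fun x hx => Set.indicator_of_notMem (fun h : x ∈ D.orth c k => hx (D.mem_lat_of_orth hc h)) _

/-- The transform of an indicator. -/
lemma integ_ψ_B {c : F} {a : ℤ} (hc : D.v c = exp a) (k : ℤ) (w : M) :
    D.chain.integ (fun x => D.ψ (c * D.B x w) * D.chain.ind k x) =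
      ((D.chain.Q : ℂ) ^ k)⁻¹ * (D.orth c k).indicator (fun _ => (1 : ℂ)) w := by
  by_cases hw : w ∈ D.orth c k
  · rw [Set.indicator_of_mem hw, mul_one, ← LatticeChain.integ_ind]
    refine congrArg _ (funext fun x => ?_)
    by_cases hx : x ∈ D.lat k
    · rw [D.B_comm, hw x hx, one_mul]
    · simp [LatticeChain.ind_supported (C := D.chain) k x hx]
  · obtain ⟨y, hy, hψ⟩ : ∃ y ∈ D.lat k, D.ψ (c * D.B w y) ≠ 1 := by
      simpa [orth] using hw
    obtain ⟨i, hi⟩ := D.exists_mem_lat w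
    rw [Set.indicator_of_notMem hw, mul_zero]
    refine LatticeChain.integ_char_eq_zero (n := a - D.d - i) (fun x x' => ?_) (fun b hb => ?_) hy
      (by rwa [D.B_comm])
    · rw [D.B_add_left, mul_add, D.ψ_add]
    · exact D.ψ_B_eq_one hc.le hb hi (by omega)

/-! ### Gauss sums -/

/-- `∫ ψ (c N x)` over `π ^ k • O`. -/
def gaussAt (c : F) (k : ℤ) : ℂ := D.chain.integ fun x => D.chain.ind k x * D.ψ (c * D.N x)

/-- Characters on a lattice are Schwartz. -/
lemma ψ_B_ind_mem_schwartz (c : F) (x : M) (j : ℤ) :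
    (fun y => D.ψ (c * D.B y x) * D.chain.ind j y) ∈ D.chain.schwartz := by
  obtain ⟨i, hi⟩ := D.exists_mem_lat x
  obtain ⟨a, ha⟩ := D.exists_v_le c
  refine LatticeChain.mem_schwartz (m := j) (n := max j (a - D.d - i)) (fun y b hb => ?_)
    fun y hy => by simp [LatticeChain.ind_supported (C := D.chain) j y hy]
  show D.ψ (c * D.B (y + b) x) * D.chain.ind j (y + b) = _
  rw [LatticeChain.ind_periodic (le_max_left j (a - D.d - i)) y b hb, D.B_add_left, mul_add,
    D.ψ_add, D.ψ_B_eq_one ha hb hi (by have := le_max_right j (a - D.d - i); omega), mul_one]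

/-- Against the phases of a lattice a function keeps its values on the orthogonal. -/
lemma integ_mul_ψ_B {c : F} {a : ℤ} (hc : D.v c = exp a) {g o : M → ℂ} {m n j : ℤ}
    (hg : D.chain.IsPeriodic n g) (hgm : D.chain.IsSupported m g) (hjn : j ≤ n)
    (hn : a ≤ D.d + m + n) (hn' : a ≤ D.d + j + n) (hos : o ∈ D.chain.schwartz)
    (ho : ∀ x, (D.orth c j).indicator (fun _ => (1 : ℂ)) x * g x = o x) :
    D.chain.integ (fun y => D.chain.integ fun x => g x * (D.ψ (c * D.B y x) * D.chain.ind j y)) =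
      ((D.chain.Q : ℂ) ^ j)⁻¹ * D.chain.integ o := by
  rw [← LatticeChain.integ_swap (C := D.chain) (m := min m j) (n := n) ?h1 ?h2 ?h3,
    ← LatticeChain.integ_smul hos]
  · refine congrArg _ (funext fun x => ?_)
    rw [LatticeChain.integ_smul (D.ψ_B_ind_mem_schwartz c x j), D.integ_ψ_B hc, ← ho]
    ring
  case h1 =>
    intro y x b hb
    show g (x + b) * (D.ψ (c * D.B y (x + b)) * _) = _
    rw [hg x b hb]
    by_cases hy : y ∈ D.lat j
    · rw [D.B_add_right, mul_add, D.ψ_add, D.ψ_B_eq_one hc.le hy hb hn', mul_one]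
    · simp [LatticeChain.ind_supported (C := D.chain) j y hy]
  case h2 =>
    intro x y b hb
    show g x * (D.ψ (c * D.B (y + b) x) * D.chain.ind j (y + b)) = _
    rw [LatticeChain.ind_periodic hjn y b hb]
    by_cases hx : x ∈ D.lat m
    · rw [D.B_add_left, mul_add, D.ψ_add, D.ψ_B_eq_one hc.le hb hx (by omega), mul_one]
    · simp [hgm x hx]
  case h3 =>
    rintro x y (hx | hy)
    · simp [hgm x fun h => hx (D.lat_mono (min_le_left m j) h)]
    · simp [LatticeChain.ind_supported (C := D.chain) j y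
        fun h => hy (D.lat_mono (min_le_right m j) h)]

/-- Gauss sums localise to the orthogonal lattice. -/
lemma gauss_eq {c : F} {a : ℤ} (hc : D.v c = exp a) {j m : ℤ} {S : AddSubgroup M}
    (hj : a ≤ D.d + 2 * j) (hSj : D.lat j ≤ S) (hSo : D.lat (a - D.d - j - D.e) ≤ S)
    (hSm : S ≤ D.lat m) :
    D.chain.integ (fun x => (S : Set M).indicator (fun _ => (1 : ℂ)) x * D.ψ (c * D.N x)) =
      D.chain.integ (fun x => (D.orth c j).indicator (fun _ => (1 : ℂ)) x * D.ψ (c * D.N x)) := by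
  set f := fun x => (S : Set M).indicator (fun _ => (1 : ℂ)) x * D.ψ (c * D.N x) with hf
  have hfs : f ∈ D.chain.schwartz := D.phase_mem_schwartz c hSj hSm
  set m' := min m (a - D.d - j - D.e) with hm'
  have hm1 : m' ≤ m := min_le_left _ _
  have hm2 : m' ≤ a - D.d - j - D.e := min_le_right _ _
  set n := max (max j (a - D.d - m')) ((a - D.d).toNat : ℤ) with hn
  have hn1 : j ≤ n := (le_max_left _ _).trans (le_max_left _ _)
  have hn2 : a - D.d - m' ≤ n := (le_max_right _ _).trans (le_max_left _ _)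
  have hn3 : ((a - D.d).toNat : ℤ) ≤ n := le_max_right _ _
  have hfp : D.chain.IsPeriodic n f :=
    D.phase_periodic hc.le ((D.lat_mono hn1).trans hSj) hSm (by omega) (by omega)
  have hfm : D.chain.IsSupported m f := fun x hx => by
    simp [f, show x ∉ S from fun h => hx (hSm h)]
  have eR : ∀ y, D.chain.integ (fun x => f x * (D.ψ (c * D.B y x) * D.chain.ind j y)) =
      D.chain.integ f * D.chain.ind j y := by
    intro y
    by_cases hy : y ∈ D.lat j
    · have h := LatticeChain.integ_comp_add hfs y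
      have hi : D.chain.ind j y = 1 := by simp [LatticeChain.ind, chain, hy]
      have e : (fun x => f (x + y)) = fun x => f x * (D.ψ (c * D.B y x) * D.chain.ind j y) := by
        funext x
        rw [hi, mul_one, D.B_comm y x]
        by_cases hx : x ∈ S
        · have hxy : x + y ∈ S := add_mem hx (hSj hy)
          simp only [f, D.N_add, mul_add, D.ψ_add, D.ψ_N_eq_one hc.le hy hj]
          simp [hx, hxy]
        · have hxy : x + y ∉ S := fun h => hx (by simpa using sub_mem h (hSj hy))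
          simp [f, hx, hxy]
      rw [e] at h
      rw [h, hi, mul_one]
    · simp only [LatticeChain.ind_supported (C := D.chain) j y hy, mul_zero]
      exact LatticeChain.integ_zero
  have hos : (fun x => (D.orth c j).indicator (fun _ => (1 : ℂ)) x * D.ψ (c * D.N x)) ∈
      D.chain.schwartz := by
    refine LatticeChain.mem_schwartz (m := m') (n := n) (fun x b hb => ?_) fun x hx => by
      simp [(D.orth_supported hc j).mono hm2 x hx]
    show (D.orth c j).indicator (fun _ => (1 : ℂ)) (x + b) * _ = _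
    rw [D.orth_periodic hc.le (by omega) x b hb]
    by_cases hx : x ∈ D.orth c j
    · rw [D.N_add, mul_add, mul_add, D.ψ_add, D.ψ_add, D.ψ_N_eq_one hc.le hb (by omega),
        D.ψ_B_eq_one hc.le (D.lat_mono hm2 (D.mem_lat_of_orth hc hx)) hb (by omega), mul_one,
        mul_one]
    · simp [hx]
  have hsw := D.integ_mul_ψ_B hc hfp hfm hn1 (by omega) (by omega) hos fun x => ?_
  · simp only [eR] at hsw
    rw [LatticeChain.integ_smul (LatticeChain.ind_mem_schwartz j), LatticeChain.integ_ind,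
      mul_comm (D.chain.integ f)] at hsw
    exact mul_left_cancel₀ (inv_ne_zero (zpow_ne_zero _ D.chain.Q_ne_zero)) hsw
  by_cases hx : x ∈ D.orth c j
  · simp [f, hx, hSo (D.mem_lat_of_orth hc hx)]
  · simp [hx]

/-- The exponent of `c`. -/
def ordE (c : F) : ℤ := log (D.v c)

/-- The valuation through the order. -/
lemma v_eq_exp_ordE {c : F} (hc : c ≠ 0) : D.v c = exp (D.ordE c) :=
  (exp_log ((Valuation.ne_zero_iff _).2 hc)).symm

/-- A level below which `gaussAt c` is constant. -/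
def stab (c : F) : ℤ :=
  min (max (D.ordE c - D.d) 0) (D.ordE c - D.d - max (D.ordE c - D.d) 0 - D.e)

/-- The regularised Gauss sum. -/
def G (c : F) : ℂ := D.gaussAt c (D.stab c)

lemma stab_le (c : F) :
    D.stab c ≤ max (D.ordE c - D.d) 0 ∧
      D.stab c ≤ D.ordE c - D.d - max (D.ordE c - D.d) 0 - D.e :=
  ⟨min_le_left _ _, min_le_right _ _⟩

/-- Any large enough lattice computes the Gauss sum. -/
lemma integ_phase_eq_G {c : F} (hc : c ≠ 0) {S : AddSubgroup M} {m : ℤ}
    (hS : D.lat (D.stab c) ≤ S) (hS' : S ≤ D.lat m) :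
    D.chain.integ (fun x => (S : Set M).indicator (fun _ => (1 : ℂ)) x * D.ψ (c * D.N x)) =
      D.G c := by
  have h := D.v_eq_exp_ordE hc
  obtain ⟨h1, h2⟩ := D.stab_le c
  have hj : D.ordE c ≤ D.d + 2 * max (D.ordE c - D.d) 0 := by
    have := le_max_left (D.ordE c - D.d) 0
    have := le_max_right (D.ordE c - D.d) 0
    omega
  rw [D.gauss_eq h hj ((D.lat_mono h1).trans hS) ((D.lat_mono h2).trans hS) hS']
  exact (D.gauss_eq (m := D.stab c) h hj (D.lat_mono h1) (D.lat_mono h2) le_rfl).symm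

/-- Gauss sums stabilise. -/
lemma gaussAt_eq_G {c : F} (hc : c ≠ 0) {k : ℤ} (hk : k ≤ D.stab c) : D.gaussAt c k = D.G c :=
  D.integ_phase_eq_G (S := D.lat k) hc (D.lat_mono hk) le_rfl

/-- Translated phase integrals. -/
lemma integ_phase_translate {c : F} (hc : c ≠ 0) {k : ℤ} (hk : k ≤ D.stab c) {w : M}
    (hw : w ∈ D.lat k) :
    D.chain.integ (fun x => D.chain.ind k x * D.ψ (c * D.N x + c * D.B x w)) =
      D.ψ (-(c * D.N w)) * D.G c := by
  have hs : (fun x => D.chain.ind k x * D.ψ (c * D.N x)) ∈ D.chain.schwartz :=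
    D.phase_mem_schwartz c (S := D.lat k) le_rfl le_rfl
  rw [← D.gaussAt_eq_G hc hk, gaussAt, ← LatticeChain.integ_comp_add hs w]
  have hs' : (fun x => D.chain.ind k (x + w) * D.ψ (c * D.N (x + w))) ∈ D.chain.schwartz := by
    obtain ⟨m, n, hn, hm⟩ := hs
    refine LatticeChain.mem_schwartz (m := min m k) (n := n) (fun x b hb => ?_) fun x hx => ?_
    · have := hn (x + w) b hb
      rwa [add_right_comm] at this
    · exact (hm.mono (min_le_left m k)) _ fun h => hx (by
        simpa using sub_mem h (D.lat_mono (min_le_right m k) hw))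
  rw [← LatticeChain.integ_smul hs']
  refine congrArg _ (funext fun x => ?_)
  rw [LatticeChain.ind_periodic (le_refl k) x w hw, D.N_add]
  calc D.chain.ind k x * D.ψ (c * D.N x + c * D.B x w)
      = D.chain.ind k x * (D.ψ (-(c * D.N w)) * D.ψ (c * (D.N x + D.N w + D.B x w))) := by
        rw [← D.ψ_add]; congr 2; ring
    _ = _ := by ring

/-- Scaling by a norm. -/
lemma G_mul_N {c : F} (hc : c ≠ 0) {h : M} (hh : h ≠ 0) :
    D.G (c * D.N h) = ((D.absv (D.N h) : ℝ) : ℂ)⁻¹ * D.G c := by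
  have hN : D.N h ≠ 0 := fun e => hh (D.N_eq_zero.1 e)
  obtain ⟨a, ha⟩ := D.exists_mem_lat h
  obtain ⟨b, hb⟩ := D.exists_mem_lat h⁻¹
  set m := min (D.stab c) (D.stab (c * D.N h) + a) with hm
  set S := (D.lat m).comap (mulEquiv h hh).toAddMonoidHom with hSdef
  have hS : D.lat (D.stab (c * D.N h)) ≤ S := fun x hx => by
    show h * x ∈ D.lat m
    exact D.lat_mono ((min_le_right _ _).trans_eq (add_comm _ _)) (D.mul_mem_lat ha hx)
  have hS' : S ≤ D.lat (b + m) := fun x hx => by
    have := D.mul_mem_lat hb (show h * x ∈ D.lat m from hx)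
    rwa [← mul_assoc, inv_mul_cancel₀ hh, one_mul] at this
  have hs : (fun x => D.chain.ind m x * D.ψ (c * D.N x)) ∈ D.chain.schwartz :=
    D.phase_mem_schwartz c (S := D.lat m) le_rfl le_rfl
  rw [← D.integ_phase_eq_G (mul_ne_zero hc hN) hS hS', ← D.gaussAt_eq_G hc (min_le_left _ _),
    gaussAt, ← D.integ_comp_mul hh hs]
  refine congrArg _ (funext fun x => ?_)
  rw [D.N_mul, mul_assoc]
  rfl

end LocQuad

end FermatAgent.LT.Theta
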