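import Fermat.Agent.LT.Theta.Chain

/-!
# A quadratic extension with a non-archimedean valuation on the base

`F` is a field with a discrete valuation (not assumed complete), `M` a quadratic extension with a
stable lattice `O`, and `ψ` an additive character of `F`.  Gauss sums of the norm form are defined
through integrals along the chain `π ^ k • O`.
-/

set_option autoImplicit false

noncomputable section

open WithZero

namespace FermatAgent.LT.Theta

/-- Local data of a quadratic extension at one place. -/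
structure LocQuad (F M : Type*) [Field F] [Field M] [Algebra F M] where
  /-- the valuation -/
  v : Valuation F ℤᵐ⁰
  /-- a uniformiser -/
  π : F
  v_π : v π = exp (-1 : ℤ)
  /-- residue cardinality -/
  q : ℕ
  one_lt_q : 1 < q
  /-- the conjugation -/
  σ : M ≃ₐ[F] M
  /-- the norm -/
  N : M → F
  /-- the trace -/
  T : M → F
  N_spec : ∀ x, algebraMap F M (N x) = x * σ x
  T_spec : ∀ x, algebraMap F M (T x) = x + σ x
  σ_σ : ∀ x, σ (σ x) = x
  /-- the lattice -/
  O : AddSubgroup M
  smul_mem : ∀ a x, v a ≤ 1 → x ∈ O → a • x ∈ O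
  mul_mem : ∀ x y, x ∈ O → y ∈ O → x * y ∈ O
  one_mem : (1 : M) ∈ O
  σ_mem : ∀ x, x ∈ O → σ x ∈ O
  N_mem : ∀ x, x ∈ O → v (N x) ≤ 1
  T_mem : ∀ x, x ∈ O → v (T x) ≤ 1
  exhaust : ∀ x, ∃ k : ℕ, π ^ k • x ∈ O
  index : (O.comap (DistribSMul.toAddMonoidHom M π⁻¹)).relIndex O = q ^ 2
  /-- the additive character -/
  ψ : F → ℂ
  ψ_add : ∀ a b, ψ (a + b) = ψ a * ψ b
  /-- conductor exponent of `ψ` -/
  d : ℤ
  ψ_eq_one : ∀ a, v a ≤ exp d → ψ a = 1
  exists_ψ_ne_one : ∃ a, v a ≤ exp (d + 1) ∧ ψ a ≠ 1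
  /-- defect of the dual lattice -/
  e : ℕ
  dual_le : ∀ x, (∀ y ∈ O, v (T (x * σ y)) ≤ 1) → π ^ e • x ∈ O

namespace LocQuad

variable {F M : Type*} [Field F] [Field M] [Algebra F M] (D : LocQuad F M)

/-- The uniformiser is nonzero. -/
lemma π_ne_zero : D.π ≠ 0 := fun h => exp_ne_zero (a := (-1 : ℤ)) (by rw [← D.v_π, h, map_zero])

/-- Valuations of powers of the uniformiser. -/
lemma v_zpow (k : ℤ) : D.v (D.π ^ k) = exp (-k) := by
  rw [map_zpow₀, D.v_π, ← exp_zsmul]
  simp

/-- The absolute value. -/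
def absv (a : F) : ℝ :=
  WithZeroMulInt.toNNReal (e := (D.q : NNReal)) (by have := D.one_lt_q; positivity) (D.v a)

/-- The absolute value is multiplicative. -/
lemma absv_mul (a b : F) : D.absv (a * b) = D.absv a * D.absv b := by simp [absv]

/-- The absolute value of one. -/
lemma absv_one : D.absv 1 = 1 := by simp [absv]

/-- The absolute value of a given valuation. -/
lemma absv_exp {a : F} {n : ℤ} (h : D.v a = exp n) : D.absv a = (D.q : ℝ) ^ n := by
  rw [absv, h, WithZeroMulInt.toNNReal_neg_apply _ exp_ne_zero]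
  simp [exp]

/-- Nonzero elements have integral valuations. -/
lemma exists_v_eq {a : F} (ha : a ≠ 0) : ∃ n : ℤ, D.v a = exp n :=
  ⟨log (D.v a), (exp_log ((Valuation.ne_zero_iff _).2 ha)).symm⟩

/-- Nonzero elements have positive absolute value. -/
lemma absv_pos {a : F} (ha : a ≠ 0) : 0 < D.absv a := by
  obtain ⟨n, hn⟩ := D.exists_v_eq ha
  rw [D.absv_exp hn]
  have := D.one_lt_q
  positivity

/-- The norm is multiplicative. -/
lemma N_mul (x y : M) : D.N (x * y) = D.N x * D.N y := by
  apply (algebraMap F M).injective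
  rw [map_mul, D.N_spec, D.N_spec, D.N_spec, map_mul]; ring

/-- The norm on the base. -/
lemma N_algebraMap (a : F) : D.N (algebraMap F M a) = a ^ 2 := by
  apply (algebraMap F M).injective
  rw [D.N_spec, AlgEquiv.commutes, map_pow, pow_two]

/-- The norm of one. -/
lemma N_one : D.N 1 = 1 := by simpa using D.N_algebraMap 1

/-- The norm of a scalar multiple. -/
lemma N_smul (a : F) (x : M) : D.N (a • x) = a ^ 2 * D.N x := by
  rw [Algebra.smul_def, N_mul, N_algebraMap]

/-- Only zero has norm zero. -/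
lemma N_eq_zero {x : M} : D.N x = 0 ↔ x = 0 := by
  rw [← map_eq_zero_iff _ (algebraMap F M).injective, D.N_spec, mul_eq_zero,
    map_eq_zero_iff _ D.σ.injective, or_self]

/-- The norm is even. -/
lemma N_neg (x : M) : D.N (-x) = D.N x := by
  apply (algebraMap F M).injective
  rw [D.N_spec, D.N_spec, map_neg]; ring

/-- The norm is invariant under conjugation. -/
lemma N_σ (x : M) : D.N (D.σ x) = D.N x := by
  apply (algebraMap F M).injective
  rw [D.N_spec, D.N_spec, D.σ_σ]; ring

/-- The bilinear form of the norm. -/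
def B (x y : M) : F := D.T (x * D.σ y)

/-- The pairing through conjugation. -/
lemma B_spec (x y : M) : algebraMap F M (D.B x y) = x * D.σ y + D.σ x * y := by
  rw [B, D.T_spec, map_mul, D.σ_σ]

/-- The pairing is symmetric. -/
lemma B_comm (x y : M) : D.B x y = D.B y x := by
  apply (algebraMap F M).injective
  rw [B_spec, B_spec]; ring

/-- The pairing is additive on the left. -/
lemma B_add_left (x x' y : M) : D.B (x + x') y = D.B x y + D.B x' y := by
  apply (algebraMap F M).injective
  rw [map_add, B_spec, B_spec, B_spec, map_add]; ring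

/-- The pairing is additive on the right. -/
lemma B_add_right (x y y' : M) : D.B x (y + y') = D.B x y + D.B x y' := by
  rw [B_comm, B_add_left, B_comm, B_comm D y']

/-- The pairing is linear on the left. -/
lemma B_smul_left (a : F) (x y : M) : D.B (a • x) y = a * D.B x y := by
  apply (algebraMap F M).injective
  rw [map_mul, B_spec, B_spec, Algebra.smul_def, map_mul, AlgEquiv.commutes]; ring

/-- The pairing is linear on the right. -/
lemma B_smul_right (a : F) (x y : M) : D.B x (a • y) = a * D.B x y := by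
  rw [B_comm, B_smul_left, B_comm]

/-- The pairing with zero. -/
lemma B_zero_left (y : M) : D.B 0 y = 0 := by
  have := D.B_smul_left 0 0 y
  simpa using this

/-- The pairing is odd on the left. -/
lemma B_neg_left (x y : M) : D.B (-x) y = -D.B x y := by
  rw [eq_neg_iff_add_eq_zero, ← B_add_left, neg_add_cancel, B_zero_left]

/-- The pairing is odd on the right. -/
lemma B_neg_right (x y : M) : D.B x (-y) = -D.B x y := by
  rw [B_comm, B_neg_left, B_comm]

/-- The polarisation identity. -/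
lemma N_add (x y : M) : D.N (x + y) = D.N x + D.N y + D.B x y := by
  apply (algebraMap F M).injective
  rw [map_add, map_add, D.N_spec, D.N_spec, D.N_spec, B_spec, map_add]; ring

/-- The character at zero. -/
lemma ψ_zero : D.ψ 0 = 1 := D.ψ_eq_one 0 (by simp)

/-- The character is unitary. -/
lemma ψ_neg_mul (a : F) : D.ψ (-a) * D.ψ a = 1 := by
  rw [← D.ψ_add, neg_add_cancel, D.ψ_zero]

/-! ### The lattices -/

/-- `π ^ k • O`. -/
def lat (k : ℤ) : AddSubgroup M :=
  D.O.comap (DistribSMul.toAddMonoidHom M (D.π ^ (-k)))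

/-- Membership in a lattice. -/
lemma mem_lat {k : ℤ} {x : M} : x ∈ D.lat k ↔ D.π ^ (-k) • x ∈ D.O := Iff.rfl

lemma lat_anti (k : ℤ) : D.lat (k + 1) ≤ D.lat k := fun x hx => by
  rw [mem_lat] at hx ⊢
  have := D.smul_mem D.π _ (by rw [D.v_π, ← exp_zero, exp_le_exp]; norm_num) hx
  rwa [smul_smul, ← zpow_one_add₀ D.π_ne_zero, show (1 : ℤ) + -(k + 1) = -k by ring] at this

lemma lat_index (k : ℤ) : (D.lat (k + 1)).relIndex (D.lat k) = D.q ^ 2 := by
  have hsurj : Function.Surjective (DistribSMul.toAddMonoidHom M (D.π ^ (-k))) :=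
    fun y => ⟨D.π ^ k • y, by
      show D.π ^ (-k) • D.π ^ k • y = y
      rw [smul_smul, ← zpow_add₀ D.π_ne_zero, neg_add_cancel, zpow_zero, one_smul]⟩
  have e : D.lat (k + 1) = (D.O.comap (DistribSMul.toAddMonoidHom M D.π⁻¹)).comap
      (DistribSMul.toAddMonoidHom M (D.π ^ (-k))) := by
    ext x
    show D.π ^ (-(k + 1)) • x ∈ D.O ↔ D.π⁻¹ • D.π ^ (-k) • x ∈ D.O
    rw [smul_smul, ← zpow_neg_one, ← zpow_add₀ D.π_ne_zero,
      show (-1 : ℤ) + -k = -(k + 1) by ring]
  rw [e, lat, AddSubgroup.relIndex_comap, AddSubgroup.map_comap_eq_self_of_surjective hsurj]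
  exact D.index

/-- The chain of lattices. -/
def chain : LatticeChain M where
  L := D.lat
  Q := D.q ^ 2
  anti := D.lat_anti
  index := D.lat_index
  Q_pos := pow_pos (zero_lt_one.trans D.one_lt_q) 2
  exhaust x := by
    obtain ⟨k, hk⟩ := D.exhaust x
    exact ⟨-(k : ℤ), by rw [mem_lat, neg_neg, zpow_natCast]; exact hk⟩

/-- Lattices decrease. -/
lemma lat_mono {m n : ℤ} (h : m ≤ n) : D.lat n ≤ D.lat m := D.chain.le_of_le h

/-- Scalars shift lattices. -/
lemma smul_mem_lat {a : F} {n k : ℤ} {x : M} (ha : D.v a ≤ exp (-n)) (hx : x ∈ D.lat k) :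
    a • x ∈ D.lat (k + n) := by
  rw [mem_lat] at hx ⊢
  have h : D.v (a * D.π ^ (-n)) ≤ 1 := by
    rw [map_mul, v_zpow, neg_neg, ← exp_zero]
    calc D.v a * exp n ≤ exp (-n) * exp n := by gcongr
      _ = exp 0 := by rw [← exp_add, neg_add_cancel]
  have := D.smul_mem _ _ h hx
  rwa [smul_smul, mul_assoc, ← zpow_add₀ D.π_ne_zero, show -n + -k = -(k + n) by ring,
    mul_comm, ← smul_smul] at this

/-- Lattices multiply. -/
lemma mul_mem_lat {i j : ℤ} {x y : M} (hx : x ∈ D.lat i) (hy : y ∈ D.lat j) :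
    x * y ∈ D.lat (i + j) := by
  rw [mem_lat] at hx hy ⊢
  have := D.mul_mem _ _ hx hy
  rwa [smul_mul_smul_comm, ← zpow_add₀ D.π_ne_zero, show -i + -j = -(i + j) by ring] at this

/-- Lattices are stable under conjugation. -/
lemma σ_mem_lat {i : ℤ} {x : M} : D.σ x ∈ D.lat i ↔ x ∈ D.lat i := by
  have key : ∀ z, z ∈ D.lat i → D.σ z ∈ D.lat i := fun z hz => by
    rw [mem_lat] at hz ⊢
    have := D.σ_mem _ hz
    rwa [map_smul] at this
  exact ⟨fun h => by simpa [D.σ_σ] using key _ h, key x⟩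

/-- Norms on lattices are small. -/
lemma v_N_le {j : ℤ} {x : M} (hx : x ∈ D.lat j) : D.v (D.N x) ≤ exp (-(2 * j)) := by
  have h := D.N_mem _ hx
  rw [DistribSMul.toAddMonoidHom_apply, D.N_smul, map_mul, map_pow, v_zpow, neg_neg] at h
  have h2 : D.v (D.N x) = exp (-(2 * j)) * (exp j ^ 2 * D.v (D.N x)) := by
    rw [← mul_assoc, ← exp_nsmul, ← exp_add]; simp
  rw [h2]
  exact mul_le_of_le_one_right zero_le h

/-- Pairings on lattices are small. -/
lemma v_B_le {i j : ℤ} {x y : M} (hx : x ∈ D.lat i) (hy : y ∈ D.lat j) :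
    D.v (D.B x y) ≤ exp (-(i + j)) := by
  have h := D.mul_mem_lat hx (D.σ_mem_lat.2 hy)
  have h' := D.T_mem _ h
  have e : D.T (D.π ^ (-(i + j)) • (x * D.σ y)) = D.π ^ (-(i + j)) * D.B x y := by
    apply (algebraMap F M).injective
    rw [map_mul, D.B_spec, D.T_spec, Algebra.smul_def, map_mul, map_mul, AlgEquiv.commutes,
      D.σ_σ]
    ring
  rw [DistribSMul.toAddMonoidHom_apply, e, map_mul, v_zpow, neg_neg] at h'
  have h2 : D.v (D.B x y) = exp (-(i + j)) * (exp (i + j) * D.v (D.B x y)) := by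
    rw [← mul_assoc, ← exp_add]; simp
  rw [h2]
  exact mul_le_of_le_one_right zero_le h'

/-- Elements orthogonal to `π ^ j • O` lie in a small lattice. -/
lemma mem_lat_of_orth {c : F} {a j : ℤ} (hc : D.v c = exp a) {z : M}
    (h : ∀ y ∈ D.lat j, D.ψ (c * D.B z y) = 1) : z ∈ D.lat (a - D.d - j - D.e) := by
  have hc0 : c ≠ 0 := fun h => exp_ne_zero (a := a) (by rw [← hc, h, map_zero])
  have key : ∀ y ∈ D.O, D.v (c * D.π ^ j * D.B z y) ≤ exp D.d := by
    intro y hy
    by_contra hcon
    push Not at hcon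
    obtain ⟨b, hb, hψ⟩ := D.exists_ψ_ne_one
    set w := c * D.π ^ j * D.B z y with hw
    have hw0 : w ≠ 0 := fun h => by simp [h] at hcon
    obtain ⟨n, hn⟩ := D.exists_v_eq hw0
    rw [hn, exp_lt_exp] at hcon
    have hr : D.v (b / w) ≤ 1 := by
      rw [map_div₀, hn, div_le_iff₀ exp_pos, one_mul]
      exact hb.trans (exp_le_exp.2 (by omega))
    refine hψ ?_
    have hmem : D.π ^ j • (b / w) • y ∈ D.lat j := by
      rw [mem_lat, smul_smul, ← zpow_add₀ D.π_ne_zero, neg_add_cancel, zpow_zero, one_smul]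
      exact D.smul_mem _ _ hr hy
    have := h _ hmem
    rwa [D.B_smul_right, D.B_smul_right, show c * (D.π ^ j * (b / w * D.B z y)) = b / w * w by
      rw [hw]; ring, div_mul_cancel₀ _ hw0] at this
  have hx := D.dual_le (D.π ^ (j + D.d - a) • z) fun y hy => by
    show D.v (D.B _ y) ≤ 1
    have h1 := key y hy
    rw [map_mul, map_mul, hc, v_zpow] at h1
    rw [D.B_smul_left, map_mul, v_zpow]
    have e1 : exp (-(j + D.d - a)) * D.v (D.B z y) =
        exp (-D.d) * (exp a * exp (-j) * D.v (D.B z y)) := by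
      rw [← mul_assoc, ← exp_add, ← exp_add]
      congr 2
      ring
    rw [e1, ← exp_zero, show exp (0 : ℤ) = exp (-D.d) * exp D.d by
      rw [← exp_add, neg_add_cancel]]
    gcongr
  rw [mem_lat]
  rwa [smul_smul, ← zpow_natCast, ← zpow_add₀ D.π_ne_zero,
    show (D.e : ℤ) + (j + D.d - a) = -(a - D.d - j - D.e) by ring] at hx

end LocQuad

end FermatAgent.LT.Theta
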