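import Mathlib

/-!
# Local additive characters of a number field, without completions

For a finite place `v` every element of the field is the sum of an element integral at `v` and an
element integral outside `v`; the trace of the latter defines the character at `v`.
-/

set_option autoImplicit false

noncomputable section

open IsDedekindDomain NumberField WithZero
open scoped nonZeroDivisors

namespace FermatAgent.LT.Theta

namespace LocalChar

variable {L : Type*} [Field L] [NumberField L]

/-- The character `exp (2πi ·)` on rationals. -/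
def eRat (r : ℚ) : ℂ := Complex.exp (2 * (Real.pi : ℂ) * Complex.I * (r : ℂ))

lemma eRat_add (r s : ℚ) : eRat (r + s) = eRat r * eRat s := by
  rw [eRat, eRat, eRat, ← Complex.exp_add]; push_cast; ring_nf

/-- The character is trivial at integers. -/
lemma eRat_intCast (n : ℤ) : eRat (n : ℚ) = 1 := by
  rw [eRat, Rat.cast_intCast]
  exact Complex.exp_eq_one_iff.2 ⟨n, by ring⟩

lemma eRat_zero : eRat 0 = 1 := by simpa using eRat_intCast 0

/-- The kernel of the character is the integers. -/
lemma eRat_eq_one {r : ℚ} (h : eRat r = 1) : ∃ n : ℤ, r = n := by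
  obtain ⟨n, hn⟩ := Complex.exp_eq_one_iff.1 h
  refine ⟨n, Rat.cast_injective (α := ℂ) ?_⟩
  rw [Rat.cast_intCast]
  have : (2 * (Real.pi : ℂ) * Complex.I) ≠ 0 := Complex.two_pi_I_ne_zero
  exact mul_left_cancel₀ this (by rw [hn]; ring)

/-- `b` is a part of `a` at `v`: integral outside `v`, congruent to `a` at `v`. -/
def IsPart (v : HeightOneSpectrum (𝓞 L)) (a b : L) : Prop :=
  v.valuation L (a - b) ≤ 1 ∧ ∀ w, w ≠ v → w.valuation L b ≤ 1

/-- Partial fractions exist. -/
lemma exists_part (v : HeightOneSpectrum (𝓞 L)) (a : L) : ∃ b, IsPart v a b := by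
  classical
  obtain ⟨x, s, hs, rfl⟩ := IsFractionRing.div_surjective (A := 𝓞 L) a
  have hs0 : s ≠ 0 := nonZeroDivisors.ne_zero hs
  have hspan : Ideal.span ({s} : Set (𝓞 L)) ≠ ⊥ := by simpa using hs0
  have hne : v.asIdeal ≠ ⊥ := v.ne_bot
  set Z : Finset (HeightOneSpectrum (𝓞 L)) :=
    insert v (Ideal.finite_factors hspan).toFinset with hZ
  set n : HeightOneSpectrum (𝓞 L) → ℕ :=
    fun w => (Associates.mk w.asIdeal).count (Associates.mk (Ideal.span {s})).factors with hn
  obtain ⟨c, hc⟩ := IsDedekindDomain.exists_forall_sub_mem_ideal (s := Z)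
    (fun w => w.asIdeal) n (fun w _ => w.prime)
    (fun w _ w' _ hne h => hne (HeightOneSpectrum.ext h))
    (fun w => if (w : HeightOneSpectrum (𝓞 L)) = v then x else 0)
  have key : ∀ (w : HeightOneSpectrum (𝓞 L)) (y : 𝓞 L), y ∈ w.asIdeal ^ n w →
      w.valuation L (algebraMap (𝓞 L) L y / algebraMap (𝓞 L) L s) ≤ 1 := by
    intro w y hy
    rw [map_div₀, w.valuation_of_algebraMap, w.valuation_of_algebraMap,
      w.intValuation_if_neg hs0, div_le_iff₀ exp_pos, one_mul]
    exact (w.intValuation_le_pow_iff_mem y (n w)).2 hy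
  refine ⟨algebraMap (𝓞 L) L c / algebraMap (𝓞 L) L s, ?_, fun w hw => ?_⟩
  · rw [← sub_div, ← map_sub]
    refine key v _ ?_
    have h1 := hc v (Finset.mem_insert_self v _)
    simp only [if_true] at h1
    rw [← neg_sub]
    exact (v.asIdeal ^ n v).neg_mem h1
  · by_cases hwZ : w ∈ Z
    · refine key w c ?_
      have h1 := hc w hwZ
      simp only [if_neg hw, sub_zero] at h1
      exact h1
    · have hws : w.valuation L (algebraMap (𝓞 L) L s) = 1 := by
        refine le_antisymm (w.valuation_le_one s) (not_lt.1 fun h => hwZ ?_)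
        rw [w.valuation_lt_one_iff_dvd] at h
        exact Finset.mem_insert_of_mem (by simpa using h)
      rw [map_div₀, hws, div_one]
      exact w.valuation_le_one c

/-- Integral elements have integral trace. -/
lemma trace_of_integral {b : L} (hb : ∀ w : HeightOneSpectrum (𝓞 L), w.valuation L b ≤ 1) :
    ∃ n : ℤ, Algebra.trace ℚ L b = n := by
  obtain ⟨y, rfl⟩ := HeightOneSpectrum.mem_integers_of_valuation_le_one L b hb
  have h : IsIntegral ℤ (Algebra.trace ℚ L (algebraMap (𝓞 L) L y)) :=
    Algebra.isIntegral_trace (RingOfIntegers.isIntegral_coe y)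
  obtain ⟨n, hn⟩ := IsIntegrallyClosed.isIntegral_iff.1 h
  exact ⟨n, by rw [← hn]; simp⟩

/-- The local character at `v`. -/
def ψloc (v : HeightOneSpectrum (𝓞 L)) (a : L) : ℂ :=
  eRat (Algebra.trace ℚ L (exists_part v a).choose)

variable {v : HeightOneSpectrum (𝓞 L)}

/-- The local character from a partial fraction. -/
lemma ψloc_eq {a b : L} (hb : IsPart v a b) : ψloc v a = eRat (Algebra.trace ℚ L b) := by
  have h := (exists_part v a).choose_spec
  set b' := (exists_part v a).choose with hb'
  obtain ⟨n, hn⟩ := trace_of_integral (b := b' - b) fun w => by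
    by_cases hw : w = v
    · subst hw
      rw [show b' - b = (a - b) - (a - b') by ring]
      exact (Valuation.map_sub _ _ _).trans (max_le hb.1 h.1)
    · exact (Valuation.map_sub _ _ _).trans (max_le (h.2 w hw) (hb.2 w hw))
  rw [ψloc, ← hb', show b' = b + (b' - b) by ring, map_add, hn, eRat_add, eRat_intCast, mul_one]

/-- The local character is additive. -/
lemma ψloc_add (a a' : L) : ψloc v (a + a') = ψloc v a * ψloc v a' := by
  have h := (exists_part v a).choose_spec
  have h' := (exists_part v a').choose_spec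
  rw [ψloc_eq (b := (exists_part v a).choose + (exists_part v a').choose) ⟨?_, fun w hw => ?_⟩,
    map_add, eRat_add]
  · rfl
  · rw [show a + a' - ((exists_part v a).choose + (exists_part v a').choose) =
      (a - (exists_part v a).choose) + (a' - (exists_part v a').choose) by ring]
    exact (Valuation.map_add _ _ _).trans (max_le h.1 h'.1)
  · exact (Valuation.map_add _ _ _).trans (max_le (h.2 w hw) (h'.2 w hw))

/-- The local character is unitary. -/
lemma norm_ψloc (v : HeightOneSpectrum (𝓞 L)) (a : L) : ‖ψloc v a‖ = 1 := by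
  obtain ⟨b, hb⟩ := exists_part v a
  rw [ψloc_eq hb, eRat, show (2 * (Real.pi : ℂ) * Complex.I * ((Algebra.trace ℚ L b : ℚ) : ℂ)) =
    ((2 * Real.pi * (Algebra.trace ℚ L b : ℚ) : ℝ) : ℂ) * Complex.I by push_cast; ring,
    Complex.norm_exp_ofReal_mul_I]

/-- The local character is trivial on integers. -/
lemma ψloc_eq_one {a : L} (ha : v.valuation L a ≤ 1) : ψloc v a = 1 := by
  rw [ψloc_eq (b := 0) ⟨by simpa using ha, fun w _ => by simp⟩, map_zero, eRat_zero]

/-- The product formula for the characters. -/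
theorem prod_ψloc (S : Finset (HeightOneSpectrum (𝓞 L))) {a : L}
    (ha : ∀ w ∉ S, w.valuation L a ≤ 1) :
    ∏ v ∈ S, ψloc v a = eRat (Algebra.trace ℚ L a) := by
  classical
  have hsum : ∀ T : Finset (HeightOneSpectrum (𝓞 L)),
      ∏ v ∈ T, ψloc v a = eRat (Algebra.trace ℚ L (∑ v ∈ T, (exists_part v a).choose)) := by
    intro T
    induction T using Finset.induction_on with
    | empty => simp [eRat_zero]
    | insert b T hb ih => rw [Finset.prod_insert hb, Finset.sum_insert hb,
      map_add, eRat_add, ih]; rfl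
  obtain ⟨n, hn⟩ := trace_of_integral (b := a - ∑ v ∈ S, (exists_part v a).choose) fun w => by
    by_cases hw : w ∈ S
    · rw [← Finset.add_sum_erase S (fun v => (exists_part v a).choose) hw, ← sub_sub]
      refine (Valuation.map_sub _ _ _).trans (max_le (exists_part w a).choose_spec.1 ?_)
      exact Valuation.map_sum_le _ fun v hv =>
        (exists_part v a).choose_spec.2 w (Finset.ne_of_mem_erase hv).symm
    · refine (Valuation.map_sub _ _ _).trans (max_le (ha w hw) ?_)
      exact Valuation.map_sum_le _ fun v hv =>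
        (exists_part v a).choose_spec.2 w fun e => hw (e ▸ hv)
  rw [hsum, ← mul_one (eRat _), ← eRat_intCast n, ← hn, ← eRat_add, ← map_add, add_sub_cancel]

lemma exists_dual_bound : ∃ D : 𝓞 L, D ≠ 0 ∧ ∀ y : L,
    (∀ x : 𝓞 L, ∃ n : ℤ, Algebra.trace ℚ L (algebraMap (𝓞 L) L x * y) = n) →
      ∀ w : HeightOneSpectrum (𝓞 L), w.valuation L (algebraMap (𝓞 L) L D * y) ≤ 1 := by
  classical
  set b := NumberField.integralBasis L with hb
  set b' := (Algebra.traceForm ℚ L).dualBasis (traceForm_nondegenerate ℚ L) b with hb'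
  obtain ⟨D, hD, hDb⟩ : ∃ D : 𝓞 L, D ≠ 0 ∧
      ∀ i, IsLocalization.IsInteger (𝓞 L) (algebraMap (𝓞 L) L D * b' i) := by
    obtain ⟨⟨D, hD⟩, h⟩ :=
      IsLocalization.exist_integer_multiples (𝓞 L)⁰ Finset.univ fun i => b' i
    exact ⟨D, nonZeroDivisors.ne_zero hD, fun i => by
      have := h i (Finset.mem_univ i)
      rwa [Algebra.smul_def] at this⟩
  refine ⟨D, hD, fun y hy w => ?_⟩
  have hrepr : y = ∑ i, Algebra.trace ℚ L (b i * y) • b' i := by
    conv_lhs => rw [← b'.sum_repr y]
    refine Finset.sum_congr rfl fun i _ => ?_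
    congr 1
    rw [hb', LinearMap.BilinForm.dualBasis_repr_apply, Algebra.traceForm_apply, mul_comm]
  rw [hrepr, Finset.mul_sum]
  refine Valuation.map_sum_le _ fun i _ => ?_
  obtain ⟨n, hn⟩ := hy (RingOfIntegers.basis L i)
  rw [← NumberField.integralBasis_apply, ← hb] at hn
  obtain ⟨z, hz⟩ := hDb i
  rw [hn, Algebra.smul_def, mul_left_comm, ← hz, eq_ratCast, Rat.cast_intCast, ← map_intCast
    (algebraMap (𝓞 L) L), ← map_mul]
  exact w.valuation_le_one _

lemma valuation_algebraMap_mul_le {x : 𝓞 L} {a : L} {n : ℤ} (h : v.valuation L a ≤ exp n) :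
    v.valuation L (algebraMap (𝓞 L) L x * a) ≤ exp n := by
  rw [map_mul]
  exact (mul_le_of_le_one_left zero_le (v.valuation_le_one x)).trans h

variable (v)

/-- Every valuation is attained. -/
lemma exists_exp_shift (n : ℤ) : ∃ a : L, v.valuation L a = exp n := by
  obtain ⟨p, hp⟩ := v.valuation_exists_uniformizer L
  refine ⟨p ^ (-n), ?_⟩
  rw [map_zpow₀, hp, ← exp_zsmul]
  simp

/-- A trivial shell bounds the dual lattice. -/
lemma bound_of_trivial {D : 𝓞 L}
    (hD : ∀ y : L, (∀ x : 𝓞 L, ∃ n : ℤ, Algebra.trace ℚ L (algebraMap (𝓞 L) L x * y) = n) →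
      ∀ w : HeightOneSpectrum (𝓞 L), w.valuation L (algebraMap (𝓞 L) L D * y) ≤ 1)
    {n : ℤ} (hn0 : 0 ≤ n) (hn : ∀ a, v.valuation L a ≤ exp n → ψloc v a = 1) :
    v.valuation L (algebraMap (𝓞 L) L D) * exp n ≤ 1 := by
  obtain ⟨a, ha⟩ := exists_exp_shift v n
  obtain ⟨b, hb⟩ := exists_part v a
  have hvb : v.valuation L b ≤ exp n := by
    rw [show b = a - (a - b) by ring]
    exact (Valuation.map_sub _ _ _).trans (max_le ha.le (hb.1.trans (by
      rw [← exp_zero, exp_le_exp]; exact hn0)))
  have h1 := hD b (fun x => ?_) v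
  · rcases eq_or_lt_of_le hn0 with rfl | hpos
    · rw [exp_zero, mul_one]; exact v.valuation_le_one D
    have hvb' : v.valuation L b = exp n := by
      rw [show b = a - (a - b) by ring, Valuation.map_sub_eq_of_lt_left _ (by
        rw [ha]; exact hb.1.trans_lt (by rw [← exp_zero, exp_lt_exp]; exact hpos)), ha]
    rwa [map_mul, hvb'] at h1
  · refine eRat_eq_one ?_
    rw [← ψloc_eq (a := algebraMap (𝓞 L) L x * b) (b := algebraMap (𝓞 L) L x * b)
      ⟨by simp, fun w hw => by
        rw [map_mul]; exact mul_le_one' (w.valuation_le_one x) (hb.2 w hw)⟩]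
    exact hn _ (valuation_algebraMap_mul_le hvb)

/-- The conductor exists. -/
lemma exists_conductor : ∃ d : ℤ, (∀ a, v.valuation L a ≤ exp d → ψloc v a = 1) ∧
    ∀ n : ℤ, (∀ a, v.valuation L a ≤ exp n → ψloc v a = 1) → n ≤ d := by
  obtain ⟨D, hD0, hD⟩ := exists_dual_bound (L := L)
  obtain ⟨m, hm⟩ : ∃ m : ℤ, v.valuation L (algebraMap (𝓞 L) L D) = exp m :=
    ⟨log (v.valuation L (algebraMap (𝓞 L) L D)), (exp_log ((Valuation.ne_zero_iff _).2
      ((map_ne_zero_iff _ (FaithfulSMul.algebraMap_injective (𝓞 L) L)).2 hD0))).symm⟩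
  refine Int.exists_greatest_of_bdd (P := fun n => ∀ a, v.valuation L a ≤ exp n → ψloc v a = 1)
    ⟨max 0 (-m), fun n hn => ?_⟩ ⟨0, fun a ha => ψloc_eq_one (by rwa [exp_zero] at ha)⟩
  by_cases hn0 : 0 ≤ n
  · have := bound_of_trivial v hD hn0 hn
    rw [hm, ← exp_add, ← exp_zero, exp_le_exp] at this
    omega
  · omega

/-- The conductor exponent. -/
def cond : ℤ := (exists_conductor v).choose

/-- The character is trivial up to the conductor. -/
lemma ψloc_eq_one_of_le {a : L} (h : v.valuation L a ≤ exp (cond v)) : ψloc v a = 1 :=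
  (exists_conductor v).choose_spec.1 a h

/-- The conductor is optimal. -/
lemma exists_ψloc_ne_one :
    ∃ a, v.valuation L a ≤ exp (cond v + 1) ∧ ψloc v a ≠ 1 := by
  by_contra h
  push Not at h
  have := (exists_conductor v).choose_spec.2 _ h
  rw [cond] at this
  omega

/-- The conductor is nonnegative. -/
lemma cond_nonneg : 0 ≤ cond v :=
  (exists_conductor v).choose_spec.2 0 fun a ha => ψloc_eq_one (by rwa [exp_zero] at ha)

/-- Almost all conductors vanish. -/
theorem eventually_cond_eq_zero :
    ∀ᶠ w : HeightOneSpectrum (𝓞 L) in Filter.cofinite, cond w = 0 := by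
  obtain ⟨D, hD0, hD⟩ := exists_dual_bound (L := L)
  have hspan : Ideal.span ({D} : Set (𝓞 L)) ≠ ⊥ := by simpa using hD0
  refine Filter.eventually_cofinite.2 ((Ideal.finite_factors hspan).subset fun w hw => ?_)
  rw [Set.mem_ofPred_eq] at hw ⊢
  rw [← w.valuation_lt_one_iff_dvd (K := L)]
  have h := bound_of_trivial w hD (cond_nonneg w) fun a ha => ψloc_eq_one_of_le w ha
  by_contra hlt
  rw [le_antisymm (w.valuation_le_one D) (not_lt.1 hlt), one_mul, ← exp_zero, exp_le_exp] at h
  exact hw (le_antisymm h (cond_nonneg w))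

end LocalChar

end FermatAgent.LT.Theta
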