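import Fermat.Agent.LT.Theta.Coord
import Fermat.Agent.LT.Theta.ArchWhit

/-!
# Independence of the characters at infinity
-/

set_option autoImplicit false

noncomputable section

open IsDedekindDomain NumberField Filter MeasureTheory WithZero
open scoped MatrixGroups Real Topology

namespace FermatAgent.LT.Theta

open Coord Arch ArchW

variable {L : Type*} [Field L] [NumberField L] [IsTotallyComplex L] {M : Type*} [Field M]
  [Algebra L M] [Algebra.IsQuadraticExtension L M]

omit [IsTotallyComplex L] in
/-- A summable family of characters which vanishes identically is zero. -/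
theorem char_coeff_eq_zero (c : Lˣ → ℂ) (hc : Summable fun α => ‖c α‖)
    (h : ∀ z : (InfinitePlace L → ℂ), ∑' α : Lˣ, c α * ∏ w : InfinitePlace L,
      ψC (w.embedding (α : L) * z w) = 0)
    (ξ : Lˣ) : c ξ = 0 := by
  classical
  have : Countable Lˣ := Units.val_injective.countable
  set n := Fintype.card (InfinitePlace L)
  let β : Lˣ → InfinitePlace L → ℂ := fun α w => w.embedding (α : L) - w.embedding (ξ : L)
  let E : ℝ → Lˣ → ℝ := fun b α => ∏ w, Real.exp (-(4 * π ^ 2 * ‖β α w‖ ^ 2) / b)
  have key : ∀ b : ℝ, 0 < b → ∑' α : Lˣ, c α * (E b α : ℂ) = 0 := by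
    intro b hb
    set G : (InfinitePlace L → ℂ) → ℝ := fun z => ∏ w, Real.exp (-b * ‖z w‖ ^ 2)
    have hG : Integrable G := Integrable.fintype_prod
      (μ := fun _ : InfinitePlace L => (volume : Measure ℂ)) fun w => integrable_gauss_line hb
    set T : Lˣ → (InfinitePlace L → ℂ) → ℂ := fun α z => c α * ((G z : ℂ) * ∏ w, ψC (β α w * z w))
    have hnorm : ∀ α z, ‖T α z‖ = ‖c α‖ * G z := fun α z => by
      simp only [T, norm_mul, norm_prod, norm_ψC, Finset.prod_const_one, mul_one,
        Complex.norm_real, Real.norm_of_nonneg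
          (Finset.prod_nonneg fun w _ => (Real.exp_pos (-b * ‖z w‖ ^ 2)).le), G]
    have hcont : ∀ α, Continuous (T α) := fun α => continuous_const.mul
      ((Complex.continuous_ofReal.comp (continuous_finsetProd _ fun w _ =>
        Real.continuous_exp.comp (continuous_const.mul ((continuous_apply w).norm.pow 2)))).mul
        (continuous_finsetProd _ fun w _ =>
          continuous_ψC.comp (continuous_const.mul (continuous_apply w))))
    have hTint : ∀ α, Integrable (T α) := fun α =>
      (hG.const_mul ‖c α‖).mono' (hcont α).aestronglyMeasurable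
        (ae_of_all _ fun z => (hnorm α z).le)
    have hsum : Summable fun α => ∫ z, ‖T α z‖ := by
      simp only [hnorm, integral_const_mul]
      exact hc.mul_right _
    have h0 : ∀ z, ∑' α, T α z = 0 := fun z => by
      have e : ∀ α, T α z = (c α * ∏ w : InfinitePlace L, ψC (w.embedding (α : L) * z w)) *
          ((G z : ℂ) * ∏ w : InfinitePlace L, ψC (-(w.embedding (ξ : L)) * z w)) := fun α => by
        simp only [T, β, sub_mul, neg_mul]
        rw [Finset.prod_congr rfl fun w _ => show ψC (w.embedding (α : L) * z w -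
            w.embedding (ξ : L) * z w) = _ * ψC (-(w.embedding (ξ : L) * z w)) by
          rw [sub_eq_add_neg, ψC_add], Finset.prod_mul_distrib]
        ring
      rw [tsum_congr e, tsum_mul_right, h z, zero_mul]
    have h1 : ∑' α, ∫ z, T α z = 0 := by
      rw [integral_tsum_of_summable_integral_norm hTint hsum]
      simp [h0]
    have h2 : ∀ α, ∫ z, T α z = c α * (E b α : ℂ) * (((π / b) ^ n : ℝ) : ℂ) := fun α => by
      simp only [T, G, E]
      rw [integral_const_mul, mul_assoc]
      congr 1
      push_cast
      simp only [← Finset.prod_mul_distrib]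
      rw [volume_pi, integral_fintype_prod_eq_prod (E := fun _ : InfinitePlace L => ℂ)
        (fun w x => (Complex.exp (-(b : ℂ) * (‖x‖ : ℂ) ^ 2)) * ψC (β α w * x))]
      have hone : ∀ γ : ℂ, ∫ x : ℂ, Complex.exp (-(b : ℂ) * (‖x‖ : ℂ) ^ 2) * ψC (γ * x) =
          ((π : ℂ) / b) * Complex.exp (-(4 * (π : ℂ) ^ 2 * (‖γ‖ : ℂ) ^ 2) / b) := fun γ => by
        have h := integral_gauss_line hb γ
        push_cast at h
        exact h
      rw [Finset.prod_congr rfl fun w _ => hone (β α w), Finset.prod_mul_distrib, Finset.prod_const,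
        Finset.card_univ, mul_comm]
    rw [tsum_congr h2, tsum_mul_right] at h1
    exact (mul_eq_zero.1 h1).resolve_right
      (Complex.ofReal_ne_zero.2 (pow_ne_zero _ (div_ne_zero Real.pi_ne_zero hb.ne')))
  have hlim : Tendsto (fun b : ℝ => ∑' α : Lˣ, c α * (E b α : ℂ)) (𝓝[>] 0)
      (𝓝 (∑' α : Lˣ, if α = ξ then c ξ else 0)) := by
    refine tendsto_tsum_of_dominated_convergence hc (fun α => ?_) ?_
    · by_cases hα : α = ξ
      · subst hα
        simp [E, β]
      · rw [if_neg hα]
        obtain ⟨w₀⟩ := (inferInstance : Nonempty (InfinitePlace L))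
        have hw : 0 < 4 * π ^ 2 * ‖β α w₀‖ ^ 2 := by
          have : β α w₀ ≠ 0 := sub_ne_zero.2 fun e => hα (Units.ext (w₀.embedding.injective e))
          have := norm_pos_iff.2 this
          positivity
        have ht : Tendsto (fun b : ℝ => Real.exp (-(4 * π ^ 2 * ‖β α w₀‖ ^ 2) / b)) (𝓝[>] 0)
            (𝓝 0) := by
          simp only [neg_div]
          refine Real.tendsto_exp_neg_atTop_nhds_zero.comp ?_
          show Tendsto (fun b : ℝ => 4 * π ^ 2 * ‖β α w₀‖ ^ 2 * b⁻¹) _ _
          exact tendsto_inv_nhdsGT_zero.const_mul_atTop hw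
        have hE : Tendsto (fun b : ℝ => E b α) (𝓝[>] 0) (𝓝 0) := by
          refine squeeze_zero' (Eventually.of_forall fun b => Finset.prod_nonneg fun w _ =>
            (Real.exp_pos _).le) ?_ ht
          filter_upwards [self_mem_nhdsWithin] with b (hb : 0 < b)
          simp only [E]
          rw [← Finset.mul_prod_erase Finset.univ _ (Finset.mem_univ w₀)]
          refine mul_le_of_le_one_right (Real.exp_pos _).le
            (Finset.prod_le_one (fun w _ => (Real.exp_pos _).le) fun w _ => ?_)
          exact Real.exp_le_one_iff.2 (by rw [neg_div, neg_nonpos]; positivity)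
        simpa using tendsto_const_nhds.mul ((Complex.continuous_ofReal.tendsto 0).comp hE)
    · filter_upwards [self_mem_nhdsWithin] with b (hb : 0 < b) α
      rw [norm_mul, Complex.norm_real, Real.norm_eq_abs]
      refine mul_le_of_le_one_right (norm_nonneg _) ?_
      rw [abs_of_nonneg (Finset.prod_nonneg fun w _ => (Real.exp_pos _).le)]
      exact Finset.prod_le_one (fun w _ => (Real.exp_pos _).le) fun w _ =>
        Real.exp_le_one_iff.2 (by rw [neg_div, neg_nonpos]; positivity)
  have hzero : Tendsto (fun b : ℝ => ∑' α : Lˣ, c α * (E b α : ℂ)) (𝓝[>] 0) (𝓝 0) :=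
    tendsto_const_nhds.congr' (by
      filter_upwards [self_mem_nhdsWithin] with b (hb : 0 < b) using (key b hb).symm)
  have := tendsto_nhds_unique hlim hzero
  rwa [tsum_ite_eq] at this

end FermatAgent.LT.Theta
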