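import Fermat.Agent.LT.Theta.Rep
import Fermat.Agent.LT.Theta.LocalChar

/-!
# Scalar matrices
-/

set_option autoImplicit false

noncomputable section

open IsDedekindDomain NumberField
open scoped MatrixGroups

namespace FermatAgent.LT.Theta

open LocQuad

variable {L : Type*} [Field L] [NumberField L]

namespace LocQuad

variable {F M : Type*} [Field F] [Field M] [Algebra F M] {D : LocQuad F M}

/-- Scalars as triangular elements. -/
lemma upper_scalar (z : Fˣ) :
    (Matrix.GeneralLinearGroup.scalar (Fin 2) z : GL (Fin 2) F) =
      upper (z : F) 0 (z : F) z.ne_zero z.ne_zero := by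
  refine Units.ext ?_
  ext i j
  fin_cases i <;> fin_cases j <;>
    simp [upper_val, Matrix.GeneralLinearGroup.coe_scalar]

end LocQuad

end FermatAgent.LT.Theta
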