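import Fermat.Agent.LT.Theta.TameAct

/-!
# The Whittaker function of level one and the two sources of level one data
-/

set_option autoImplicit false

noncomputable section

open WithZero
open scoped MatrixGroups

namespace FermatAgent.LT.Theta

namespace LocQuad

variable {F M : Type*} [Field F] [Field M] [Algebra F M] {D : LocQuad F M} {χ : F →* ℂ}
  {θ : M →* ℂ}

namespace IsTame

variable {J : AddSubgroup M} (hT : IsTame D χ θ J)

include hT

omit hT in
/-- The Whittaker function of level one. -/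
def tameVec (D : LocQuad F M) (θ : M →* ℂ) : M → F → ℂ := vec D θ 1 1

lemma whit_mul_fixed (g : GL (Fin 2) F) {k : GL (Fin 2) F}
    (hk : Agree (D.wAct χ k (tameVec D θ)) (tameVec D θ)) :
    D.whit θ hT.level (D.wAct χ (g * k) (tameVec D θ)) =
      D.whit θ hT.level (D.wAct χ g (tameVec D θ)) :=
  whit_congr ((wAct_mul hT.isSign g k (hT.nice_vec 1 1)).trans (hk.wAct g))

/-- Invariance of the Whittaker function under the normaliser of the non-split torus. -/
theorem whit_mul_torus (g : GL (Fin 2) F) {k : GL (Fin 2) F}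
    (hk : ∀ i j, D.v (k.val i j) ≤ 1) (hdet : D.v k.val.det = 1)
    (hD : (D.v (k.val 0 0 - k.val 1 1) < 1 ∧ D.v (k.val 0 1 + k.val 1 0) < 1) ∨
      (D.v (k.val 0 0 + k.val 1 1) < 1 ∧ D.v (k.val 0 1 - k.val 1 0) < 1)) :
    D.whit θ hT.level (D.wAct χ (g * k) (tameVec D θ)) =
      D.whit θ hT.level (D.wAct χ g (tameVec D θ)) :=
  hT.whit_mul_fixed g (hT.acts_torus hk hdet hD)

/-- The sum over a family stable under a non-trivial unipotent kills the Whittaker function. -/
theorem sum_whit_eq_zero {ι : Type*} [Fintype ι] (k : ι → GL (Fin 2) F)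
    (hk : ∀ i a b, D.v ((k i).val a b) ≤ 1) (hdet : ∀ i, D.v (k i).val.det = 1)
    (e : Equiv.Perm ι) (he : ∀ i, ∃ j : GL (Fin 2) F, (∀ a b, D.v (j.val a b) ≤ 1) ∧
      D.v j.val.det = 1 ∧ D.v (j.val 0 1) < 1 ∧ D.v (j.val 1 0) < 1 ∧
      D.v (j.val 0 0 - j.val 1 1) < 1 ∧
      upper (1 : F) 1 1 one_ne_zero one_ne_zero * k i = k (e i) * j)
    (g : GL (Fin 2) F) :
    ∑ i, D.whit θ hT.level (D.wAct χ (g * k i) (tameVec D θ)) = 0 := by
  have hn : D.Nice (tameVec D θ) := hT.nice_vec 1 1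
  have ht : D.IsTest (tameVec D θ) := hT.isTest (hT.mem_vec 1 1)
  rw [Finset.sum_congr rfl fun i _ => whit_congr (wAct_mul hT.isSign g (k i) hn),
    ← whit_sum Finset.univ hT.isTorusLevel _ fun i _ => ((ht.wAct (k i)).wAct g),
    whit_congr ((wAct_sum Finset.univ _ (fun i _ => nice_wAct hn (k i)) g).symm.trans
      (Agree.wAct (fun x u hu => hT.sum_wAct_eq_zero k hk hdet e (fun i => by
        obtain ⟨j, h1, h2, h3, h4, h5, h6⟩ := he i
        exact ⟨j, hT.acts_congr h1 h2 h3 h4 h5, h6⟩) (1, 1) x hu) g)),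
    whit_congr (show Agree (D.wAct χ g (fun _ _ => (0 : ℂ))) (fun _ _ => 0) from fun x u hu => by
      have h := wAct_smul (χ := χ) (isTest_zero (D := D)).nice (0 : ℂ) g x u hu
      simpa using h),
    whit_zero]

/-- The Whittaker function does not vanish one step below the conductor. -/
theorem whit_diag_ne_zero {a : F} (ha : D.v a = exp (D.d + 1)) :
    D.whit θ hT.level (D.wAct χ (upper a 0 1 (fun e => exp_ne_zero (by rw [← ha, e, map_zero]))
      one_ne_zero) (tameVec D θ)) ≠ 0 := by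
  classical
  have ha0 : a ≠ 0 := fun e => exp_ne_zero (by rw [← ha, e, map_zero])
  rw [wAct_upper, zero_div, opN_zero]
  have hval : ∀ h : Mˣ, D.whitTerm θ (D.opD χ a 1 (tameVec D θ)) h =
      if IsU D (h : M) then ((√(D.absv a) : ℝ) : ℂ)⁻¹ else 0 := by
    intro h
    simp only [whitTerm, opD, tameVec, vec, inv_one, one_smul, mul_one, map_one, one_mul, one_pow]
    by_cases hu : IsU D (h : M)
    · have hv : D.v (a * (D.N (h : M))⁻¹) = exp (D.d + 1) := by
        rw [map_mul, map_inv₀, hu.2, inv_one, mul_one, ha]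
      have hθ : θ (h : M) ≠ 0 := fun e => by
        have h1 : θ ((h : M) * ((h⁻¹ : Mˣ) : M)) = 1 := by rw [Units.mul_inv, map_one]
        rw [map_mul, e, zero_mul] at h1
        exact zero_ne_one h1
      rw [if_pos (And.intro hv hu), if_pos hu,
        D.absv_exp (show D.v (D.N (h : M)) = exp 0 by rw [exp_zero]; exact hu.2)]
      simp only [ite_self, zpow_zero, Complex.ofReal_one, mul_one]
      field_simp
    · rw [if_neg fun hc => hu hc.2, if_neg hu, mul_zero, mul_zero]
  have hfin : {c : Mˣ ⧸ hT.level | IsU D (c.out : M)}.Finite := by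
    refine (finite_support_whit hT.isTorusLevel
      ((hT.isTest (hT.mem_vec 1 1)).opD (χ := χ) ha0 one_ne_zero)).subset fun c hc => ?_
    rw [Function.mem_support]
    show D.whitTerm θ (D.opD χ a 1 (tameVec D θ)) c.out ≠ 0
    rw [hval, if_pos (show IsU D (c.out : M) from hc), ne_eq, inv_eq_zero, Complex.ofReal_eq_zero]
    exact (Real.sqrt_pos.2 (D.absv_pos ha0)).ne'
  rw [whit, finsum_eq_sum_of_support_subset _ (s := hfin.toFinset) fun c hc => by
    rw [Function.mem_support, hval] at hc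
    simp only [Set.Finite.coe_toFinset, Set.mem_ofPred_eq]
    by_contra h; exact hc (if_neg h)]
  rw [Finset.sum_congr rfl fun c hc => (hval c.out).trans (if_pos (by
    simpa using hc)), Finset.sum_const, nsmul_eq_mul]
  refine mul_ne_zero (Nat.cast_ne_zero.2 ?_)
    (inv_ne_zero (Complex.ofReal_ne_zero.2 (Real.sqrt_pos.2 (D.absv_pos ha0)).ne'))
  refine Finset.card_ne_zero.2 ⟨(QuotientGroup.mk (1 : Mˣ) : Mˣ ⧸ hT.level), ?_⟩
  rw [Set.Finite.mem_toFinset, Set.mem_ofPred_eq]
  obtain ⟨k, hk⟩ := QuotientGroup.mk_out_eq_mul hT.level (1 : Mˣ)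
  rw [hk, one_mul]
  exact k.2.1

end IsTame

/-! ### Instances -/

private lemma le_one_of_exp_mul_lt {t : ℤᵐ⁰} (h : exp (-1 : ℤ) * t < 1) : t ≤ 1 := by
  rcases eq_or_ne t 0 with rfl | ht
  · exact zero_le
  rw [← exp_log ht, ← exp_add, ← exp_zero, exp_lt_exp] at h
  rw [← exp_log ht, ← exp_zero, exp_le_exp]
  omega

/-- Level one data at a ramified place. -/
theorem isTame_ramified {ϖ : M} (h : IsRamified3 D ϖ) (hχ : D.IsSignChar χ) {θ : M →* ℂ}
    (hθ : ∀ y ∈ D.O, θ (1 + ϖ * y) = 1)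
    (hbase : ∀ u, u ≠ 0 → θ (algebraMap F M u) = χ u)
    (h0 : ∃ x ∈ D.O, D.N x = 1 ∧ θ x ≠ 1) :
    IsTame D χ θ (D.O.map (AddMonoidHom.mulLeft ϖ)) := by
  have hϖ := h.ne_zero
  have eB : ∀ x y, D.B x (ϖ * y) = D.N ϖ * D.B (ϖ⁻¹ * x) y := fun x y => by
    apply (algebraMap F M).injective
    have h1 := (map_ne_zero_iff _ D.σ.injective).2 hϖ
    rw [map_mul, D.B_spec, D.B_spec, D.N_spec, map_mul, map_mul, map_inv₀]
    field_simp
  have hB : ∀ x ∈ D.O, ∀ y ∈ D.O, D.v (D.B x (ϖ * y)) < 1 := by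
    intro x hx y hy
    rw [eB, map_mul, h.v_N]
    exact (mul_le_of_le_one_right zero_le (h.dual' x hx y hy)).trans_lt (by
      rw [← exp_zero, exp_lt_exp]; norm_num)
  refine
    { residue := fun u hu => ?_
      v_three := h.v_three
      mem_J := fun x => ?_
      dual_J := fun x hx => ?_
      B_J := fun x hx y hy => ?_
      isSign := hχ
      θ_congr := fun y hy => ?_
      θ_base := hbase
      exists_norm_one := h0 }
  · rcases hu.lt_or_eq with h' | h'
    · exact Or.inl h'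
    · exact Or.inr (h.residue_unit h')
  · constructor
    · rintro ⟨y, hy, rfl⟩
      exact ⟨D.mul_mem _ _ h.mem hy, h.v_N_mul_lt hy⟩
    · rintro ⟨hx, hN⟩
      obtain ⟨t, ht, y, hy, e⟩ := h.residue x hx
      rcases ht with rfl | ht
      · exact ⟨y, hy, by simp [e]⟩
      · exfalso
        have htv : (algebraMap F M (t : F)) ∈ D.O ∧ D.v ((t : F) ^ 2) = 1 := by
          rcases ht with rfl | rfl
          · simp [D.one_mem]
          · simpa using D.one_mem
        refine hN.ne ?_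
        rw [e, D.N_add, D.N_algebraMap, add_assoc, Valuation.map_add_eq_of_lt_left]
        · exact htv.2
        · rw [htv.2]
          exact Valuation.map_add_lt _ (h.v_N_mul_lt hy) (hB _ htv.1 y hy)
  · have h2 : ∀ y ∈ D.O, D.v (D.B (ϖ⁻¹ * x) y) ≤ 1 := fun y hy => by
      have h1 := hx _ (AddSubgroup.mem_map_of_mem (AddMonoidHom.mulLeft ϖ) hy)
      rw [AddMonoidHom.coe_mulLeft, eB, map_mul, h.v_N] at h1
      exact le_one_of_exp_mul_lt h1
    obtain ⟨y, hy, e⟩ := h.dual _ h2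
    rw [← mul_assoc, mul_inv_cancel₀ hϖ, one_mul] at e
    rw [e]; exact hy
  · obtain ⟨z, hz, rfl⟩ := hy
    exact hB x hx z hz
  · obtain ⟨z, hz, rfl⟩ := hy
    exact hθ z hz

/-- Level one data at an inert place. -/
theorem isTame_inert (hD : D.IsUnimodular)
    (hfield : ∀ x ∈ D.O, D.v (D.N x) < 1 → x ∈ D.lat 1)
    (hres : ∀ u, D.v u ≤ 1 → D.v u < 1 ∨ D.v (u - 1) < 1 ∨ D.v (u + 1) < 1)
    (h3 : D.v 3 < 1) (hχ : D.IsSignChar χ) {θ : M →* ℂ}
    (hθ : ∀ y ∈ D.lat 1, θ (1 + y) = 1)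
    (hbase : ∀ u, u ≠ 0 → θ (algebraMap F M u) = χ u)
    (h0 : ∃ x ∈ D.O, D.N x = 1 ∧ θ x ≠ 1) :
    IsTame D χ θ (D.lat 1) := by
  have hlt : exp (-1 : ℤ) < 1 := by rw [← exp_zero, exp_lt_exp]; norm_num
  refine
    { residue := hres
      v_three := h3
      mem_J := fun x => ?_
      dual_J := fun x hx => ?_
      B_J := fun x hx y hy => ?_
      isSign := hχ
      θ_congr := hθ
      θ_base := hbase
      exists_norm_one := h0 }
  · refine ⟨fun hx => ⟨by rw [← D.lat_zero]; exact D.lat_mono (by omega) hx, ?_⟩,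
      fun hx => hfield x hx.1 hx.2⟩
    exact (D.v_N_le hx).trans_lt (by rw [← exp_zero, exp_lt_exp]; norm_num)
  · have h2 := D.dual_le x fun y hy => ?_
    · rwa [hD.e_eq, pow_zero, one_smul] at h2
    show D.v (D.B x y) ≤ 1
    have hmem : D.π • y ∈ D.lat 1 := by
      rw [mem_lat, smul_smul, zpow_neg_one, inv_mul_cancel₀ D.π_ne_zero, one_smul]; exact hy
    have h1 := hx _ hmem
    rw [D.B_smul_right, map_mul, D.v_π] at h1
    exact le_one_of_exp_mul_lt h1
  · exact (D.v_B_le (i := 0) (j := 1) (by rwa [D.lat_zero]) hy).trans_lt (by simpa using hlt)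

end LocQuad

end FermatAgent.LT.Theta
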