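import Fermat.Agent.LT.Theta.QuadConj
import Fermat.Agent.LT.Theta.LocalChar
import Fermat.Agent.LT.Theta.TameWhit

/-!
# The local data at a place of a number field

Builds the local data `locQuad` of a quadratic extension at a place of a number field: a
uniformiser `unif`, a residue system `residues`, and a generator of the local lattice
(`exists_isGen_any`), namely an element of least discriminant, from which the index of one
lattice step and the dual lattice are computed. At unramified places the defect is zero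
(`e_eq_zero`).
-/

set_option autoImplicit false

noncomputable section

open IsDedekindDomain NumberField WithZero

namespace FermatAgent.LT.Theta

namespace Place

variable {L : Type*} [Field L] [NumberField L] (v : HeightOneSpectrum (𝓞 L))

/-- A uniformiser at `v`. -/
def unif : L := (v.valuation_exists_uniformizer L).choose

/-- The valuation of the uniformiser. -/
lemma v_unif : v.valuation L (unif v) = exp (-1 : ℤ) :=
  (v.valuation_exists_uniformizer L).choose_spec

/-- The uniformiser is nonzero. -/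
lemma unif_ne_zero : unif v ≠ 0 := fun h => exp_ne_zero (a := (-1 : ℤ)) (by
  rw [← v_unif v, h, map_zero])

/-- The residue cardinality. -/
def qv : ℕ := Ideal.absNorm v.asIdeal

/-- Residue fields are non-trivial. -/
lemma one_lt_qv : 1 < qv v := by
  rcases Nat.lt_or_ge 1 (qv v) with h | h
  · exact h
  · exfalso
    interval_cases h' : qv v
    · exact Ideal.absNorm_ne_zero_of_nonZeroDivisors
        ⟨v.asIdeal, mem_nonZeroDivisors_of_ne_zero v.ne_bot⟩ h'
    · exact v.isPrime.ne_top (Ideal.absNorm_eq_one_iff.1 h')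

/-- Small elements have negative exponent. -/
lemma v_le_exp_neg_one {a : L} (h : v.valuation L a < 1) : v.valuation L a ≤ exp (-1 : ℤ) := by
  by_cases ha : a = 0
  · simp [ha]
  rw [← exp_log (x := v.valuation L a) ((Valuation.ne_zero_iff _).2 ha)] at h ⊢
  rw [← exp_zero, exp_lt_exp] at h
  rw [exp_le_exp]
  omega

/-- Integers approximate local integers. -/
lemma exists_int_sub_lt {a : L} (ha : v.valuation L a ≤ 1) :
    ∃ r : 𝓞 L, v.valuation L (a - algebraMap (𝓞 L) L r) < 1 := by
  obtain ⟨r, hr⟩ := v.exists_valuation_sub_lt_of_integer ha 1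
  exact ⟨r, by rwa [Valuation.map_sub_swap]⟩

/-- The elements of the maximal ideal, inside the local ring. -/
def maxSub : AddSubgroup (locRing v) where
  carrier := {a | v.valuation L (a : L) < 1}
  zero_mem' := by simp
  add_mem' := fun {a b} ha hb => by
    show v.valuation L ((a : L) + (b : L)) < 1
    exact Valuation.map_add_lt _ ha hb
  neg_mem' := fun {a} ha => by
    show v.valuation L (-(a : L)) < 1
    rwa [Valuation.map_neg]

/-- Reduction from the integers. -/
def redHom : 𝓞 L →+ locRing v ⧸ maxSub v :=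
  (QuotientAddGroup.mk' (maxSub v)).comp
    { toFun := fun r => ⟨algebraMap (𝓞 L) L r, v.valuation_le_one r⟩
      map_zero' := Subtype.ext (map_zero _)
      map_add' := fun r s => Subtype.ext (map_add _ r s) }

lemma redHom_surjective : Function.Surjective (redHom v) := by
  intro c
  obtain ⟨a, rfl⟩ := QuotientAddGroup.mk'_surjective _ c
  obtain ⟨r, hr⟩ := exists_int_sub_lt v a.2
  refine ⟨r, QuotientAddGroup.eq.2 ?_⟩
  show v.valuation L (-(algebraMap (𝓞 L) L r) + (a : L)) < 1
  rwa [neg_add_eq_sub]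

lemma redHom_ker : (redHom v).ker = v.asIdeal.toAddSubgroup := by
  ext r
  rw [AddMonoidHom.mem_ker, redHom, AddMonoidHom.comp_apply, QuotientAddGroup.mk'_apply,
    QuotientAddGroup.eq_zero_iff]
  exact v.valuation_lt_one_iff_mem r

lemma card_residue : Nat.card (locRing v ⧸ maxSub v) = qv v := by
  rw [← Nat.card_congr (QuotientAddGroup.quotientKerEquivOfSurjective (redHom v)
    (redHom_surjective v)).toEquiv, redHom_ker, qv, Ideal.absNorm_apply]
  rfl

lemma finite_residue : Finite (locRing v ⧸ maxSub v) :=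
  Nat.finite_of_card_ne_zero (by rw [card_residue]; have := one_lt_qv v; omega)

open Classical in
/-- A residue system. -/
def residues : Finset L :=
  haveI := finite_residue v
  haveI := Fintype.ofFinite (locRing v ⧸ maxSub v)
  (Finset.univ : Finset (locRing v ⧸ maxSub v)).image fun c => ((c.out : locRing v) : L)

/-- The residue representatives. -/
lemma residues_spec :
    (residues v).card = qv v ∧ (∀ t ∈ residues v, v.valuation L t ≤ 1) ∧
      (∀ s ∈ residues v, ∀ t ∈ residues v, v.valuation L (s - t) < 1 → s = t) ∧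
      ∀ r, v.valuation L r ≤ 1 → ∃ t ∈ residues v, v.valuation L (r - t) < 1 := by
  classical
  let : Fintype (locRing v ⧸ maxSub v) :=
    @Fintype.ofFinite (locRing v ⧸ maxSub v) (finite_residue v)
  refine ⟨?_, fun t ht => ?_, fun s hs t ht h => ?_, fun r hr => ?_⟩
  · rw [residues, Finset.card_image_of_injective _ fun c c' h => ?_, Finset.card_univ,
      ← Nat.card_eq_fintype_card, card_residue]
    rw [← QuotientAddGroup.out_eq' c, ← QuotientAddGroup.out_eq' c', Subtype.ext h]
  · obtain ⟨c, -, rfl⟩ := Finset.mem_image.1 ht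
    exact c.out.2
  · obtain ⟨c, -, rfl⟩ := Finset.mem_image.1 hs
    obtain ⟨c', -, rfl⟩ := Finset.mem_image.1 ht
    have : c = c' := by
      rw [← QuotientAddGroup.out_eq' c, ← QuotientAddGroup.out_eq' c', QuotientAddGroup.eq]
      show v.valuation L (-((c.out : locRing v) : L) + ((c'.out : locRing v) : L)) < 1
      rwa [neg_add_eq_sub, Valuation.map_sub_swap]
    rw [this]
  · refine ⟨_, Finset.mem_image.2 ⟨QuotientAddGroup.mk ⟨r, hr⟩, Finset.mem_univ _, rfl⟩, ?_⟩
    obtain ⟨z, hz⟩ := QuotientAddGroup.mk_out_eq_add (maxSub v) (⟨r, hr⟩ : locRing v)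
    rw [hz]
    show v.valuation L (r - (r + ((z : locRing v) : L))) < 1
    rw [sub_add_cancel_left, Valuation.map_neg]
    exact z.2

variable (M : Type*) [Field M] [Algebra L M] [Algebra.IsQuadraticExtension L M]

variable {v M}

lemma linear_indep_gen {θ : M} (h : Quad.IsGen L M v θ) {a b : L}
    (e : algebraMap L M a + b • θ = 0) : a = 0 ∧ b = 0 := by
  have hb : b = 0 := by
    by_contra hb
    obtain ⟨y, hy0, hy⟩ := Quad.exists_anti L M
    have hθ : Quad.conj L M θ = θ := by
      have e' : θ = algebraMap L M (-a / b) := by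
        rw [Algebra.smul_def] at e
        have hb' : algebraMap L M b ≠ 0 := (map_ne_zero_iff _ (algebraMap L M).injective).2 hb
        rw [map_div₀, map_neg, eq_div_iff hb']
        linear_combination e
      rw [e', AlgEquiv.commutes]
    obtain ⟨k, hk⟩ := Quad.exists_pow_smul_mem (v_unif v) y
    obtain ⟨a', b', -, -, e'⟩ := h.2 _ hk
    have h1 := congrArg (Quad.conj L M) e'
    rw [map_smul, hy, map_add, map_smul, AlgEquiv.commutes, hθ, ← e', smul_neg] at h1
    have h2 : (2 : M) * (unif v ^ k • y) = 0 := by linear_combination -h1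
    have h3 : (2 : M) ≠ 0 := by
      rw [← map_ofNat (algebraMap L M) 2]
      exact (map_ne_zero_iff _ (algebraMap L M).injective).2 two_ne_zero
    exact smul_ne_zero (pow_ne_zero _ (unif_ne_zero v)) hy0 ((mul_eq_zero.1 h2).resolve_left h3)
  subst hb
  exact ⟨(map_eq_zero_iff _ (algebraMap L M).injective).1 (by simpa using e), rfl⟩

/-- The coordinate map of a generator. -/
def coordHom {θ : M} (hθ : θ ∈ Quad.lattice L M v) :
    locRing v × locRing v →+ (Quad.lattice L M v).toSubring.toAddSubgroup :=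
  AddMonoidHom.mk' (fun p => ⟨algebraMap L M p.1 + (p.2 : L) • θ,
      add_mem (Quad.algebraMap_mem_lattice p.1.2) (Quad.smul_mem_lattice p.2.2 hθ)⟩)
    fun p q => by
      refine Subtype.ext ?_
      show algebraMap L M ((p.1 : L) + (q.1 : L)) + ((p.2 : L) + (q.2 : L)) • θ = _
      rw [map_add, add_smul]
      show _ = (algebraMap L M (p.1 : L) + (p.2 : L) • θ) +
          (algebraMap L M (q.1 : L) + (q.2 : L) • θ)
      abel

/-- The index of one lattice step. -/
lemma index_eq {θ : M} (h : Quad.IsGen L M v θ) :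
    ((Quad.lattice L M v).toSubring.toAddSubgroup.comap
      (DistribSMul.toAddMonoidHom M (unif v)⁻¹)).relIndex
        (Quad.lattice L M v).toSubring.toAddSubgroup = qv v ^ 2 := by
  set O := (Quad.lattice L M v).toSubring.toAddSubgroup
  set P := O.comap (DistribSMul.toAddMonoidHom M (unif v)⁻¹)
  have hsurj : Function.Surjective (coordHom h.1) := fun x => by
    obtain ⟨a, b, ha, hb, e⟩ := h.2 x.1 x.2
    exact ⟨(⟨a, ha⟩, ⟨b, hb⟩), Subtype.ext e.symm⟩
  have hker : (P.addSubgroupOf O).comap (coordHom h.1) = (maxSub v).prod (maxSub v) := by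
    ext p
    show (unif v)⁻¹ • (algebraMap L M (p.1 : L) + (p.2 : L) • θ) ∈ Quad.lattice L M v ↔
      v.valuation L (p.1 : L) < 1 ∧ v.valuation L (p.2 : L) < 1
    have e : (unif v)⁻¹ • (algebraMap L M (p.1 : L) + (p.2 : L) • θ) =
        algebraMap L M ((unif v)⁻¹ * p.1) + ((unif v)⁻¹ * p.2) • θ := by
      rw [smul_add, smul_smul, Algebra.smul_def, map_mul]
    have key : ∀ a : L, v.valuation L ((unif v)⁻¹ * a) ≤ 1 ↔ v.valuation L a < 1 := fun a => by
      rw [map_mul, map_inv₀, v_unif]
      refine ⟨fun h' => lt_of_le_of_lt ?_ (show exp (-1 : ℤ) < 1 by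
        rw [← exp_zero, exp_lt_exp]; norm_num), fun h' => ?_⟩
      · calc v.valuation L a = exp (-1 : ℤ) * ((exp (-1 : ℤ))⁻¹ * v.valuation L a) := by
              rw [← mul_assoc, mul_inv_cancel₀ exp_ne_zero, one_mul]
          _ ≤ exp (-1 : ℤ) := mul_le_of_le_one_right zero_le h'
      · calc (exp (-1 : ℤ))⁻¹ * v.valuation L a ≤ (exp (-1 : ℤ))⁻¹ * exp (-1 : ℤ) := by
              have := v_le_exp_neg_one v h'
              gcongr
          _ = 1 := inv_mul_cancel₀ exp_ne_zero
    rw [e]
    refine ⟨fun hm => ?_, fun hm => add_mem (Quad.algebraMap_mem_lattice ((key _).2 hm.1))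
      (Quad.smul_mem_lattice ((key _).2 hm.2) h.1)⟩
    obtain ⟨a, b, ha, hb, e'⟩ := h.2 _ hm
    obtain ⟨h1, h2⟩ := linear_indep_gen h (a := (unif v)⁻¹ * p.1 - a) (b := (unif v)⁻¹ * p.2 - b)
      (by rw [map_sub, sub_smul]; linear_combination e')
    rw [sub_eq_zero] at h1 h2
    exact ⟨(key _).1 (h1 ▸ ha), (key _).1 (h2 ▸ hb)⟩
  show (P.addSubgroupOf O).index = _
  rw [← AddSubgroup.index_comap_of_surjective _ hsurj, hker, AddSubgroup.index_prod,
    AddSubgroup.index, card_residue, pow_two]

lemma exists_defect : ∀ {θ : M}, Quad.IsGen L M v θ →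
    Quad.conj L M θ ≠ θ → ∃ e : ℕ, ∀ x : M,
      (∀ y ∈ Quad.lattice L M v, v.valuation L (Algebra.trace L M (x * Quad.conj L M y)) ≤ 1) →
        unif v ^ e • x ∈ Quad.lattice L M v := by
  intro θ h hne
  set δ := Quad.conj L M θ - θ with hδ
  have hN0 : Algebra.norm L δ ≠ 0 := Algebra.norm_ne_zero_iff.2 (sub_ne_zero.2 hne)
  have hδmem : δ ∈ Quad.lattice L M v := sub_mem (Quad.conj_mem_lattice h.1) h.1
  set n := log (v.valuation L (Algebra.norm L δ)) with hn
  have hvn : v.valuation L (Algebra.norm L δ) = exp n :=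
    (exp_log ((Valuation.ne_zero_iff _).2 hN0)).symm
  refine ⟨(-n).toNat, fun x hx => ?_⟩
  have h1 := hx 1 (one_mem _)
  rw [map_one, mul_one] at h1
  have h2 := hx θ h.1
  have hδx : δ * x ∈ Quad.lattice L M v := by
    have e : δ * x = algebraMap L M (Algebra.trace L M (x * Quad.conj L M θ)) -
        θ * algebraMap L M (Algebra.trace L M x) := by
      rw [Quad.trace_spec, Quad.trace_spec, map_mul, Quad.conj_conj, hδ]; ring
    rw [e]
    exact sub_mem (Quad.algebraMap_mem_lattice h2) (mul_mem h.1 (Quad.algebraMap_mem_lattice h1))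
  have e : unif v ^ (-n).toNat • x =
      (unif v ^ (-n).toNat / Algebra.norm L δ) • (Quad.conj L M δ * (δ * x)) := by
    rw [Algebra.smul_def, Algebra.smul_def, map_div₀, Quad.norm_spec]
    have hd : δ ≠ 0 := sub_ne_zero.2 hne
    have hd' : Quad.conj L M δ ≠ 0 := (map_ne_zero_iff _ (Quad.conj L M).injective).2 hd
    field_simp
  rw [e]
  refine Quad.smul_mem_lattice ?_ (mul_mem (Quad.conj_mem_lattice hδmem) hδx)
  rw [map_div₀, map_pow, v_unif, hvn, ← exp_nsmul, div_le_iff₀ exp_pos, one_mul, exp_le_exp]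
  simp
  omega

lemma conj_gen_ne {θ : M} (h : Quad.IsGen L M v θ) : Quad.conj L M θ ≠ θ := fun e => by
  obtain ⟨a, ha⟩ := Quad.exists_base_of_conj L M e
  have := (linear_indep_gen h (a := a) (b := -1) (by rw [ha]; simp)).2
  simp at this

variable (v M)

/-- An element of the lattice with the least discriminant generates it. -/
theorem exists_isGen_any : ∃ θ, Quad.IsGen L M v θ := by
  classical
  obtain ⟨y, hy0, hy⟩ := Quad.exists_anti L M
  obtain ⟨j, hj⟩ := Quad.exists_pow_smul_mem (v_unif v) y
  set z := unif v ^ j • y with hz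
  have hz0 : Quad.conj L M z - z ≠ 0 := by
    rw [hz, map_smul, hy, ← smul_sub]
    refine smul_ne_zero (pow_ne_zero _ (unif_ne_zero v)) fun e => hy0 ?_
    have h2 : (2 : M) * y = 0 := by linear_combination -e
    refine (mul_eq_zero.1 h2).resolve_left ?_
    rw [← map_ofNat (algebraMap L M) 2]
    exact (map_ne_zero_iff _ (algebraMap L M).injective).2 two_ne_zero
  have key : ∀ x ∈ Quad.lattice L M v, Quad.conj L M x - x ≠ 0 →
      ∃ k : ℕ, v.valuation L (Algebra.norm L (Quad.conj L M x - x)) = exp (-(k : ℤ)) := by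
    intro x hx hne
    have hN : Algebra.norm L (Quad.conj L M x - x) ≠ 0 := Algebra.norm_ne_zero_iff.2 hne
    have h1 := Quad.v_norm_le (L := L) (v := v) (sub_mem (Quad.conj_mem_lattice hx) hx)
    rw [← exp_log (x := v.valuation L (Algebra.norm L (Quad.conj L M x - x)))
      ((Valuation.ne_zero_iff _).2 hN)] at h1 ⊢
    rw [← exp_zero, exp_le_exp] at h1
    exact ⟨(-log (v.valuation L (Algebra.norm L (Quad.conj L M x - x)))).toNat, by
      congr 1; omega⟩
  have hex : ∃ k : ℕ, ∃ x ∈ Quad.lattice L M v,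
      v.valuation L (Algebra.norm L (Quad.conj L M x - x)) = exp (-(k : ℤ)) := by
    obtain ⟨k, hk⟩ := key z hj hz0
    exact ⟨k, z, hj, hk⟩
  obtain ⟨θ, hθ, hk⟩ := Nat.find_spec hex
  set δ := Quad.conj L M θ - θ with hδ
  have hδ0 : δ ≠ 0 := fun e => by
    rw [e, Algebra.norm_zero, map_zero] at hk
    exact exp_ne_zero hk.symm
  refine ⟨θ, Quad.isGen_of_le hθ hδ0 fun x hx => ?_⟩
  by_cases hne : Quad.conj L M x - x = 0
  · simp [hne]
  obtain ⟨k, hkx⟩ := key x hx hne
  have hle := Nat.find_min' hex ⟨x, hx, hkx⟩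
  rw [hkx, hk, exp_le_exp]
  omega

lemma exists_dual : ∃ e : ℕ, ∀ x : M,
    (∀ y ∈ Quad.lattice L M v, v.valuation L (Algebra.trace L M (x * Quad.conj L M y)) ≤ 1) →
      unif v ^ e • x ∈ Quad.lattice L M v := by
  obtain ⟨θ, hθ⟩ := exists_isGen_any v M
  exact exists_defect hθ (conj_gen_ne hθ)

open Classical in
/-- The local data at `v`. -/
def locQuad : LocQuad L M where
  v := v.valuation L
  π := unif v
  v_π := v_unif v
  q := qv v
  one_lt_q := one_lt_qv v
  σ := Quad.conj L M
  N := Algebra.norm L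
  T := Algebra.trace L M
  N_spec := Quad.norm_spec L M
  T_spec := Quad.trace_spec L M
  σ_σ := Quad.conj_conj L M
  O := (Quad.lattice L M v).toSubring.toAddSubgroup
  smul_mem _ _ ha hx := Quad.smul_mem_lattice ha hx
  mul_mem _ _ hx hy := (Quad.lattice L M v).mul_mem hx hy
  one_mem := (Quad.lattice L M v).one_mem
  σ_mem _ hx := Quad.conj_mem_lattice hx
  N_mem _ hx := Quad.v_norm_le hx
  T_mem _ hx := Quad.v_trace_le hx
  exhaust x := Quad.exists_pow_smul_mem (v_unif v) x
  index := by
    obtain ⟨θ, hθ⟩ := exists_isGen_any v M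
    exact index_eq hθ
  ψ := LocalChar.ψloc v
  ψ_add := LocalChar.ψloc_add
  d := LocalChar.cond v
  ψ_eq_one _ ha := LocalChar.ψloc_eq_one_of_le v ha
  exists_ψ_ne_one := LocalChar.exists_ψloc_ne_one v
  e := Nat.find (exists_dual v M)
  dual_le := Nat.find_spec (exists_dual v M)

variable {v M}

/-- At unramified places the defect vanishes. -/
lemma e_eq_zero (hu : Quad.IsUnr L M v) : (locQuad v M).e = 0 := by
  classical
  obtain ⟨θ, hθ, hN⟩ := hu
  have hg := Quad.isGen_of_unit hθ hN
  refine (Nat.find_eq_zero (exists_dual v M)).2 fun x hx => ?_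
  rw [pow_zero, one_smul]
  set δ := Quad.conj L M θ - θ with hδ
  have hd : δ ≠ 0 := fun e => by simp [e] at hN
  have h1 := hx 1 (one_mem _)
  rw [map_one, mul_one] at h1
  have hδx : δ * x ∈ Quad.lattice L M v := by
    have e : δ * x = algebraMap L M (Algebra.trace L M (x * Quad.conj L M θ)) -
        θ * algebraMap L M (Algebra.trace L M x) := by
      rw [Quad.trace_spec, Quad.trace_spec, map_mul, Quad.conj_conj, hδ]; ring
    rw [e]
    exact sub_mem (Quad.algebraMap_mem_lattice (hx θ hg.1))
      (mul_mem hg.1 (Quad.algebraMap_mem_lattice h1))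
  have hd' : Quad.conj L M δ ≠ 0 := (map_ne_zero_iff _ (Quad.conj L M).injective).2 hd
  have e : x = (Algebra.norm L δ)⁻¹ • (Quad.conj L M δ * (δ * x)) := by
    rw [Algebra.smul_def, map_inv₀, Quad.norm_spec]
    field_simp
  rw [e]
  exact Quad.smul_mem_lattice (by rw [map_inv₀, hN, inv_one])
    (mul_mem (Quad.conj_mem_lattice (sub_mem (Quad.conj_mem_lattice hg.1) hg.1)) hδx)

end Place

end FermatAgent.LT.Theta
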