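import Fermat.Agent.LT.Base.Places

/-!
# Conjugation, norm, trace and the local lattice of a quadratic extension
-/

set_option autoImplicit false

noncomputable section

open IsDedekindDomain NumberField WithZero

namespace FermatAgent.LT.Theta

namespace Quad

variable (L M : Type*) [Field L] [NumberField L] [Field M] [Algebra L M]
  [Algebra.IsQuadraticExtension L M]

lemma natCard_aut : Nat.card Gal(M/L) = 2 := by
  rw [IsGalois.card_aut_eq_finrank, Algebra.IsQuadraticExtension.finrank_eq_two]

lemma exists_conj : ∃ τ : Gal(M/L), τ ≠ 1 := by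
  have : Finite Gal(M/L) := Nat.finite_of_card_ne_zero (by rw [natCard_aut L M]; norm_num)
  have : Nontrivial Gal(M/L) := Finite.one_lt_card_iff_nontrivial.1 (by
    rw [natCard_aut L M]; norm_num)
  exact exists_ne 1

/-- The conjugation. -/
def conj : Gal(M/L) := (exists_conj L M).choose

lemma conj_ne_one : conj L M ≠ 1 := (exists_conj L M).choose_spec

/-- The Galois group has two elements. -/
lemma eq_one_or_conj (τ : Gal(M/L)) : τ = 1 ∨ τ = conj L M := by
  by_contra h
  push Not at h
  have : Finite Gal(M/L) := Nat.finite_of_card_ne_zero (by rw [natCard_aut L M]; norm_num)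
  have := Fintype.ofFinite Gal(M/L)
  classical
  have h3 : ({1, conj L M, τ} : Finset Gal(M/L)).card = 3 :=
    Finset.card_eq_three.2 ⟨1, conj L M, τ, (conj_ne_one L M).symm, h.1.symm, h.2.symm, rfl⟩
  have := Finset.card_le_univ ({1, conj L M, τ} : Finset Gal(M/L))
  rw [h3, ← Nat.card_eq_fintype_card, natCard_aut L M] at this
  omega

/-- Conjugation is an involution. -/
lemma conj_conj (x : M) : conj L M (conj L M x) = x := by
  rcases eq_one_or_conj L M (conj L M * conj L M) with h | h
  · exact DFunLike.congr_fun h x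
  · exact absurd (mul_eq_left.1 h) (conj_ne_one L M)

open Classical in
lemma univ_eq [Fintype Gal(M/L)] : (Finset.univ : Finset Gal(M/L)) = {1, conj L M} :=
  Finset.ext fun τ => by simpa using eq_one_or_conj L M τ

/-- The norm as a product. -/
lemma norm_spec (x : M) : algebraMap L M (Algebra.norm L x) = x * conj L M x := by
  classical
  have : Finite Gal(M/L) := Nat.finite_of_card_ne_zero (by rw [natCard_aut L M]; norm_num)
  have := Fintype.ofFinite Gal(M/L)
  rw [Algebra.norm_eq_prod_automorphisms, univ_eq, Finset.prod_pair (conj_ne_one L M).symm]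
  rfl

/-- The trace as a sum. -/
lemma trace_spec (x : M) : algebraMap L M (Algebra.trace L M x) = x + conj L M x := by
  classical
  have : Finite Gal(M/L) := Nat.finite_of_card_ne_zero (by rw [natCard_aut L M]; norm_num)
  have := Fintype.ofFinite Gal(M/L)
  rw [trace_eq_sum_automorphisms, univ_eq, Finset.sum_pair (conj_ne_one L M).symm]
  rfl

/-- An element is fixed by the conjugation iff it comes from the base. -/
lemma exists_base_of_conj {x : M} (h : conj L M x = x) : ∃ a : L, algebraMap L M a = x := by
  refine ⟨Algebra.trace L M x / 2, ?_⟩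
  have h2 : (2 : M) ≠ 0 := by
    rw [← map_ofNat (algebraMap L M) 2]
    exact (map_ne_zero_iff _ (algebraMap L M).injective).2 two_ne_zero
  rw [map_div₀, trace_spec, h, map_ofNat]
  field_simp
  ring

/-- An anti-invariant element exists. -/
lemma exists_anti : ∃ y : M, y ≠ 0 ∧ conj L M y = -y := by
  obtain ⟨z, hz⟩ : ∃ z : M, conj L M z ≠ z := by
    by_contra h
    push Not at h
    exact conj_ne_one L M (AlgEquiv.ext h)
  exact ⟨z - conj L M z, sub_ne_zero.2 hz.symm, by rw [map_sub, conj_conj]; ring⟩

variable (v : HeightOneSpectrum (𝓞 L))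

/-- The elements of `M` integral over the local ring at `v`. -/
def lattice : Subalgebra (locRing v) M := integralClosure (locRing v) M

variable {L M v}

omit [Algebra.IsQuadraticExtension L M] in
/-- Integers of the base are integral. -/
lemma algebraMap_mem_lattice {a : L} (ha : v.valuation L a ≤ 1) :
    algebraMap L M a ∈ lattice L M v := by
  show IsIntegral (locRing v) (algebraMap L M a)
  exact isIntegral_algebraMap (x := (⟨a, ha⟩ : locRing v))

omit [Algebra.IsQuadraticExtension L M] in
lemma valuation_le_of_mem {a : L} (h : algebraMap L M a ∈ lattice L M v) :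
    v.valuation L a ≤ 1 := by
  have h' : IsIntegral (locRing v) a :=
    (isIntegral_algebraMap_iff (algebraMap L M).injective).1 h
  obtain ⟨b, hb⟩ := IsIntegrallyClosedIn.algebraMap_eq_of_integral h'
  rw [← hb]
  exact b.2

omit [Algebra.IsQuadraticExtension L M] in
/-- The lattice is stable under integral scalars. -/
lemma smul_mem_lattice {a : L} {x : M} (ha : v.valuation L a ≤ 1) (hx : x ∈ lattice L M v) :
    a • x ∈ lattice L M v := by
  rw [Algebra.smul_def]; exact mul_mem (algebraMap_mem_lattice ha) hx

/-- The lattice is stable under conjugation. -/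
lemma conj_mem_lattice {x : M} (hx : x ∈ lattice L M v) : conj L M x ∈ lattice L M v :=
  IsIntegral.map ((conj L M : M ≃ₐ[L] M).toAlgHom.restrictScalars (locRing v)) hx

/-- Norms of lattice elements are integral. -/
lemma v_norm_le {x : M} (hx : x ∈ lattice L M v) : v.valuation L (Algebra.norm L x) ≤ 1 :=
  valuation_le_of_mem (M := M) (by rw [norm_spec]; exact mul_mem hx (conj_mem_lattice hx))

/-- Traces of lattice elements are integral. -/
lemma v_trace_le {x : M} (hx : x ∈ lattice L M v) : v.valuation L (Algebra.trace L M x) ≤ 1 :=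
  valuation_le_of_mem (M := M) (by rw [trace_spec]; exact add_mem hx (conj_mem_lattice hx))

/-- Integral trace and norm mean integral. -/
lemma mem_lattice_of {x : M} (hT : v.valuation L (Algebra.trace L M x) ≤ 1)
    (hN : v.valuation L (Algebra.norm L x) ≤ 1) : x ∈ lattice L M v := by
  set t : locRing v := ⟨Algebra.trace L M x, hT⟩
  set n : locRing v := ⟨Algebra.norm L x, hN⟩
  refine ⟨Polynomial.X ^ 2 + (Polynomial.C (-t) * Polynomial.X + Polynomial.C n), ?_, ?_⟩
  · exact Polynomial.monic_X_pow_add (lt_of_le_of_lt Polynomial.degree_linear_le (by decide))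
  · simp only [Polynomial.eval₂_add, Polynomial.eval₂_mul, Polynomial.eval₂_X_pow,
      Polynomial.eval₂_C, Polynomial.eval₂_X, Polynomial.eval₂_neg, map_neg]
    have e1 : algebraMap (locRing v) M t = x + conj L M x := trace_spec L M x
    have e2 : algebraMap (locRing v) M n = x * conj L M x := norm_spec L M x
    rw [e1, e2]
    ring

/-- Multiples by uniformiser powers are integral. -/
lemma exists_pow_smul_mem {π : L} (hπ : v.valuation L π = exp (-1 : ℤ)) (x : M) :
    ∃ k : ℕ, π ^ k • x ∈ lattice L M v := by
  obtain ⟨k, hk1, hk2⟩ : ∃ k : ℕ, v.valuation L (Algebra.trace L M x) ≤ exp (k : ℤ) ∧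
      v.valuation L (Algebra.norm L x) ≤ exp (k : ℤ) := by
    have key : ∀ a : L, ∃ n : ℕ, v.valuation L a ≤ exp (n : ℤ) := fun a => by
      by_cases ha : a = 0
      · exact ⟨0, by simp [ha]⟩
      · refine ⟨(log (v.valuation L a)).toNat, ?_⟩
        rw [← exp_log (x := v.valuation L a) ((Valuation.ne_zero_iff _).2 ha), exp_le_exp, log_exp]
        exact Int.self_le_toNat _
    obtain ⟨m, hm⟩ := key (Algebra.trace L M x)
    obtain ⟨n, hn⟩ := key (Algebra.norm L x)
    exact ⟨max m n, hm.trans (by rw [exp_le_exp]; omega), hn.trans (by rw [exp_le_exp]; omega)⟩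
  have hpk : v.valuation L (π ^ k) = exp (-(k : ℤ)) := by
    rw [map_pow, hπ, ← exp_nsmul]; simp
  refine ⟨k, mem_lattice_of ?_ ?_⟩
  · rw [map_smul, smul_eq_mul, map_mul, hpk]
    calc _ ≤ exp (-(k : ℤ)) * exp (k : ℤ) := by gcongr
      _ = 1 := by rw [← exp_add, neg_add_cancel, exp_zero]
  · rw [Algebra.smul_def, map_mul, Algebra.norm_algebraMap,
      Algebra.IsQuadraticExtension.finrank_eq_two, map_mul, map_pow, hpk, pow_two, ← exp_add]
    calc _ ≤ exp (-(k : ℤ) + -(k : ℤ)) * exp (k : ℤ) := by gcongr
      _ ≤ 1 := by rw [← exp_add, ← exp_zero, exp_le_exp]; omega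

variable (L M v)

/-- The place is unramified in the extension: some lattice element differs from its conjugate
by a unit. -/
def IsUnr : Prop :=
  ∃ x ∈ lattice L M v, v.valuation L (Algebra.norm L (conj L M x - x)) = 1

/-- A generator of the lattice over the local ring. -/
def IsGen (θ : M) : Prop :=
  θ ∈ lattice L M v ∧ ∀ x ∈ lattice L M v, ∃ a b : L,
    v.valuation L a ≤ 1 ∧ v.valuation L b ≤ 1 ∧ x = algebraMap L M a + b • θ

variable {L M v}

/-- A lattice element differing most from its conjugate generates the lattice. -/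
lemma isGen_of_le {θ : M} (hθ : θ ∈ lattice L M v) (hne : conj L M θ - θ ≠ 0)
    (h : ∀ x ∈ lattice L M v, v.valuation L (Algebra.norm L (conj L M x - x)) ≤
      v.valuation L (Algebra.norm L (conj L M θ - θ))) : IsGen L M v θ := by
  refine ⟨hθ, fun x hx => ?_⟩
  set δ := conj L M θ - θ with hδ
  obtain ⟨b, hb⟩ := exists_base_of_conj L M (x := (conj L M x - x) / δ) (by
    rw [map_div₀, hδ, map_sub, map_sub, conj_conj, conj_conj, ← neg_div_neg_eq, neg_sub, neg_sub])
  have hbv : v.valuation L b ≤ 1 := by
    have h1 := h x hx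
    rw [show conj L M x - x = algebraMap L M b * δ by rw [hb, div_mul_cancel₀ _ hne], map_mul,
      Algebra.norm_algebraMap, Algebra.IsQuadraticExtension.finrank_eq_two, map_mul, map_pow] at h1
    refine (pow_le_one_iff two_ne_zero).1 (le_of_mul_le_mul_right (h1.trans (one_mul _).ge) ?_)
    exact zero_lt_iff.2 ((Valuation.ne_zero_iff _).2 (Algebra.norm_ne_zero_iff.2 hne))
  have hbθ : b • θ ∈ lattice L M v := smul_mem_lattice hbv hθ
  obtain ⟨a, ha⟩ := exists_base_of_conj L M (x := x - b • θ) (by
    rw [map_sub, map_smul, Algebra.smul_def, Algebra.smul_def, hb]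
    field_simp
    rw [hδ]
    ring)
  exact ⟨a, b, valuation_le_of_mem (M := M) (by rw [ha]; exact sub_mem hx hbθ), hbv,
    by rw [ha]; ring⟩

/-- An element of unit discriminant generates. -/
lemma isGen_of_unit {θ : M} (hθ : θ ∈ lattice L M v)
    (h : v.valuation L (Algebra.norm L (conj L M θ - θ)) = 1) : IsGen L M v θ :=
  isGen_of_le hθ (fun e => by simp [e] at h) fun x hx => by
    rw [h]; exact v_norm_le (sub_mem (conj_mem_lattice hx) hx)

/-- At an odd place where the extension ramifies there is an anti-invariant uniformiser. -/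
lemma exists_anti_uniformizer {π : L} (hπ : v.valuation L π = exp (-1 : ℤ))
    (h2 : v.valuation L 2 = 1) (hr : ¬IsUnr L M v) :
    ∃ ϖ : M, ϖ ∈ lattice L M v ∧ conj L M ϖ = -ϖ ∧
      v.valuation L (Algebra.norm L ϖ) = exp (-1 : ℤ) ∧ IsGen L M v ϖ := by
  obtain ⟨y, hy0, hy⟩ := exists_anti L M
  have hN0 : Algebra.norm L y ≠ 0 := Algebra.norm_ne_zero_iff.2 hy0
  set n := log (v.valuation L (Algebra.norm L y)) with hn
  have hvN : v.valuation L (Algebra.norm L y) = exp n :=
    (exp_log ((Valuation.ne_zero_iff _).2 hN0)).symm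
  set j : ℤ := (n + 1) / 2 with hj
  set z : M := π ^ j • y with hz
  have hzc : conj L M z = -z := by rw [hz, map_smul, hy, smul_neg]
  have hzN : v.valuation L (Algebra.norm L z) = exp (n - 2 * j) := by
    rw [hz, Algebra.smul_def, map_mul, Algebra.norm_algebraMap,
      Algebra.IsQuadraticExtension.finrank_eq_two, map_mul, map_pow, map_zpow₀, hπ, hvN,
      ← exp_zsmul, pow_two, ← exp_add, ← exp_add]
    congr 1
    simp; ring
  have hzT : Algebra.trace L M z = 0 :=
    (algebraMap L M).injective (by rw [trace_spec, hzc, add_neg_cancel, map_zero])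
  have hzmem : z ∈ lattice L M v := mem_lattice_of (by simp [hzT]) (by
    rw [hzN, ← exp_zero, exp_le_exp]; omega)
  have hd : v.valuation L (Algebra.norm L (conj L M z - z)) = exp (n - 2 * j) := by
    rw [hzc, show -z - z = (-2 : L) • z by rw [neg_smul, two_smul]; ring, Algebra.smul_def,
      map_mul, Algebra.norm_algebraMap, Algebra.IsQuadraticExtension.finrank_eq_two, map_mul,
      map_pow, Valuation.map_neg, h2, one_pow, one_mul, hzN]
  obtain h | h : n - 2 * j = 0 ∨ n - 2 * j = -1 := by omega
  · exact absurd ⟨z, hzmem, by rw [hd, h, exp_zero]⟩ hr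
  refine ⟨z, hzmem, hzc, by rw [hzN, h], isGen_of_le hzmem (fun e => ?_) fun x hx => ?_⟩
  · rw [e, Algebra.norm_zero, map_zero] at hd
    exact exp_ne_zero hd.symm
  · rw [hd, h]
    by_contra hc
    refine hr ⟨x, hx, le_antisymm (v_norm_le (sub_mem (conj_mem_lattice hx) hx)) ?_⟩
    generalize v.valuation L (Algebra.norm L (conj L M x - x)) = t at hc ⊢
    obtain ⟨k, rfl⟩ : ∃ k : ℤ, t = exp k :=
      ⟨log t, (exp_log fun e : t = 0 => hc (by rw [e]; exact zero_le)).symm⟩
    rw [exp_le_exp] at hc
    rw [← exp_zero, exp_le_exp]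
    omega

end Quad

end FermatAgent.LT.Theta
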