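import Fermat.Agent.LT.Theta.Rep

/-!
# The sign of the Gauss sum: unramified and tamely ramified residue characteristic three

At a unimodular place (`IsUnimodular`: no defect, residually surjective norm) the Gauss sum is
one at the conductor (`G_eq_one`) and `ε / q` one step beyond, for a sign `ε` whose unramified
character `unrChar` is the sign character (`exists_sign_unimodular`). When every nonzero
residue has unit norm, `sign_eq_neg_one` shows `ε = -1` by evaluating a double integral in both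
orders.
-/

set_option autoImplicit false

noncomputable section

open WithZero

namespace FermatAgent.LT.Theta

namespace LatticeChain

variable {A : Type*} [AddCommGroup A] {C : LatticeChain A}

/-- Integrals of indicators are nonnegative reals. -/
lemma integ_nonneg {S : Set A} {m n : ℤ} (hn : C.IsPeriodic n (S.indicator fun _ => (1 : ℂ)))
    (hm : C.IsSupported m (S.indicator fun _ => (1 : ℂ))) :
    ∃ r : ℝ, 0 ≤ r ∧ C.integ (S.indicator fun _ => (1 : ℂ)) = r := by
  classical
  set T := (finite_support_out (n := n) hm).toFinset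
  have h1 : ∀ c ∈ T, S.indicator (fun _ => (1 : ℂ)) c.out = 1 := fun c hc => by
    simp only [T, Set.Finite.mem_toFinset, Function.mem_support] at hc
    by_cases h : c.out ∈ S
    · simp [h]
    · simp [h] at hc
  refine ⟨((C.Q : ℝ) ^ n)⁻¹ * (T.card : ℝ), by positivity, ?_⟩
  rw [integ_eq hn hm, sumAt, finsum_eq_sum _ (finite_support_out hm), Finset.sum_congr rfl h1]
  simp [T]

end LatticeChain

namespace LocQuad

variable {F M : Type*} [Field F] [Field M] [Algebra F M] (D : LocQuad F M)

/-- The zeroth lattice is the integers. -/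
lemma lat_zero : D.lat 0 = D.O := by
  ext x; simp [mem_lat]

/-- Base elements in lattices. -/
lemma algebraMap_mem_lat_iff {a : F} {k : ℤ} :
    algebraMap F M a ∈ D.lat k ↔ D.v a ≤ exp (-k) := by
  refine ⟨fun h => ?_, fun h => ?_⟩
  · have := D.v_N_le h
    rw [D.N_algebraMap, map_pow] at this
    by_cases ha : a = 0
    · simp [ha]
    obtain ⟨n, hn⟩ := D.exists_v_eq ha
    rw [hn, ← exp_nsmul, exp_le_exp] at this
    rw [hn, exp_le_exp]
    simp at this
    omega
  · have := D.smul_mem_lat (k := 0) h (show (1 : M) ∈ D.lat 0 by rw [D.lat_zero]; exact D.one_mem)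
    rwa [zero_add, Algebra.smul_def, mul_one] at this

lemma gauss_phase_congr {c c' : F} {a : ℤ} (hc : D.v c = exp a) (hc' : D.v c' = exp a)
    (h : D.v (c - c') ≤ exp (a - 1)) (ha : a ≤ D.d + 1) (he : D.lat (a - D.d - 1 - D.e) ≤ D.lat 0) :
    D.G c = D.G c' := by
  have key : ∀ x ∈ D.lat 0, D.ψ (c * D.N x) = D.ψ (c' * D.N x) := fun x hx => by
    rw [show c * D.N x = (c - c') * D.N x + c' * D.N x by ring, D.ψ_add,
      D.ψ_N_eq_one h hx (by omega), one_mul]
  have hb : ∀ b : F, D.v b = exp a → D.G b =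
      D.chain.integ (fun x => D.chain.ind 0 x * D.ψ (b * D.N x)) := by
    intro b hb
    have hb0 : b ≠ 0 := fun h => exp_ne_zero (a := a) (by rw [← hb, h, map_zero])
    have hae : D.ordE b = a := by rw [ordE, hb, log_exp]
    have h1 := D.gauss_eq (j := 1) (m := 0) (S := D.lat 0) hb (by omega) (D.lat_mono (by omega)) he
      le_rfl
    have h2 := D.gauss_eq (j := 1) (m := min 0 (D.stab b)) (S := D.lat (min 0 (D.stab b))) hb
      (by omega) (D.lat_mono ((min_le_left _ _).trans (by omega)))
      (he.trans (D.lat_mono (min_le_left _ _))) le_rfl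
    rw [← D.gaussAt_eq_G hb0 (min_le_right 0 (D.stab b))]
    exact h2.trans h1.symm
  rw [hb c hc, hb c' hc']
  refine congrArg _ (funext fun x => ?_)
  by_cases hx : x ∈ D.lat 0
  · rw [key x hx]
  · simp [LatticeChain.ind_supported (C := D.chain) 0 x hx]

/-- The unramified sign character with value `ε` at uniformisers. -/
def unrChar (ε : ℂ) (hε : ε ≠ 0) : F →* ℂ where
  toFun a := open Classical in if a = 0 then 0 else ε ^ log (D.v a)
  map_one' := by simp
  map_mul' a b := by
    classical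
    by_cases ha : a = 0
    · simp [ha]
    by_cases hb : b = 0
    · simp [hb]
    rw [if_neg ha, if_neg hb, if_neg (mul_ne_zero ha hb), map_mul,
      log_mul ((Valuation.ne_zero_iff _).2 ha) ((Valuation.ne_zero_iff _).2 hb), zpow_add₀ hε]

/-- The unramified character. -/
lemma unrChar_apply {ε : ℂ} (hε : ε ≠ 0) {a : F} {n : ℤ} (h : D.v a = exp n) :
    D.unrChar ε hε a = ε ^ n := by
  classical
  have ha : a ≠ 0 := fun h' => exp_ne_zero (a := n) (by rw [← h, h', map_zero])
  show (if a = 0 then (0 : ℂ) else ε ^ log (D.v a)) = _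
  rw [if_neg ha, h, log_exp]

/-- The hypotheses at an unramified place. -/
structure IsUnimodular : Prop where
  e_eq : D.e = 0
  norm_surj : ∀ u, D.v u = 1 → ∃ h ∈ D.O, D.v (u - D.N h) < 1

variable {D} (hD : D.IsUnimodular)

include hD in
/-- Orthogonal lattices at unimodular places. -/
lemma orth_eq_lat {c : F} {a : ℤ} (hc : D.v c = exp a) (k : ℤ) :
    D.orth c k = (D.lat (a - D.d - k) : Set M) := by
  ext z
  refine ⟨fun h => ?_, fun h y hy => D.ψ_B_eq_one hc.le h hy (by omega)⟩
  have := D.mem_lat_of_orth hc h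
  rwa [hD.e_eq, Nat.cast_zero, sub_zero] at this

include hD in
lemma G_unit_smul {c u : F} (hc : D.v c = exp (D.d + 1)) (hu : D.v u = 1) :
    D.G (c * u) = D.G c := by
  obtain ⟨h, hh, hlt⟩ := hD.norm_surj u hu
  have hN : D.v (D.N h) = 1 := by
    rw [show D.N h = u - (u - D.N h) by ring, Valuation.map_sub_eq_of_lt_left _ (by rwa [hu]), hu]
  have hh0 : h ≠ 0 := fun e => by simp [e, D.N_eq_zero.2 rfl] at hN
  have hc0 : c ≠ 0 := fun h => exp_ne_zero (a := D.d + 1) (by rw [← hc, h, map_zero])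
  have hle : D.v (u - D.N h) ≤ exp (-1 : ℤ) := by
    by_cases h0 : u - D.N h = 0
    · simp [h0]
    obtain ⟨n, hn⟩ := D.exists_v_eq h0
    rw [hn, ← exp_zero, exp_lt_exp] at hlt
    rw [hn, exp_le_exp]; omega
  have e1 : D.G (c * u) = D.G (c * D.N h) := by
    refine D.gauss_phase_congr (a := D.d + 1) (by rw [map_mul, hu, hc, mul_one])
      (by rw [map_mul, hN, hc, mul_one]) ?_ le_rfl (D.lat_mono (by rw [hD.e_eq]; omega))
    rw [← mul_sub, map_mul, hc, add_sub_cancel_right]
    calc exp (D.d + 1) * D.v (u - D.N h) ≤ exp (D.d + 1) * exp (-1 : ℤ) := by gcongr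
      _ = exp D.d := by rw [← exp_add, add_neg_cancel_right]
  rw [e1, D.G_mul_N hc0 hh0, D.absv_exp (show D.v (D.N h) = exp 0 by rw [hN, exp_zero])]
  simp

include hD in
/-- The Gauss sum at the conductor is one. -/
lemma G_eq_one {c : F} (hc : D.v c = exp D.d) : D.G c = 1 := by
  have hc0 : c ≠ 0 := fun h => exp_ne_zero (a := D.d) (by rw [← hc, h, map_zero])
  have h1 := D.gauss_eq (j := 0) (m := 0) (S := D.lat 0) hc (by omega) le_rfl
    (D.lat_mono (by rw [hD.e_eq]; omega)) le_rfl
  have h2 := D.gauss_eq (j := 0) (m := min 0 (D.stab c)) (S := D.lat (min 0 (D.stab c))) hc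
    (by omega) (D.lat_mono (min_le_left _ _))
    (D.lat_mono (by rw [hD.e_eq]; have := min_le_left 0 (D.stab c); omega)) le_rfl
  rw [← D.gaussAt_eq_G hc0 (min_le_right 0 (D.stab c))]
  refine (h2.trans h1.symm).trans ?_
  refine Eq.trans (congrArg _ (funext fun x => ?_))
    (show D.chain.integ (D.chain.ind 0) = 1 by rw [LatticeChain.integ_ind]; simp)
  by_cases hx : x ∈ D.lat 0
  · rw [D.ψ_N_eq_one hc.le hx (by omega), mul_one]; rfl
  · have := LatticeChain.ind_supported (C := D.chain) 0 x hx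
    simp [this, show x ∉ D.lat 0 from hx]

lemma integ_lat (k : ℤ) :
    D.chain.integ ((D.lat k : Set M).indicator fun _ => (1 : ℂ)) = ((D.q : ℂ) ^ (2 * k))⁻¹ := by
  rw [show (D.lat k : Set M).indicator (fun _ => (1 : ℂ)) = D.chain.ind k from rfl,
    LatticeChain.integ_ind, zpow_mul]
  simp [chain]

include hD in
/-- The sign at an unramified place. -/
theorem exists_sign_unimodular :
    ∃ (ε : ℂ) (hε : ε ≠ 0), ε * ε = 1 ∧ D.IsSignChar (D.unrChar ε hε) ∧
      (∀ c, D.v c = exp (D.d + 1) → D.G c = ε / D.q) := by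
  set c₁ := D.π ^ (-(D.d + 1)) with hc₁def
  have hc₁ : D.v c₁ = exp (D.d + 1) := by rw [v_zpow, neg_neg]
  have hc₁0 : c₁ ≠ 0 := zpow_ne_zero _ D.π_ne_zero
  have hq : (D.q : ℂ) ≠ 0 := Nat.cast_ne_zero.2 (zero_lt_one.trans D.one_lt_q).ne'
  set ε := D.G c₁ * D.q with hεdef
  have hneg : D.G (-c₁) = D.G c₁ := by
    have := G_unit_smul hD hc₁ (u := -1) (by simp)
    rwa [mul_neg, mul_one] at this
  have hsq : ε * ε = 1 := by
    obtain ⟨k, -, h1, h2, h3, h4⟩ := D.exists_small c₁ 0
    have := D.G_mul_G_neg hc₁0 h1 h2 h3 h4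
    rw [hneg, dualVol, orth_eq_lat hD hc₁, integ_lat] at this
    have e : ((D.chain.Q : ℂ) ^ k)⁻¹ * ((D.q : ℂ) ^ (2 * (D.d + 1 - D.d - k)))⁻¹ =
        ((D.q : ℂ) ^ 2)⁻¹ := by
      rw [show D.chain.Q = D.q ^ 2 from rfl, Nat.cast_pow, ← mul_inv, ← zpow_natCast (D.q : ℂ) 2,
        ← zpow_mul, ← zpow_add₀ hq]
      congr 2
      ring
    rw [e] at this
    rw [hεdef, show D.G c₁ * D.q * (D.G c₁ * D.q) = D.G c₁ * D.G c₁ * (D.q : ℂ) ^ 2 by ring,
      this, inv_mul_cancel₀ (pow_ne_zero 2 hq)]
  have hε : ε ≠ 0 := fun h => by simp [h] at hsq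
  have hodd : ∀ c, D.v c = exp (D.d + 1) → D.G c = ε / D.q := by
    intro c hc
    have hu : D.v (c / c₁) = 1 := by rw [map_div₀, hc, hc₁, div_self exp_ne_zero]
    have := G_unit_smul hD hc₁ hu
    rw [mul_div_cancel₀ c hc₁0] at this
    rw [this, hεdef, mul_div_cancel_right₀ _ hq]
  have hG : ∀ c a, D.v c = exp a → D.G c = (ε / D.q) ^ (a - D.d) := by
    intro c a hc
    obtain ⟨k, r, hr, hkr⟩ : ∃ k r : ℤ, (r = 0 ∨ r = 1) ∧ a - D.d = 2 * k + r :=
      ⟨(a - D.d) / 2, (a - D.d) % 2, by omega, by omega⟩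
    set h := algebraMap F M (D.π ^ (-k)) with hh
    have hh0 : h ≠ 0 :=
      (map_ne_zero_iff _ (algebraMap F M).injective).2 (zpow_ne_zero _ D.π_ne_zero)
    set c' := c * (D.π ^ k) ^ 2 with hc'
    have hvc' : D.v c' = exp (D.d + r) := by
      rw [hc', map_mul, map_pow, v_zpow, hc, ← exp_nsmul, ← exp_add]
      congr 1
      simp only [smul_neg, nsmul_eq_mul, Nat.cast_ofNat]
      omega
    have hc'0 : c' ≠ 0 := fun h => exp_ne_zero (a := D.d + r) (by rw [← hvc', h, map_zero])
    have hcc : c = c' * D.N h := by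
      rw [hh, D.N_algebraMap, hc', mul_assoc, ← mul_pow, ← zpow_add₀ D.π_ne_zero]
      simp
    have hNv : D.v (D.N h) = exp (2 * k) := by
      rw [hh, D.N_algebraMap, map_pow, v_zpow, neg_neg, ← exp_nsmul]
      simp
    have hr' : D.G c' = (ε / D.q) ^ r := by
      rcases hr with rfl | rfl
      · rw [zpow_zero]; exact G_eq_one hD (by rwa [add_zero] at hvc')
      · rw [zpow_one]; exact hodd c' hvc'
    rw [hcc, D.G_mul_N hc'0 hh0, D.absv_exp hNv, hr', hkr,
      zpow_add₀ (div_ne_zero hε hq), div_zpow ε (D.q : ℂ) (2 * k), zpow_mul ε,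
      show ε ^ (2 : ℤ) = 1 by rw [zpow_two]; exact hsq, one_zpow]
    push_cast
    ring
  refine ⟨ε, hε, hsq, ⟨fun a ha => ?_, fun c a hc ha => ?_⟩, hodd⟩
  · obtain ⟨n, hn⟩ := D.exists_v_eq ha
    rw [D.unrChar_apply hε hn, ← mul_zpow, hsq, one_zpow]
  · obtain ⟨n, hn⟩ := D.exists_v_eq ha
    obtain ⟨m, hm⟩ := D.exists_v_eq hc
    rw [hG (c * a) (m + n) (by rw [map_mul, hm, hn, exp_add]), hG c m hm, D.unrChar_apply hε hn,
      D.absv_exp hn, show m + n - D.d = n + (m - D.d) by ring, zpow_add₀ (div_ne_zero hε hq),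
      div_zpow ε _ n]
    push_cast
    ring

variable (D) in
/-- The kernel of the double integral. -/
private def signKer (c : F) (x y : M) : ℂ :=
  D.chain.ind 0 x * (D.ψ (c * D.N x * D.B y 1) * D.chain.ind 0 y)

variable (D) in
/-- The integral vectors of small trace. -/
private def traceSet : Set M := {y | y ∈ D.lat 0 ∧ D.v (D.B y 1) < 1}

/-- The order of integration of the double integral may be changed. -/
private lemma integ_signKer_swap {c : F} (hc : D.v c = exp (D.d + 1)) :
    D.chain.integ (fun x => D.chain.integ (D.signKer c x)) =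
      D.chain.integ fun y => D.chain.integ fun x => D.signKer c x y := by
  have h1O : (1 : M) ∈ D.lat 0 := by rw [D.lat_zero]; exact D.one_mem
  have hp : ∀ {x y b : M}, x ∈ D.lat 0 → y ∈ D.lat 0 → b ∈ D.lat 1 →
      D.ψ (c * D.N x * D.B (y + b) 1) = D.ψ (c * D.N x * D.B y 1) ∧
      D.ψ (c * D.N (x + b) * D.B y 1) = D.ψ (c * D.N x * D.B y 1) := by
    intro x y b hx hy hb
    have hNx : D.v (c * D.N x) ≤ exp (D.d + 1) := by
      rw [map_mul, hc]
      exact mul_le_of_le_one_right zero_le (by simpa using D.v_N_le hx)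
    have hBy : D.v (c * D.B y 1) ≤ exp (D.d + 1) := by
      rw [map_mul, hc]
      exact mul_le_of_le_one_right zero_le (by simpa using D.v_B_le hy h1O)
    refine ⟨?_, ?_⟩
    · rw [D.B_add_left, mul_add, D.ψ_add, D.ψ_B_eq_one hNx hb h1O (by omega), mul_one]
    · rw [D.N_add, show c * (D.N x + D.N b + D.B x b) * D.B y 1 =
        c * D.N x * D.B y 1 + (c * D.B y 1 * D.N b + c * D.B y 1 * D.B x b) by ring, D.ψ_add,
        D.ψ_add, D.ψ_N_eq_one hBy hb (by omega), D.ψ_B_eq_one hBy hx hb (by omega), mul_one,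
        mul_one]
  refine LatticeChain.integ_swap (C := D.chain) (F := D.signKer c) (n := 1) (m := 0)
    (fun y x b hb => ?_) (fun x y b hb => ?_) ?_
  · show D.chain.ind 0 (x + b) * _ = _
    rw [LatticeChain.ind_periodic (by omega) x b hb]
    by_cases hx : x ∈ D.lat 0
    · by_cases hy : y ∈ D.lat 0
      · rw [(hp hx hy hb).2]; rfl
      · simp [signKer, LatticeChain.ind_supported (C := D.chain) 0 y hy]
    · simp [signKer, LatticeChain.ind_supported (C := D.chain) 0 x hx]
  · show D.chain.ind 0 x * (_ * D.chain.ind 0 (y + b)) = _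
    rw [LatticeChain.ind_periodic (by omega) y b hb]
    by_cases hx : x ∈ D.lat 0
    · by_cases hy : y ∈ D.lat 0
      · rw [(hp hx hy hb).1]; rfl
      · simp [signKer, LatticeChain.ind_supported (C := D.chain) 0 y hy]
    · simp [signKer, LatticeChain.ind_supported (C := D.chain) 0 x hx]
  · rintro x y (hx | hy)
    · simp [signKer, LatticeChain.ind_supported (C := D.chain) 0 x hx]
    · simp [signKer, LatticeChain.ind_supported (C := D.chain) 0 y hy]

include hD in
/-- Integrating in `y` leaves the residually isotropic vectors. -/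
private lemma integ_signKer_left (hfield : ∀ x ∈ D.O, D.v (D.N x) < 1 → x ∈ D.lat 1) {c : F}
    (hc : D.v c = exp (D.d + 1)) (x : M) :
    D.chain.integ (D.signKer c x) = D.chain.ind 1 x := by
  have h1O : (1 : M) ∈ D.lat 0 := by rw [D.lat_zero]; exact D.one_mem
  show D.chain.integ (fun y => D.signKer c x y) = _
  by_cases hx : x ∈ D.lat 0
  · have hi : D.chain.ind 0 x = 1 := by simp [LatticeChain.ind, chain, hx]
    by_cases hN : D.v (D.N x) < 1
    · have hx1 : x ∈ D.lat 1 := hfield x (by rwa [D.lat_zero] at hx) hN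
      rw [show D.chain.ind 1 x = 1 by simp [LatticeChain.ind, chain, hx1],
        ← (show D.chain.integ (D.chain.ind 0) = 1 by rw [LatticeChain.integ_ind]; simp)]
      refine congrArg _ (funext fun y => ?_)
      by_cases hy : y ∈ D.lat 0
      · have hN2 := D.v_N_le hx1
        have hB := D.v_B_le hy h1O
        simp only [signKer, hi, one_mul]
        rw [show D.ψ (c * D.N x * D.B y 1) = 1 from D.ψ_eq_one _ (by
          rw [map_mul, map_mul, hc]
          calc exp (D.d + 1) * D.v (D.N x) * D.v (D.B y 1)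
              ≤ exp (D.d + 1) * exp (-(2 * 1)) * exp (-(0 + 0)) := by gcongr
            _ ≤ exp D.d := by rw [← exp_add, ← exp_add, exp_le_exp]; omega), one_mul]
      · simp [signKer, LatticeChain.ind_supported (C := D.chain) 0 y hy]
    · have hx1 : x ∉ D.lat 1 := fun h => hN ((D.v_N_le h).trans_lt (by
        rw [← exp_zero, exp_lt_exp]; norm_num))
      rw [show D.chain.ind 1 x = 0 by simp [LatticeChain.ind, chain, hx1]]
      simp only [signKer, hi, one_mul]
      have hNx : D.v (D.N x) = 1 :=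
        le_antisymm (by simpa using D.v_N_le hx) (not_lt.1 hN)
      have hcN : D.v (c * D.N x) = exp (D.d + 1) := by rw [map_mul, hc, hNx, mul_one]
      rw [D.integ_ψ_B hcN 0 (1 : M), Set.indicator_of_notMem, mul_zero]
      rw [orth_eq_lat hD hcN]
      show (1 : M) ∉ D.lat _
      rw [← map_one (algebraMap F M), D.algebraMap_mem_lat_iff, map_one, ← exp_zero, exp_le_exp]
      omega
  · have hx1 : x ∉ D.lat 1 := fun h => hx (D.lat_mono (by omega) h)
    simp only [signKer, LatticeChain.ind_supported (C := D.chain) 0 x hx,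
      LatticeChain.ind_supported (C := D.chain) 1 x hx1, zero_mul]
    exact LatticeChain.integ_zero

include hD in
/-- Integrating in `x` gives Gauss sums. -/
private lemma integ_signKer_right (hG : ∀ c, D.v c = exp (D.d + 1) → D.G c = 1 / D.q) {c : F}
    (hc : D.v c = exp (D.d + 1)) (y : M) :
    D.chain.integ (fun x => D.signKer c x y) = D.traceSet.indicator (fun _ => (1 : ℂ)) y +
      (1 / D.q) * ((D.lat 0 : Set M) \ D.traceSet).indicator (fun _ => (1 : ℂ)) y := by
  have h1O : (1 : M) ∈ D.lat 0 := by rw [D.lat_zero]; exact D.one_mem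
  by_cases hy : y ∈ D.lat 0
  · have hi : D.chain.ind 0 y = 1 := by simp [LatticeChain.ind, chain, hy]
    have e : (fun x => D.signKer c x y) =
        fun x => D.chain.ind 0 x * D.ψ (c * D.B y 1 * D.N x) := by
      funext x; simp only [signKer, hi, mul_one]; ring_nf
    rw [e]
    by_cases hB : D.v (D.B y 1) < 1
    · rw [Set.indicator_of_mem (show y ∈ D.traceSet from ⟨hy, hB⟩),
        Set.indicator_of_notMem (fun h => h.2 ⟨hy, hB⟩), mul_zero, add_zero,
        ← (show D.chain.integ (D.chain.ind 0) = 1 by rw [LatticeChain.integ_ind]; simp)]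
      refine congrArg _ (funext fun x => ?_)
      by_cases hx : x ∈ D.lat 0
      · rw [D.ψ_N_eq_one (a := D.d) ?_ hx (by omega), mul_one]
        by_cases h0 : D.B y 1 = 0
        · simp [h0]
        obtain ⟨n, hn⟩ := D.exists_v_eq h0
        rw [hn, ← exp_zero, exp_lt_exp] at hB
        rw [map_mul, hc, hn, ← exp_add, exp_le_exp]; omega
      · simp [LatticeChain.ind_supported (C := D.chain) 0 x hx]
    · have hB1 : D.v (D.B y 1) = 1 :=
        le_antisymm (by simpa using D.v_B_le hy h1O) (not_lt.1 hB)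
      have hcB : D.v (c * D.B y 1) = exp (D.d + 1) := by rw [map_mul, hc, hB1, mul_one]
      rw [Set.indicator_of_notMem (show y ∉ D.traceSet from fun h => hB h.2),
        Set.indicator_of_mem (show y ∈ (D.lat 0 : Set M) \ D.traceSet from
          ⟨hy, fun h => hB h.2⟩), zero_add, mul_one]
      have hcB0 : c * D.B y 1 ≠ 0 :=
        fun h => exp_ne_zero (a := D.d + 1) (by rw [← hcB, h, map_zero])
      have h1 := D.gauss_eq (j := 1) (m := 0) (S := D.lat 0) hcB (by omega)
        (D.lat_mono (by omega)) (D.lat_mono (by rw [hD.e_eq]; omega)) le_rfl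
      have h2 := D.gauss_eq (j := 1) (m := min 0 (D.stab (c * D.B y 1)))
        (S := D.lat (min 0 (D.stab (c * D.B y 1)))) hcB (by omega)
        (D.lat_mono ((min_le_left _ _).trans (by omega)))
        (D.lat_mono (by rw [hD.e_eq]; have := min_le_left 0 (D.stab (c * D.B y 1)); omega))
        le_rfl
      have h3 := D.gaussAt_eq_G hcB0 (min_le_right 0 (D.stab (c * D.B y 1)))
      rw [hG _ hcB] at h3
      exact (h1.trans h2.symm).trans h3
  · simp only [signKer, LatticeChain.ind_supported (C := D.chain) 0 y hy, mul_zero]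
    rw [Set.indicator_of_notMem (show y ∉ D.traceSet from fun h => hy h.1),
      Set.indicator_of_notMem (show y ∉ (D.lat 0 : Set M) \ D.traceSet from fun h => hy h.1)]
    simp [LatticeChain.integ_zero]

/-- The integral vectors of small trace and the others are periodic and integral. -/
private lemma traceSet_indicator :
    D.chain.IsPeriodic 1 (D.traceSet.indicator fun _ => (1 : ℂ)) ∧
      D.chain.IsSupported 0 (D.traceSet.indicator fun _ => (1 : ℂ)) ∧
      D.chain.IsPeriodic 1 (((D.lat 0 : Set M) \ D.traceSet).indicator fun _ => (1 : ℂ)) ∧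
      D.chain.IsSupported 0 (((D.lat 0 : Set M) \ D.traceSet).indicator fun _ => (1 : ℂ)) := by
  have h1O : (1 : M) ∈ D.lat 0 := by rw [D.lat_zero]; exact D.one_mem
  have key : ∀ y b, y ∈ D.traceSet → b ∈ D.lat 1 → y + b ∈ D.traceSet := fun y b hy hb => by
    refine ⟨add_mem hy.1 (D.lat_mono (by omega) hb), ?_⟩
    rw [D.B_add_left]
    refine Valuation.map_add_lt _ hy.2 ((D.v_B_le hb h1O).trans_lt ?_)
    rw [← exp_zero, exp_lt_exp]; norm_num
  have hSp : D.chain.IsPeriodic 1 (D.traceSet.indicator fun _ => (1 : ℂ)) := by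
    intro y b hb
    by_cases hy : y ∈ D.traceSet
    · simp [hy, key y b hy hb]
    · have : y + b ∉ D.traceSet := fun h => hy (by simpa using key _ _ h (neg_mem hb))
      simp [hy, this]
  have h0p : D.chain.IsPeriodic 1 ((D.lat 0 : Set M).indicator fun _ => (1 : ℂ)) :=
    LatticeChain.ind_periodic (C := D.chain) (k := 0) (by omega)
  refine ⟨hSp, fun y hy => Set.indicator_of_notMem (fun h : y ∈ D.traceSet => hy h.1) _,
    fun y b hb => ?_,
    fun y hy => Set.indicator_of_notMem (fun h : y ∈ (D.lat 0 : Set M) \ D.traceSet => hy h.1) _⟩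
  have h1 := hSp y b hb
  have h2 := h0p y b hb
  by_cases a1 : y ∈ D.traceSet <;> by_cases a2 : y + b ∈ D.traceSet <;>
    by_cases a3 : y ∈ (D.lat 0 : Set M) <;> by_cases a4 : y + b ∈ (D.lat 0 : Set M) <;>
      simp [a1, a2, a3, a4] at h1 h2 ⊢

include hD in
/-- If every nonzero residue has unit norm the sign is `-1`. -/
lemma sign_eq_neg_one (hfield : ∀ x ∈ D.O, D.v (D.N x) < 1 → x ∈ D.lat 1) {ε : ℂ}
    (hsq : ε * ε = 1) (hG : ∀ c, D.v c = exp (D.d + 1) → D.G c = ε / D.q) : ε = -1 := by
  rcases mul_self_eq_one_iff.1 hsq with h | h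
  swap
  · exact h
  exfalso
  subst h
  have hc : D.v (D.π ^ (-(D.d + 1))) = exp (D.d + 1) := by rw [v_zpow, neg_neg]
  have hq2 : (2 : ℝ) ≤ (D.q : ℝ) := by exact_mod_cast D.one_lt_q
  have hsw := integ_signKer_swap (D := D) hc
  simp only [integ_signKer_left hD hfield hc, integ_signKer_right hD hG hc] at hsw
  obtain ⟨hSp, hSm, hdp, hdm⟩ := traceSet_indicator (D := D)
  set S := D.traceSet
  obtain ⟨r, hr0, hr⟩ := LatticeChain.integ_nonneg hSp hSm
  obtain ⟨s, hs0, hs⟩ := LatticeChain.integ_nonneg hdp hdm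
  have hrs : r + s = 1 := by
    have e : (D.lat 0 : Set M).indicator (fun _ => (1 : ℂ)) = S.indicator (fun _ => (1 : ℂ)) +
        ((D.lat 0 : Set M) \ S).indicator fun _ => (1 : ℂ) := by
      funext y
      by_cases hy : y ∈ S
      · simp [hy, show y ∈ (D.lat 0 : Set M) from hy.1]
      · by_cases hy0 : y ∈ (D.lat 0 : Set M) <;> simp [hy, hy0]
    have h1 := integ_lat (D := D) 0
    rw [e, LatticeChain.integ_add (LatticeChain.mem_schwartz hSp hSm)
      (LatticeChain.mem_schwartz hdp hdm), hr, hs] at h1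
    simp at h1
    exact_mod_cast h1
  have h2 : D.chain.integ (D.chain.ind 1) = ((r + 1 / D.q * s : ℝ) : ℂ) := by
    rw [hsw, show (fun y => S.indicator (fun _ => (1 : ℂ)) y +
        1 / (D.q : ℂ) * ((D.lat 0 : Set M) \ S).indicator (fun _ => (1 : ℂ)) y) =
        S.indicator (fun _ => (1 : ℂ)) + fun y => 1 / (D.q : ℂ) *
          ((D.lat 0 : Set M) \ S).indicator (fun _ => (1 : ℂ)) y from rfl,
      LatticeChain.integ_add (LatticeChain.mem_schwartz hSp hSm)
        (show (fun y => 1 / (D.q : ℂ) * ((D.lat 0 : Set M) \ S).indicator (fun _ => (1 : ℂ)) y) ∈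
            D.chain.schwartz from
          D.chain.schwartz.smul_mem _ (LatticeChain.mem_schwartz hdp hdm)),
      LatticeChain.integ_smul (LatticeChain.mem_schwartz hdp hdm), hr, hs]
    push_cast
    ring
  rw [LatticeChain.integ_ind, zpow_one, show D.chain.Q = D.q ^ 2 from rfl, Nat.cast_pow] at h2
  have h3 : ((D.q : ℝ) ^ 2)⁻¹ = r + 1 / (D.q : ℝ) * s := by
    refine Complex.ofReal_injective ?_
    push_cast at h2 ⊢
    exact h2
  field_simp at h3
  nlinarith [mul_nonneg hr0 (by linarith : (0 : ℝ) ≤ (D.q : ℝ) - 1)]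

end LocQuad

end FermatAgent.LT.Theta
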