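import Fermat.Agent.LT.Theta.Sign

/-!
# The sign at split places, and tame ramification with three residues
-/

set_option autoImplicit false

noncomputable section

open WithZero

namespace FermatAgent.LT.Theta

namespace LocQuad

variable {F M : Type*} [Field F] [Field M] [Algebra F M] {D : LocQuad F M}

/-- Small elements have negative exponent. -/
lemma v_le_exp_of_lt_one {x : F} (h : D.v x < 1) : D.v x ≤ exp (-1 : ℤ) := by
  by_cases h0 : x = 0
  · simp [h0]
  obtain ⟨n, hn⟩ := D.exists_v_eq h0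
  rw [hn, ← exp_zero, exp_lt_exp] at h
  rw [hn, exp_le_exp]; omega

/-- Multiplying by an isotropic vector only translates the quadratic phase. -/
private lemma integ_phase_mul_B {x₀ : M} (hx₀ : x₀ ∈ D.O) (hN₀ : D.v (D.N x₀) < 1) {c : F}
    (hc : D.v c = exp (D.d + 1)) {y : M} (hy : y ∈ D.lat 0) :
    D.chain.integ (fun x => D.chain.ind 0 x * D.ψ (c * D.N x) * D.ψ (c * D.B y (x * D.σ x₀))) =
      D.chain.integ (fun x => D.chain.ind 0 x * D.ψ (c * D.N x)) := by
  have hN1 := v_le_exp_of_lt_one hN₀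
  have hmul : ∀ y ∈ D.lat 0, x₀ * y ∈ D.lat 0 := fun y hy => by
    simpa using D.mul_mem_lat (show x₀ ∈ D.lat 0 by rwa [D.lat_zero]) hy
  have hfs : (fun x => D.chain.ind 0 x * D.ψ (c * D.N x)) ∈ D.chain.schwartz :=
    D.phase_mem_schwartz c (S := D.lat 0) le_rfl le_rfl
  rw [← LatticeChain.integ_comp_add hfs (x₀ * y)]
  refine congrArg _ (funext fun x => ?_)
  by_cases hx : x ∈ D.lat 0
  · have hxy : x + x₀ * y ∈ D.lat 0 := add_mem hx (hmul y hy)
    have e : D.B y (x * D.σ x₀) = D.B x (x₀ * y) := by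
      apply (algebraMap F M).injective
      rw [D.B_spec, D.B_spec, map_mul, map_mul, D.σ_σ]; ring
    have e2 : D.ψ (c * D.N (x₀ * y)) = 1 := D.ψ_eq_one _ (by
      rw [map_mul, D.N_mul, map_mul, hc]
      calc exp (D.d + 1) * (D.v (D.N x₀) * D.v (D.N y))
          ≤ exp (D.d + 1) * (exp (-1) * exp (-(2 * 0))) := by
            have := D.v_N_le hy
            gcongr
        _ ≤ exp D.d := by rw [← exp_add, ← exp_add, exp_le_exp]; omega)
    simp [LatticeChain.ind, chain, hx, hxy, D.N_add, mul_add, D.ψ_add, e, e2]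
  · have hxy : x + x₀ * y ∉ D.lat 0 := fun h => hx (by simpa using sub_mem h (hmul y hy))
    simp [LatticeChain.ind, chain, hx, hxy]

/-- The phase is trivial at the vectors which the conjugate of an isotropic vector of unit trace
moves into the maximal ideal. -/
private lemma ψ_N_eq_one_of_mul_σ_mem {x₀ : M} (hx₀ : x₀ ∈ D.O) (hN₀ : D.v (D.N x₀) < 1)
    (hT₀ : D.v (D.T x₀) = 1) {c : F} (hc : D.v c = exp (D.d + 1)) {x : M} (hx : x ∈ D.lat 0)
    (hz : x * D.σ x₀ ∈ D.lat 1) : D.ψ (c * D.N x) = 1 := by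
  have hN1 := v_le_exp_of_lt_one hN₀
  set z := x * D.σ x₀
  have e : x * x₀ + z = D.T x₀ • x := by
    rw [Algebra.smul_def, D.T_spec]; simp only [z]; ring
  have e1 := congrArg D.N e
  rw [D.N_add, D.N_mul, D.N_smul] at e1
  have hxx : x * x₀ ∈ D.lat 0 := by
    simpa using D.mul_mem_lat hx (show x₀ ∈ D.lat 0 by rwa [D.lat_zero])
  have hle : D.v (D.T x₀ ^ 2 * D.N x) ≤ exp (-1) := by
    rw [← e1]
    refine (Valuation.map_add _ _ _).trans (max_le ((Valuation.map_add _ _ _).trans
      (max_le ?_ ?_)) ?_)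
    · rw [map_mul]
      calc D.v (D.N x) * D.v (D.N x₀) ≤ exp (-(2 * 0)) * exp (-1) := by
            have := D.v_N_le hx
            gcongr
        _ = exp (-1) := by rw [← exp_add]; simp
    · exact (D.v_N_le hz).trans (exp_le_exp.2 (by omega))
    · exact (D.v_B_le hxx hz).trans (exp_le_exp.2 (by omega))
  rw [map_mul, map_pow, hT₀, one_pow, one_mul] at hle
  refine D.ψ_eq_one _ ?_
  rw [map_mul, hc]
  calc exp (D.d + 1) * D.v (D.N x) ≤ exp (D.d + 1) * exp (-1) := by gcongr
    _ ≤ exp D.d := by rw [← exp_add, exp_le_exp]; omega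

/-- A residually isotropic vector of unit trace makes the sign `+1`. -/
lemma sign_eq_one (hD : D.IsUnimodular) {x₀ : M} (hx₀ : x₀ ∈ D.O) (hN₀ : D.v (D.N x₀) < 1)
    (hT₀ : D.v (D.T x₀) = 1) {ε : ℂ} (hsq : ε * ε = 1)
    (hG : ∀ c, D.v c = exp (D.d + 1) → D.G c = ε / D.q) : ε = 1 := by
  rcases mul_self_eq_one_iff.1 hsq with h | h
  · exact h
  exfalso
  set c := D.π ^ (-(D.d + 1)) with hcdef
  have hc : D.v c = exp (D.d + 1) := by rw [v_zpow, neg_neg]
  have hc0 : c ≠ 0 := zpow_ne_zero _ D.π_ne_zero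
  have hx0' : x₀ ∈ D.lat 0 := by rwa [D.lat_zero]
  set f := fun x => D.chain.ind 0 x * D.ψ (c * D.N x) with hf
  have hfp : D.chain.IsPeriodic 1 f :=
    D.phase_periodic (S := D.lat 0) hc.le (D.lat_mono (by omega)) le_rfl (by omega) (by omega)
  set F₂ := fun x y => f x * (D.ψ (c * D.B y (x * D.σ x₀)) * D.chain.ind 0 y) with hF
  have hsw := LatticeChain.integ_swap (C := D.chain) (F := F₂) (n := 1) (m := 0)
    (fun y x b hb => by
      show f (x + b) * _ = _
      rw [hfp x b hb]
      by_cases hy : y ∈ D.lat 0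
      · rw [add_mul, D.B_add_right, mul_add, D.ψ_add,
          D.ψ_B_eq_one hc.le hy (show b * D.σ x₀ ∈ D.lat 1 by
            simpa using D.mul_mem_lat hb (D.σ_mem_lat.2 hx0')) (by omega),
          mul_one]
      · simp [F₂, LatticeChain.ind_supported (C := D.chain) 0 y hy])
    (fun x y b hb => by
      show f x * (_ * D.chain.ind 0 (y + b)) = _
      rw [LatticeChain.ind_periodic (by omega) y b hb]
      by_cases hx : x ∈ D.lat 0
      · rw [D.B_add_left, mul_add, D.ψ_add,
          D.ψ_B_eq_one hc.le hb (by simpa using D.mul_mem_lat hx (D.σ_mem_lat.2 hx0')) (by omega),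
          mul_one]
      · simp [F₂, f, LatticeChain.ind_supported (C := D.chain) 0 x hx])
    (by
      rintro x y (hx | hy)
      · simp [F₂, f, LatticeChain.ind_supported (C := D.chain) 0 x hx]
      · simp [F₂, LatticeChain.ind_supported (C := D.chain) 0 y hy])
  have hGc : D.chain.integ f = -1 / D.q := by
    have h1 := D.gauss_eq (j := 1) (m := 0) (S := D.lat 0) hc (by omega)
      (D.lat_mono (by omega)) (D.lat_mono (by rw [hD.e_eq]; omega)) le_rfl
    have h2 := D.gauss_eq (j := 1) (m := min 0 (D.stab c)) (S := D.lat (min 0 (D.stab c))) hc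
      (by omega) (D.lat_mono ((min_le_left _ _).trans (by omega)))
      (D.lat_mono (by rw [hD.e_eq]; have := min_le_left 0 (D.stab c); omega)) le_rfl
    have h3 := D.gaussAt_eq_G hc0 (min_le_right 0 (D.stab c))
    rw [hG _ hc, h] at h3
    exact (h1.trans h2.symm).trans h3
  have eR : ∀ y, D.chain.integ (fun x => F₂ x y) = (-1 / D.q) * D.chain.ind 0 y := by
    intro y
    by_cases hy : y ∈ D.lat 0
    · have hi : D.chain.ind 0 y = 1 := by simp [LatticeChain.ind, chain, hy]
      rw [hi, mul_one, ← hGc]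
      simp only [F₂, hi, mul_one]
      exact integ_phase_mul_B hx₀ hN₀ hc hy
    · simp only [F₂, LatticeChain.ind_supported (C := D.chain) 0 y hy, mul_zero]
      exact LatticeChain.integ_zero
  set S := {x : M | x ∈ D.lat 0 ∧ x * D.σ x₀ ∈ D.lat 1} with hS
  have hSN : ∀ x ∈ S, D.ψ (c * D.N x) = 1 := fun x hx =>
    ψ_N_eq_one_of_mul_σ_mem hx₀ hN₀ hT₀ hc hx.1 hx.2
  have eL : ∀ x, D.chain.integ (fun y => F₂ x y) = S.indicator (fun _ => (1 : ℂ)) x := by
    intro x
    by_cases hx : x ∈ D.lat 0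
    · simp only [F₂]
      rw [LatticeChain.integ_smul, D.integ_ψ_B hc, orth_eq_lat hD hc]
      · by_cases hz : x * D.σ x₀ ∈ D.lat 1
        · have hxS : x ∈ S := ⟨hx, hz⟩
          simp [f, LatticeChain.ind, chain, hx, hz, hxS, hSN x hxS]
        · have hxS : x ∉ S := fun h => hz h.2
          simp [hz, hxS]
      · refine LatticeChain.mem_schwartz (m := 0) (n := 1) (fun y b hb => ?_)
          fun y hy => by simp [LatticeChain.ind_supported (C := D.chain) 0 y hy]
        show _ * D.chain.ind 0 (y + b) = _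
        rw [LatticeChain.ind_periodic (by omega) y b hb, D.B_add_left, mul_add, D.ψ_add,
          D.ψ_B_eq_one hc.le hb (by simpa using D.mul_mem_lat hx (D.σ_mem_lat.2 hx0')) (by omega),
          mul_one]
    · have hxS : x ∉ S := fun h => hx h.1
      simp only [F₂, f, LatticeChain.ind_supported (C := D.chain) 0 x hx, zero_mul,
        Set.indicator_of_notMem hxS]
      exact LatticeChain.integ_zero
  simp only [eL, eR] at hsw
  have hSp : D.chain.IsPeriodic 1 (S.indicator fun _ => (1 : ℂ)) := by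
    have key : ∀ x b, x ∈ S → b ∈ D.lat 1 → x + b ∈ S := fun x b hx hb =>
      ⟨add_mem hx.1 (D.lat_mono (by omega) hb), by
        rw [add_mul]
        exact add_mem hx.2 (by simpa using D.mul_mem_lat hb (D.σ_mem_lat.2 hx0'))⟩
    intro x b hb
    by_cases hx : x ∈ S
    · simp [hx, key x b hx hb]
    · have : x + b ∉ S := fun h => hx (by simpa using key _ _ h (neg_mem hb))
      simp [hx, this]
  have hSm : D.chain.IsSupported 0 (S.indicator fun _ => (1 : ℂ)) := fun x hx =>
    Set.indicator_of_notMem (fun h : x ∈ S => hx h.1) _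
  obtain ⟨r, hr0, hr⟩ := LatticeChain.integ_nonneg hSp hSm
  rw [hr, LatticeChain.integ_smul (LatticeChain.ind_mem_schwartz 0), LatticeChain.integ_ind] at hsw
  simp only [zpow_zero, inv_one, mul_one] at hsw
  have h4 : r = -1 / (D.q : ℝ) := by
    refine Complex.ofReal_injective ?_
    push_cast
    exact hsw
  have : (0 : ℝ) < D.q := by exact_mod_cast zero_lt_one.trans D.one_lt_q
  have h5 : -1 / (D.q : ℝ) < 0 := div_neg_of_neg_of_pos (by norm_num) this
  linarith

/-- Tame ramification with residue cardinality three. -/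
structure IsRamified3 (D : LocQuad F M) (ϖ : M) : Prop where
  v_N : D.v (D.N ϖ) = exp (-1 : ℤ)
  mem : ϖ ∈ D.O
  v_three : D.v 3 < 1
  residue : ∀ x ∈ D.O, ∃ t : ℤ, (t = 0 ∨ t = 1 ∨ t = -1) ∧
    ∃ y ∈ D.O, x = algebraMap F M (t : F) + ϖ * y
  dual : ∀ x, (∀ y ∈ D.O, D.v (D.B x y) ≤ 1) → ∃ y ∈ D.O, ϖ * x = y
  dual' : ∀ x ∈ D.O, ∀ y ∈ D.O, D.v (D.B (ϖ⁻¹ * x) y) ≤ 1

namespace IsRamified3

variable {ϖ : M} (h : IsRamified3 D ϖ)

include h

/-- The prime is nonzero. -/
lemma ne_zero : ϖ ≠ 0 := fun e => by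
  have := h.v_N
  rw [e, D.N_eq_zero.2 rfl, map_zero] at this
  exact exp_ne_zero this.symm

/-- Multiples of the prime have small norm. -/
lemma v_N_mul_lt {y : M} (hy : y ∈ D.O) : D.v (D.N (ϖ * y)) < 1 := by
  rw [D.N_mul, map_mul, h.v_N]
  exact (mul_le_of_le_one_right zero_le (D.N_mem y hy)).trans_lt (by
    rw [← exp_zero, exp_lt_exp]; norm_num)

/-- Units are `±1` modulo the maximal ideal. -/
lemma residue_unit {u : F} (hu : D.v u = 1) : D.v (u - 1) < 1 ∨ D.v (u + 1) < 1 := by
  have hmem : algebraMap F M u ∈ D.O := by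
    rw [← D.lat_zero, D.algebraMap_mem_lat_iff, hu, neg_zero, exp_zero]
  obtain ⟨t, ht, y, hy, e⟩ := h.residue _ hmem
  have e' : algebraMap F M (u - (t : F)) = ϖ * y := by rw [map_sub, e]; ring
  have h2 := h.v_N_mul_lt hy
  rw [← e', D.N_algebraMap, map_pow] at h2
  have h3 : D.v (u - (t : F)) < 1 := by
    by_contra hc
    exact not_lt.2 (one_le_pow₀ (not_lt.1 hc)) h2
  rcases ht with rfl | rfl | rfl
  · simp [hu] at h3
  · left; simpa using h3
  · right; simpa using h3

end IsRamified3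

end LocQuad

end FermatAgent.LT.Theta
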