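import Fermat.Agent.LT.Theta.Torus
import Fermat.Agent.LT.Theta.Sign2

/-!
# The spherical vector at an unramified place
-/

set_option autoImplicit false

noncomputable section

open WithZero Matrix
open scoped MatrixGroups

namespace FermatAgent.LT.Theta

namespace LocQuad

variable {F M : Type*} [Field F] [Field M] [Algebra F M]

open Classical in
/-- The spherical vector. -/
def sph (D : LocQuad F M) : M → F → ℂ :=
  fun x u => if D.v u = exp D.d then D.chain.ind 0 x else 0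

/-- The units of the lattice. -/
def latUnits (D : LocQuad F M) : Subgroup Mˣ where
  carrier := {h | (h : M) ∈ D.O ∧ ((h⁻¹ : Mˣ) : M) ∈ D.O}
  one_mem' := ⟨by simpa using D.one_mem, by simpa using D.one_mem⟩
  mul_mem' {h k} hh hk := ⟨by simpa using D.mul_mem _ _ hh.1 hk.1, by
    rw [_root_.mul_inv_rev, Units.val_mul]; exact D.mul_mem _ _ hk.2 hh.2⟩
  inv_mem' {h} hh := ⟨hh.2, by rw [inv_inv]; exact hh.1⟩

variable {D : LocQuad F M}

/-- Lattice units have unit norm. -/
lemma v_N_latUnits {h : Mˣ} (hh : h ∈ D.latUnits) : D.v (D.N (h : M)) = 1 := by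
  have h1 := D.N_mem _ hh.1
  have h3 : D.v (D.N (h : M)) * D.v (D.N ((h⁻¹ : Mˣ) : M)) = 1 := by
    rw [← map_mul, ← D.N_mul, Units.mul_inv, D.N_one, map_one]
  refine le_antisymm h1 ?_
  calc (1 : ℤᵐ⁰) = _ := h3.symm
    _ ≤ D.v (D.N (h : M)) := mul_le_of_le_one_right zero_le (D.N_mem _ hh.2)

/-- The indicator of the integers. -/
lemma ind_zero_eq (x : M) [Decidable (x ∈ D.O)] :
    D.chain.ind 0 x = if x ∈ D.O then 1 else 0 := by
  split_ifs with h <;> simp [LatticeChain.ind, chain, D.lat_zero, h]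

/-- The spherical vector is a test function. -/
lemma isTest_sph : D.IsTest D.sph := by
  refine ⟨D.d, 0, 0, fun x u hu => by simp [sph, hu], fun u _ => ⟨fun x c hc => ?_, fun x hx => ?_⟩⟩
  · simp only [sph]
    split_ifs
    · exact LatticeChain.ind_periodic le_rfl x c hc
    · rfl
  · simp only [sph]
    split_ifs
    · exact LatticeChain.ind_supported 0 x hx
    · rfl

/-- The spherical vector is invariant. -/
lemma isInv_sph : D.IsInv D.latUnits D.sph := by
  classical
  intro h hh x u _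
  show D.sph ((h : M) * x) (u / D.N (h : M)) = D.sph x u
  simp only [sph, map_div₀, v_N_latUnits hh, div_one, ind_zero_eq]
  congr 1
  by_cases hx : x ∈ D.O
  · rw [if_pos hx, if_pos (D.mul_mem _ _ hh.1 hx)]
  · rw [if_neg hx, if_neg]
    intro hm
    refine hx ?_
    have := D.mul_mem _ _ hh.2 hm
    rwa [← mul_assoc, Units.inv_mul, one_mul] at this

variable {ε : ℂ} {hε : ε ≠ 0}

/-- Integral translations fix the spherical vector. -/
lemma opN_sph {b : F} (hb : D.v b ≤ 1) : D.opN b D.sph = D.sph := by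
  funext x u
  simp only [opN, sph]
  split_ifs with hu
  · by_cases hx : x ∈ D.lat 0
    · rw [D.ψ_N_eq_one (a := D.d) ?_ hx (by omega), one_mul]
      rw [map_mul, hu]; exact mul_le_of_le_one_left zero_le hb
    · rw [LatticeChain.ind_supported (C := D.chain) 0 x hx, mul_zero]
  · rw [mul_zero]

lemma opD_sph {a e : F} (ha : D.v a = 1) (he : D.v e = 1) :
    D.opD (D.unrChar ε hε) a e D.sph = D.sph := by
  classical
  funext x u
  have h1 : D.v (a * e * u) = D.v u := by rw [map_mul, map_mul, ha, he, one_mul, one_mul]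
  have h2 : D.absv (a * e ^ 3) = 1 := by
    rw [D.absv_exp (show D.v (a * e ^ 3) = exp 0 by rw [map_mul, map_pow, ha, he]; simp)]
    simp
  have h3 : e⁻¹ • x ∈ D.O ↔ x ∈ D.O := by
    refine ⟨fun h => ?_, fun h => D.smul_mem _ _ (by simp [he]) h⟩
    have := D.smul_mem e _ he.le h
    rwa [smul_inv_smul₀ (fun h0 => by simp [h0] at he)] at this
  simp only [opD, sph, h1, h2, Real.sqrt_one, D.unrChar_apply hε (show D.v e = exp 0 by
    rw [he, exp_zero]), zpow_zero, Complex.ofReal_one, inv_one, one_mul, ind_zero_eq, h3]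

variable (hD : D.IsUnimodular)

include hD in
/-- The Weyl operator fixes the spherical vector. -/
lemma opW_sph : Agree (D.opW D.sph) D.sph := by
  intro x u hu
  show (D.G u)⁻¹ * D.ft u (fun y => D.sph y u) x = D.sph x u
  by_cases hv : D.v u = exp D.d
  · have hneg : D.v (-u) = exp D.d := by rwa [Valuation.map_neg]
    have e : D.ft u (fun y => D.sph y u) x =
        (D.orth (-u) 0).indicator (fun _ => (1 : ℂ)) x := by
      have := D.integ_ψ_B hneg 0 x
      rw [zpow_zero, inv_one, one_mul] at this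
      rw [← this, ft]
      refine congrArg _ (funext fun y => ?_)
      simp [sph, hv, neg_mul, mul_comm]
    rw [G_eq_one hD hv, inv_one, one_mul, e, orth_eq_lat hD hneg]
    simp [sph, hv, LatticeChain.ind, chain]
  · have : (fun y => D.sph y u) = fun _ => (0 : ℂ) := funext fun y => by simp [sph, hv]
    rw [this]
    simp [ft, LatticeChain.integ_zero, sph, hv]

variable (hχ : D.IsSignChar (D.unrChar ε hε))

include hD hχ in
/-- The spherical vector is fixed by the maximal compact subgroup. -/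
theorem wAct_sph {g : GL (Fin 2) F} (hg : ∀ i j, D.v (g.val i j) ≤ 1)
    (hdet : D.v g.val.det = 1) : Agree (D.wAct (D.unrChar ε hε) g D.sph) D.sph := by
  have main : ∀ g : GL (Fin 2) F, (∀ i j, D.v (g.val i j) ≤ 1) → D.v g.val.det = 1 →
      D.v (g.val 1 0) = 1 → Agree (D.wAct (D.unrChar ε hε) g D.sph) D.sph := by
    intro g hg hdet hc
    have hc0 : g.val 1 0 ≠ 0 := fun e => by simp [e] at hc
    have h1 : ∀ y : F, D.v y ≤ 1 → D.v (y / g.val 1 0) ≤ 1 := fun y hy => by
      rwa [map_div₀, hc, div_one]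
    rw [wAct, if_neg hc0, opN_sph (h1 _ (hg 1 1))]
    have hd : D.v (g.val.det / g.val 1 0) = 1 := by rw [map_div₀, hdet, hc, div_one]
    refine ((((opW_sph hD).opD
      (div_ne_zero (GeneralLinearGroup.det_ne_zero g) hc0) hc0).opN _)).trans ?_
    rw [opD_sph hd hc, opN_sph (h1 _ (hg 0 0))]
    exact Agree.refl _
  by_cases hc : D.v (g.val 1 0) = 1
  · exact main g hg hdet hc
  have ha : D.v (g.val 0 0) = 1 := by
    refine le_antisymm (hg 0 0) ?_
    by_contra hlt
    push Not at hlt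
    have hc' : D.v (g.val 1 0) < 1 := lt_of_le_of_ne (hg 1 0) hc
    rw [Matrix.det_fin_two] at hdet
    refine absurd hdet (ne_of_lt (lt_of_le_of_lt (Valuation.map_sub _ _ _) (max_lt ?_ ?_))) <;>
      rw [map_mul]
    · exact (mul_le_of_le_one_right zero_le (hg 1 1)).trans_lt hlt
    · exact (mul_le_of_le_one_left zero_le (hg 0 1)).trans_lt hc'
  have hw : (wMat : GL (Fin 2) F)⁻¹.val = !![0, 1; -1, 0] := by
    rw [Matrix.coe_units_inv, wMat_val, Matrix.inv_def, Matrix.adjugate_fin_two_of,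
      Matrix.det_fin_two_of]
    simp
  set k := (wMat : GL (Fin 2) F)⁻¹ * g with hk
  have hkv : k.val = !![g.val 1 0, g.val 1 1; -g.val 0 0, -g.val 0 1] := by
    rw [hk, Units.val_mul, hw]
    ext i j
    fin_cases i <;> fin_cases j <;> simp [Matrix.mul_apply, Fin.sum_univ_two]
  have hk1 : Agree (D.wAct (D.unrChar ε hε) k D.sph) D.sph := by
    refine main k (fun i j => ?_) ?_ ?_
    · rw [hkv]; fin_cases i <;> fin_cases j <;> simp [hg]
    · rw [hkv, Matrix.det_fin_two_of,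
        show g.val 1 0 * -g.val 0 1 - g.val 1 1 * -g.val 0 0 = g.val.det by
          rw [Matrix.det_fin_two]; ring, hdet]
    · simp [hkv, ha]
  have e : g = wMat * k := by rw [hk, mul_inv_cancel_left]
  rw [e]
  exact (wAct_mul hχ wMat k isTest_sph.nice).trans (by
    rw [wAct_wMat]; exact hk1.opW.trans (opW_sph hD))

/-- A complete residue system. -/
def IsResidueSystem (D : LocQuad F M) (T : Finset F) : Prop :=
  T.card = D.q ∧ (∀ t ∈ T, D.v t ≤ 1) ∧ (∀ s ∈ T, ∀ t ∈ T, D.v (s - t) < 1 → s = t) ∧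
    ∀ r, D.v r ≤ 1 → ∃ t ∈ T, D.v (r - t) < 1

lemma sum_ψ_residue {T : Finset F} (hT : D.IsResidueSystem T) {w : F}
    (hw : D.v w ≤ exp (D.d + 1)) :
    ∑ t ∈ T, D.ψ (t * w) = if D.v w ≤ exp D.d then (D.q : ℂ) else 0 := by
  classical
  obtain ⟨hcard, hint, hinj, hsur⟩ := hT
  by_cases hd : D.v w ≤ exp D.d
  · rw [if_pos hd, Finset.sum_congr rfl fun t ht => D.ψ_eq_one _ (by
      rw [map_mul]; exact (mul_le_of_le_one_left zero_le (hint t ht)).trans hd)]
    simp [hcard]
  rw [if_neg hd]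
  have hw0 : w ≠ 0 := fun e => hd (by simp [e])
  have hwv : D.v w = exp (D.d + 1) := by
    obtain ⟨n, hn⟩ := D.exists_v_eq hw0
    rw [hn, exp_le_exp] at hw
    rw [hn, exp_le_exp] at hd
    rw [hn]; congr 1; omega
  obtain ⟨b, hb, hψ⟩ := D.exists_ψ_ne_one
  set s := b / w with hs
  have hsv : D.v s ≤ 1 := by rw [hs, map_div₀, hwv, div_le_iff₀ exp_pos, one_mul]; exact hb
  have hperm : ∀ t ∈ T, ∃ t' ∈ T, D.v (t + s - t') < 1 := fun t ht =>
    hsur _ ((Valuation.map_add _ _ _).trans (max_le (hint t ht) hsv))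
  choose p hpT hp using hperm
  have hbij : ∀ t' ∈ T, ∃ t, ∃ ht : t ∈ T, p t ht = t' := by
    intro t' ht'
    obtain ⟨t, ht, hlt⟩ :=
      hsur (t' - s) ((Valuation.map_sub _ _ _).trans (max_le (hint t' ht') hsv))
    refine ⟨t, ht, hinj _ (hpT t ht) t' ht' ?_⟩
    rw [show p t ht - t' = -(t + s - p t ht) + -(t' - s - t) by ring]
    exact Valuation.map_add_lt _ (by rw [Valuation.map_neg]; exact hp t ht)
      (by rw [Valuation.map_neg]; exact hlt)
  have hshift : ∑ t ∈ T, D.ψ ((t + s) * w) = ∑ t ∈ T, D.ψ (t * w) := by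
    refine Finset.sum_bij p hpT (fun t₁ h₁ t₂ h₂ e => hinj t₁ h₁ t₂ h₂ ?_) hbij fun t ht => ?_
    · have a1 := hp t₁ h₁
      have a2 := hp t₂ h₂
      rw [e] at a1
      rw [show t₁ - t₂ = (t₁ + s - p t₂ h₂) - (t₂ + s - p t₂ h₂) by ring]
      exact (Valuation.map_sub _ _ _).trans_lt (max_lt a1 a2)
    · rw [show (t + s) * w = p t ht * w + (t + s - p t ht) * w by ring, D.ψ_add,
        D.ψ_eq_one ((t + s - p t ht) * w) ?_, mul_one]
      rw [map_mul, hwv]
      calc D.v (t + s - p t ht) * exp (D.d + 1) ≤ exp (-1) * exp (D.d + 1) := by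
            have := v_le_exp_of_lt_one (hp t ht)
            gcongr
        _ ≤ exp D.d := by rw [← exp_add, exp_le_exp]; omega
  simp only [add_mul, D.ψ_add, ← Finset.sum_mul] at hshift
  rw [show s * w = b by rw [hs, div_mul_cancel₀ _ hw0]] at hshift
  by_contra h0
  exact hψ (mul_left_cancel₀ h0 (by rw [mul_one]; exact hshift))

open Classical in
/-- The image of the spherical vector under the Hecke operator. -/
theorem hecke_sph (hsq : ε * ε = 1) {T : Finset F} (hT : D.IsResidueSystem T) {x : M} {u : F} :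
    (∑ t ∈ T, D.opN t (D.opD (D.unrChar ε hε) D.π 1 D.sph) x u) +
      D.opD (D.unrChar ε hε) 1 D.π D.sph x u =
    (D.q : ℂ) * (√(D.q : ℝ) : ℂ) *
      (if D.v u = exp (D.d + 1) then
        (if x ∈ D.O ∧ D.v (D.N x) < 1 then 1 else 0) + ε * (if x ∈ D.lat 1 then 1 else 0)
      else 0) := by
  have hπ := D.v_π
  have hiff : D.v (D.π * u) = exp D.d ↔ D.v u = exp (D.d + 1) := by
    rw [map_mul, hπ]
    refine ⟨fun h => ?_, fun h => by rw [h, ← exp_add]; congr 1; ring⟩
    rw [show D.v u = exp (1 : ℤ) * (exp (-1) * D.v u) by rw [← mul_assoc, ← exp_add]; simp, h,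
      ← exp_add, add_comm]
  have hq1 : D.absv D.π = (D.q : ℝ)⁻¹ := by rw [D.absv_exp hπ]; simp
  have hqpos : (0 : ℝ) ≤ D.q := Nat.cast_nonneg _
  have hq3 : D.absv (D.π ^ 3) = (D.q : ℝ)⁻¹ * ((D.q : ℝ)⁻¹ * (D.q : ℝ)⁻¹) := by
    rw [pow_succ, pow_two, D.absv_mul, D.absv_mul, hq1]; ring
  have hlat : D.π⁻¹ • x ∈ D.O ↔ x ∈ D.lat 1 := by rw [mem_lat, _root_.zpow_neg_one]
  simp only [opN, opD, sph, mul_one, one_mul, one_pow, inv_one, one_smul, hiff, hq1, hq3,
    D.unrChar_apply hε (show D.v (1 : F) = exp 0 by simp), D.unrChar_apply hε hπ, zpow_zero,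
    _root_.zpow_neg_one, ind_zero_eq, hlat]
  by_cases hu : D.v u = exp (D.d + 1)
  swap
  · simp only [if_neg hu, mul_zero, Finset.sum_const_zero, add_zero]
  simp only [hu, if_true]
  rw [← Finset.sum_mul, show (∑ t ∈ T, D.ψ (t * u * D.N x)) = ∑ t ∈ T, D.ψ (t * (u * D.N x)) from
    Finset.sum_congr rfl fun t _ => by rw [mul_assoc]]
  by_cases hx : x ∈ D.O
  swap
  · have hx1 : x ∉ D.lat 1 := fun h => hx (by rw [← D.lat_zero]; exact D.lat_mono (by omega) h)
    simp [hx, hx1]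
  have hN := D.N_mem x hx
  rw [sum_ψ_residue hT (by rw [map_mul, hu]; exact mul_le_of_le_one_right zero_le hN)]
  have hlt : D.v (u * D.N x) ≤ exp D.d ↔ D.v (D.N x) < 1 := by
    rw [map_mul, hu]
    by_cases h0 : D.N x = 0
    · simp [h0]
    obtain ⟨n, hn⟩ := D.exists_v_eq h0
    rw [hn, ← exp_add, exp_le_exp, ← exp_zero, exp_lt_exp]; omega
  have hs : (√((D.q : ℝ)⁻¹ * ((D.q : ℝ)⁻¹ * (D.q : ℝ)⁻¹)) : ℝ) =
      (D.q : ℝ)⁻¹ * (√(D.q : ℝ))⁻¹ := by
    rw [show (D.q : ℝ)⁻¹ * ((D.q : ℝ)⁻¹ * (D.q : ℝ)⁻¹) =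
      ((D.q : ℝ)⁻¹) ^ 2 * (D.q : ℝ)⁻¹ by ring, Real.sqrt_mul (sq_nonneg _),
      Real.sqrt_sq (inv_nonneg.2 hqpos), Real.sqrt_inv]
  have hq0 : (D.q : ℂ) ≠ 0 := Nat.cast_ne_zero.2 (zero_lt_one.trans D.one_lt_q).ne'
  simp only [hx, true_and, hlt, if_true, mul_one, Real.sqrt_inv, hs, inv_eq_of_mul_eq_one_right hsq]
  push_cast
  simp only [inv_inv, mul_inv]
  split_ifs <;> ring

end LocQuad

end FermatAgent.LT.Theta
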