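import Fermat.Agent.LT.Theta.HeckeEigen
import Fermat.Agent.LT.Theta.Sign2

/-!
# The vector of level one at a place with residue field of three elements

Both the inert and the ramified case of a tame quadratic character are covered: the space of
vectors of level one is two dimensional, the Weyl operator acts trivially on it, and the vector
with both coordinates one is fixed by the normaliser of the non-split torus.
-/

set_option autoImplicit false

noncomputable section

open WithZero
open scoped MatrixGroups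

namespace FermatAgent.LT.Theta

namespace LocQuad

variable {F M : Type*} [Field F] [Field M] [Algebra F M] {D : LocQuad F M} {χ : F →* ℂ}
  {θ : M →* ℂ}

/-- Level one data at a place with three residues: `J` is the maximal ideal of `O`. -/
structure IsTame (D : LocQuad F M) (χ : F →* ℂ) (θ : M →* ℂ) (J : AddSubgroup M) : Prop where
  residue : ∀ u, D.v u ≤ 1 → D.v u < 1 ∨ D.v (u - 1) < 1 ∨ D.v (u + 1) < 1
  v_three : D.v 3 < 1
  mem_J : ∀ x, x ∈ J ↔ x ∈ D.O ∧ D.v (D.N x) < 1
  dual_J : ∀ x, (∀ y ∈ J, D.v (D.B x y) < 1) → x ∈ D.O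
  B_J : ∀ x ∈ D.O, ∀ y ∈ J, D.v (D.B x y) < 1
  isSign : D.IsSignChar χ
  θ_congr : ∀ y ∈ J, θ (1 + y) = 1
  θ_base : ∀ u, u ≠ 0 → θ (algebraMap F M u) = χ u
  exists_norm_one : ∃ h ∈ D.O, D.N h = 1 ∧ θ h ≠ 1

namespace IsTame

variable {J : AddSubgroup M} (hT : IsTame D χ θ J)

include hT

lemma v_two : D.v (2 : F) = 1 := by
  rw [show (2 : F) = 3 - 1 by norm_num, Valuation.map_sub_eq_of_lt_right _ (by
    simpa using hT.v_three), map_one]

lemma mem_O {y : M} (hy : y ∈ J) : y ∈ D.O := ((hT.mem_J y).1 hy).1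

lemma smul_mem_J {r : F} (hr : D.v r ≤ 1) {y : M} (hy : y ∈ J) : r • y ∈ J := by
  obtain ⟨h1, h2⟩ := (hT.mem_J y).1 hy
  refine (hT.mem_J _).2 ⟨D.smul_mem _ _ hr h1, ?_⟩
  rw [D.N_smul, map_mul, map_pow]
  exact (mul_le_of_le_one_left zero_le (pow_le_one₀ zero_le hr)).trans_lt h2

lemma lat_one_le_J {y : M} (hy : y ∈ D.lat 1) : y ∈ J := by
  refine (hT.mem_J y).2 ⟨by rw [← D.lat_zero]; exact D.lat_mono (by omega) hy, ?_⟩
  exact (D.v_N_le hy).trans_lt (by rw [← exp_zero, exp_lt_exp]; norm_num)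

section

omit hT

/-- The units of the lattice. -/
def IsU (D : LocQuad F M) (x : M) : Prop := x ∈ D.O ∧ D.v (D.N x) = 1

/-- Units of the lattice are nonzero. -/
lemma IsU.ne_zero {x : M} (hx : IsU D x) : x ≠ 0 := fun e => by
  have := hx.2
  rw [e, D.N_eq_zero.2 rfl, map_zero] at this
  exact zero_ne_one this

/-- Inverses of units of the lattice. -/
lemma IsU.inv {x : M} (hx : IsU D x) : IsU D x⁻¹ := by
  refine ⟨?_, by rw [N_inv, map_inv₀, hx.2, inv_one]⟩
  have hx0 := hx.ne_zero
  have e : x⁻¹ = (D.N x)⁻¹ • D.σ x := by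
    rw [Algebra.smul_def, map_inv₀, D.N_spec, mul_inv, mul_assoc,
      inv_mul_cancel₀ ((map_ne_zero_iff _ D.σ.injective).2 hx0), mul_one]
  rw [e]
  exact D.smul_mem _ _ (by rw [map_inv₀, hx.2, inv_one]) (D.σ_mem _ hx.1)

/-- Units of the lattice multiply. -/
lemma IsU.mul {x y : M} (hx : IsU D x) (hy : IsU D y) : IsU D (x * y) :=
  ⟨D.mul_mem _ _ hx.1 hy.1, by rw [D.N_mul, map_mul, hx.2, hy.2, one_mul]⟩

/-- One is a unit of the lattice. -/
lemma isU_one : IsU D (1 : M) := ⟨D.one_mem, by rw [D.N_one, map_one]⟩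

lemma isU_base {u : F} (hu : D.v u = 1) : IsU D (algebraMap F M u) :=
  ⟨by rw [Algebra.algebraMap_eq_smul_one]; exact D.smul_mem _ _ hu.le D.one_mem,
    by rw [D.N_algebraMap, map_pow, hu, one_pow]⟩

end

lemma trichotomy {x : M} : (x ∉ D.O) ∨ x ∈ J ∨ IsU D x := by
  by_cases hx : x ∈ D.O
  · rcases (D.N_mem _ hx).lt_or_eq with h | h
    · exact Or.inr (Or.inl ((hT.mem_J x).2 ⟨hx, h⟩))
    · exact Or.inr (Or.inr ⟨hx, h⟩)
  · exact Or.inl hx

lemma not_isU {x : M} (hx : x ∈ J) : ¬IsU D x := fun h =>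
  ((hT.mem_J x).1 hx).2.ne h.2

lemma isU_add {x y : M} (hx : IsU D x) (hy : y ∈ J) : IsU D (x + y) := by
  have hO : x + y ∈ D.O := add_mem hx.1 (hT.mem_O hy)
  refine ⟨hO, (D.N_mem _ hO).eq_or_lt.resolve_right fun h => ?_⟩
  exact hT.not_isU (by simpa using J.sub_mem ((hT.mem_J _).2 ⟨hO, h⟩) hy) hx

lemma isU_add_iff {x y : M} (hy : y ∈ J) : IsU D (x + y) ↔ IsU D x :=
  ⟨fun h => by simpa using hT.isU_add h (J.neg_mem hy), fun h => hT.isU_add h hy⟩

lemma mul_mem_J {x y : M} (hx : x ∈ D.O) (hy : y ∈ J) : x * y ∈ J := by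
  obtain ⟨h1, h2⟩ := (hT.mem_J y).1 hy
  refine (hT.mem_J _).2 ⟨D.mul_mem _ _ hx h1, ?_⟩
  rw [D.N_mul, map_mul]
  exact (mul_le_of_le_one_left zero_le (D.N_mem _ hx)).trans_lt h2

lemma θ_add {x y : M} (hx : IsU D x) (hy : y ∈ J) : θ (x + y) = θ x := by
  have e : x + y = x * (1 + x⁻¹ * y) := by
    rw [mul_add, mul_one, ← mul_assoc, mul_inv_cancel₀ hx.ne_zero, one_mul]
  rw [e, map_mul, hT.θ_congr _ (hT.mul_mem_J hx.inv.1 hy), mul_one]

lemma v_N_add {x y : M} (hx : IsU D x) (hy : y ∈ J) : D.v (D.N (x + y) / D.N x - 1) < 1 := by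
  have hN : D.N x ≠ 0 := fun e => hx.ne_zero (D.N_eq_zero.1 e)
  have e : D.N (x + y) / D.N x - 1 = (D.N y + D.B x y) / D.N x := by
    rw [D.N_add]; field_simp; ring
  rw [e, map_div₀, hx.2, div_one]
  exact Valuation.map_add_lt _ ((hT.mem_J y).1 hy).2 (hT.B_J x hx.1 y hy)

/-- An element congruent to one is not congruent to minus one. -/
lemma congr_neg {r : F} (h1 : D.v (r - 1) < 1) : ¬D.v (r + 1) < 1 := fun h2 => by
  have h3 : D.v ((r + 1) - (r - 1)) < 1 :=
    lt_of_le_of_lt (Valuation.map_sub _ _ _) (max_lt h2 h1)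
  rw [show (r + 1) - (r - 1) = 2 by ring, hT.v_two] at h3
  exact lt_irrefl _ h3

section

omit hT

lemma v_eq_one_of_congr {r : F} (h1 : D.v (r - 1) < 1) : D.v r = 1 := by
  have := Valuation.map_add_eq_of_lt_left D.v (x := (1 : F)) (y := r - 1) (by rwa [map_one])
  simpa using this

lemma congr_mul {r s : F} (hr : D.v (r - 1) < 1) : D.v (r * s - 1) < 1 ↔ D.v (s - 1) < 1 := by
  have hv := v_eq_one_of_congr (D := D) hr
  constructor <;> intro h
  · have e : s - 1 = r⁻¹ * ((r * s - 1) - (r - 1)) := by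
      have : r ≠ 0 := fun e => by simp [e] at hv
      field_simp; ring
    rw [e, map_mul, map_inv₀, hv, inv_one, one_mul]
    exact lt_of_le_of_lt (Valuation.map_sub _ _ _) (max_lt h hr)
  · rw [show r * s - 1 = r * (s - 1) + (r - 1) by ring]
    refine Valuation.map_add_lt _ ?_ hr
    rwa [map_mul, hv, one_mul]

/-! ### The space of level one -/

/-- The base point of the shell. -/
def base (D : LocQuad F M) : F := D.π ^ (-(D.d + 1))

/-- The valuation of the base point. -/
lemma v_base : D.v (base D) = exp (D.d + 1) := by rw [base, v_zpow, neg_neg]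

/-- The base point is nonzero. -/
lemma base_ne_zero : base D ≠ 0 := zpow_ne_zero _ D.π_ne_zero

open Classical in
/-- The vector with the given two coordinates. -/
def vec (D : LocQuad F M) (θ : M →* ℂ) (g₁ g₂ : ℂ) : M → F → ℂ := fun x u =>
  if D.v u = exp (D.d + 1) ∧ IsU D x then
    θ x * (if D.v (u * D.N x / base D - 1) < 1 then g₁ else g₂)
  else 0

/-- Membership in the space of level one. -/
structure Mem (D : LocQuad F M) (θ : M →* ℂ) (J : AddSubgroup M) (f : M → F → ℂ) : Prop where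
  sliced : ∀ x u, D.v u ≠ exp (D.d + 1) → f x u = 0
  periodic : ∀ x u, u ≠ 0 → ∀ y ∈ J, f (x + y) u = f x u
  supported : ∀ x u, x ∉ D.O → f x u = 0
  equi : ∀ h, IsU D h → ∀ x u, u ≠ 0 → f (h * x) (u / D.N h) = θ h * f x u
  congr : ∀ r, D.v (r - 1) < 1 → ∀ x u, u ≠ 0 → f x (u * r) = f x u

lemma v_shell_arg {x : M} {u : F} (hu : D.v u = exp (D.d + 1)) (hx : IsU D x) :
    D.v (u * D.N x / base D) = 1 := by
  rw [map_div₀, map_mul, hu, hx.2, mul_one, v_base, div_self exp_ne_zero]

lemma v_B_le_one {x y : M} (hx : x ∈ D.O) (hy : y ∈ D.O) : D.v (D.B x y) ≤ 1 := by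
  have := D.v_B_le (i := 0) (j := 0) (x := x) (y := y) (by rwa [D.lat_zero]) (by rwa [D.lat_zero])
  simpa using this

/-- Small changes do not move the character on the shell. -/
lemma ψ_congr {u w : F} (hu : D.v u = exp (D.d + 1)) (hw : D.v w < 1) : D.ψ (u * w) = 1 :=
  D.ψ_eq_one _ (by
    rw [map_mul, hu]
    calc exp (D.d + 1) * D.v w ≤ exp (D.d + 1) * exp (-1) := by
          have := v_le_exp_of_lt_one hw
          gcongr
      _ = exp D.d := by rw [← exp_add]; congr 1; ring)

end

/-- Units are `±1` modulo the maximal ideal. -/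
lemma unit_residue {r : F} (hr : D.v r = 1) : D.v (r - 1) < 1 ∨ D.v (r + 1) < 1 :=
  (hT.residue r hr.le).resolve_left (by rw [hr]; exact lt_irrefl _)

/-- The standard vectors belong to the space. -/
lemma mem_vec (g₁ g₂ : ℂ) : Mem D θ J (vec D θ g₁ g₂) := by
  classical
  refine ⟨fun x u h => by simp only [vec, h, false_and, if_false], fun x u _ y hy => ?_,
    fun x u hx => ?_,
    fun h hh x u _ => ?_, fun r hr x u _ => ?_⟩
  · simp only [vec, hT.isU_add_iff hy]
    by_cases hc : D.v u = exp (D.d + 1) ∧ IsU D x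
    · have hN : D.N x ≠ 0 := fun e => hc.2.ne_zero (D.N_eq_zero.1 e)
      rw [if_pos hc, if_pos hc, hT.θ_add hc.2 hy,
        show u * D.N (x + y) / base D = D.N (x + y) / D.N x * (u * D.N x / base D) by field_simp]
      simp only [congr_mul (hT.v_N_add hc.2 hy)]
    · rw [if_neg hc, if_neg hc]
  · simp [vec, IsU, hx]
  · have hN : D.N h ≠ 0 := fun e => hh.ne_zero (D.N_eq_zero.1 e)
    have h1 : D.v (u / D.N h) = D.v u := by rw [map_div₀, hh.2, div_one]
    have h2 : IsU D (h * x) ↔ IsU D x :=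
      ⟨fun h' => by simpa [← mul_assoc, inv_mul_cancel₀ hh.ne_zero] using hh.inv.mul h',
        hh.mul⟩
    simp only [vec, h1, h2]
    split_ifs with hc h3 h4 h4 <;>
      simp only [map_mul, mul_zero, mul_assoc]
    · rw [D.N_mul, show u / D.N h * (D.N h * D.N x) = u * D.N x by field_simp] at h3
      exact absurd h3 h4
    · rw [D.N_mul, show u / D.N h * (D.N h * D.N x) = u * D.N x by field_simp] at h3
      exact absurd h4 h3
  · have h1 : D.v (u * r) = D.v u := by rw [map_mul, v_eq_one_of_congr hr, mul_one]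
    simp only [vec, h1]
    rw [show u * r * D.N x / base D = r * (u * D.N x / base D) by ring]
    simp only [congr_mul hr]

variable {f : M → F → ℂ}

lemma vanish (hf : Mem D θ J f) {x : M} (hx : x ∈ J) {u : F} (hu : u ≠ 0) : f x u = 0 := by
  obtain ⟨h, hO, hN, hθ⟩ := hT.exists_norm_one
  have h0 : ∀ y ∈ J, f y u = f 0 u := fun y hy => by simpa using hf.periodic 0 u hu y hy
  have h1 := hf.equi h ⟨hO, by rw [hN, map_one]⟩ 0 u hu
  rw [mul_zero, hN, div_one] at h1
  rw [h0 x hx]
  have : (1 - θ h) * f 0 u = 0 := by linear_combination h1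
  exact (mul_eq_zero.1 this).resolve_left (sub_ne_zero.2 (Ne.symm hθ))

/-- Members are standard vectors. -/
lemma mem_agree (hf : Mem D θ J f) :
    Agree f (vec D θ (f 1 (base D)) (f 1 (-base D))) := by
  classical
  intro x u hu
  by_cases hc : D.v u = exp (D.d + 1) ∧ IsU D x
  · obtain ⟨hv, hx⟩ := hc
    have hN : D.N x ≠ 0 := fun e => hx.ne_zero (D.N_eq_zero.1 e)
    have e := hf.equi x hx 1 (u * D.N x) (mul_ne_zero hu hN)
    rw [mul_one, mul_div_assoc, div_self hN, mul_one] at e
    simp only [vec, if_pos (And.intro hv hx), e]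
    congr 1
    have hb := base_ne_zero (D := D)
    set r := u * D.N x / base D with hr
    have hur : u * D.N x = base D * r := by rw [hr]; field_simp
    rw [hur]
    rcases hT.unit_residue (v_shell_arg hv hx) with h1 | h1
    · rw [if_pos h1, hf.congr r h1 1 _ hb]
    · rw [if_neg fun h => hT.congr_neg h h1]
      have := hf.congr (-r) (by rw [show -r - 1 = -(r + 1) by ring, Valuation.map_neg]; exact h1)
        1 (-base D) (neg_ne_zero.2 hb)
      rw [neg_mul_neg] at this
      exact this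
  · simp only [vec, if_neg hc]
    rcases hT.trichotomy (x := x) with h | h | h
    · exact hf.supported x u h
    · exact hT.vanish hf h hu
    · exact hf.sliced x u fun h' => hc ⟨h', h⟩

/-- Members are test functions. -/
lemma isTest (hf : Mem D θ J f) : D.IsTest f :=
  ⟨D.d + 1, 0, 1, hf.sliced, fun u hu =>
    ⟨fun x c hc => hf.periodic x u hu c (hT.lat_one_le_J hc),
      fun x hx => hf.supported x u fun h => hx (show x ∈ D.lat 0 by rwa [D.lat_zero])⟩⟩

/-- The torus level at the place. -/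
def level (_ : IsTame D χ θ J) : Subgroup Mˣ where
  carrier := {h | IsU D (h : M) ∧ θ (h : M) = 1}
  one_mem' := ⟨isU_one, map_one θ⟩
  mul_mem' := fun {a b} ha hb =>
    ⟨ha.1.mul hb.1, by rw [Units.val_mul, map_mul, ha.2, hb.2, one_mul]⟩
  inv_mem' := fun {a} ha => ⟨by rw [Units.val_inv_eq_inv_val]; exact ha.1.inv, by
    have := map_mul θ (a : M) ((a⁻¹ : Mˣ) : M)
    rw [Units.mul_inv, map_one, ha.2, one_mul] at this
    exact this.symm⟩

/-- The level is a torus level. -/
lemma isTorusLevel : D.IsTorusLevel θ hT.level :=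
  ⟨fun _ hh => hh.1.1, fun _ hh => hh.2, 1, fun h hh => by
    have hy := hT.lat_one_le_J hh
    have e : (h : M) = 1 + ((h : M) - 1) := by ring
    refine ⟨?_, ?_⟩ <;> rw [e]
    · exact hT.isU_add isU_one hy
    · exact hT.θ_congr _ hy⟩

/-- Members are invariant. -/
lemma isInv (hf : Mem D θ J f) : D.IsInv hT.level f := fun h hh x u hu => by
  show f (_ * x) (u / _) = _
  rw [hf.equi _ hh.1 x u hu, hh.2, one_mul]

lemma mem_opN (hf : Mem D θ J f) {b : F} (hb : D.v b ≤ 1) : Mem D θ J (D.opN b f) := by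
  refine ⟨fun x u h => by simp [opN, hf.sliced x u h], fun x u hu y hy => ?_,
    fun x u hx => by simp [opN, hf.supported x u hx], fun h hh x u hu => ?_, fun r hr x u hu => ?_⟩
  · show D.ψ _ * f (x + y) u = D.ψ _ * f x u
    rw [hf.periodic x u hu y hy]
    by_cases hx : x ∈ D.O
    swap
    · rw [hf.supported x u hx, mul_zero, mul_zero]
    by_cases hv : D.v u = exp (D.d + 1)
    swap
    · rw [hf.sliced x u hv, mul_zero, mul_zero]
    rw [show b * u * D.N (x + y) = b * u * D.N x + u * (b * (D.N y + D.B x y)) by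
      rw [D.N_add]; ring, D.ψ_add, ψ_congr hv, mul_one]
    rw [map_mul]
    exact (mul_le_of_le_one_left zero_le hb).trans_lt
      (Valuation.map_add_lt _ ((hT.mem_J y).1 hy).2 (hT.B_J x hx y hy))
  · show D.ψ _ * f (h * x) _ = _ * (D.ψ _ * f x u)
    have hN : D.N h ≠ 0 := fun e => hh.ne_zero (D.N_eq_zero.1 e)
    rw [hf.equi h hh x u hu, D.N_mul,
      show b * (u / D.N h) * (D.N h * D.N x) = b * u * D.N x by field_simp]
    ring
  · show D.ψ _ * f x (u * r) = D.ψ _ * f x u
    rw [hf.congr r hr x u hu]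
    by_cases hx : x ∈ D.O
    swap
    · rw [hf.supported x u hx, mul_zero, mul_zero]
    by_cases hv : D.v u = exp (D.d + 1)
    swap
    · rw [hf.sliced x u hv, mul_zero, mul_zero]
    rw [show b * (u * r) * D.N x = b * u * D.N x + u * (b * D.N x * (r - 1)) by ring, D.ψ_add,
      ψ_congr hv, mul_one]
    rw [map_mul, map_mul]
    exact (mul_le_of_le_one_left zero_le (mul_le_one' hb (D.N_mem x hx))).trans_lt hr

lemma mem_opD (hf : Mem D θ J f) {a e : F} (ha : D.v a = 1) (he : D.v e = 1) :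
    Mem D θ J (D.opD χ a e f) := by
  have hae : ∀ {u : F}, u ≠ 0 → a * e * u ≠ 0 := fun hu =>
    mul_ne_zero (mul_ne_zero (fun h => by simp [h] at ha) (fun h => by simp [h] at he)) hu
  have hei : D.v e⁻¹ ≤ 1 := by rw [map_inv₀, he, inv_one]
  refine ⟨fun x u h => ?_, fun x u hu y hy => ?_, fun x u hx => ?_, fun h hh x u hu => ?_,
    fun r hr x u hu => ?_⟩
  · simp [opD, hf.sliced _ (a * e * u) (by rwa [map_mul, map_mul, ha, he, one_mul, one_mul])]
  · simp only [opD, smul_add]
    rw [hf.periodic _ _ (hae hu) _ (hT.smul_mem_J hei hy)]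
  · simp only [opD]
    rw [hf.supported _ _ fun h => hx ?_, mul_zero]
    have := D.smul_mem e _ he.le h
    rwa [smul_inv_smul₀ (fun h0 => by simp [h0] at he)] at this
  · simp only [opD]
    rw [Algebra.smul_def, mul_left_comm, ← Algebra.smul_def,
      show a * e * (u / D.N h) = a * e * u / D.N h by ring, hf.equi h hh _ _ (hae hu)]
    ring
  · simp only [opD]
    rw [← mul_assoc (a * e) u r, hf.congr r hr _ _ (hae hu)]

/-- The Weyl operator preserves the space. -/
lemma mem_opW (hf : Mem D θ J f) : Mem D θ J (D.opW f) := by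
  have hn := (hT.isTest hf).nice
  have hsup : ∀ x u, x ∉ D.O → D.opW f x u = 0 := by
    intro x u hx
    show _ * D.ft u (fun y => f y u) x = 0
    by_cases hv : D.v u = exp (D.d + 1)
    swap
    · rw [show (fun y => f y u) = fun _ => (0 : ℂ) from funext fun y => hf.sliced y u hv]
      simp [ft, LatticeChain.integ_zero]
    have hu0 : u ≠ 0 := fun e => by simp [e] at hv
    obtain ⟨j, hj, hjB⟩ : ∃ j ∈ J, 1 ≤ D.v (D.B x j) := by
      by_contra hcon
      push Not at hcon
      exact hx (hT.dual_J x hcon)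
    obtain ⟨b, hb, hψ⟩ := D.exists_ψ_ne_one
    have hB : D.B x j ≠ 0 := fun e => by simp [e] at hjB
    obtain ⟨n, hn'⟩ := D.exists_v_eq hB
    rw [hn', ← exp_zero, exp_le_exp] at hjB
    have hr : D.v (b / (u * D.B x j)) ≤ 1 := by
      rw [map_div₀, map_mul, hv, hn', ← exp_add, div_le_iff₀ exp_pos, one_mul]
      exact hb.trans (exp_le_exp.2 (by omega))
    set j' := -((b / (u * D.B x j)) • j) with hj'
    have hj'J : j' ∈ J := J.neg_mem (hT.smul_mem_J hr hj)
    have hval : -(u * D.B j' x) = b := by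
      rw [hj', D.B_neg_left, D.B_comm, D.B_smul_right]; field_simp
    have key : D.ft u (fun y => f y u) x = D.ψ b * D.ft u (fun y => f y u) x := by
      have hF := D.ftIntegrand_mem (c := u) (hn u hu0) x
      conv_lhs => rw [ft, ← LatticeChain.integ_comp_add hF j']
      rw [ft, ← LatticeChain.integ_smul hF]
      refine congrArg _ (funext fun z => ?_)
      show f (z + j') u * D.ψ (-(u * D.B (z + j') x)) = D.ψ b * (f z u * D.ψ (-(u * D.B z x)))
      rw [hf.periodic z u hu0 j' hj'J, D.B_add_left, mul_add, neg_add, D.ψ_add, hval]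
      ring
    have : (1 - D.ψ b) * D.ft u (fun y => f y u) x = 0 := by linear_combination key
    rw [(mul_eq_zero.1 this).resolve_left (sub_ne_zero.2 (Ne.symm hψ)), mul_zero]
  refine ⟨fun x u h => ?_, fun x u hu y hy => ?_, fun x u hx => ?_, fun h hh x u hu => ?_,
    fun r hr x u hu => ?_⟩
  · show _ * D.ft u (fun y => f y u) x = 0
    rw [show (fun y => f y u) = fun _ => (0 : ℂ) from funext fun y => hf.sliced y u h]
    simp [ft, LatticeChain.integ_zero]
  · show (D.G u)⁻¹ * D.ft u (fun w => f w u) (x + y) = (D.G u)⁻¹ * D.ft u (fun w => f w u) x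
    unfold ft
    refine congrArg _ (congrArg _ (funext fun z => ?_))
    beta_reduce
    by_cases hz : z ∈ D.O
    swap
    · rw [hf.supported z u hz, zero_mul, zero_mul]
    by_cases hv : D.v u = exp (D.d + 1)
    swap
    · rw [hf.sliced z u hv, zero_mul, zero_mul]
    rw [D.B_add_right, mul_add, neg_add, D.ψ_add, ← mul_neg u (D.B z y),
      ψ_congr hv (w := -(D.B z y)) (by rw [Valuation.map_neg]; exact hT.B_J z hz y hy),
      mul_one]
  · exact hsup x u hx
  · have e1 := opH_opW hh.ne_zero hn x u hu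
    simp only [opH] at e1
    rw [e1]
    have hag : Agree (D.opH h f) (fun x u => θ h * f x u) := fun x u hu => hf.equi h hh x u hu
    have e2 := hag.opW (D := D) x u hu
    refine e2.trans ?_
    show (D.G u)⁻¹ * D.ft u (fun y => θ h * f y u) x = θ h * ((D.G u)⁻¹ * D.ft u _ x)
    rw [D.ft_smul (f := fun y => f y u) (hn u hu)]
    ring
  · have hr0 : r ≠ 0 := fun e => by simpa [e] using v_eq_one_of_congr (D := D) hr
    have hG : D.G (u * r) = D.G u := by
      have hvr := v_eq_one_of_congr (D := D) hr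
      rw [hT.isSign.G_mul u r hu hr0, ← hT.θ_base r hr0,
        D.absv_exp (show D.v r = exp 0 by rw [exp_zero]; exact hvr)]
      have hy : algebraMap F M (r - 1) ∈ J := (hT.mem_J _).2
        ⟨by rw [Algebra.algebraMap_eq_smul_one]; exact D.smul_mem _ _ hr.le D.one_mem, by
          rw [D.N_algebraMap, map_pow]; exact pow_lt_one₀ zero_le hr two_ne_zero⟩
      have : θ (algebraMap F M r) = 1 := by
        have h := hT.θ_congr _ hy
        rwa [map_sub, map_one, add_sub_cancel] at h
      rw [this]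
      simp
    by_cases hx : x ∈ D.O
    swap
    · rw [hsup x _ hx, hsup x _ hx]
    show (D.G (u * r))⁻¹ * D.ft (u * r) _ x = (D.G u)⁻¹ * D.ft u _ x
    rw [hG]
    refine congrArg _ (congrArg _ (funext fun z => ?_))
    beta_reduce
    rw [hf.congr r hr z u hu]
    by_cases hz : z ∈ D.O
    swap
    · rw [hf.supported z u hz, zero_mul, zero_mul]
    by_cases hv : D.v u = exp (D.d + 1)
    swap
    · rw [hf.sliced z u hv, zero_mul, zero_mul]
    rw [show -(u * r * D.B z x) = -(u * D.B z x) + u * (-(D.B z x * (r - 1))) by ring, D.ψ_add,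
      ψ_congr hv, mul_one]
    rw [Valuation.map_neg, map_mul]
    exact (mul_le_of_le_one_left zero_le (v_B_le_one hz hx)).trans_lt hr

/-! ### The operators in coordinates -/

omit hT in
lemma vec_congr {g₁ g₂ g₁' g₂' : ℂ} (h1 : g₁ = g₁') (h2 : g₂ = g₂') :
    Agree (vec D θ g₁ g₂) (vec D θ g₁' g₂') := by subst h1 h2; exact Agree.refl _

omit hT in
/-- The first coordinate of a standard vector. -/
lemma vec_apply_base (g₁ g₂ : ℂ) : vec D θ g₁ g₂ 1 (base D) = g₁ := by
  simp [vec, v_base, isU_one, D.N_one, base_ne_zero]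

/-- The second coordinate of a standard vector. -/
lemma vec_apply_neg_base (g₁ g₂ : ℂ) : vec D θ g₁ g₂ 1 (-base D) = g₂ := by
  have h2 : D.v (-base D * D.N (1 : M) / base D - 1) = 1 := by
    rw [D.N_one, mul_one, neg_div, div_self base_ne_zero, show (-1 : F) - 1 = -2 by norm_num,
      Valuation.map_neg, hT.v_two]
  have hv : D.v (-base D) = exp (D.d + 1) := by rw [Valuation.map_neg, v_base]
  simp only [vec, if_pos (And.intro hv (isU_one (D := D))), h2, lt_irrefl, if_false, map_one,
    one_mul]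

/-- Unipotent operators on standard vectors. -/
lemma opN_vec {b : F} (hb : D.v b ≤ 1) (g₁ g₂ : ℂ) :
    Agree (D.opN b (vec D θ g₁ g₂))
      (vec D θ (D.ψ (b * base D) * g₁) (D.ψ (-(b * base D)) * g₂)) := by
  refine (hT.mem_agree (hT.mem_opN (hT.mem_vec g₁ g₂) hb)).trans (vec_congr ?_ ?_)
  · show D.ψ (b * base D * D.N 1) * _ = _
    rw [vec_apply_base, D.N_one, mul_one]
  · show D.ψ (b * -base D * D.N 1) * _ = _
    rw [hT.vec_apply_neg_base, D.N_one, mul_one, mul_neg]

/-- Unit diagonal operators on standard vectors. -/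
lemma opD_vec {a e : F} (ha : D.v a = 1) (he : D.v e = 1) (g₁ g₂ : ℂ) :
    Agree (D.opD χ a e (vec D θ g₁ g₂))
      (if D.v (a / e - 1) < 1 then vec D θ g₁ g₂ else vec D θ g₂ g₁) := by
  classical
  have he0 : e ≠ 0 := fun h => by simp [h] at he
  have ha0 : a ≠ 0 := fun h => by simp [h] at ha
  have hU : IsU D (algebraMap F M e⁻¹) := isU_base (by rw [map_inv₀, he, inv_one])
  have hcoef : ∀ w, D.v w = exp (D.d + 1) → D.opD χ a e (vec D θ g₁ g₂) 1 w =
      if D.v (w * (a / e) / base D - 1) < 1 then g₁ else g₂ := by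
    intro w hw
    have h1 : D.v (a * e * w) = exp (D.d + 1) := by
      rw [map_mul, map_mul, ha, he, one_mul, one_mul, hw]
    have h2 : IsU D (e⁻¹ • (1 : M)) := by rwa [← Algebra.algebraMap_eq_smul_one]
    have hae : D.absv (a * e ^ 3) = 1 := by
      rw [D.absv_exp (show D.v (a * e ^ 3) = exp 0 by simp [ha, he]), zpow_zero]
    simp only [opD, vec, if_pos (And.intro h1 h2), hae]
    rw [← Algebra.algebraMap_eq_smul_one, hT.θ_base _ (inv_ne_zero he0), D.N_algebraMap,
      show a * e * w * (e⁻¹) ^ 2 / base D = w * (a / e) / base D by field_simp]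
    rw [Real.sqrt_one, Complex.ofReal_one, inv_one, mul_one, ← mul_assoc, ← map_mul,
      mul_inv_cancel₀ he0, map_one, one_mul]
  refine (hT.mem_agree (hT.mem_opD (hT.mem_vec g₁ g₂) ha he)).trans ?_
  have hr : D.v (a / e) = 1 := by rw [map_div₀, ha, he, div_one]
  have e1 := hcoef _ v_base
  have e2 := hcoef (-base D) (by rw [Valuation.map_neg, v_base])
  rw [mul_div_assoc, mul_comm, div_mul_cancel₀ _ base_ne_zero] at e1
  rw [show -base D * (a / e) / base D = -(a / e) by
    field_simp [base_ne_zero (D := D)]] at e2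
  rw [e1, e2]
  rcases hT.unit_residue hr with h | h
  · rw [if_pos h, if_pos h, if_neg]
    · exact Agree.refl _
    · rw [show -(a / e) - 1 = -(a / e + 1) by ring, Valuation.map_neg]
      exact hT.congr_neg h
  · rw [if_neg fun h' => hT.congr_neg h' h, if_neg fun h' => hT.congr_neg h' h, if_pos]
    · exact Agree.refl _
    · rw [show -(a / e) - 1 = -(a / e + 1) by ring, Valuation.map_neg]; exact h

end IsTame

end LocQuad

end FermatAgent.LT.Theta
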