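import Fermat.Agent.LT.Theta.Tame

/-!
# The action of the maximal compact subgroup on the vectors of level one

`Acts` records that a matrix acts on the two coordinates of the vectors of level one by a given
map. It is computed for upper triangular matrices (`acts_upper`) and the Weyl element
(`acts_wMat`), hence for every integral matrix with unit determinant (`exists_acts`).
Consequently the congruence subgroup acts trivially (`acts_congr`), the normaliser of the
non-split torus fixes equal coordinates (`acts_torus`), and sums over families stable under a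
unipotent vanish (`sum_wAct_eq_zero`).
-/

set_option autoImplicit false

noncomputable section

open WithZero
open scoped MatrixGroups

namespace FermatAgent.LT.Theta

namespace LocQuad

namespace IsTame

variable {F M : Type*} [Field F] [Field M] [Algebra F M] {D : LocQuad F M} {χ : F →* ℂ}
  {θ : M →* ℂ} {J : AddSubgroup M} (hT : IsTame D χ θ J)

/-- `g` acts on the two coordinates through `T`. -/
def Acts (D : LocQuad F M) (χ : F →* ℂ) (θ : M →* ℂ) (g : GL (Fin 2) F) (T : ℂ × ℂ → ℂ × ℂ) :
    Prop :=
  ∀ p : ℂ × ℂ, Agree (D.wAct χ g (vec D θ p.1 p.2)) (vec D θ (T p).1 (T p).2)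

/-- Multiplication of the two coordinates by the values of the additive character. -/
def nMap (D : LocQuad F M) (b : F) (p : ℂ × ℂ) : ℂ × ℂ :=
  (D.ψ (b * base D) * p.1, D.ψ (-(b * base D)) * p.2)

open Classical in
/-- The permutation of the two coordinates attached to a unit. -/
def dMap (D : LocQuad F M) (r : F) (p : ℂ × ℂ) : ℂ × ℂ :=
  if D.v (r - 1) < 1 then p else (p.2, p.1)

include hT

/-- Standard vectors are nice. -/
lemma nice_vec (g₁ g₂ : ℂ) : D.Nice (vec D θ g₁ g₂) := (hT.isTest (hT.mem_vec g₁ g₂)).nice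

lemma acts_mul {g k : GL (Fin 2) F} {S T : ℂ × ℂ → ℂ × ℂ} (hg : Acts D χ θ g S)
    (hk : Acts D χ θ k T) : Acts D χ θ (g * k) (fun p => S (T p)) := fun p =>
  (wAct_mul hT.isSign g k (hT.nice_vec p.1 p.2)).trans (((hk p).wAct g).trans (hg (T p)))

omit hT in
lemma Acts.congr {g : GL (Fin 2) F} {S T : ℂ × ℂ → ℂ × ℂ} (hg : Acts D χ θ g S)
    (h : ∀ p, S p = T p) : Acts D χ θ g T := fun p => by rw [← h p]; exact hg p

lemma acts_unique {g : GL (Fin 2) F} {S T : ℂ × ℂ → ℂ × ℂ} (hS : Acts D χ θ g S)
    (hS' : Acts D χ θ g T) (p : ℂ × ℂ) : S p = T p := by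
  have h := (hS p).symm.trans (hS' p)
  have h1 := h 1 (base D) base_ne_zero
  have h2 := h 1 (-base D) (neg_ne_zero.2 base_ne_zero)
  rw [vec_apply_base, vec_apply_base] at h1
  rw [hT.vec_apply_neg_base, hT.vec_apply_neg_base] at h2
  exact Prod.ext h1 h2

omit hT in
lemma ψ_base_congr {w : F} (hw : D.v w < 1) : D.ψ (w * base D) = 1 := by
  rw [mul_comm]; exact ψ_congr v_base hw

omit hT in
lemma nMap_congr {b : F} (hb : D.v b < 1) (p : ℂ × ℂ) : nMap D b p = p := by
  have h2 : D.ψ (-(b * base D)) = 1 := by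
    rw [← neg_mul]; exact ψ_base_congr (by rwa [Valuation.map_neg])
  simp [nMap, ψ_base_congr hb, h2]

lemma acts_upper {a b e : F} (ha : D.v a = 1) (he : D.v e = 1) (hb : D.v b ≤ 1) :
    Acts D χ θ (upper a b e (fun h => by simp [h] at ha) (fun h => by simp [h] at he))
      (fun p => nMap D (b / e) (dMap D (a / e) p)) := by
  intro p
  rw [wAct_upper]
  refine (Agree.opN (hT.opD_vec ha he p.1 p.2) (b / e)).trans ?_
  have hbe : D.v (b / e) ≤ 1 := by rwa [map_div₀, he, div_one]
  unfold dMap
  split_ifs <;> exact hT.opN_vec hbe _ _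

lemma ψ_base_ne_one : D.ψ (base D) ≠ 1 := by
  intro h1
  obtain ⟨b, hb, hψ⟩ := D.exists_ψ_ne_one
  refine hψ ?_
  have hbase := base_ne_zero (D := D)
  set r := b / base D with hr
  have hrv : D.v r ≤ 1 := by rw [hr, map_div₀, v_base, div_le_iff₀ exp_pos, one_mul]; exact hb
  have hbr : b = r * base D := by rw [hr, div_mul_cancel₀ _ hbase]
  rcases hT.residue r hrv with h | h | h
  · rw [hbr]; exact ψ_base_congr h
  · rw [hbr, show r * base D = base D + (r - 1) * base D by ring, D.ψ_add, h1,
      ψ_base_congr h, one_mul]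
  · have hneg : D.ψ (-base D) = 1 := by simpa [h1] using D.ψ_neg_mul (base D)
    rw [hbr, show r * base D = -base D + (r + 1) * base D by ring, D.ψ_add, hneg,
      ψ_base_congr h, one_mul]

/-- The Weyl element fixes the space of level one pointwise. -/
theorem acts_wMat : Acts D χ θ wMat id := by
  classical
  set α := D.opW (vec D θ 1 0) 1 (base D) with hα
  set β := D.opW (vec D θ 1 0) 1 (-base D) with hβ
  have he1 : Agree (D.opW (vec D θ 1 0)) (vec D θ α β) :=
    hT.mem_agree (hT.mem_opW (hT.mem_vec 1 0))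
  have h1 : D.v (1 : F) = 1 := map_one _
  have hm1 : D.v (-1 : F) = 1 := by rw [Valuation.map_neg, h1]
  have hswap : ∀ p : ℂ × ℂ, ∀ a e : F, D.v a = 1 → D.v e = 1 → D.v (a / e + 1) < 1 →
      Agree (D.opD χ a e (vec D θ p.1 p.2)) (vec D θ p.2 p.1) := fun p a e ha he hr => by
    have := hT.opD_vec ha he p.1 p.2
    rwa [if_neg fun h => hT.congr_neg h hr] at this
  have he2 : Agree (D.opW (vec D θ 0 1)) (vec D θ β α) := by
    have hd : Agree (D.opW (D.opD χ (-1) 1 (vec D θ 1 0)))
        (D.opD χ 1 (-1) (D.opW (vec D θ 1 0))) := by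
      have e : (wMat * upper (-1 : F) 0 1 (by simp) one_ne_zero) =
          upper (1 : F) 0 (-1) one_ne_zero (by simp) * wMat := by
        refine Units.ext ?_
        simp only [Units.val_mul, upper_val, wMat_val]
        ext i j
        fin_cases i <;> fin_cases j <;> simp [Matrix.mul_apply, Fin.sum_univ_two]
      have l := wAct_mul hT.isSign wMat (upper (-1 : F) 0 1 (by simp) one_ne_zero)
        (hT.nice_vec 1 0)
      have r := wAct_mul hT.isSign (upper (1 : F) 0 (-1) one_ne_zero (by simp)) wMat
        (hT.nice_vec 1 0)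
      rw [e] at l
      have := l.symm.trans r
      rwa [wAct_wMat, wAct_upper, zero_div, opN_zero, wAct_upper, zero_div, opN_zero, wAct_wMat]
        at this
    refine ((hswap (1, 0) (-1) 1 hm1 h1 (by simp)).symm.opW).trans (hd.trans ?_)
    exact (he1.opD one_ne_zero (by simp)).trans (hswap (α, β) 1 (-1) h1 hm1 (by simp))
  have hA : Acts D χ θ wMat (fun p => (α * p.1 + β * p.2, β * p.1 + α * p.2)) := by
    intro p x u hu
    rw [wAct_wMat]
    have esum : vec D θ p.1 p.2 =
        fun x u => p.1 * vec D θ 1 0 x u + p.2 * vec D θ 0 1 x u := by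
      funext x u; simp only [vec]; split_ifs <;> ring
    have hn1 := hT.nice_vec 1 0
    have hn2 := hT.nice_vec 0 1
    have n1 : D.Nice (fun x u => p.1 * vec D θ 1 0 x u) := fun u hu =>
      D.chain.schwartz.smul_mem p.1 (hn1 u hu)
    have n2 : D.Nice (fun x u => p.2 * vec D θ 0 1 x u) := fun u hu =>
      D.chain.schwartz.smul_mem p.2 (hn2 u hu)
    have ea := wAct_add (χ := χ) n1 n2 wMat x u hu
    have es1 := wAct_smul (χ := χ) hn1 p.1 wMat x u hu
    have es2 := wAct_smul (χ := χ) hn2 p.2 wMat x u hu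
    simp only [wAct_wMat] at ea es1 es2
    rw [esum, ea, es1, es2, he1 x u hu, he2 x u hu]
    simp only [vec]
    split_ifs <;> ring
  have hneg : Acts D χ θ (upper (-1 : F) 0 (-1) (by simp) (by simp)) id :=
    (hT.acts_upper hm1 hm1 (by simp)).congr fun p => by
      rw [zero_div, nMap_congr (by simp)]
      simp [dMap]
  have hww : (wMat * wMat : GL (Fin 2) F) = upper (-1 : F) 0 (-1) (by simp) (by simp) := by
    refine Units.ext ?_
    simp only [Units.val_mul, upper_val, wMat_val]
    ext i j
    fin_cases i <;> fin_cases j <;> simp [Matrix.mul_apply, Fin.sum_univ_two]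
  have hsq := hT.acts_unique (hww ▸ hT.acts_mul hA hA) hneg (1, 0)
  simp only [id, Prod.mk.injEq, mul_one, mul_zero, add_zero] at hsq
  have hM : Acts D χ θ (wMat * upper (1 : F) 1 1 one_ne_zero one_ne_zero)
      (fun p => (α * (D.ψ (base D) * p.1) + β * (D.ψ (-base D) * p.2),
        β * (D.ψ (base D) * p.1) + α * (D.ψ (-base D) * p.2))) :=
    (hT.acts_mul hA (hT.acts_upper h1 h1 (by simp))).congr fun p => by simp [nMap, dMap]
  have hcube : (wMat * upper (1 : F) 1 1 one_ne_zero one_ne_zero) *
      (wMat * upper (1 : F) 1 1 one_ne_zero one_ne_zero) *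
      (wMat * upper (1 : F) 1 1 one_ne_zero one_ne_zero) =
        upper (-1 : F) 0 (-1) (by simp) (by simp) := by
    refine Units.ext ?_
    simp only [Units.val_mul, upper_val, wMat_val]
    ext i j
    fin_cases i <;> fin_cases j <;> simp [Matrix.mul_apply, Fin.sum_univ_two]
  have hc := hT.acts_unique (hcube ▸ hT.acts_mul (hT.acts_mul hM hM) hM) hneg (1, 0)
  simp only [id, Prod.mk.injEq, mul_one, mul_zero, add_zero] at hc
  have hz3 : D.ψ (base D) * (D.ψ (base D) * D.ψ (base D)) = 1 := by
    rw [← D.ψ_add, ← D.ψ_add, show base D + (base D + base D) = 3 * base D by ring]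
    exact ψ_base_congr hT.v_three
  have hαβ : α * β = 0 := by
    have := hsq.2
    linear_combination this / 2
  rcases mul_eq_zero.1 hαβ with h0 | h0
  · exfalso
    rw [h0] at hc
    simp at hc
  · rw [h0] at hc hsq
    simp only [mul_zero, zero_mul, add_zero] at hc hsq
    have hα1 : α = 1 := by
      linear_combination hc.1 - α ^ 3 * hz3 - α * hsq.1
    exact hA.congr fun p => by simp [hα1, h0]

/-- An element of the maximal compact subgroup with unit lower left entry. -/
lemma acts_big {k : GL (Fin 2) F} (hk : ∀ i j, D.v (k.val i j) ≤ 1) (hdet : D.v k.val.det = 1)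
    (hc : D.v (k.val 1 0) = 1) :
    Acts D χ θ k (fun p => nMap D (k.val 0 0 / k.val 1 0)
      (dMap D (k.val.det / k.val 1 0 / k.val 1 0) (nMap D (k.val 1 1 / k.val 1 0) p))) := by
  intro p
  have hc0 : k.val 1 0 ≠ 0 := fun e => by simp [e] at hc
  have hq : ∀ y : F, D.v y ≤ 1 → D.v (y / k.val 1 0) ≤ 1 := fun y hy => by
    rwa [map_div₀, hc, div_one]
  have hd : D.v (k.val.det / k.val 1 0) = 1 := by rw [map_div₀, hdet, hc, div_one]
  rw [wAct, if_neg hc0]
  set q := nMap D (k.val 1 1 / k.val 1 0) p
  have e1 : Agree (D.opW (D.opN (k.val 1 1 / k.val 1 0) (vec D θ p.1 p.2)))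
      (vec D θ q.1 q.2) := by
    refine ((hT.opN_vec (hq _ (hk 1 1)) p.1 p.2).opW).trans ?_
    have := hT.acts_wMat q
    rw [wAct_wMat] at this
    exact this
  refine ((e1.opD (div_ne_zero (Matrix.GeneralLinearGroup.det_ne_zero k) hc0) hc0).opN _).trans ?_
  refine ((hT.opD_vec hd hc q.1 q.2).opN _).trans ?_
  unfold dMap
  split_ifs <;> exact hT.opN_vec (hq _ (hk 0 0)) _ _

/-- An element of the maximal compact subgroup with small lower left entry. -/
lemma acts_small {k : GL (Fin 2) F} (hk : ∀ i j, D.v (k.val i j) ≤ 1) (hdet : D.v k.val.det = 1)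
    (hc : D.v (k.val 1 0) < 1) :
    Acts D χ θ k (fun p => nMap D (k.val 0 1 * k.val 0 0 / k.val.det)
      (dMap D (k.val 0 0 * k.val 0 0 / k.val.det) p)) := by
  have ha : D.v (k.val 0 0) = 1 := by
    refine le_antisymm (hk 0 0) (not_lt.1 fun h => ?_)
    have : D.v k.val.det < 1 := by
      rw [Matrix.det_fin_two, sub_eq_add_neg, ← mul_neg]
      refine Valuation.map_add_lt _ ?_ ?_ <;> rw [map_mul]
      · exact (mul_le_of_le_one_right zero_le (hk 1 1)).trans_lt h
      · rw [Valuation.map_neg]
        exact (mul_le_of_le_one_left zero_le (hk 0 1)).trans_lt hc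
    exact this.ne hdet
  have ha0 : k.val 0 0 ≠ 0 := fun e => by simp [e] at ha
  have hd0 := Matrix.GeneralLinearGroup.det_ne_zero k
  set x := k.val 1 0 / k.val 0 0 with hx
  have hxv : D.v (-x) < 1 := by rwa [Valuation.map_neg, hx, map_div₀, ha, div_one]
  have hm1 : D.v (1 : F) = 1 := map_one _
  have hna : D.v (-k.val 0 0) = 1 := by rwa [Valuation.map_neg]
  have hnd : D.v (-(k.val.det / k.val 0 0)) = 1 := by
    rw [Valuation.map_neg, map_div₀, hdet, ha, div_one]
  have hnb : D.v (-k.val 0 1) ≤ 1 := by rw [Valuation.map_neg]; exact hk 0 1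
  have e : k = wMat * upper 1 (-x) 1 one_ne_zero one_ne_zero * wMat *
      upper (-k.val 0 0) (-k.val 0 1) (-(k.val.det / k.val 0 0))
        (neg_ne_zero.2 ha0) (neg_ne_zero.2 (div_ne_zero hd0 ha0)) := by
    refine Units.ext ?_
    simp only [Units.val_mul, upper_val, wMat_val]
    ext i j
    fin_cases i <;> fin_cases j <;>
      simp [Matrix.mul_apply, Fin.sum_univ_two, Matrix.det_fin_two, hx] <;> field_simp
    ring
  have hact := hT.acts_mul (hT.acts_mul (hT.acts_mul hT.acts_wMat
    (hT.acts_upper hm1 hm1 hxv.le)) hT.acts_wMat) (hT.acts_upper hna hnd hnb)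
  rw [← e] at hact
  refine hact.congr fun p => ?_
  have h1 : ∀ q : ℂ × ℂ, nMap D (-x / 1) (dMap D (1 / 1) q) = q := fun q => by
    rw [div_one, nMap_congr hxv]; simp [dMap]
  simp only [id, h1]
  rw [show -k.val 0 1 / -(k.val.det / k.val 0 0) = k.val 0 1 * k.val 0 0 / k.val.det by
      field_simp,
    show -k.val 0 0 / -(k.val.det / k.val 0 0) = k.val 0 0 * k.val 0 0 / k.val.det by
      field_simp]

lemma exists_acts {k : GL (Fin 2) F} (hk : ∀ i j, D.v (k.val i j) ≤ 1)
    (hdet : D.v k.val.det = 1) : ∃ T, Acts D χ θ k T := by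
  rcases (hk 1 0).lt_or_eq with h | h
  · exact ⟨_, hT.acts_small hk hdet h⟩
  · exact ⟨_, hT.acts_big hk hdet h⟩

/-- The congruence subgroup acts trivially on the space of level one. -/
theorem acts_congr {k : GL (Fin 2) F} (hk : ∀ i j, D.v (k.val i j) ≤ 1)
    (hdet : D.v k.val.det = 1) (h01 : D.v (k.val 0 1) < 1) (h10 : D.v (k.val 1 0) < 1)
    (hd : D.v (k.val 0 0 - k.val 1 1) < 1) : Acts D χ θ k id := by
  refine (hT.acts_small hk hdet h10).congr fun p => ?_
  have hr : D.v (k.val 0 0 * k.val 0 0 / k.val.det - 1) < 1 := by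
    rw [div_sub_one (Matrix.GeneralLinearGroup.det_ne_zero k), map_div₀, hdet, div_one,
      Matrix.det_fin_two,
      show k.val 0 0 * k.val 0 0 - (k.val 0 0 * k.val 1 1 - k.val 0 1 * k.val 1 0) =
        k.val 0 0 * (k.val 0 0 - k.val 1 1) + k.val 0 1 * k.val 1 0 by ring]
    refine Valuation.map_add_lt _ ?_ ?_ <;> rw [map_mul]
    · exact (mul_le_of_le_one_left zero_le (hk 0 0)).trans_lt hd
    · exact (mul_le_of_le_one_right zero_le (hk 1 0)).trans_lt h01
  rw [nMap_congr, dMap, if_pos hr]
  · rfl
  · rw [map_div₀, hdet, div_one, map_mul]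
    exact (mul_le_of_le_one_right zero_le (hk 0 0)).trans_lt h01

/-- The normaliser of the non-split torus fixes the vector with equal coordinates. -/
theorem acts_torus {k : GL (Fin 2) F} (hk : ∀ i j, D.v (k.val i j) ≤ 1)
    (hdet : D.v k.val.det = 1)
    (hD : (D.v (k.val 0 0 - k.val 1 1) < 1 ∧ D.v (k.val 0 1 + k.val 1 0) < 1) ∨
      (D.v (k.val 0 0 + k.val 1 1) < 1 ∧ D.v (k.val 0 1 - k.val 1 0) < 1)) :
    Agree (D.wAct χ k (vec D θ 1 1)) (vec D θ 1 1) := by
  classical
  rcases (hk 1 0).lt_or_eq with hc | hc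
  · have hb : D.v (k.val 0 1) < 1 := by
      rcases hD with ⟨-, h⟩ | ⟨-, h⟩
      · have e : k.val 0 1 = (k.val 0 1 + k.val 1 0) - k.val 1 0 := by ring
        rw [e]
        exact lt_of_le_of_lt (Valuation.map_sub _ _ _) (max_lt h hc)
      · have e : k.val 0 1 = (k.val 0 1 - k.val 1 0) + k.val 1 0 := by ring
        rw [e]
        exact Valuation.map_add_lt _ h hc
    refine (hT.acts_small hk hdet hc (1, 1)).trans ?_
    beta_reduce
    rw [nMap_congr (by
      rw [map_div₀, hdet, div_one, map_mul]
      exact (mul_le_of_le_one_right zero_le (hk 0 0)).trans_lt hb)]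
    unfold dMap
    split_ifs <;> exact Agree.refl _
  · have hc0 : k.val 1 0 ≠ 0 := fun e => by simp [e] at hc
    refine (hT.acts_big hk hdet hc (1, 1)).trans ?_
    beta_reduce
    set t := k.val 0 0 / k.val 1 0 with ht
    set s := k.val 1 1 / k.val 1 0 with hs
    set r := k.val.det / k.val 1 0 / k.val 1 0 with hr
    have htv : D.v t ≤ 1 := by rw [ht, map_div₀, hc, div_one]; exact hk 0 0
    have hsv : D.v s ≤ 1 := by rw [hs, map_div₀, hc, div_one]; exact hk 1 1
    have hrv : D.v r = 1 := by rw [hr, map_div₀, map_div₀, hdet, hc, div_one, div_one]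
    have hcube : D.v (t * (t - 1) * (t + 1) + 3 * t) < 1 := by
      refine Valuation.map_add_lt _ ?_ ?_
      · have h1 : D.v (t - 1) ≤ 1 :=
          (Valuation.map_sub _ _ _).trans (max_le htv (by simp))
        have h2 : D.v (t + 1) ≤ 1 :=
          (Valuation.map_add _ _ _).trans (max_le htv (by simp))
        rw [map_mul, map_mul]
        rcases hT.residue t htv with h | h | h
        · exact (mul_le_of_le_one_right zero_le h2).trans_lt
            ((mul_le_of_le_one_right zero_le h1).trans_lt h)
        · exact (mul_le_of_le_one_right zero_le h2).trans_lt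
            ((mul_le_of_le_one_left zero_le htv).trans_lt h)
        · exact (mul_le_of_le_one_left zero_le (mul_le_one' htv h1)).trans_lt h
      · rw [map_mul]; exact (mul_le_of_le_one_right zero_le htv).trans_lt hT.v_three
    have hkey : D.v (t + r * s) < 1 := by
      rcases hD with ⟨h1, h2⟩ | ⟨h1, h2⟩
      · have e : t + r * s = (s - t) * (t * (s + t) + 1) + -(s * ((k.val 0 1 + k.val 1 0) /
            k.val 1 0)) + (t * (t - 1) * (t + 1) + 3 * t) := by
          rw [hr, ht, hs, Matrix.det_fin_two]; field_simp; ring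
        rw [e]
        refine Valuation.map_add_lt _ (Valuation.map_add_lt _ ?_ ?_) hcube
        · rw [map_mul]
          refine (mul_le_of_le_one_right zero_le ((Valuation.map_add _ _ _).trans (max_le ?_
            (by simp)))).trans_lt ?_
          · rw [map_mul]
            exact mul_le_one' htv ((Valuation.map_add _ _ _).trans (max_le hsv htv))
          · rwa [ht, hs, ← sub_div, map_div₀, hc, div_one, Valuation.map_sub_swap]
        · rw [Valuation.map_neg, map_mul, map_div₀ D.v (k.val 0 1 + k.val 1 0), hc, div_one]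
          exact (mul_le_of_le_one_left zero_le hsv).trans_lt h2
      · have e : t + r * s = (s + t) * (t * (s - t) - 1) + -(s * ((k.val 0 1 - k.val 1 0) /
            k.val 1 0)) + (t * (t - 1) * (t + 1) + 3 * t) := by
          rw [hr, ht, hs, Matrix.det_fin_two]; field_simp; ring
        rw [e]
        refine Valuation.map_add_lt _ (Valuation.map_add_lt _ ?_ ?_) hcube
        · rw [map_mul]
          refine (mul_le_of_le_one_right zero_le ((Valuation.map_sub _ _ _).trans (max_le ?_
            (by simp)))).trans_lt ?_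
          · rw [map_mul]
            exact mul_le_one' htv ((Valuation.map_sub _ _ _).trans (max_le hsv htv))
          · rwa [ht, hs, ← add_div, map_div₀, hc, div_one, add_comm]
        · rw [Valuation.map_neg, map_mul, map_div₀ D.v (k.val 0 1 - k.val 1 0), hc, div_one]
          exact (mul_le_of_le_one_left zero_le hsv).trans_lt h2
    have hperm : dMap D r (nMap D s (1, 1)) = nMap D (r * s) (1, 1) := by
      unfold dMap
      rcases hT.unit_residue hrv with h | h
      · have hw : D.v ((r - 1) * s) < 1 := by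
          rw [map_mul]; exact (mul_le_of_le_one_right zero_le hsv).trans_lt h
        rw [if_pos h]
        simp only [nMap, mul_one]
        rw [show r * s * base D = s * base D + (r - 1) * s * base D by ring, D.ψ_add,
          ψ_base_congr hw, mul_one, neg_add, D.ψ_add, ← neg_mul ((r - 1) * s),
          ψ_base_congr (w := -((r - 1) * s)) (by rwa [Valuation.map_neg]), mul_one]
      · have hw : D.v ((r + 1) * s) < 1 := by
          rw [map_mul]; exact (mul_le_of_le_one_right zero_le hsv).trans_lt h
        rw [if_neg fun h' => hT.congr_neg h' h]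
        simp only [nMap, mul_one]
        rw [show r * s * base D = -(s * base D) + (r + 1) * s * base D by ring, D.ψ_add,
          ψ_base_congr hw, mul_one, neg_add, neg_neg, D.ψ_add, ← neg_mul ((r + 1) * s),
          ψ_base_congr (w := -((r + 1) * s)) (by rwa [Valuation.map_neg]), mul_one]
    rw [hperm]
    have hsum : nMap D t (nMap D (r * s) (1, 1)) = ((1 : ℂ), (1 : ℂ)) := by
      simp only [nMap, mul_one, ← D.ψ_add, ← add_mul]
      rw [ψ_base_congr hkey, show -(t * base D) + -(r * s * base D) =
        -(t + r * s) * base D by ring, ψ_base_congr (by rwa [Valuation.map_neg])]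
    rw [hsum]
    exact Agree.refl _

/-- The sum over a family stable under a non-trivial unipotent vanishes. -/
theorem sum_wAct_eq_zero {ι : Type*} [Fintype ι] (k : ι → GL (Fin 2) F)
    (hk : ∀ i a b, D.v ((k i).val a b) ≤ 1) (hdet : ∀ i, D.v (k i).val.det = 1)
    (e : Equiv.Perm ι) (he : ∀ i, ∃ j : GL (Fin 2) F, Acts D χ θ j id ∧
      upper (1 : F) 1 1 one_ne_zero one_ne_zero * k i = k (e i) * j)
    (p : ℂ × ℂ) (x : M) {u : F} (hu : u ≠ 0) :
    ∑ i, D.wAct χ (k i) (vec D θ p.1 p.2) x u = 0 := by
  classical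
  choose T hT' using fun i => hT.exists_acts (hk i) (hdet i)
  set A := ∑ i, T i p with hA
  have hn1 : Acts D χ θ (upper (1 : F) 1 1 one_ne_zero one_ne_zero) (nMap D 1) :=
    (hT.acts_upper (map_one _) (map_one _) (by simp)).congr fun q => by simp [dMap]
  have hfix : nMap D 1 A = A := by
    have hi : ∀ i, nMap D 1 (T i p) = T (e i) p := fun i => by
      obtain ⟨j, hj, hje⟩ := he i
      exact hT.acts_unique (hje ▸ hT.acts_mul hn1 (hT' i)) (hT.acts_mul (hT' (e i)) hj) p
    have hlin : nMap D 1 A = ∑ i, nMap D 1 (T i p) := by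
      rw [hA]
      refine Prod.ext ?_ ?_ <;> simp [nMap, Prod.fst_sum, Prod.snd_sum, Finset.mul_sum]
    rw [hlin, Finset.sum_congr rfl fun i _ => hi i, hA]
    exact Equiv.sum_comp e fun i => T i p
  have hz := hT.ψ_base_ne_one
  have h1 : A.1 = 0 := by
    have h := congrArg Prod.fst hfix
    simp only [nMap, one_mul] at h
    have : (D.ψ (base D) - 1) * A.1 = 0 := by linear_combination h
    exact (mul_eq_zero.1 this).resolve_left (sub_ne_zero.2 hz)
  have h2 : A.2 = 0 := by
    have h := congrArg Prod.snd hfix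
    simp only [nMap, one_mul] at h
    have : (D.ψ (-base D) - 1) * A.2 = 0 := by linear_combination h
    refine (mul_eq_zero.1 this).resolve_left (sub_ne_zero.2 fun h' => hz ?_)
    simpa [h'] using D.ψ_neg_mul (base D)
  rw [Finset.sum_congr rfl fun i _ => hT' i p x u hu]
  have e2 : ∑ i, vec D θ (T i p).1 (T i p).2 x u = vec D θ A.1 A.2 x u := by
    simp only [vec, hA, Prod.fst_sum, Prod.snd_sum]
    split_ifs <;> simp [Finset.mul_sum]
  rw [e2, h1, h2]
  simp [vec]

end IsTame

end LocQuad

end FermatAgent.LT.Theta
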