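import Fermat.Agent.LT2.Theta.NonZero
import Fermat.Agent.LT.Theta.TameWhit

/-!
# The theta series with tame special places

The special places have three residues and `θ` is tame there; the test vector of level one gives a
form with the behaviour of depth zero.
-/

set_option autoImplicit false

noncomputable section

open IsDedekindDomain NumberField WithZero Filter
open scoped MatrixGroups

namespace FermatAgent.LT.Theta

open LocQuad FermatAgent.LT2.Theta FermatAgent.LT2.Theta.ThetaCore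
  FermatAgent.LT2.Theta.ThetaCore.Vec

variable (L M : Type*) [Field L] [NumberField L] [Field M] [Algebra L M]
  [Algebra.IsQuadraticExtension L M]

/-- The input: a character of the ideles of `M` trivial on `Mˣ`, tame at the special places, which
have three residues. -/
structure ThetaDatum extends ThetaCore L M where
  three_residues : ∀ v ∈ S, Place.qv v = 3
  v_three : ∀ v ∈ S, v.valuation L 3 < 1
  θ_tame : ∀ v ∈ S, ∀ x ∈ Quad.lattice L M v, v.valuation L (Algebra.norm L (x - 1)) < 1 →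
    θ v x = 1
  norm_one : ∀ v ∈ S, ∃ h ∈ Quad.lattice L M v, Algebra.norm L h = 1 ∧ θ v h ≠ 1
  θ_cont := fun v hv => ⟨1, fun x hx => θ_tame v hv x (isU_of_lat le_rfl hx).1
    (((Place.locQuad v M).v_N_le hx).trans_lt (by rw [← exp_zero, exp_lt_exp]; norm_num))⟩

variable {L M}

namespace ThetaDatum

variable (Θ : ThetaDatum L M) (v : HeightOneSpectrum (𝓞 L))

lemma v_two (hv : v ∈ Θ.S) : v.valuation L 2 = 1 := by
  rw [show (2 : L) = 3 - 1 by norm_num, Valuation.map_sub_eq_of_lt_right _ (by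
    simpa using Θ.v_three v hv), map_one]

variable [IsTotallyComplex L]

/-- At an unramified place the sign character is trivial on units. -/
lemma χ_unit_of_unr (hu : Quad.IsUnr L M v) {a : L} (ha : v.valuation L a = 1) :
    Θ.χ v a = 1 := by
  obtain ⟨ε, hε, -, hχ, -⟩ := LocQuad.exists_sign_unimodular (Place.isUnimodular hu)
  rw [(Θ.isSign v).unique hχ (fun e => by simp [e] at ha), LocQuad.unrChar_apply _ hε (n := 0)
    (by rw [exp_zero]; exact ha), zpow_zero]

variable {v}

/-- A special unramified place is inert. -/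
lemma inert_of_mem (hv : v ∈ Θ.S) (hu : Quad.IsUnr L M v) :
    ∀ x ∈ (Θ.loc v).O, (Θ.loc v).v ((Θ.loc v).N x) < 1 → x ∈ (Θ.loc v).lat 1 := by
  refine (Place.inert_or_split hu).resolve_right ?_
  rintro ⟨ϖ, hϖ, hP⟩
  obtain ⟨h, hh, hN, hne⟩ := Θ.norm_one v hv
  refine hne ?_
  set T := Algebra.trace L M h
  set P := Algebra.trace L M ϖ
  set S' := Algebra.trace L M (h * Quad.conj L M ϖ)
  have hP0 : P ≠ 0 := fun e => by
    rw [e, map_zero] at hP
    exact zero_ne_one hP
  have key : (S' / P) ^ 2 - S' / P * T + 1 = -(T ^ 2 - 4) * Algebra.norm L ϖ / P ^ 2 := by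
    rw [eq_div_iff (pow_ne_zero 2 hP0)]
    have e : S' ^ 2 - S' * P * T + P ^ 2 * Algebra.norm L h =
        -(T ^ 2 - 4 * Algebra.norm L h) * Algebra.norm L ϖ := by
      apply (algebraMap L M).injective
      simp only [map_add, map_sub, map_mul, map_neg, map_pow, map_ofNat, S', P, T, Quad.trace_spec,
        Quad.norm_spec, Quad.conj_conj]
      ring
    rw [hN] at e
    rw [← mul_one (4 : L), ← e]
    field_simp
  have hT : v.valuation L T ≤ 1 := Quad.v_trace_le hh
  have ha : v.valuation L (S' / P) ≤ 1 := by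
    rw [map_div₀, hP, div_one]
    exact Quad.v_trace_le (mul_mem hh (Quad.conj_mem_lattice hϖ.mem))
  have hsmall : v.valuation L ((S' / P) ^ 2 - S' / P * T + 1) < 1 := by
    rw [key, map_div₀, map_pow, hP, one_pow, div_one, map_mul, Valuation.map_neg]
    refine lt_of_le_of_lt (mul_le_of_le_one_left zero_le ?_) ?_
    · refine (Valuation.map_sub _ _ _).trans (max_le ?_ ?_)
      · rw [map_pow]; exact pow_le_one₀ zero_le hT
      · simpa [map_ofNat] using v.valuation_le_one (4 : 𝓞 L)
    · rw [show v.valuation L (Algebra.norm L ϖ) = exp (-1 : ℤ) from hϖ.v_N, ← exp_zero, exp_lt_exp]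
      norm_num
  have hfin : ∀ t : L, (t = 1 ∨ t = -1) → v.valuation L (S' / P - t) < 1 → Θ.θ v h = 1 := by
    intro t ht hta
    have ht2 : t * t = 1 := by rcases ht with rfl | rfl <;> ring
    have hvt : v.valuation L t = 1 := by rcases ht with rfl | rfl <;> simp
    have hsmall' : v.valuation L (2 - t * T) < 1 := by
      have e : 2 - t * T = ((S' / P) ^ 2 - S' / P * T + 1) + (t - S' / P) * (t + S' / P - T) := by
        linear_combination -ht2
      rw [e]
      refine Valuation.map_add_lt _ hsmall ?_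
      rw [map_mul, Valuation.map_sub_swap]
      refine (mul_le_of_le_one_right zero_le ?_).trans_lt hta
      exact (Valuation.map_sub _ _ _).trans
        (max_le ((Valuation.map_add _ _ _).trans (max_le hvt.le ha)) hT)
    have hth : algebraMap L M t * h ∈ Quad.lattice L M v :=
      mul_mem (Quad.algebraMap_mem_lattice hvt.le) hh
    have hNth : Algebra.norm L (algebraMap L M t * h - 1) = 2 - t * T := by
      apply (algebraMap L M).injective
      have e1 := Quad.norm_spec L M h
      rw [hN, map_one] at e1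
      rw [Quad.norm_spec, map_sub (Quad.conj L M), map_mul (Quad.conj L M), AlgEquiv.commutes,
        map_one (Quad.conj L M), map_sub (algebraMap L M), map_mul (algebraMap L M), map_ofNat,
        Quad.trace_spec]
      have e2 : algebraMap L M t * algebraMap L M t = 1 := by rw [← map_mul, ht2, map_one]
      linear_combination (h * Quad.conj L M h) * e2 - e1
    have h1 := Θ.θ_tame v hv _ hth (by rw [hNth]; exact hsmall')
    rwa [map_mul, Θ.θ_base v (a := t) (fun e => by simp [e] at hvt), Θ.χ_unit_of_unr v hu hvt,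
      one_mul] at h1
  rcases Place.residue_three (Θ.three_residues v hv) (Θ.v_two v hv) ha with h0 | h1 | h1
  · exfalso
    have h' : v.valuation L ((S' / P) * (S' / P - T)) < 1 := by
      rw [map_mul]
      exact (mul_le_of_le_one_right zero_le
        ((Valuation.map_sub _ _ _).trans (max_le ha hT))).trans_lt h0
    have := Valuation.map_add_lt _ hsmall (show v.valuation L (-((S' / P) * (S' / P - T))) < 1 by
      rwa [Valuation.map_neg])
    rw [show (S' / P) ^ 2 - S' / P * T + 1 + -((S' / P) * (S' / P - T)) = 1 by ring,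
      map_one] at this
    exact lt_irrefl _ this
  · exact hfin 1 (Or.inl rfl) h1
  · exact hfin (-1) (Or.inr rfl) (by rwa [sub_neg_eq_add])

/-- Level one data at every special place. -/
theorem exists_isTame (hv : v ∈ Θ.S) :
    ∃ (J : AddSubgroup M) (hT : IsTame (Θ.loc v) (Θ.χ v) (Θ.θ v) J),
      hT.level = Θ.unitLevel v := by
  have h0 : ∃ x ∈ (Θ.loc v).O, (Θ.loc v).N x = 1 ∧ Θ.θ v x ≠ 1 := Θ.norm_one v hv
  by_cases hu : Quad.IsUnr L M v
  · refine ⟨_, isTame_inert (Place.isUnimodular hu)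
      (Θ.inert_of_mem hv hu) (fun u => Place.residue_three (Θ.three_residues v hv) (Θ.v_two v hv))
      (Θ.v_three v hv) (Θ.isSign v) (fun y hy => ?_) (fun u => Θ.θ_base v) h0, rfl⟩
    have hyO : y ∈ (Θ.loc v).O := by
      rw [← (Θ.loc v).lat_zero]; exact (Θ.loc v).lat_mono (by omega) hy
    refine Θ.θ_tame v hv _ (add_mem (one_mem _) hyO) ?_
    rw [add_sub_cancel_left]
    exact ((Θ.loc v).v_N_le hy).trans_lt (by rw [← exp_zero, exp_lt_exp]; norm_num)
  · obtain ⟨ϖ, hϖ, -⟩ :=
      Place.isRamified3 (Θ.v_two v hv) (Θ.three_residues v hv) (Θ.v_three v hv) hu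
    refine ⟨_, isTame_ramified hϖ (Θ.isSign v) (fun y hy => ?_) (fun u => Θ.θ_base v) h0, rfl⟩
    refine Θ.θ_tame v hv _ (add_mem (one_mem _) (mul_mem hϖ.mem hy)) ?_
    rw [add_sub_cancel_left]
    exact hϖ.v_N_mul_lt hy

omit [IsTotallyComplex L] in
/-- Bounded away from `u = 0`. -/
lemma bdd_tameVec : LT2.Theta.Loc.Bdd (IsTame.tameVec (Θ.loc v) (Θ.θ v)) := by
  classical
  refine ⟨1, fun x u _ => ?_⟩
  simp only [IsTame.tameVec, IsTame.vec, ite_self, mul_one]
  split_ifs with h
  · exact (Θ.norm_θ v x h.2.ne_zero).le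
  · simp

/-- The level: congruence at the special places, maximal elsewhere. -/
def lvl : Level L := Level.ofFinset Θ.S

/-- The test vectors of level one. -/
abbrev base : Θ.Vec where
  vec v := IsTame.tameVec (Θ.loc v) (Θ.θ v)
  isTest v hv := by
    obtain ⟨J, hT, -⟩ := Θ.exists_isTame hv
    exact hT.isTest (hT.mem_vec 1 1)
  isInv v hv := by
    obtain ⟨J, hT, hlev⟩ := Θ.exists_isTame hv
    exact hlev ▸ hT.isInv (hT.mem_vec 1 1)
  bdd v _ := Θ.bdd_tameVec
  lvl := Θ.lvl
  isCongr := Whit.ofFinset_isCongr _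
  loc_out _ hv := Whit.ofFinset_loc_of_notMem hv
  fix v hv u hu := by
    classical
    simp only [lvl, Level.ofFinset, if_pos hv] at hu
    obtain ⟨k, ⟨⟨h1, h2⟩, h3, h4, h5⟩, rfl⟩ := hu
    obtain ⟨J, hT, -⟩ := Θ.exists_isTame hv
    refine ⟨k, rfl, ?_⟩
    exact hT.acts_congr h1 h2 h3 h4 h5 (1, 1)
  ne_zero v hv := by
    obtain ⟨a, ha⟩ := LocalChar.exists_exp_shift (v := v) ((Θ.loc v).d + 1)
    have ha0 : a ≠ 0 := fun e => exp_ne_zero (by rw [← ha, e, map_zero])
    obtain ⟨J, hT, hlev⟩ := Θ.exists_isTame hv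
    refine ⟨upper a 0 1 ha0 one_ne_zero, ?_⟩
    rw [← hlev]
    exact hT.whit_diag_ne_zero ha

/-- The theta form. -/
abbrev phi : Space Θ.lvl → ℂ := Θ.base.phi

lemma atV_phi {v : HeightOneSpectrum (𝓞 L)} {c : ℂ} (k : GL (Fin 2) L)
    (hc : ∀ g (α : Lˣ), Θ.base.wLoc v α (g * k) = c * Θ.base.wLoc v α g) (P : InfPts L)
    (a : Whit.adelGrp L) :
    Θ.phi (P, Whit.cls Θ.lvl (a * Whit.atV v (Matrix.ProjGenLinGroup.mk k))) =
      c * Θ.phi (P, Whit.cls Θ.lvl a) := by
  simpa using Θ.base.phi_local_sum ({()} : Finset Unit) (fun _ => k) v c (by simpa using hc) P a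

omit [IsTotallyComplex L] in
/-- Right multiplication on a class. -/
lemma rightMul_cls (v : HeightOneSpectrum (𝓞 L)) (k : G2 L)
    (hk : ∀ u ∈ Θ.lvl.loc v, k⁻¹ * u * k ∈ Θ.lvl.loc v) (P : InfPts L) (a : Whit.adelGrp L) :
    rightMul v k hk (P, Whit.cls Θ.lvl a) = (P, Whit.cls Θ.lvl (a * Whit.atV v k)) := by
  rw [Whit.cls_mul_atV]; rfl

/-- Invariance under the normaliser of the non-split torus at the special places. -/
theorem phi_rightMul_torus {v : HeightOneSpectrum (𝓞 L)} (hv : v ∈ Θ.S) {k : GL (Fin 2) L}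
    (hkK : k ∈ locGL v)
    (hD : (v.valuation L (k.val 0 0 - k.val 1 1) < 1 ∧ v.valuation L (k.val 0 1 + k.val 1 0) < 1) ∨
      (v.valuation L (k.val 0 0 + k.val 1 1) < 1 ∧ v.valuation L (k.val 0 1 - k.val 1 0) < 1))
    (hk : ∀ u ∈ Θ.lvl.loc v, (Matrix.ProjGenLinGroup.mk k : G2 L)⁻¹ * u *
      Matrix.ProjGenLinGroup.mk k ∈ Θ.lvl.loc v) (x : Space Θ.lvl) :
    Θ.phi (rightMul v (Matrix.ProjGenLinGroup.mk k) hk x) = Θ.phi x := by
  obtain ⟨P, cl⟩ := x
  obtain ⟨a, rfl⟩ := Whit.cls_surjective cl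
  obtain ⟨J, hT, hlev⟩ := Θ.exists_isTame hv
  rw [rightMul_cls, Θ.atV_phi (c := 1) k (fun g α => ?_), one_mul]
  rw [one_mul, Θ.base.wLoc_eq v α.ne_zero, Θ.base.wLoc_eq v α.ne_zero, ← mul_assoc,
    Θ.base.vec₀_mem hv, ← hlev]
  exact hT.whit_mul_torus _ hkK.1 hkK.2 hD

end ThetaDatum

end FermatAgent.LT.Theta
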