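import Fermat.Agent.LT.Theta.Rep

/-!
# The torus action, test vectors and local Whittaker functionals

The torus operators `opH` commute with the Weil representation (`opH_wAct`), which preserves
the test vectors `IsTest` (`IsTest.wAct`), as checked on unipotent, diagonal and Weyl
operators. For a torus level `IsTorusLevel` the local Whittaker functional `whit` is a finite
sum on test vectors (`finite_support_whit`) and is equivariant for the torus, unipotents and
scalars (`whit_opH`, `whit_opN`, `whit_opD_scalar`).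
-/

set_option autoImplicit false

noncomputable section

open WithZero
open scoped MatrixGroups

namespace FermatAgent.LT.Theta

namespace LocQuad

variable {F M : Type*} [Field F] [Field M] [Algebra F M]

section Ops

variable (D : LocQuad F M)

/-- The action of `h ∈ Mˣ`. -/
def opH (h : M) (f : M → F → ℂ) : M → F → ℂ := fun x u => f (h * x) (u / D.N h)

/-- Supported in one shell in the second variable. -/
def Sliced (a : ℤ) (f : M → F → ℂ) : Prop := ∀ x u, D.v u ≠ exp a → f x u = 0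

/-- A test vector: one shell, uniform lattices. -/
def IsTest (f : M → F → ℂ) : Prop :=
  ∃ a m n : ℤ, D.Sliced a f ∧
    ∀ u, u ≠ 0 → D.chain.IsPeriodic n (fun x => f x u) ∧ D.chain.IsSupported m (fun x => f x u)

end Ops

variable {D : LocQuad F M} {χ : F →* ℂ}

/-- Test functions are nice. -/
lemma IsTest.nice {f : M → F → ℂ} (hf : D.IsTest f) : D.Nice f := by
  obtain ⟨a, m, n, -, h⟩ := hf
  exact fun u hu => LatticeChain.mem_schwartz (h u hu).1 (h u hu).2

/-- The norm of an inverse. -/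
lemma N_inv (x : M) : D.N x⁻¹ = (D.N x)⁻¹ := by
  by_cases hx : x = 0
  · simp [hx, D.N_eq_zero.2 rfl]
  refine eq_inv_of_mul_eq_one_left ?_
  rw [← D.N_mul, inv_mul_cancel₀ hx, D.N_one]

/-- The torus commutes with unipotent operators. -/
lemma opH_opN {h : M} (hh : h ≠ 0) (b : F) (f : M → F → ℂ) :
    D.opH h (D.opN b f) = D.opN b (D.opH h f) := by
  have hN : D.N h ≠ 0 := fun e => hh (D.N_eq_zero.1 e)
  funext x u
  simp only [opH, opN, D.N_mul]
  rw [show b * (u / D.N h) * (D.N h * D.N x) = b * u * D.N x by field_simp]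

/-- The torus commutes with diagonal operators. -/
lemma opH_opD (h : M) (a e : F) (f : M → F → ℂ) :
    D.opH h (D.opD χ a e f) = D.opD χ a e (D.opH h f) := by
  funext x u
  simp only [opH, opD, Algebra.smul_def, mul_div_assoc]
  rw [mul_left_comm]

/-- The torus commutes with the Weyl operator. -/
lemma opH_opW {h : M} (hh : h ≠ 0) {f : M → F → ℂ} (hf : D.Nice f) :
    Agree (D.opH h (D.opW f)) (D.opW (D.opH h f)) := by
  intro t u hu
  have hN : D.N h ≠ 0 := fun e => hh (D.N_eq_zero.1 e)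
  set u' := u / D.N h with hu'
  have hu'0 : u' ≠ 0 := div_ne_zero hu hN
  have hs := D.ftIntegrand_mem (c := u') (hf u' hu'0) (h * t)
  have e : D.ft u (fun y => D.opH h f y u) t =
      ((D.absv (D.N h) : ℝ) : ℂ)⁻¹ * D.ft u' (fun y => f y u') (h * t) := by
    rw [ft, ft, ← D.integ_comp_mul hh hs]
    refine congrArg _ (funext fun y => ?_)
    show f (h * y) (u / D.N h) * D.ψ (-(u * D.B y t)) =
      f (h * y) u' * D.ψ (-(u' * D.B (h * y) (h * t)))
    have eB : D.B (h * y) (h * t) = D.N h * D.B y t := by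
      apply (algebraMap F M).injective
      rw [map_mul, D.B_spec, D.B_spec, D.N_spec, map_mul, map_mul]; ring
    rw [eB, hu', ← mul_assoc, div_mul_cancel₀ _ hN]
  have hG : D.G u = ((D.absv (D.N h) : ℝ) : ℂ)⁻¹ * D.G u' := by
    rw [← D.G_mul_N hu'0 hh, hu', div_mul_cancel₀ _ hN]
  show (D.G u')⁻¹ * D.ft u' (fun y => f y u') (h * t) =
    (D.G u)⁻¹ * D.ft u (fun y => D.opH h f y u) t
  rw [e, hG, mul_inv, inv_inv]
  have : ((D.absv (D.N h) : ℝ) : ℂ) ≠ 0 := Complex.ofReal_ne_zero.2 (D.absv_pos hN).ne'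
  field_simp

/-- The torus respects agreement. -/
lemma Agree.opH {f f' : M → F → ℂ} (h : Agree f f') {k : M} (hk : k ≠ 0) :
    Agree (D.opH k f) (D.opH k f') :=
  fun _ _ hu => h _ _ (div_ne_zero hu fun e => hk (D.N_eq_zero.1 e))

omit [Field M] [Algebra F M] in
/-- Agreement is transitive. -/
lemma Agree.trans {f g k : M → F → ℂ} (h₁ : Agree f g) (h₂ : Agree g k) : Agree f k :=
  fun x u hu => (h₁ x u hu).trans (h₂ x u hu)

omit [Field M] [Algebra F M] in
/-- Agreement is symmetric. -/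
lemma Agree.symm {f g : M → F → ℂ} (h₁ : Agree f g) : Agree g f :=
  fun x u hu => (h₁ x u hu).symm

omit [Field M] [Algebra F M] in
/-- Agreement is reflexive. -/
lemma Agree.refl (f : M → F → ℂ) : Agree f f := fun _ _ _ => rfl

/-- The torus commutes with the representation. -/
lemma opH_wAct {h : M} (hh : h ≠ 0) (g : GL (Fin 2) F) {f : M → F → ℂ}
    (hf : D.Nice f) : Agree (D.opH h (D.wAct χ g f)) (D.wAct χ g (D.opH h f)) := by
  unfold wAct
  split_ifs with hc
  · rw [opH_opN hh, opH_opD]; exact Agree.refl _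
  · rw [opH_opN hh, opH_opD]
    refine (Agree.opD ?_ (div_ne_zero (Matrix.GeneralLinearGroup.det_ne_zero g) hc) hc).opN _
    refine (opH_opW hh (nice_opN hf _)).trans ?_
    rw [opH_opN hh]; exact Agree.refl _

/-- The torus preserves niceness. -/
lemma nice_opH {h : M} (hh : h ≠ 0) {f : M → F → ℂ} (hf : D.Nice f) : D.Nice (D.opH h f) :=
  fun _ hu => LatticeChain.comp_mem_schwartz (D.isBounded_mulEquiv hh)
    (hf _ (div_ne_zero hu fun e => hh (D.N_eq_zero.1 e)))

lemma opD_scalar {z : F} (hz : z ≠ 0) (f : M → F → ℂ) :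
    D.opD χ z z f = fun x u => χ z * ((D.absv z : ℂ) ^ 2)⁻¹ *
      D.opH (algebraMap F M z⁻¹) f x u := by
  funext x u
  simp only [opD, opH, Algebra.smul_def, D.N_algebraMap]
  rw [show z * z ^ 3 = (z * z) * (z * z) by ring, D.absv_mul (z * z) (z * z),
    Real.sqrt_mul_self (by rw [D.absv_mul]; exact mul_self_nonneg _), D.absv_mul,
    show u / z⁻¹ ^ 2 = z * z * u by field_simp]
  push_cast
  rw [pow_two]

/-! ### Test vectors -/

/-- Unipotent operators preserve test functions. -/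
lemma IsTest.opN {f : M → F → ℂ} (hf : D.IsTest f) (b : F) : D.IsTest (D.opN b f) := by
  obtain ⟨a, m, n, ha, h⟩ := hf
  obtain ⟨β, hβ⟩ := D.exists_v_le b
  set n' := max (max n (β + a - D.d - m)) ((β + a - D.d).toNat : ℤ)
  have l1 : n ≤ n' := (le_max_left _ _).trans (le_max_left _ _)
  have l2 : β + a - D.d - m ≤ n' := (le_max_right _ _).trans (le_max_left _ _)
  have l3 : ((β + a - D.d).toNat : ℤ) ≤ n' := le_max_right _ _
  refine ⟨a, m, n', fun x u hu => by simp [LocQuad.opN, ha x u hu], fun u hu => ⟨?_, ?_⟩⟩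
  · by_cases hva : D.v u = exp a
    · exact D.phase_mul_periodic (a := β + a) (by rw [map_mul, hva, exp_add]; gcongr)
        ((h u hu).1.mono l1) (h u hu).2 (by omega) (by omega)
    · intro x c _
      simp [LocQuad.opN, ha _ u hva]
  · intro x hx
    simp [LocQuad.opN, show f x u = 0 from (h u hu).2 x hx]

/-- Diagonal operators preserve test functions. -/
lemma IsTest.opD {f : M → F → ℂ} (hf : D.IsTest f) {p e : F} (hp : p ≠ 0) (he : e ≠ 0) :
    D.IsTest (D.opD χ p e f) := by
  obtain ⟨a, m, n, ha, h⟩ := hf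
  obtain ⟨α, hα⟩ := D.exists_v_eq (mul_ne_zero hp he)
  obtain ⟨ε, hε⟩ := D.exists_v_eq he
  have hei : D.v e⁻¹ = exp (-ε) := by rw [map_inv₀, hε, ← WithZero.exp_neg]
  refine ⟨a - α, m - ε, n - ε, fun x u hu => ?_, fun u hu => ⟨fun x c hc => ?_, fun x hx => ?_⟩⟩
  · have : D.v (p * e * u) ≠ exp a := by
      intro e'
      refine hu ?_
      rw [map_mul, hα] at e'
      rw [show D.v u = exp (-α) * (exp α * D.v u) by rw [← mul_assoc, ← exp_add]; simp, e',
        ← exp_add]
      congr 1; ring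
    simp [LocQuad.opD, ha _ _ this]
  · show χ e * _ * f (e⁻¹ • (x + c)) (p * e * u) = _
    rw [smul_add, show f (e⁻¹ • x + e⁻¹ • c) (p * e * u) = f (e⁻¹ • x) (p * e * u) from
      (h _ (mul_ne_zero (mul_ne_zero hp he) hu)).1 _ _ (show e⁻¹ • c ∈ D.lat n by
        have := D.smul_mem_lat (n := ε) (k := n - ε) hei.le hc
        rwa [sub_add_cancel] at this)]
    rfl
  · show χ e * _ * f (e⁻¹ • x) (p * e * u) = 0
    rw [show f (e⁻¹ • x) (p * e * u) = 0 from
      (h _ (mul_ne_zero (mul_ne_zero hp he) hu)).2 _ fun hm => hx ((D.mem_lat_smul hei).1 (by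
        show e⁻¹ • x ∈ D.lat (m - ε + ε)
        rw [sub_add_cancel]; exact hm)), mul_zero]

/-- The Weyl operator preserves test functions. -/
lemma IsTest.opW {f : M → F → ℂ} (hf : D.IsTest f) : D.IsTest (D.opW f) := by
  obtain ⟨a, m, n, ha, h⟩ := hf
  refine ⟨a, a - D.d - n - D.e, a - D.d - m, fun x u hu => ?_, fun u hu => ?_⟩
  · show (D.G u)⁻¹ * D.ft u (fun y => f y u) x = 0
    rw [show (fun y => f y u) = fun _ => (0 : ℂ) from funext fun y => ha y u hu]
    simp [ft, LatticeChain.integ_zero]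
  · by_cases hva : D.v u = exp a
    · constructor
      · intro x c hc
        show (D.G u)⁻¹ * D.ft u _ (x + c) = _
        rw [D.ft_periodic (n := a - D.d - m) hva.le (h u hu).2 (by omega) x c hc]
        rfl
      · intro x hx
        show (D.G u)⁻¹ * D.ft u _ x = 0
        rw [D.ft_supported hva (h u hu).1 (h u hu).2 x hx, mul_zero]
    · have hz : ∀ x, D.opW f x u = 0 := fun x => by
        show (D.G u)⁻¹ * D.ft u (fun y => f y u) x = 0
        rw [show (fun y => f y u) = fun _ => (0 : ℂ) from funext fun y => ha y u hva]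
        simp [ft, LatticeChain.integ_zero]
      exact ⟨fun x c _ => by simp [hz], fun x _ => hz x⟩

/-- The representation preserves test functions. -/
lemma IsTest.wAct {f : M → F → ℂ} (hf : D.IsTest f) (g : GL (Fin 2) F) :
    D.IsTest (D.wAct χ g f) := by
  unfold LocQuad.wAct
  split_ifs with hc
  · exact (hf.opD (diag_ne_zero hc).1 (diag_ne_zero hc).2).opN _
  · exact (((hf.opN _).opW).opD (div_ne_zero (Matrix.GeneralLinearGroup.det_ne_zero g) hc) hc).opN _

/-! ### Whittaker functionals -/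

/-- A torus level: a deep enough group of units on which `θ` is trivial. -/
structure IsTorusLevel (D : LocQuad F M) (θ : M →* ℂ) (U : Subgroup Mˣ) : Prop where
  mem_O : ∀ h ∈ U, (h : M) ∈ D.O
  θ_eq_one : ∀ h ∈ U, θ (h : M) = 1
  deep : ∃ k : ℤ, ∀ h : Mˣ, (h : M) - 1 ∈ D.lat k → h ∈ U

/-- Invariance under a torus level. -/
def IsInv (D : LocQuad F M) (U : Subgroup Mˣ) (f : M → F → ℂ) : Prop :=
  ∀ h ∈ U, Agree (D.opH (h : M) f) f

/-- The summand of the Whittaker functional. -/
def whitTerm (D : LocQuad F M) (θ : M →* ℂ) (f : M → F → ℂ) (h : Mˣ) : ℂ :=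
  (θ (h : M))⁻¹ * ((D.absv (D.N (h : M)) : ℝ) : ℂ) * f (h : M) (D.N (h : M))⁻¹

/-- The Whittaker functional. -/
def whit (D : LocQuad F M) (θ : M →* ℂ) (U : Subgroup Mˣ) (f : M → F → ℂ) : ℂ :=
  ∑ᶠ c : Mˣ ⧸ U, D.whitTerm θ f c.out

variable {θ : M →* ℂ} {U : Subgroup Mˣ}

/-- Units have nonzero norm. -/
lemma N_unit_ne_zero (h : Mˣ) : D.N (h : M) ≠ 0 := fun e => h.ne_zero (D.N_eq_zero.1 e)

lemma v_N_of_mem (hU : D.IsTorusLevel θ U) {h : Mˣ} (hh : h ∈ U) : D.v (D.N (h : M)) = 1 := by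
  have h1 := D.N_mem _ (hU.mem_O h hh)
  have h2 := D.N_mem _ (hU.mem_O h⁻¹ (inv_mem hh))
  have h3 : D.v (D.N (h : M)) * D.v (D.N ((h⁻¹ : Mˣ) : M)) = 1 := by
    rw [← map_mul, ← D.N_mul, Units.mul_inv, D.N_one, map_one]
  refine le_antisymm h1 ?_
  calc (1 : ℤᵐ⁰) = _ := h3.symm
    _ ≤ D.v (D.N (h : M)) := mul_le_of_le_one_right zero_le h2

lemma whitTerm_mul (hU : D.IsTorusLevel θ U) {f : M → F → ℂ} (hf : D.IsInv U f) (h : Mˣ)
    {k : Mˣ} (hk : k ∈ U) : D.whitTerm θ f (h * k) = D.whitTerm θ f h := by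
  simp only [whitTerm, Units.val_mul, map_mul, D.N_mul, D.absv_mul, hU.θ_eq_one k hk, mul_one]
  rw [D.absv_exp (show D.v (D.N (k : M)) = exp 0 by rw [exp_zero]; exact v_N_of_mem hU hk)]
  have := hf k hk (h : M) (D.N (h : M))⁻¹ (inv_ne_zero (N_unit_ne_zero h))
  simp only [opH] at this
  rw [mul_comm (h : M) (k : M), mul_inv, ← div_eq_mul_inv, this]
  simp

/-- Whittaker terms depend only on classes. -/
lemma whitTerm_out (hU : D.IsTorusLevel θ U) {f : M → F → ℂ} (hf : D.IsInv U f) (h : Mˣ) :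
    D.whitTerm θ f (QuotientGroup.mk h : Mˣ ⧸ U).out = D.whitTerm θ f h := by
  obtain ⟨k, hk⟩ := QuotientGroup.mk_out_eq_mul U h
  rw [hk, whitTerm_mul hU hf h k.2]

/-- On a shell of one norm inside a lattice, classes modulo a deep enough level inject into the
cosets of a deep enough lattice. -/
lemma injOn_mk_out {k m n e : ℤ} (hk : ∀ h : Mˣ, (h : M) - 1 ∈ D.lat k → h ∈ U)
    (hn : k ≤ m + e + n) {S : Set (Mˣ ⧸ U)}
    (hS : ∀ c ∈ S, (c.out : M) ∈ D.lat m ∧ D.v (D.N (c.out : M)) = exp e) :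
    S.InjOn fun c : Mˣ ⧸ U => (QuotientAddGroup.mk (c.out : M) : M ⧸ D.lat n) := by
  intro c₁ hc₁ c₂ hc₂ he
  obtain ⟨h1m, h1v⟩ := hS c₁ hc₁
  have hd : (c₂.out : M) - (c₁.out : M) ∈ D.lat n := by
    have := QuotientAddGroup.eq.1 he
    rwa [neg_add_eq_sub] at this
  have hinv : ((c₁.out⁻¹ : Mˣ) : M) ∈ D.lat (m + e) := by
    rw [Units.val_inv_eq_inv_val]
    have e : (c₁.out : M)⁻¹ = (D.N (c₁.out : M))⁻¹ • D.σ (c₁.out : M) := by
      rw [Algebra.smul_def, map_inv₀, D.N_spec, mul_inv, mul_assoc,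
        inv_mul_cancel₀ ((map_ne_zero_iff _ D.σ.injective).2 c₁.out.ne_zero), mul_one]
    rw [e]
    exact D.smul_mem_lat (by rw [map_inv₀, h1v, ← WithZero.exp_neg]) (D.σ_mem_lat.2 h1m)
  rw [← QuotientGroup.out_eq' c₁, ← QuotientGroup.out_eq' c₂, QuotientGroup.eq]
  refine hk _ ?_
  have := D.mul_mem_lat hinv hd
  rw [mul_sub, Units.inv_mul] at this
  exact D.lat_mono hn this

/-- Finitely many Whittaker terms are nonzero. -/
lemma finite_support_whit (hU : D.IsTorusLevel θ U) {f : M → F → ℂ} (hf : D.IsTest f) :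
    (Function.support fun c : Mˣ ⧸ U => D.whitTerm θ f c.out).Finite := by
  classical
  obtain ⟨a, m, n, ha, h⟩ := hf
  obtain ⟨k, hk⟩ := hU.deep
  set n' := max m (k + a - m)
  have hn1 : m ≤ n' := le_max_left _ _
  have hn2 : k + a - m ≤ n' := le_max_right _ _
  have key : ∀ c ∈ Function.support fun c : Mˣ ⧸ U => D.whitTerm θ f c.out,
      (c.out : M) ∈ D.lat m ∧ D.v (D.N (c.out : M)) = exp (-a) := by
    intro c hc
    refine ⟨?_, ?_⟩
    · by_contra hm
      exact hc (by simp [whitTerm, show f (c.out : M) _ = 0 from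
        (h _ (inv_ne_zero (N_unit_ne_zero c.out))).2 _ hm])
    · by_contra hv
      refine hc ?_
      simp only [whitTerm]
      rw [ha _ _ (fun e => hv ?_), mul_zero]
      rw [map_inv₀] at e
      rw [← inv_inv (D.v (D.N (c.out : M))), e, ← WithZero.exp_neg]
  exact Set.Finite.of_finite_image ((D.chain.finite_image_mk hn1).subset
    (Set.image_subset_iff.2 fun c hc => ⟨_, (key c hc).1, rfl⟩)) (injOn_mk_out hk (by omega) key)

/-- Invariance respects agreement. -/
lemma IsInv.agree {f f' : M → F → ℂ} (hf : D.IsInv U f) (h : Agree f f') : D.IsInv U f' :=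
  fun k hk => ((h.symm.opH (k := (k : M)) k.ne_zero).trans (hf k hk)).trans h

/-- The representation preserves invariance. -/
lemma IsInv.wAct {f : M → F → ℂ} (hf : D.IsInv U f) (hn : D.Nice f)
    (g : GL (Fin 2) F) : D.IsInv U (D.wAct χ g f) := fun k hk =>
  (opH_wAct k.ne_zero g hn).trans ((hf k hk).wAct g)

/-- The functional respects agreement. -/
lemma whit_congr {f f' : M → F → ℂ} (h : Agree f f') : D.whit θ U f = D.whit θ U f' :=
  finsum_congr fun c => by
    simp only [whitTerm]; rw [h _ _ (inv_ne_zero (N_unit_ne_zero c.out))]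

/-- The functional is homogeneous. -/
lemma whit_smul (r : ℂ) (f : M → F → ℂ) :
    D.whit θ U (fun x u => r * f x u) = r * D.whit θ U f := by
  rw [whit, whit, mul_finsum]
  refine finsum_congr fun c => ?_
  simp only [whitTerm]; ring

/-- The functional under unipotent operators. -/
lemma whit_opN (b : F) (f : M → F → ℂ) :
    D.whit θ U (D.opN b f) = D.ψ b * D.whit θ U f := by
  rw [← whit_smul]
  refine finsum_congr fun c => ?_
  simp only [whitTerm, opN]
  rw [mul_assoc b, inv_mul_cancel₀ (N_unit_ne_zero c.out), mul_one]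

/-- The functional under the torus. -/
lemma whit_opH (hU : D.IsTorusLevel θ U) {f : M → F → ℂ} (hf : D.IsInv U f) (k : Mˣ) :
    D.whit θ U (D.opH (k : M) f) =
      θ (k : M) * ((D.absv (D.N (k : M)) : ℝ) : ℂ)⁻¹ * D.whit θ U f := by
  rw [whit, whit, mul_finsum]
  refine finsum_eq_of_bijective (fun c => (QuotientGroup.mk k : Mˣ ⧸ U) * c)
    (Equiv.mulLeft (QuotientGroup.mk k : Mˣ ⧸ U)).bijective fun c => ?_
  have e : (QuotientGroup.mk k : Mˣ ⧸ U) * c = QuotientGroup.mk (k * c.out) := by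
    rw [QuotientGroup.mk_mul, QuotientGroup.out_eq']
  rw [e, whitTerm_out hU hf]
  simp only [whitTerm, opH, Units.val_mul, map_mul, D.N_mul, D.absv_mul]
  have hθ : θ (k : M) ≠ 0 := by
    intro h0
    have h1 : θ ((k : M) * ((k⁻¹ : Mˣ) : M)) = 1 := by rw [Units.mul_inv, map_one]
    rw [map_mul, h0, zero_mul] at h1
    exact zero_ne_one h1
  have hA : ((D.absv (D.N (k : M)) : ℝ) : ℂ) ≠ 0 :=
    Complex.ofReal_ne_zero.2 (D.absv_pos (N_unit_ne_zero k)).ne'
  push_cast
  rw [show (D.N (c.out : M))⁻¹ / D.N (k : M) = (D.N (k : M) * D.N (c.out : M))⁻¹ by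
    rw [mul_inv, div_eq_mul_inv, mul_comm]]
  field_simp

/-- The functional under scalars. -/
lemma whit_opD_scalar (hU : D.IsTorusLevel θ U) {f : M → F → ℂ} (hf : D.IsInv U f) {z : F}
    (hz : z ≠ 0) :
    D.whit θ U (D.opD χ z z f) = χ z / θ (algebraMap F M z) * D.whit θ U f := by
  have hz' : algebraMap F M z ≠ 0 := (map_ne_zero_iff _ (algebraMap F M).injective).2 hz
  rw [opD_scalar hz, whit_smul,
    show algebraMap F M z⁻¹ = (((Units.mk0 _ hz')⁻¹ : Mˣ) : M) by
      rw [Units.val_inv_eq_inv_val, map_inv₀, Units.val_mk0],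
    whit_opH hU hf]
  have hθ : θ (((Units.mk0 _ hz')⁻¹ : Mˣ) : M) = (θ (algebraMap F M z))⁻¹ := by
    refine eq_inv_of_mul_eq_one_left ?_
    rw [← map_mul, Units.val_inv_eq_inv_val, Units.val_mk0, inv_mul_cancel₀ hz', map_one]
  rw [hθ, Units.val_inv_eq_inv_val, Units.val_mk0, N_inv, D.N_algebraMap, D.absv_inv]
  rw [pow_two z, D.absv_mul, Complex.ofReal_inv, inv_inv]
  have := Complex.ofReal_ne_zero.2 (D.absv_pos hz).ne'
  push_cast
  field_simp

end LocQuad

end FermatAgent.LT.Theta
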