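import Mathlib

/-!
# Scaling of the measure of the plane
-/

set_option autoImplicit false

noncomputable section

open MeasureTheory
open scoped ENNReal

namespace FermatAgent.LT.Theta

/-- Scaling the measure of the plane. -/
lemma map_mul_left_volume {a : ℂ} (ha : a ≠ 0) :
    Measure.map (fun x : ℂ => a * x) volume = ENNReal.ofReal ((‖a‖ ^ 2)⁻¹) • volume := by
  have hdet : LinearMap.det (LinearMap.mulLeft ℝ a) = Complex.normSq a := by
    rw [← Algebra.norm_complex_apply, Algebra.norm_apply]
    rfl
  have h := Measure.map_linearMap_addHaar_eq_smul_addHaar (μ := (volume : Measure ℂ))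
    (f := LinearMap.mulLeft ℝ a) (by rw [hdet]; simpa using ha)
  rw [hdet, Complex.normSq_eq_norm_sq, abs_of_nonneg (inv_nonneg.2 (sq_nonneg _))] at h
  exact h

end FermatAgent.LT.Theta
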